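import Fermat.Agent.S14.ZetaBound

/-!
# S14 piece D4: primes modulo which `η` is a `p`-th power have upper density `≤ 1/p`

Paper proof.  `X^p - η` is irreducible over `K` (`X_pow_sub_C_irreducible_of_prime`), let
`K₁ = AdjoinRoot (X^p - C η)` (a number field, `[K₁:K] = p`), `θ` the root, `θ ∈ 𝓞 K₁`.
Let `v` be a prime of `K`, `p ∉ v`, `y^p ≡ η mod v`, `η ∉ v`.  `ζ mod v` has order `p` in `(𝓞 K/v)ˣ`
(`p ∉ v`: `∏_{0<j<p} (1 - ζ^j) = p`), so `y ζ^i`, `i < p`, are `p` distinct roots of `X^p - η` mod `v`.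
For each `i` the ring hom `(𝓞 K)[θ] → 𝓞 K / v`, `θ ↦ y ζ^i` has a maximal kernel `𝔪_i`; lying over
gives a prime `P_i` of `𝓞 K₁` above `𝔪_i`; `θ - y ζ^i ∈ P_i`, so the `P_i` are distinct
(`y (ζ^i - ζ^j) ∉ v`).  `∑_{P | v} e f = p` (`Ideal.sum_ramification_inertia`) forces
`e = f = 1`, so `N P_i = N v`.  (If `η ∈ v` just throw `v` away: finitely many primes; they are
harmless: each contributes `≤ 1`.)  Hence
`p * primeSum_K(S) ≤ primeSum_{K₁}(univ) + const ≤ log (zetaR K₁ s) + const ≤ log (C/(s-1)) + const`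
(`exp_primeSum_le_zetaR`, `eventually_zetaR_bounds` for `K₁`).
-/

set_option autoImplicit false

namespace Fermat.Agent.S14

open NumberField IsDedekindDomain Filter Topology

namespace DK

open Polynomial

variable {p : ℕ} {K L : Type*} [Field K] [NumberField K] [Field L] [NumberField L] [Algebra K L]

theorem dvd_of_aeval_eq_zero (hp : p ≠ 0) (η : 𝓞 K) (θ : 𝓞 L)
    (hirr : Irreducible (X ^ p - C (η : K) : K[X]))
    (hθ : θ ^ p = algebraMap (𝓞 K) (𝓞 L) η) (g : (𝓞 K)[X]) (hg : aeval θ g = 0) :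
    (X ^ p - C η : (𝓞 K)[X]) ∣ g := by
  have hmon : (X ^ p - C η : (𝓞 K)[X]).Monic := monic_X_pow_sub_C η hp
  have hmonK : (X ^ p - C (η : K) : K[X]).Monic := monic_X_pow_sub_C _ hp
  have hmap : (X ^ p - C η : (𝓞 K)[X]).map (algebraMap (𝓞 K) K) = X ^ p - C (η : K) := by
    simp
  rw [← Polynomial.map_dvd_map (algebraMap (𝓞 K) K) (RingOfIntegers.coe_injective) hmon, hmap]
  have h1 : aeval (θ : L) (X ^ p - C (η : K) : K[X]) = 0 := by
    have := congrArg (algebraMap (𝓞 L) L) hθ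
    simp only [map_pow] at this
    simp only [map_sub, map_pow, aeval_X, aeval_C]
    rw [this, sub_eq_zero, ← IsScalarTower.algebraMap_apply, IsScalarTower.algebraMap_apply (𝓞 K) K L]
  rw [minpoly.eq_of_irreducible_of_monic hirr h1 hmonK]
  apply minpoly.dvd
  rw [aeval_map_algebraMap]
  have := congrArg (algebraMap (𝓞 L) L) hg
  rw [map_zero, ← aeval_algebraMap_apply] at this
  exact this

theorem exists_prime (hp : p ≠ 0) (η : 𝓞 K) (θ : 𝓞 L)
    (hirr : Irreducible (X ^ p - C (η : K) : K[X]))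
    (hθ : θ ^ p = algebraMap (𝓞 K) (𝓞 L) η)
    (v : Ideal (𝓞 K)) [v.IsPrime] (c : 𝓞 K) (hc : c ^ p - η ∈ v) :
    ∃ P : Ideal (𝓞 L), P.IsPrime ∧ P.LiesOver v ∧ θ - algebraMap (𝓞 K) (𝓞 L) c ∈ P := by
  let f : (𝓞 K)[X] →ₐ[𝓞 K] 𝓞 L := aeval θ
  letI : Algebra (𝓞 K)[X] (𝓞 L) := f.toRingHom.toAlgebra
  have hf : ∀ g, algebraMap (𝓞 K)[X] (𝓞 L) g = aeval θ g := fun g => rfl
  haveI : IsScalarTower (𝓞 K) (𝓞 K)[X] (𝓞 L) := IsScalarTower.of_algebraMap_eq (fun a => by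
    rw [hf, Polynomial.algebraMap_apply, aeval_C]; rfl)
  haveI : Algebra.IsIntegral (𝓞 K)[X] (𝓞 L) :=
    ⟨fun b => (Algebra.IsIntegral.isIntegral (R := 𝓞 K) b).tower_top⟩
  let φ : (𝓞 K)[X] →+* (𝓞 K ⧸ v) := (Ideal.Quotient.mk v).comp (evalRingHom c)
  have hφ : ∀ g, φ g = Ideal.Quotient.mk v (eval c g) := fun g => rfl
  haveI : (RingHom.ker φ).IsPrime := RingHom.ker_isPrime φ
  obtain ⟨Q, -, hQ, hQc⟩ := Ideal.exists_ideal_over_prime_of_isIntegral (RingHom.ker φ)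
    (⊥ : Ideal (𝓞 L)) (by
      intro g hg
      rw [Ideal.mem_comap, Ideal.mem_bot, hf] at hg
      obtain ⟨h, rfl⟩ := dvd_of_aeval_eq_zero hp η θ hirr hθ g hg
      rw [RingHom.mem_ker, hφ, eval_mul, map_mul]
      have : Ideal.Quotient.mk v (eval c (X ^ p - C η)) = 0 := by
        rw [Ideal.Quotient.eq_zero_iff_mem]
        simpa using hc
      rw [this, zero_mul])
  have hmem : ∀ g, aeval θ g ∈ Q ↔ Ideal.Quotient.mk v (eval c g) = 0 := by
    intro g
    rw [← hf, ← Ideal.mem_comap, hQc, RingHom.mem_ker, hφ]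
  refine ⟨Q, hQ, ⟨?_⟩, ?_⟩
  · ext a
    rw [Ideal.under_def, Ideal.mem_comap]
    have := hmem (C a)
    rw [aeval_C, eval_C, Ideal.Quotient.eq_zero_iff_mem] at this
    exact this.symm
  · have := hmem (X - C c)
    rw [map_sub, aeval_X, aeval_C] at this
    rw [this]
    simp

theorem isPrimitiveRoot_mk (hp : p.Prime) (z : 𝓞 K) (hz : IsPrimitiveRoot z p)
    (v : Ideal (𝓞 K)) [v.IsPrime] (hpv : (p : 𝓞 K) ∉ v) :
    IsPrimitiveRoot (Ideal.Quotient.mk v z) p := by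
  haveI : Fact p.Prime := ⟨hp⟩
  have h1 : (Ideal.Quotient.mk v z) ^ p = 1 := by
    rw [← map_pow, hz.pow_eq_one, map_one]
  have h2 : Ideal.Quotient.mk v z ≠ 1 := by
    intro h
    apply hpv
    have h3 := congrArg (Ideal.Quotient.mk v) (hz.geom_sum_eq_zero hp.one_lt)
    rw [map_sum, map_zero] at h3
    simp only [map_pow, h, one_pow, Finset.sum_const, Finset.card_range, nsmul_eq_mul, mul_one] at h3
    rw [← map_natCast (Ideal.Quotient.mk v), Ideal.Quotient.eq_zero_iff_mem] at h3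
    exact h3
  have := IsPrimitiveRoot.orderOf (Ideal.Quotient.mk v z)
  rwa [orderOf_eq_prime h1 h2] at this

theorem main_alg (hp : p.Prime) (z : 𝓞 K) (hz : IsPrimitiveRoot z p) (η : 𝓞 K) (θ : 𝓞 L)
    (hirr : Irreducible (X ^ p - C (η : K) : K[X]))
    (hθ : θ ^ p = algebraMap (𝓞 K) (𝓞 L) η) (hdeg : Module.finrank K L = p)
    (v : Ideal (𝓞 K)) [v.IsPrime] (hpv : (p : 𝓞 K) ∉ v) (hηv : η ∉ v)
    (y : 𝓞 K) (hy : y ^ p - η ∈ v) :
    ∃ P : Fin p → Ideal (𝓞 L), Function.Injective P ∧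
      ∀ i, (P i).IsPrime ∧ (P i).LiesOver v ∧ Ideal.absNorm (P i) = Ideal.absNorm v := by
  have hc : ∀ i : Fin p, (y * z ^ (i : ℕ)) ^ p - η ∈ v := by
    intro i
    rw [mul_pow, ← pow_mul, mul_comm (i : ℕ) p, pow_mul, hz.pow_eq_one, one_pow, mul_one]
    exact hy
  choose P hP1 hP2 hP3 using fun i => exists_prime hp.ne_zero η θ hirr hθ v _ (hc i)
  have hzv := isPrimitiveRoot_mk hp z hz v hpv
  have hyv : Ideal.Quotient.mk v y ≠ 0 := by
    intro h
    rw [Ideal.Quotient.eq_zero_iff_mem] at h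
    apply hηv
    have := v.sub_mem (v.pow_mem_of_mem h p hp.pos) hy
    simpa using this
  have hinj : Function.Injective P := by
    intro i j hij
    have h1 := (P i).sub_mem (hP3 i) (hij ▸ hP3 j)
    have h2 : θ - algebraMap (𝓞 K) (𝓞 L) (y * z ^ (i : ℕ)) - (θ - algebraMap (𝓞 K) (𝓞 L) (y * z ^ (j : ℕ)))
        = algebraMap (𝓞 K) (𝓞 L) (y * z ^ (j : ℕ) - y * z ^ (i : ℕ)) := by
      rw [map_sub]; ring
    rw [h2] at h1
    haveI := hP2 i
    rw [← Ideal.mem_of_liesOver (P i) v, ← Ideal.Quotient.eq_zero_iff_mem, map_sub, map_mul, map_mul,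
      ← mul_sub, mul_eq_zero, map_pow, map_pow] at h1
    rcases h1 with h1 | h1
    · exact absurd h1 hyv
    · exact Fin.ext (hzv.pow_inj i.2 j.2 (sub_eq_zero.mp h1).symm)
  refine ⟨P, hinj, fun i => ⟨hP1 i, hP2 i, ?_⟩⟩
  haveI : Fintype (v.primesOver (𝓞 L)) := (Algebra.QuasiFinite.finite_primesOver v).fintype
  have hsum := Ideal.sum_ramification_inertia_eq_finrank v (𝓞 L)
  rw [← IsFractionRing.finrank_eq (𝓞 K) K (𝓞 L) L, hdeg] at hsum
  let Q : Fin p → v.primesOver (𝓞 L) := fun i => ⟨P i, hP1 i, hP2 i⟩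
  have hQ : Function.Injective Q := fun i j h => hinj (congrArg Subtype.val h)
  have h1 : ∑ i : Fin p, (P i).ramificationIdx (𝓞 K) * (P i).inertiaDeg (𝓞 K) ≤ p := by
    have : ∑ i : Fin p, (P i).ramificationIdx (𝓞 K) * (P i).inertiaDeg (𝓞 K)
        = ∑ q ∈ Finset.univ.image Q, q.1.ramificationIdx (𝓞 K) * q.1.inertiaDeg (𝓞 K) := by
      rw [Finset.sum_image (fun a _ b _ h => hQ h)]
    rw [this]
    exact (Finset.sum_le_sum_of_subset (Finset.subset_univ _)).trans hsum.le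
  have h2 : ∀ i : Fin p, 1 ≤ (P i).ramificationIdx (𝓞 K) * (P i).inertiaDeg (𝓞 K) := by
    intro i
    haveI := hP1 i
    exact Nat.mul_pos (Ideal.ramificationIdx_pos _ _) (Ideal.inertiaDeg_pos _ _)
  have h3 : (P i).ramificationIdx (𝓞 K) * (P i).inertiaDeg (𝓞 K) = 1 := by
    by_contra hne
    have h4 : 1 < (P i).ramificationIdx (𝓞 K) * (P i).inertiaDeg (𝓞 K) :=
      lt_of_le_of_ne (h2 i) (Ne.symm hne)
    have h5 : ∑ _i : Fin p, 1 < ∑ i : Fin p, (P i).ramificationIdx (𝓞 K) * (P i).inertiaDeg (𝓞 K) :=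
      Finset.sum_lt_sum (fun i _ => h2 i) ⟨i, Finset.mem_univ _, h4⟩
    simp at h5
    omega
  haveI := hP1 i
  haveI := hP2 i
  have h6 := Ideal.absNorm_pow_inertiaDeg v (P i)
  rw [Nat.eq_one_of_mul_eq_one_left h3, pow_one] at h6
  exact h6.symm

open NumberField.Set in
theorem stepA (hp : p.Prime) (z : 𝓞 K) (hz : IsPrimitiveRoot z p) (η : 𝓞 K) (θ : 𝓞 L)
    (hirr : Irreducible (X ^ p - C (η : K) : K[X]))
    (hθ : θ ^ p = algebraMap (𝓞 K) (𝓞 L) η) (hdeg : Module.finrank K L = p) {s : ℝ} (hs : 1 < s) :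
    (p : ℝ) * primeIdealZetaSum {v : HeightOneSpectrum (𝓞 K) | ((p : 𝓞 K) ∉ v.asIdeal ∧
      IsResidue p η v.asIdeal) ∧ η ∉ v.asIdeal} s
      ≤ primeIdealZetaSum (Set.univ : Set (HeightOneSpectrum (𝓞 L))) s := by
  set S1 : Set (HeightOneSpectrum (𝓞 K)) := {v : HeightOneSpectrum (𝓞 K) | ((p : 𝓞 K) ∉ v.asIdeal ∧
      IsResidue p η v.asIdeal) ∧ η ∉ v.asIdeal} with hS1
  have key : ∀ v : S1, ∃ P : Fin p → Ideal (𝓞 L), Function.Injective P ∧
      ∀ i, (P i).IsPrime ∧ (P i).LiesOver v.1.asIdeal ∧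
        Ideal.absNorm (P i) = Ideal.absNorm v.1.asIdeal := by
    intro v
    obtain ⟨⟨h1, y, hy⟩, h2⟩ := v.2
    exact main_alg hp z hz η θ hirr hθ hdeg v.1.asIdeal h1 h2 y hy
  choose P hPinj hP using key
  have hne : ∀ (v : S1) (i : Fin p), P v i ≠ ⊥ := by
    intro v i h
    have h1 := (hP v i).2.2
    rw [h, Ideal.absNorm_bot] at h1
    exact v.1.ne_bot (Ideal.absNorm_eq_zero_iff.mp h1.symm)
  let e : S1 × Fin p → HeightOneSpectrum (𝓞 L) := fun x => ⟨P x.1 x.2, (hP x.1 x.2).1, hne x.1 x.2⟩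
  have he : Function.Injective e := by
    rintro ⟨v, i⟩ ⟨w, j⟩ h
    have h1 : P v i = P w j := congrArg HeightOneSpectrum.asIdeal h
    have h2 : v = w := by
      apply Subtype.ext
      apply HeightOneSpectrum.ext
      rw [(hP v i).2.1.over, (hP w j).2.1.over, h1]
    subst h2
    rw [hPinj v h1]
  have hsumL := summable_prime_rpow L hs
  have h1 := tsum_comp_le_tsum_of_inj hsumL (fun w => by positivity) he
  have h2 : ((fun w : HeightOneSpectrum (𝓞 L) => (Ideal.absNorm w.asIdeal : ℝ) ^ (-s)) ∘ e)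
      = fun x : S1 × Fin p => (Ideal.absNorm x.1.1.asIdeal : ℝ) ^ (-s) := by
    funext x
    simp only [Function.comp, e]
    rw [(hP x.1 x.2).2.2]
  have h3 : Summable (fun x : S1 × Fin p => (Ideal.absNorm x.1.1.asIdeal : ℝ) ^ (-s)) := by
    rw [← h2]
    exact hsumL.comp_injective he
  rw [h2, h3.tsum_prod] at h1
  simp only [tsum_fintype, Finset.sum_const, Finset.card_univ, Fintype.card_fin, nsmul_eq_mul] at h1
  rw [tsum_mul_left] at h1
  rw [primeIdealZetaSum_def, primeIdealZetaSum_def,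
    tsum_univ (fun w : HeightOneSpectrum (𝓞 L) => (Ideal.absNorm w.asIdeal : ℝ) ^ (-s))]
  exact h1

open NumberField.Set in
theorem stepB (η : 𝓞 K) (hη : η ≠ 0) (S : Set (HeightOneSpectrum (𝓞 K))) :
    ∃ C : ℝ, ∀ s : ℝ, 1 < s →
      primeIdealZetaSum S s ≤ primeIdealZetaSum {v | v ∈ S ∧ η ∉ v.asIdeal} s + C := by
  set S2 : Set (HeightOneSpectrum (𝓞 K)) := {v | η ∈ v.asIdeal} with hS2
  have hfin : S2.Finite := by
    have h0 : Ideal.span {η} ≠ (0 : Ideal (𝓞 K)) := by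
      rw [Ne, Ideal.zero_eq_bot, Ideal.span_singleton_eq_bot]
      exact hη
    apply (Ideal.finite_factors h0).subset
    intro v hv
    rw [Set.mem_ofPred_eq, Ideal.dvd_span_singleton]
    exact hv
  refine ⟨S2.ncard, fun s hs => ?_⟩
  have hsum := summable_prime_rpow K hs
  set f : HeightOneSpectrum (𝓞 K) → ℝ := fun v => (Ideal.absNorm v.asIdeal : ℝ) ^ (-s) with hf
  have hf0 : ∀ v, 0 ≤ f v := fun v => by positivity
  refine le_trans ?_ (add_le_add_right (primeIdealZetaSum_le_card_of_finite hfin (by linarith)) _)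
  rw [primeIdealZetaSum_def, primeIdealZetaSum_def, primeIdealZetaSum_def]
  rw [tsum_subtype S f, tsum_subtype {v | v ∈ S ∧ η ∉ v.asIdeal} f, tsum_subtype S2 f,
    ← (hsum.indicator _).tsum_add (hsum.indicator _)]
  apply (hsum.indicator _).tsum_le_tsum _ ((hsum.indicator _).add (hsum.indicator _))
  intro v
  by_cases h1 : v ∈ S
  · by_cases h2 : η ∈ v.asIdeal
    · rw [Set.indicator_of_mem h1, Set.indicator_of_mem (show v ∈ S2 from h2)]
      have := Set.indicator_nonneg (s := {v | v ∈ S ∧ η ∉ v.asIdeal}) (fun v _ => hf0 v) v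
      linarith
    · rw [Set.indicator_of_mem h1,
        Set.indicator_of_mem (show v ∈ {v | v ∈ S ∧ η ∉ v.asIdeal} from ⟨h1, h2⟩)]
      have := Set.indicator_nonneg (s := S2) (fun v _ => hf0 v) v
      linarith
  · rw [Set.indicator_of_notMem h1]
    have h3 := Set.indicator_nonneg (s := {v | v ∈ S ∧ η ∉ v.asIdeal}) (fun v _ => hf0 v) v
    have h4 := Set.indicator_nonneg (s := S2) (fun v _ => hf0 v) v
    linarith

open NumberField.Set in
theorem stepC (L : Type*) [Field L] [NumberField L] :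
    ∃ C : ℝ, ∀ᶠ s in 𝓝[>] (1 : ℝ),
      primeIdealZetaSum (Set.univ : Set (HeightOneSpectrum (𝓞 L))) s ≤ Real.log (1 / (s - 1)) + C := by
  obtain ⟨c, C, hc, hC, h⟩ := eventually_zetaR_bounds L
  refine ⟨Real.log C, ?_⟩
  filter_upwards [h, eventually_mem_nhdsWithin] with s hs hs1
  have hs1' : (1 : ℝ) < s := hs1
  have h1 := exp_primeSum_le_zetaR L Set.univ hs1'
  have h2 : Real.exp (primeIdealZetaSum (Set.univ : Set (HeightOneSpectrum (𝓞 L))) s) ≤ C / (s - 1) :=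
    h1.trans hs.2
  have h3 : 0 < C / (s - 1) := div_pos hC (by linarith)
  rw [← Real.le_log_iff_exp_le h3] at h2
  have h4 : C / (s - 1) = 1 / (s - 1) * C := by ring
  rw [h4, Real.log_mul (by have : 0 < s - 1 := by linarith
                           positivity) hC.ne'] at h2
  exact h2

open NumberField.Set in
theorem dens_of_ext (hp : p.Prime) (z : 𝓞 K) (hz : IsPrimitiveRoot z p) (η : 𝓞 K) (hη0 : η ≠ 0)
    (θ : 𝓞 L) (hirr : Irreducible (X ^ p - C (η : K) : K[X]))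
    (hθ : θ ^ p = algebraMap (𝓞 K) (𝓞 L) η) (hdeg : Module.finrank K L = p) :
    ∃ C : ℝ, ∀ᶠ s in 𝓝[>] (1 : ℝ),
      (p : ℝ) * primeIdealZetaSum
        {v : HeightOneSpectrum (𝓞 K) | (p : 𝓞 K) ∉ v.asIdeal ∧ IsResidue p η v.asIdeal} s
        ≤ Real.log (1 / (s - 1)) + C := by
  obtain ⟨C1, h1⟩ := stepB η hη0
    {v : HeightOneSpectrum (𝓞 K) | (p : 𝓞 K) ∉ v.asIdeal ∧ IsResidue p η v.asIdeal}
  obtain ⟨C2, h2⟩ := stepC L
  refine ⟨C2 + p * C1, ?_⟩
  filter_upwards [h2, eventually_mem_nhdsWithin] with s hs hs1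
  have hs1' : (1 : ℝ) < s := hs1
  have h3 := stepA hp z hz η θ hirr hθ hdeg hs1'
  have h4 := h1 s hs1'
  have h5 : (0 : ℝ) ≤ p := by positivity
  have h6 := mul_le_mul_of_nonneg_left h4 h5
  rw [mul_add] at h6
  refine h6.trans ?_
  have h7 : (p : ℝ) * primeIdealZetaSum {v : HeightOneSpectrum (𝓞 K) |
      v ∈ {v : HeightOneSpectrum (𝓞 K) | (p : 𝓞 K) ∉ v.asIdeal ∧ IsResidue p η v.asIdeal} ∧
        η ∉ v.asIdeal} s ≤ Real.log (1 / (s - 1)) + C2 := h3.trans hs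
  linarith

end DK

open Polynomial in
theorem dens_kummer {p : ℕ} (hp : p.Prime) {K : Type*} [Field K] [NumberField K]
    {ζ : K} (hζ : IsPrimitiveRoot ζ p) (η : 𝓞 K) (hη : ¬ ∃ x : K, x ^ p = (η : K)) :
    ∃ C : ℝ, ∀ᶠ s in 𝓝[>] (1 : ℝ),
      (p : ℝ) * NumberField.Set.primeIdealZetaSum
        {v : HeightOneSpectrum (𝓞 K) | (p : 𝓞 K) ∉ v.asIdeal ∧ IsResidue p η v.asIdeal} s
        ≤ Real.log (1 / (s - 1)) + C := by
  have hirr : Irreducible (X ^ p - C (η : K) : K[X]) :=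
    X_pow_sub_C_irreducible_of_prime hp (fun b hb => hη ⟨b, hb⟩)
  haveI : Fact (Irreducible (X ^ p - C (η : K) : K[X])) := ⟨hirr⟩
  haveI : NeZero p := ⟨hp.ne_zero⟩
  let L := AdjoinRoot (X ^ p - C (η : K) : K[X])
  haveI : Module.Finite K L := (AdjoinRoot.powerBasis hirr.ne_zero).finite
  haveI : NumberField L := NumberField.of_module_finite K L
  have hroot : (AdjoinRoot.root (X ^ p - C (η : K) : K[X]) : L) ^ p = algebraMap K L η := by
    have := AdjoinRoot.eval₂_root (X ^ p - C (η : K) : K[X])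
    simp only [eval₂_sub, eval₂_pow, eval₂_X, eval₂_C] at this
    exact sub_eq_zero.mp this
  have hint : IsIntegral ℤ (AdjoinRoot.root (X ^ p - C (η : K) : K[X]) : L) := by
    apply IsIntegral.of_pow hp.pos
    rw [hroot]
    exact (RingOfIntegers.isIntegral_coe η).algebraMap
  let θ : 𝓞 L := ⟨AdjoinRoot.root (X ^ p - C (η : K) : K[X]), hint⟩
  have hθ : θ ^ p = algebraMap (𝓞 K) (𝓞 L) η := by
    apply RingOfIntegers.coe_injective
    rw [map_pow]
    exact hroot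
  have hdeg : Module.finrank K L = p := by
    rw [(AdjoinRoot.powerBasis hirr.ne_zero).finrank, AdjoinRoot.powerBasis_dim,
      natDegree_X_pow_sub_C]
  have hη0 : η ≠ 0 := by
    rintro rfl
    exact hη ⟨0, by simp [hp.ne_zero]⟩
  exact DK.dens_of_ext hp hζ.toInteger hζ.toInteger_isPrimitiveRoot η hη0 θ hirr hθ hdeg

end Fermat.Agent.S14
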