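import Mathlib

/-!
# S14 (Ext vanishing): common definitions

`K` is a number field containing a primitive `p`-th root of unity `ζ` (in the algebraic part
`K = ℚ(ζ_p)`).  `Δ = K ≃ₐ[ℚ] K`, `σ ζ = ζ ^ mE σ`, `nE σ ≡ (mE σ)⁻² mod p`,
`e2 x = ∏_σ σ(x) ^ nE σ` (projector on the `ω²`-eigenspace modulo `p`-th powers),
`uK = ζ^((p-1)/2) (1+ζ)`, `eta = e2 uK`.
-/

set_option autoImplicit false

namespace Fermat.Agent.S14

open NumberField IsDedekindDomain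
open scoped Pointwise nonZeroDivisors

noncomputable section

variable {p : ℕ} [NeZero p] {K : Type*} [Field K] [NumberField K]

/-- the exponent `m_σ ∈ [0,p)` with `σ ζ = ζ ^ m_σ`. -/
def mE {ζ : K} (hζ : IsPrimitiveRoot ζ p) (σ : K ≃ₐ[ℚ] K) : ℕ :=
  ((hζ.autToPow ℚ σ : (ZMod p)ˣ) : ZMod p).val

/-- a natural number `≡ m_σ⁻² mod p`. -/
def nE {ζ : K} (hζ : IsPrimitiveRoot ζ p) (σ : K ≃ₐ[ℚ] K) : ℕ :=
  ((((hζ.autToPow ℚ σ)⁻¹ ^ 2 : (ZMod p)ˣ)) : ZMod p).val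

/-- the `ω²`-projector on `K` (multiplicative, modulo `p`-th powers). -/
def e2 {ζ : K} (hζ : IsPrimitiveRoot ζ p) (x : K) : K :=
  ∏ σ : K ≃ₐ[ℚ] K, (σ x) ^ nE hζ σ

/-- the `ω²`-projector on `𝓞 K`. -/
def e2O {ζ : K} (hζ : IsPrimitiveRoot ζ p) (x : 𝓞 K) : 𝓞 K :=
  ∏ σ : K ≃ₐ[ℚ] K, (σ • x) ^ nE hζ σ

/-- the `ω²`-projector on ideals. -/
def e2I {ζ : K} (hζ : IsPrimitiveRoot ζ p) (I : Ideal (𝓞 K)) : Ideal (𝓞 K) :=
  ∏ σ : K ≃ₐ[ℚ] K, (σ • I) ^ nE hζ σ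

/-- the real cyclotomic unit `ζ^((p-1)/2) (1+ζ)` as an algebraic integer. -/
def uO {ζ : K} (hζ : IsPrimitiveRoot ζ p) : 𝓞 K :=
  hζ.toInteger ^ ((p - 1) / 2) * (1 + hζ.toInteger)

/-- `η = e2 (u)`: the cyclotomic unit in the `ω²`-eigenspace. -/
def etaO {ζ : K} (hζ : IsPrimitiveRoot ζ p) : 𝓞 K := e2O hζ (uO hζ)

/-- `α` lies in the `ω²`-eigenspace of `K^*/K^{*p}`. -/
def Eigen2 {ζ : K} (hζ : IsPrimitiveRoot ζ p) (α : K) : Prop :=
  ∀ σ : K ≃ₐ[ℚ] K, ∃ γ : K, σ α = α ^ (mE hζ σ ^ 2) * γ ^ p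

/-- `α / y^p ≡ 1 mod (ζ-1)^3` for some `y ∈ K^*` (in the localisation at `(ζ-1)`). -/
def Primary {ζ : K} (hζ : IsPrimitiveRoot ζ p) (α : K) : Prop :=
  ∃ (y : K) (a b : 𝓞 K), y ≠ 0 ∧ ¬ (hζ.toInteger - 1 ∣ b) ∧
    (α - y ^ p) * (b : K) = y ^ p * (ζ - 1) ^ 3 * (a : K)

/-- `(α)` is the `p`-th power of a fractional ideal. -/
def Singular (p : ℕ) (α : K) : Prop :=
  ∃ I : FractionalIdeal (𝓞 K)⁰ K, FractionalIdeal.spanSingleton (𝓞 K)⁰ α = I ^ p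

/-- `x` is a `p`-th power residue modulo the ideal `I`. -/
def IsResidue (p : ℕ) (x : 𝓞 K) (I : Ideal (𝓞 K)) : Prop := ∃ y : 𝓞 K, y ^ p - x ∈ I

/-! ### analytic definitions -/

/-- `∑_I f(I) N(I)^{-s}` over all ideals (`f ⊥ = 0`). -/
def LSum (f : Ideal (𝓞 K) →*₀ ℂ) (s : ℝ) : ℂ :=
  ∑' I : Ideal (𝓞 K), f I * (((Ideal.absNorm I : ℝ) ^ (-s) : ℝ) : ℂ)

/-- the Dedekind zeta function at real `s`, as a sum over nonzero ideals. -/
def zetaR (K : Type*) [Field K] [NumberField K] (s : ℝ) : ℝ :=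
  ∑' I : (Ideal (𝓞 K))⁰, (Ideal.absNorm (I : Ideal (𝓞 K)) : ℝ) ^ (-s)

open Classical in
/-- a class group character as a multiplicative function on ideals. -/
def chiI (χ : ClassGroup (𝓞 K) →* ℂˣ) : Ideal (𝓞 K) →*₀ ℂ where
  toFun I := if h : I ∈ (Ideal (𝓞 K))⁰ then (χ (ClassGroup.mk0 ⟨I, h⟩) : ℂ) else 0
  map_zero' := by
    rw [dif_neg]
    intro h
    exact (mem_nonZeroDivisors_iff_ne_zero.mp h) rfl
  map_one' := by
    rw [dif_pos (one_mem _)]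
    have : (⟨1, one_mem _⟩ : (Ideal (𝓞 K))⁰) = 1 := rfl
    rw [this, map_one, map_one, Units.val_one]
  map_mul' I J := by
    by_cases hI : I ∈ (Ideal (𝓞 K))⁰
    · by_cases hJ : J ∈ (Ideal (𝓞 K))⁰
      · rw [dif_pos hI, dif_pos hJ, dif_pos (mul_mem hI hJ)]
        have : (⟨I * J, mul_mem hI hJ⟩ : (Ideal (𝓞 K))⁰) = ⟨I, hI⟩ * ⟨J, hJ⟩ := rfl
        rw [this, map_mul, map_mul, Units.val_mul]
      · rw [dif_neg hJ, mul_zero, dif_neg]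
        intro h
        apply hJ
        rw [mem_nonZeroDivisors_iff_ne_zero] at h ⊢
        exact right_ne_zero_of_mul h
    · rw [dif_neg hI, zero_mul, dif_neg]
      intro h
      apply hI
      rw [mem_nonZeroDivisors_iff_ne_zero] at h ⊢
      exact left_ne_zero_of_mul h

/-- the class of a prime ideal. -/
def clsOf (v : HeightOneSpectrum (𝓞 K)) : ClassGroup (𝓞 K) :=
  ClassGroup.mk0 ⟨v.asIdeal, mem_nonZeroDivisors_iff_ne_zero.mpr v.ne_bot⟩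

/-- the primes of degree one. -/
def degOne (K : Type*) [Field K] [NumberField K] : Set (HeightOneSpectrum (𝓞 K)) :=
  {v | (Ideal.absNorm v.asIdeal).Prime}

/-- the constant in the ideal counting theorem (Mathlib's limit). -/
def kappa (K : Type*) [Field K] [NumberField K] : ℝ :=
  (2 ^ InfinitePlace.nrRealPlaces K * (2 * Real.pi) ^ InfinitePlace.nrComplexPlaces K *
    Units.regulator K) / (Units.torsionOrder K * Real.sqrt |discr K|)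

end

end Fermat.Agent.S14
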