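import Fermat.Agent.S14.Euler

/-!
# S14 pieces ZB + D1: size of `zetaR F s` near `s = 1`, comparison with degree one primes

Paper proofs.
* `zetaR_eq_dedekindZeta`: group the ideals by norm (`tsum` over fibers, `LSeries` unfolds to
  `∑' n, a_n / n^s`).
* `eventually_zetaR_bounds`: Mathlib `NumberField.tendsto_sub_one_mul_dedekindZeta_nhdsGT`:
  `(s-1) ζ_F(s) → ρ > 0`; take `c = ρ/2`, `C = 2ρ`.
* `log_zetaR_le` (D1): by `tendsto_euler_zetaR`, `log ζ = ∑_v -log(1 - x_v)`, `x_v = N v^{-s} ≤ 1/2`,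
  `-log(1-x) ≤ x + x^2`.  `∑_v x_v^2 ≤ ∑_v N v^{-2}` and `∑_{v ∉ degOne} x_v ≤ ∑_{v ∉ degOne} N v^{-1}`
  are bounded independently of `s > 1`: `N v = q^f`, at most `[F:ℚ]` primes `v` above `q`, and `f ≥ 2`
  outside `degOne`, so both are `≤ [F:ℚ] ∑_q q^{-2}`.
-/

set_option autoImplicit false

namespace Fermat.Agent.S14

open NumberField IsDedekindDomain Filter Topology
open scoped nonZeroDivisors

variable (F : Type*) [Field F] [NumberField F]

theorem zb_zetaR_eq_tsum {s : ℝ} (hs : 0 < s) :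
    zetaR F s = ∑' I : Ideal (𝓞 F), (Ideal.absNorm I : ℝ) ^ (-s) := by
  unfold zetaR
  refine tsum_subtype_eq_of_support_subset (f := fun I : Ideal (𝓞 F) => (Ideal.absNorm I : ℝ) ^ (-s))
    (s := ((Ideal (𝓞 F))⁰ : Set (Ideal (𝓞 F)))) ?_
  intro I hI
  rw [Function.mem_support] at hI
  rw [SetLike.mem_coe, mem_nonZeroDivisors_iff_ne_zero]
  rintro rfl
  apply hI
  have : Ideal.absNorm (0 : Ideal (𝓞 F)) = 0 := by
    rw [Ideal.zero_eq_bot, Ideal.absNorm_bot]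
  rw [this, Nat.cast_zero, Real.zero_rpow (by linarith)]

theorem zb_tsum_eq_tsum_card {s : ℝ} (hs : 1 < s) :
    ∑' I : Ideal (𝓞 F), (Ideal.absNorm I : ℝ) ^ (-s) =
      ∑' n : ℕ, (Nat.card {I : Ideal (𝓞 F) // Ideal.absNorm I = n} : ℝ) * (n : ℝ) ^ (-s) := by
  have hsum := summable_absNorm_rpow F hs
  rw [← (Equiv.sigmaFiberEquiv (Ideal.absNorm : Ideal (𝓞 F) → ℕ)).tsum_eq]
  have hs2 : Summable (fun c : (y : ℕ) × {x : Ideal (𝓞 F) // Ideal.absNorm x = y} =>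
      (Ideal.absNorm ((Equiv.sigmaFiberEquiv (Ideal.absNorm : Ideal (𝓞 F) → ℕ)) c) : ℝ) ^ (-s)) :=
    (Equiv.sigmaFiberEquiv (Ideal.absNorm : Ideal (𝓞 F) → ℕ)).summable_iff.mpr hsum
  rw [hs2.tsum_sigma]
  refine tsum_congr fun n => ?_
  have : ∀ c : {I : Ideal (𝓞 F) // Ideal.absNorm I = n},
      (Ideal.absNorm ((Equiv.sigmaFiberEquiv (Ideal.absNorm : Ideal (𝓞 F) → ℕ)) ⟨n, c⟩) : ℝ) ^ (-s)
        = (n : ℝ) ^ (-s) := by
    intro c
    simp [Equiv.sigmaFiberEquiv, c.2]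
  simp_rw [this]
  rw [tsum_const, nsmul_eq_mul]

theorem zetaR_eq_dedekindZeta {s : ℝ} (hs : 1 < s) :
    ((zetaR F s : ℝ) : ℂ) = dedekindZeta F (s : ℂ) := by
  rw [zb_zetaR_eq_tsum F (by linarith), zb_tsum_eq_tsum_card F hs, dedekindZeta, LSeries,
    Complex.ofReal_tsum]
  refine tsum_congr fun n => ?_
  rw [LSeries.term_def]
  split_ifs with h
  · subst h
    simp [Real.zero_rpow (by linarith : -s ≠ 0)]
  · rw [Complex.ofReal_mul, Complex.ofReal_natCast, Real.rpow_neg (Nat.cast_nonneg n),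
      Complex.ofReal_inv, Complex.ofReal_cpow (Nat.cast_nonneg n), Complex.ofReal_natCast,
      div_eq_mul_inv]

theorem zb_tendsto :
    Tendsto (fun s : ℝ => (s - 1) * zetaR F s) (𝓝[>] 1) (𝓝 (dedekindZeta_residue F)) := by
  have h := tendsto_sub_one_mul_dedekindZeta_nhdsGT F
  have h2 := (Complex.continuous_re.tendsto _).comp h
  rw [Complex.ofReal_re] at h2
  refine h2.congr' ?_
  filter_upwards [self_mem_nhdsWithin] with s hs
  have hs' : (1 : ℝ) < s := hs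
  rw [Function.comp_apply, ← zetaR_eq_dedekindZeta F hs']
  rw [← Complex.ofReal_one, ← Complex.ofReal_sub, ← Complex.ofReal_mul, Complex.ofReal_re]

theorem eventually_zetaR_bounds :
    ∃ c C : ℝ, 0 < c ∧ 0 < C ∧
      ∀ᶠ s in 𝓝[>] (1 : ℝ), c / (s - 1) ≤ zetaR F s ∧ zetaR F s ≤ C / (s - 1) := by
  have hρ := dedekindZeta_residue_pos F
  have h := zb_tendsto F
  refine ⟨dedekindZeta_residue F / 2, 2 * dedekindZeta_residue F, by positivity, by positivity, ?_⟩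
  have h1 : ∀ᶠ s in 𝓝[>] (1 : ℝ), dedekindZeta_residue F / 2 < (s - 1) * zetaR F s :=
    h.eventually (lt_mem_nhds (by linarith))
  have h2 : ∀ᶠ s in 𝓝[>] (1 : ℝ), (s - 1) * zetaR F s < 2 * dedekindZeta_residue F :=
    h.eventually (gt_mem_nhds (by linarith))
  filter_upwards [h1, h2, self_mem_nhdsWithin] with s hs1 hs2 hs
  have hs' : (0 : ℝ) < s - 1 := sub_pos.mpr hs
  constructor
  · rw [div_le_iff₀ hs']; linarith
  · rw [le_div_iff₀ hs']; linarith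

/-- the rational prime below `v`. -/
noncomputable def zbq {F : Type*} [Field F] [NumberField F] (v : HeightOneSpectrum (𝓞 F)) : ℕ :=
  Ideal.absNorm (Ideal.under ℤ v.asIdeal)

variable {F}

theorem zbq_prime (v : HeightOneSpectrum (𝓞 F)) : (zbq v).Prime := by
  have : NeZero v.asIdeal := ⟨v.ne_bot⟩
  have := v.isPrime
  exact Nat.absNorm_under_prime v.asIdeal

theorem zb_absNorm_eq (v : HeightOneSpectrum (𝓞 F)) :
    ∃ f : ℕ, f ≠ 0 ∧ Ideal.absNorm v.asIdeal = zbq v ^ f := by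
  have hq := zbq_prime v
  have : v.asIdeal.LiesOver (Ideal.span {((zbq v : ℕ) : ℤ)}) := Int.liesOver_span_absNorm v.asIdeal
  have : (Ideal.span {((zbq v : ℕ) : ℤ)}).IsMaximal := by
    have : Fact (zbq v).Prime := ⟨hq⟩
    exact Int.ideal_span_isMaximal_of_prime (zbq v)
  exact ⟨_, Ideal.inertiaDeg'_ne_zero _ _, Ideal.absNorm_eq_pow_inertiaDeg' v.asIdeal hq⟩

theorem zb_card_fiber_le (T : Finset (HeightOneSpectrum (𝓞 F))) (q : ℕ) :
    (T.filter (fun v => zbq v = q)).card ≤ Module.finrank ℚ F := by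
  classical
  by_cases hq : q.Prime
  · have : Fact q.Prime := ⟨hq⟩
    have : (Ideal.span {(q : ℤ)}).IsMaximal := Int.ideal_span_isMaximal_of_prime q
    have hne : (Ideal.span {(q : ℤ)}) ≠ ⊥ := by
      simp [hq.ne_zero]
    refine le_trans ?_ (Ideal.card_primesOverFinset_le_finrank (𝓞 F) ℚ F hne)
    refine Finset.card_le_card_of_injOn (fun v => v.asIdeal) ?_ ?_
    · intro v hv
      rw [Finset.coe_filter, Set.mem_ofPred_eq] at hv
      rw [Finset.mem_coe, IsDedekindDomain.mem_primesOverFinset_iff hne]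
      refine ⟨v.isPrime, ?_⟩
      rw [← hv.2]
      exact Int.liesOver_span_absNorm v.asIdeal
    · intro v _ w _ h
      exact HeightOneSpectrum.ext h
  · rw [Finset.filter_eq_empty_iff.mpr]
    · simp
    · intro v _ h
      exact hq (h ▸ zbq_prime v)

theorem zb_sum_inv_sq_le (T : Finset (HeightOneSpectrum (𝓞 F))) :
    ∑ v ∈ T, (1 : ℝ) / (zbq v : ℝ) ^ 2 ≤
      (Module.finrank ℚ F : ℝ) * ∑' m : ℕ, (1 : ℝ) / (m : ℝ) ^ 2 := by
  classical
  have hsum : Summable (fun m : ℕ => (1 : ℝ) / (m : ℝ) ^ 2) :=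
    Real.summable_one_div_nat_pow.mpr (by norm_num)
  rw [Finset.sum_comp (fun m : ℕ => (1 : ℝ) / (m : ℝ) ^ 2) zbq]
  calc ∑ b ∈ T.image zbq, (T.filter (fun a => zbq a = b)).card • ((1 : ℝ) / (b : ℝ) ^ 2)
      ≤ ∑ b ∈ T.image zbq, (Module.finrank ℚ F : ℝ) * ((1 : ℝ) / (b : ℝ) ^ 2) := by
        refine Finset.sum_le_sum fun b _ => ?_
        rw [nsmul_eq_mul]
        exact mul_le_mul_of_nonneg_right (by exact_mod_cast zb_card_fiber_le T b) (by positivity)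
    _ = (Module.finrank ℚ F : ℝ) * ∑ b ∈ T.image zbq, (1 : ℝ) / (b : ℝ) ^ 2 := by
        rw [Finset.mul_sum]
    _ ≤ _ := by
        refine mul_le_mul_of_nonneg_left ?_ (by positivity)
        exact hsum.sum_le_tsum _ (fun _ _ => by positivity)

theorem zb_inv_le_exp {x : ℝ} (h0 : 0 ≤ x) (h1 : x ≤ 1 / 2) :
    (1 - x)⁻¹ ≤ Real.exp (x + 2 * x ^ 2) := by
  have hpos : 0 < 1 - x := by linarith
  have h2 : (1 - x)⁻¹ = x / (1 - x) + 1 := by
    field_simp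
    ring
  have h3 : x / (1 - x) ≤ x + 2 * x ^ 2 := by
    rw [div_le_iff₀ hpos]
    nlinarith [mul_nonneg h0 h0, mul_nonneg (mul_nonneg h0 h0) (by linarith : 0 ≤ 1 / 2 - x)]
  calc (1 - x)⁻¹ = x / (1 - x) + 1 := h2
    _ ≤ Real.exp (x / (1 - x)) := Real.add_one_le_exp _
    _ ≤ _ := Real.exp_le_exp.mpr h3

theorem zb_q_le (v : HeightOneSpectrum (𝓞 F)) : zbq v ≤ Ideal.absNorm v.asIdeal := by
  obtain ⟨f, hf, h⟩ := zb_absNorm_eq v
  rw [h]
  exact Nat.le_self_pow hf _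

theorem zb_q_sq_le {v : HeightOneSpectrum (𝓞 F)} (hv : v ∉ degOne F) :
    zbq v ^ 2 ≤ Ideal.absNorm v.asIdeal := by
  obtain ⟨f, hf, h⟩ := zb_absNorm_eq v
  have hf2 : 2 ≤ f := by
    by_contra hlt
    have hf1 : f = 1 := by omega
    apply hv
    show (Ideal.absNorm v.asIdeal).Prime
    rw [h, hf1, pow_one]
    exact zbq_prime v
  rw [h]
  exact Nat.pow_le_pow_right (zbq_prime v).pos hf2

theorem zb_rpow_le_inv (v : HeightOneSpectrum (𝓞 F)) {s : ℝ} (hs : 1 < s) :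
    (Ideal.absNorm v.asIdeal : ℝ) ^ (-s) ≤ 1 / (Ideal.absNorm v.asIdeal : ℝ) := by
  have h1 : (1 : ℝ) ≤ Ideal.absNorm v.asIdeal := by
    have := (zbq_prime v).one_lt.le.trans (zb_q_le v)
    exact_mod_cast this
  calc (Ideal.absNorm v.asIdeal : ℝ) ^ (-s) ≤ (Ideal.absNorm v.asIdeal : ℝ) ^ (-1 : ℝ) :=
        Real.rpow_le_rpow_of_exponent_le h1 (by linarith)
    _ = 1 / (Ideal.absNorm v.asIdeal : ℝ) := by rw [Real.rpow_neg_one, one_div]

theorem zb_x_le_inv_q (v : HeightOneSpectrum (𝓞 F)) {s : ℝ} (hs : 1 < s) :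
    (Ideal.absNorm v.asIdeal : ℝ) ^ (-s) ≤ 1 / (zbq v : ℝ) := by
  refine (zb_rpow_le_inv v hs).trans ?_
  have hq : (0 : ℝ) < zbq v := by exact_mod_cast (zbq_prime v).pos
  exact one_div_le_one_div_of_le hq (by exact_mod_cast zb_q_le v)

theorem zb_x_le_half (v : HeightOneSpectrum (𝓞 F)) {s : ℝ} (hs : 1 < s) :
    (Ideal.absNorm v.asIdeal : ℝ) ^ (-s) ≤ 1 / 2 := by
  refine (zb_x_le_inv_q v hs).trans ?_
  exact one_div_le_one_div_of_le (by norm_num) (by exact_mod_cast (zbq_prime v).two_le)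

theorem zb_x_sq_le (v : HeightOneSpectrum (𝓞 F)) {s : ℝ} (hs : 1 < s) :
    ((Ideal.absNorm v.asIdeal : ℝ) ^ (-s)) ^ 2 ≤ 1 / (zbq v : ℝ) ^ 2 := by
  have h0 : (0 : ℝ) ≤ (Ideal.absNorm v.asIdeal : ℝ) ^ (-s) := by positivity
  calc ((Ideal.absNorm v.asIdeal : ℝ) ^ (-s)) ^ 2 ≤ (1 / (zbq v : ℝ)) ^ 2 :=
        pow_le_pow_left₀ h0 (zb_x_le_inv_q v hs) 2
    _ = 1 / (zbq v : ℝ) ^ 2 := by rw [div_pow, one_pow]

theorem zb_x_le_of_not_degOne {v : HeightOneSpectrum (𝓞 F)} (hv : v ∉ degOne F) {s : ℝ}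
    (hs : 1 < s) : (Ideal.absNorm v.asIdeal : ℝ) ^ (-s) ≤ 1 / (zbq v : ℝ) ^ 2 := by
  refine (zb_rpow_le_inv v hs).trans ?_
  have hq : (0 : ℝ) < (zbq v : ℝ) ^ 2 := by
    have : (0 : ℝ) < zbq v := by exact_mod_cast (zbq_prime v).pos
    positivity
  exact one_div_le_one_div_of_le hq (by exact_mod_cast zb_q_sq_le hv)

variable (F)

theorem zb_sum_le (T : Finset (HeightOneSpectrum (𝓞 F))) {s : ℝ} (hs : 1 < s) :
    ∑ v ∈ T, ((Ideal.absNorm v.asIdeal : ℝ) ^ (-s) + 2 * ((Ideal.absNorm v.asIdeal : ℝ) ^ (-s)) ^ 2)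
      ≤ NumberField.Set.primeIdealZetaSum (degOne F) s +
        3 * ((Module.finrank ℚ F : ℝ) * ∑' m : ℕ, (1 : ℝ) / (m : ℝ) ^ 2) := by
  classical
  have hsum := summable_prime_rpow F hs
  set g : HeightOneSpectrum (𝓞 F) → ℝ := fun v => (Ideal.absNorm v.asIdeal : ℝ) ^ (-s) with hg
  have hP : NumberField.Set.primeIdealZetaSum (degOne F) s = ∑' v, (degOne F).indicator g v := by
    rw [NumberField.Set.primeIdealZetaSum_def]
    exact tsum_subtype (degOne F) g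
  have h1 : ∑ v ∈ T, (degOne F).indicator g v ≤ NumberField.Set.primeIdealZetaSum (degOne F) s := by
    rw [hP]
    refine (hsum.indicator (degOne F)).sum_le_tsum T (fun v _ => ?_)
    exact Set.indicator_nonneg (fun v _ => by positivity) v
  have h2 : ∀ v ∈ T, g v + 2 * (g v) ^ 2 ≤
      (degOne F).indicator g v + 3 * ((1 : ℝ) / (zbq v : ℝ) ^ 2) := by
    intro v _
    have hsq := zb_x_sq_le v hs
    by_cases hv : v ∈ degOne F
    · rw [Set.indicator_of_mem hv]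
      have : (0 : ℝ) ≤ 1 / (zbq v : ℝ) ^ 2 := by positivity
      simp only [hg] at *
      linarith
    · rw [Set.indicator_of_notMem hv]
      have := zb_x_le_of_not_degOne hv hs
      simp only [hg] at *
      linarith
  calc ∑ v ∈ T, (g v + 2 * (g v) ^ 2)
      ≤ ∑ v ∈ T, ((degOne F).indicator g v + 3 * ((1 : ℝ) / (zbq v : ℝ) ^ 2)) :=
        Finset.sum_le_sum h2
    _ = ∑ v ∈ T, (degOne F).indicator g v + 3 * ∑ v ∈ T, (1 : ℝ) / (zbq v : ℝ) ^ 2 := by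
        rw [Finset.sum_add_distrib, Finset.mul_sum]
    _ ≤ _ := by
        have := zb_sum_inv_sq_le T
        linarith

theorem log_zetaR_le :
    ∃ C : ℝ, ∀ s : ℝ, 1 < s →
      Real.log (zetaR F s) ≤ NumberField.Set.primeIdealZetaSum (degOne F) s + C := by
  refine ⟨3 * ((Module.finrank ℚ F : ℝ) * ∑' m : ℕ, (1 : ℝ) / (m : ℝ) ^ 2), fun s hs => ?_⟩
  have hpos : 0 < zetaR F s :=
    lt_of_lt_of_le (Real.exp_pos _) (exp_primeSum_le_zetaR F (degOne F) hs)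
  rw [Real.log_le_iff_le_exp hpos]
  refine le_of_tendsto (tendsto_euler_zetaR F hs) (Eventually.of_forall fun T => ?_)
  calc ∏ v ∈ T, (1 - (Ideal.absNorm v.asIdeal : ℝ) ^ (-s))⁻¹
      ≤ ∏ v ∈ T, Real.exp ((Ideal.absNorm v.asIdeal : ℝ) ^ (-s) +
          2 * ((Ideal.absNorm v.asIdeal : ℝ) ^ (-s)) ^ 2) := by
        refine Finset.prod_le_prod (fun v _ => ?_) (fun v _ => ?_)
        · have := zb_x_le_half v hs
          exact inv_nonneg.mpr (by linarith)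
        · exact zb_inv_le_exp (by positivity) (zb_x_le_half v hs)
    _ = Real.exp (∑ v ∈ T, ((Ideal.absNorm v.asIdeal : ℝ) ^ (-s) +
          2 * ((Ideal.absNorm v.asIdeal : ℝ) ^ (-s)) ^ 2)) := (Real.exp_sum _ _).symm
    _ ≤ _ := Real.exp_le_exp.mpr (zb_sum_le F T hs)

end Fermat.Agent.S14
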