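import Fermat.Agent.S14.Defs

/-!
# S14 piece P3: the case `p = 3`

Paper proof.  `𝓞 K = ℤ[ω]` is a PID (`IsCyclotomicExtension.Rat.three_pid`), so `(α) = I³ = (β)³`, `α = ε β³`
with `ε` a unit, `ε ∈ {±1, ±ζ, ±ζ²}` (`IsCyclotomicExtension.Rat.Three.Units.mem`).  `±1` are cubes.  `Eigen2` for complex
conjugation `σ` (`m = 2`): `σ α = α⁴ γ³`, so `σ ε = ε⁴ · cube = ε · cube`; for `ε = ±ζ^i`: `ζ^{2i} = ζ^i · cube`, so `ζ^i` is a
cube in `K`; `K` contains no primitive 9-th root of unity (degree 2 < 6, or `Units.mem` again), so `i = 0`.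
-/

set_option autoImplicit false

namespace Fermat.Agent.S14

open NumberField
open scoped nonZeroDivisors

/-- there is an automorphism with `σ ζ = ζ²`, `mE σ = 2`. -/
theorem p3_exists_conj {K : Type*} [Field K] [NumberField K] [IsCyclotomicExtension {3} ℚ K] {ζ : K}
    (hζ : IsPrimitiveRoot ζ 3) : ∃ σ : K ≃ₐ[ℚ] K, mE hζ σ = 2 ∧ σ ζ = ζ ^ 2 := by
  let e := IsCyclotomicExtension.autEquivPow K
    (Polynomial.cyclotomic.irreducible_rat (by norm_num : 0 < 3))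
  have h1 : e.symm (-1) ≠ 1 := by
    intro h
    have h2 : e (e.symm (-1)) = e 1 := by rw [h]
    rw [MulEquiv.apply_symm_apply, map_one] at h2
    exact absurd h2 (by decide)
  have h2 : hζ.autToPow ℚ (e.symm (-1)) ≠ 1 := by
    intro h
    apply h1
    apply hζ.autToPow_injective ℚ
    rw [h, map_one]
  have h3 : ∀ u : (ZMod 3)ˣ, u ≠ 1 → (u : ZMod 3).val = 2 := by decide
  have h4 : mE hζ (e.symm (-1)) = 2 := h3 _ h2
  refine ⟨e.symm (-1), h4, ?_⟩
  have := hζ.autToPow_spec ℚ (e.symm (-1))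
  rw [← this]
  congr 1

/-- a cube in `K` which is `± ζ^j` is `± 1`. -/
theorem p3_cube {K : Type*} [Field K] [NumberField K] [IsCyclotomicExtension {3} ℚ K] {ζ : K}
    (hζ : IsPrimitiveRoot ζ 3) (δ : K) (h : δ ^ 18 = 1) : δ ^ 3 = 1 ∨ δ ^ 3 = -1 := by
  have h1 : IsOfFinOrder δ := isOfFinOrder_iff_pow_eq_one.mpr ⟨18, by norm_num, h⟩
  obtain ⟨r, -, hr⟩ := hζ.exists_pow_or_neg_mul_pow_of_isOfFinOrder (by decide) h1
  have h3 : (ζ ^ r) ^ 3 = 1 := by rw [← pow_mul, mul_comm, pow_mul, hζ.pow_eq_one, one_pow]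
  rcases hr with rfl | rfl
  · exact Or.inl h3
  · right
    rw [Odd.neg_pow (by decide), h3]

theorem core_three {K : Type*} [Field K] [NumberField K] [IsCyclotomicExtension {3} ℚ K] {ζ : K}
    (hζ : IsPrimitiveRoot ζ 3) (α : K) (hα : α ≠ 0) (h₁ : Singular 3 α) (h₂ : Eigen2 hζ α) :
    ∃ β : K, α = β ^ 3 := by
  have : IsPrincipalIdealRing (𝓞 K) := IsCyclotomicExtension.Rat.three_pid K
  obtain ⟨I, hI⟩ := h₁
  rw [I.eq_spanSingleton_of_principal, FractionalIdeal.spanSingleton_pow,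
    FractionalIdeal.spanSingleton_eq_spanSingleton] at hI
  obtain ⟨u, hu⟩ := hI
  set β : K := Submodule.IsPrincipal.generator (I : Submodule (𝓞 K) K) with hβ
  have hu' : ((u : 𝓞 K) : K) * α = β ^ 3 := hu
  have hζ3 : ζ ^ 3 = 1 := hζ.pow_eq_one
  have hζ0 : ζ ≠ 0 := hζ.ne_zero (by norm_num)
  have hc0 : ((u : 𝓞 K) : K) ≠ 0 := by
    have := u.ne_zero
    exact fun h => this (RingOfIntegers.coe_eq_zero_iff.mp h)
  have hβ0 : β ≠ 0 := by
    intro h
    rw [h] at hu'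
    simp only [ne_eq, OfNat.ofNat_ne_zero, not_false_eq_true, zero_pow, mul_eq_zero] at hu'
    rcases hu' with h | h
    · exact hc0 h
    · exact hα h
  obtain ⟨σ, hσm, hσζ⟩ := p3_exists_conj hζ
  obtain ⟨γ, hγ⟩ := h₂ σ
  rw [hσm] at hγ
  -- the key relation
  have hkey : σ ((u : 𝓞 K) : K) * (β ^ 4 * γ) ^ 3 = ((u : 𝓞 K) : K) ^ 4 * (σ β) ^ 3 := by
    have h1 : σ ((u : 𝓞 K) : K) * σ α = (σ β) ^ 3 := by rw [← map_mul, hu', map_pow]
    rw [← h1, hγ]
    have : (β ^ 4 * γ) ^ 3 = (β ^ 3) ^ 4 * γ ^ 3 := by ring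
    rw [this, ← hu']
    ring
  have hσβ : σ β ≠ 0 := by
    rw [Ne, map_eq_zero]
    exact hβ0
  -- no primitive cube root of unity (up to sign) is a cube
  have hno : ∀ (δ : K), δ ^ 3 ≠ ζ ∧ δ ^ 3 ≠ -ζ ∧ δ ^ 3 ≠ ζ ^ 2 ∧ δ ^ 3 ≠ -ζ ^ 2 := by
    intro δ
    have hz1 : ζ ≠ 1 := hζ.ne_one (by norm_num)
    have hz2 : ζ ^ 2 ≠ 1 := fun h => by
      have := hζ.dvd_of_pow_eq_one 2 h
      omega
    have hz3 : ζ ≠ -1 := fun h => hz2 (by rw [h]; ring)
    have hz4 : ζ ^ 2 ≠ -1 := fun h => by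
      have h4 : ζ ^ 4 = 1 := by
        have : ζ ^ 4 = (ζ ^ 2) ^ 2 := by ring
        rw [this, h]; ring
      have := hζ.dvd_of_pow_eq_one 4 h4
      omega
    refine ⟨fun h => ?_, fun h => ?_, fun h => ?_, fun h => ?_⟩
    · have h18 : δ ^ 18 = 1 := by
        have : δ ^ 18 = (δ ^ 3) ^ 6 := by ring
        rw [this, h]
        have : ζ ^ 6 = (ζ ^ 3) ^ 2 := by ring
        rw [this, hζ3, one_pow]
      rcases p3_cube hζ δ h18 with h' | h'
      · exact hz1 (h.symm.trans h')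
      · exact hz3 (h.symm.trans h')
    · have h18 : δ ^ 18 = 1 := by
        have : δ ^ 18 = (δ ^ 3) ^ 6 := by ring
        rw [this, h]
        have : (-ζ) ^ 6 = (ζ ^ 3) ^ 2 := by ring
        rw [this, hζ3, one_pow]
      rcases p3_cube hζ δ h18 with h' | h'
      · exact hz3 (by rw [← neg_eq_iff_eq_neg]; exact h.symm.trans h')
      · exact hz1 (neg_injective (h.symm.trans h'))
    · have h18 : δ ^ 18 = 1 := by
        have : δ ^ 18 = (δ ^ 3) ^ 6 := by ring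
        rw [this, h]
        have : (ζ ^ 2) ^ 6 = (ζ ^ 3) ^ 4 := by ring
        rw [this, hζ3, one_pow]
      rcases p3_cube hζ δ h18 with h' | h'
      · exact hz2 (h.symm.trans h')
      · exact hz4 (h.symm.trans h')
    · have h18 : δ ^ 18 = 1 := by
        have : δ ^ 18 = (δ ^ 3) ^ 6 := by ring
        rw [this, h]
        have : (-ζ ^ 2) ^ 6 = (ζ ^ 3) ^ 4 := by ring
        rw [this, hζ3, one_pow]
      rcases p3_cube hζ δ h18 with h' | h'
      · exact hz4 (by rw [← neg_eq_iff_eq_neg]; exact h.symm.trans h')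
      · exact hz2 (neg_injective (h.symm.trans h'))
  obtain ⟨n1, n2, n3, n4⟩ := hno (β ^ 4 * γ / σ β)
  have hdiv : (β ^ 4 * γ / σ β) ^ 3 = ((u : 𝓞 K) : K) ^ 4 / σ ((u : 𝓞 K) : K) := by
    have hσc : σ ((u : 𝓞 K) : K) ≠ 0 := by
      rw [Ne, map_eq_zero]
      exact hc0
    rw [div_pow, div_eq_div_iff (pow_ne_zero 3 hσβ) hσc, mul_comm, hkey]
  have hmem := IsCyclotomicExtension.Rat.Three.Units.mem hζ u
  have hη : (((IsPrimitiveRoot.isUnit (hζ.toInteger_isPrimitiveRoot) (by decide)).unit : (𝓞 K)ˣ) :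
      𝓞 K) = hζ.toInteger := rfl
  simp only [List.mem_cons, List.not_mem_nil, or_false] at hmem
  have hζ4 : ζ ^ 4 = ζ := by
    have : ζ ^ 4 = ζ ^ 3 * ζ := by ring
    rw [this, hζ3, one_mul]
  rcases hmem with h | h | h | h | h | h
  · refine ⟨β, ?_⟩
    rw [← hu', h]
    simp
  · refine ⟨-β, ?_⟩
    rw [Odd.neg_pow (by decide), ← hu', h]
    simp
  · exfalso
    have hc : ((u : 𝓞 K) : K) = ζ := by rw [h, hη]; rfl
    rw [hc, hσζ] at hdiv
    apply n3
    rw [hdiv]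
    field_simp
  · exfalso
    have hc : ((u : 𝓞 K) : K) = -ζ := by
      rw [h, Units.val_neg, hη]; simp
    rw [hc, map_neg, hσζ] at hdiv
    apply n4
    rw [hdiv]
    field_simp
  · exfalso
    have hc : ((u : 𝓞 K) : K) = ζ ^ 2 := by
      rw [h, Units.val_pow_eq_pow_val, hη]; simp
    rw [hc, map_pow, hσζ] at hdiv
    apply n1
    rw [hdiv]
    field_simp
    linear_combination hζ3
  · exfalso
    have hc : ((u : 𝓞 K) : K) = -ζ ^ 2 := by
      rw [h, Units.val_neg, Units.val_pow_eq_pow_val, hη]; simp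
    rw [hc, map_neg, map_pow, hσζ] at hdiv
    apply n2
    rw [hdiv]
    field_simp
    linear_combination -hζ3

end Fermat.Agent.S14
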