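import Fermat.Agent.S14.TransDefs

/-!
# S14 piece T1: from a non-split admissible extension to a Kummer generator `a ∈ ℚ̄`

Paper proof.  `ζ = zetaQb p`, `ω σ = cycloExp p σ` (`map_zetaQb`), `G_K = {σ | σ ζ = ζ}`.
Pick a generator `c₀` of `C` (`card C = p`) and `v₀ ∉ C` (`card V = p²`): `V = F_p v₀ ⊕ F_p c₀`.
`σ v₀ = ω(σ) v₀ + b(σ) c₀` (`cyclo_quot`), `σ c₀ = c₀`; `b(σ τ) = ω(τ) b(σ) + b(τ)`.
* If `b = 0` on `G_K`: let `δ₀` with `ω(δ₀) = g ≠ 1` (`g` a primitive root mod `p`; `ω` is onto, or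
  simply: if `ω ≡ 1` then `G_K = G`), `t = b(δ₀)/(g-1)`, `v₁ = v₀ + t c₀`... more simply: for ALL `σ, τ`,
  `b(στ) = b(τσ)` modulo `G_K`-invariance gives `(ω τ - 1) b σ = (ω σ - 1) b τ`
  (`στ` and `τσ` differ by an element `h` of `G_K`: `b(x h) = b(x) + b(h) = b(x)`), so with any `δ₀`,
  `ω δ₀ ≠ 1`, `t = b(δ₀)/(ω δ₀ - 1)`: `b σ = t (ω σ - 1)` for all `σ`, and `C' = F_p (v₀ - t c₀)`... check
  the sign: `σ (v₀ + s c₀) = ω σ (v₀ + s c₀) + (b σ + s - s ω σ) c₀`, so `s = t`.  `C'` is `G`-stable and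
  a complement: `SplitsGlobally C`.  (If `ω σ = 1` for all `σ` then `G = G_K` acts trivially: any
  complement works; this does not happen but need not be excluded.)
* Otherwise `b|G_K : G_K → F_p` is a nonzero hom with open kernel `H` (`open_kernel`), normal of index
  `p` in `G_K`; pick `σ₀ ∈ G_K` with `b σ₀ = 1`.  Hilbert 90 / Lagrange resolvent: for `θ ∈ ℚ̄` fixed by
  `H`, `a(θ) = ∑_{i<p} ζ^{-i} σ₀^i θ` satisfies `σ a = ζ^{b σ} a` for `σ ∈ G_K`; `a(θ) ≠ 0` for some `θ`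
  (independence of the characters `σ₀^i` on the fixed field `L` of `H`; they are distinct on `L` since
  `fixingSubgroup (fixedField H) = H`, `H` closed: `InfiniteGalois`).  Or use Mathlib's Kummer theory
  for the finite cyclic extension `L/K` (`exists_root_adjoin_eq_top_of_isCyclic`).
* `b(δ h δ⁻¹) = b(h)/ω(δ)`, hence for `σ ∈ G_K`: `σ (δ a) = δ ((δ⁻¹ σ δ) a) = ζ^{ω(δ)² b σ} δ a`, so
  `δ a / a^{m²}` is `G_K`-fixed when `δ ζ = ζ^m`.
* `σ ∈ I_A`, `A | ℓ ≠ p`: `σ` acts trivially on `V`, so `ω σ = 1`, `b σ = 0`, `σ a = a`.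
* `σ ∈ D_A ∩ G_K`, `A | p`: `σ` fixes `C` pointwise, acts trivially on `V/C`, stabilises a complement
  `C'`: for `x ∈ C'`, `σ x - x ∈ C ∩ C' = 0`; so `σ = 1` on `V`, `b σ = 0`, `σ a = a`.
-/

set_option autoImplicit false

namespace Fermat.Agent.S14

open ExtCitation

namespace T1

variable (p : ℕ) [Fact p.Prime]

/-- the mod `p` cyclotomic character with values in `ZMod p`. -/
noncomputable def om (σ : GQ) : ZMod p := (cycloExp p σ : ZMod p)

theorem om_mul (σ τ : GQ) : om p (σ * τ) = om p σ * om p τ := by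
  unfold om cycloExp
  rw [ZMod.natCast_zmod_val, ZMod.natCast_zmod_val, ZMod.natCast_zmod_val, ← Units.val_mul,
    ← map_mul]
  rfl

theorem om_one : om p (1 : GQ) = 1 := by
  unfold om cycloExp
  rw [ZMod.natCast_zmod_val]
  have : (((1 : GQ) : Qb ≃+* Qb)) = 1 := rfl
  rw [this, map_one, Units.val_one]

/-- `ζ ^ x` for `x : ZMod p`. -/
noncomputable def zp (x : ZMod p) : Qb := zetaQb p ^ x.val

theorem zp_natCast (n : ℕ) : zp p (n : ZMod p) = zetaQb p ^ n := by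
  unfold zp
  rw [ZMod.val_natCast]
  exact (pow_eq_pow_mod n (zetaQb_prim p).pow_eq_one).symm

theorem zp_add (x y : ZMod p) : zp p (x + y) = zp p x * zp p y := by
  have hx := ZMod.natCast_zmod_val x
  have hy := ZMod.natCast_zmod_val y
  rw [← hx, ← hy, ← Nat.cast_add, zp_natCast, zp_natCast, zp_natCast, pow_add]

theorem zp_zero : zp p 0 = 1 := by
  unfold zp
  rw [ZMod.val_zero, pow_zero]

theorem zp_pow (x : ZMod p) (n : ℕ) : zp p x ^ n = zp p (n * x) := by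
  have hx := ZMod.natCast_zmod_val x
  rw [← hx, ← Nat.cast_mul, zp_natCast, zp_natCast, ← pow_mul, mul_comm]

theorem zp_ne_zero (x : ZMod p) : zp p x ≠ 0 :=
  pow_ne_zero _ ((zetaQb_prim p).ne_zero (Fact.out : p.Prime).ne_zero)

theorem zp_eq_one_iff (x : ZMod p) : zp p x = 1 ↔ x = 0 := by
  constructor
  · intro h
    unfold zp at h
    have := (zetaQb_prim p).dvd_of_pow_eq_one _ h
    rw [← ZMod.natCast_zmod_val x, ZMod.natCast_eq_zero_iff]
    exact this
  · rintro rfl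
    exact zp_zero p

theorem map_zeta (σ : GQ) : σ (zetaQb p) = zp p (om p σ) := by
  rw [map_zetaQb p σ, om, zp_natCast]

theorem map_zp (σ : GQ) (x : ZMod p) : σ (zp p x) = zp p (om p σ * x) := by
  have hx := ZMod.natCast_zmod_val x
  rw [← hx, zp_natCast, map_pow, map_zeta, zp_pow, mul_comm]

theorem om_eq_one_iff (σ : GQ) : om p σ = 1 ↔ σ (zetaQb p) = zetaQb p := by
  have h1 : zetaQb p = zp p 1 := by
    have := zp_natCast p 1
    rw [Nat.cast_one, pow_one] at this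
    exact this.symm
  rw [map_zeta]
  constructor
  · intro h
    rw [h, ← h1]
  · intro h
    have h2 : zp p (om p σ - 1) = 1 := by
      have h3 : zp p (om p σ) = zp p (om p σ - 1) * zp p 1 := by
        rw [← zp_add, sub_add_cancel]
      rw [← h1, h] at h3
      have h4 := (zetaQb_prim p).ne_zero (Fact.out : p.Prime).ne_zero
      exact (mul_right_cancel₀ h4 (by rw [one_mul]; exact h3)).symm
    rw [zp_eq_one_iff] at h2
    exact sub_eq_zero.mp h2

theorem om_of_pow (δ : GQ) (m : ℕ) (h : δ (zetaQb p) = zetaQb p ^ m) : om p δ = (m : ZMod p) := by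
  rw [map_zeta, ← zp_natCast] at h
  have h2 : zp p (om p δ - m) = 1 := by
    have h3 : zp p (om p δ) = zp p (om p δ - m) * zp p m := by
      rw [← zp_add, sub_add_cancel]
    rw [h] at h3
    exact (mul_right_cancel₀ (zp_ne_zero p _) (by rw [one_mul]; exact h3)).symm
  rw [zp_eq_one_iff] at h2
  exact sub_eq_zero.mp h2


theorem om_inv_mul (σ : GQ) : om p σ⁻¹ * om p σ = 1 := by
  rw [← om_mul, inv_mul_cancel, om_one]

section alg

variable {p}
variable (V : Type) [AddCommGroup V] [Module (ZMod p) V] [DistribMulAction GQ V]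
  [SMulCommClass GQ (ZMod p) V] (C : Submodule (ZMod p) V)

/-- if `G_K` acts trivially then the extension splits. -/
theorem splits_of_trivial (hadm : IsAdmissibleExtension p V C)
    (htriv : ∀ σ : GQ, om p σ = 1 → ∀ v : V, σ • v = v) : SplitsGlobally C := by
  by_cases h : ∃ δ₀ : GQ, om p δ₀ ≠ 1
  · obtain ⟨δ₀, hδ₀⟩ := h
    let C' : Submodule (ZMod p) V :=
      { carrier := {x | δ₀ • x = om p δ₀ • x}
        add_mem' := by
          intro x y hx hy
          simp only [Set.mem_ofPred_eq] at *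
          rw [smul_add, hx, hy, smul_add]
        zero_mem' := by simp
        smul_mem' := by
          intro t x hx
          simp only [Set.mem_ofPred_eq] at *
          rw [smul_comm, hx, smul_comm] }
    have hne : om p δ₀ - 1 ≠ 0 := sub_ne_zero.mpr hδ₀
    refine ⟨C', ?_, ?_, ?_⟩
    · intro σ x hx
      change δ₀ • σ • x = om p δ₀ • σ • x
      have hx' : δ₀ • x = om p δ₀ • x := hx
      have hcomm : δ₀ * σ = σ * δ₀ * ((σ * δ₀)⁻¹ * (δ₀ * σ)) := by group
      have hh : om p ((σ * δ₀)⁻¹ * (δ₀ * σ)) = 1 := by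
        rw [om_mul, om_mul p δ₀ σ, mul_comm (om p δ₀), ← om_mul p σ δ₀, om_inv_mul]
      rw [← mul_smul, hcomm, mul_smul, htriv _ hh, mul_smul, hx', smul_comm]
    · rw [Submodule.disjoint_def]
      intro x hx hx'
      have h1 : δ₀ • x = om p δ₀ • x := hx'
      rw [hadm.fixed_sub δ₀ x hx] at h1
      have h2 : (om p δ₀ - 1) • x = 0 := by
        rw [sub_smul, one_smul, ← h1, sub_self]
      exact (smul_eq_zero.mp h2).resolve_left hne
    · rw [Submodule.codisjoint_iff_exists_add_eq]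
      intro z
      have hc : δ₀ • z - om p δ₀ • z ∈ C := hadm.cyclo_quot δ₀ z
      set c := δ₀ • z - om p δ₀ • z with hcdef
      refine ⟨-((om p δ₀ - 1)⁻¹ • c), z + (om p δ₀ - 1)⁻¹ • c, C.neg_mem (C.smul_mem _ hc), ?_,
        by abel⟩
      change δ₀ • (z + (om p δ₀ - 1)⁻¹ • c) = om p δ₀ • (z + (om p δ₀ - 1)⁻¹ • c)
      rw [smul_add, smul_comm, hadm.fixed_sub δ₀ c hc, smul_add]
      have h3 : δ₀ • z = c + om p δ₀ • z := by rw [hcdef]; abel
      have h4 : c = (om p δ₀ - 1) • (om p δ₀ - 1)⁻¹ • c := by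
        rw [smul_smul, mul_inv_cancel₀ hne, one_smul]
      rw [h3]
      nth_rewrite 1 [h4]
      rw [sub_smul, one_smul]
      abel
  · push Not at h
    obtain ⟨C', hC'⟩ := Submodule.exists_isCompl C
    exact ⟨C', fun σ x hx => by rw [htriv σ (h σ)]; exact hx, hC'⟩

theorem exists_cocycle (hadm : IsAdmissibleExtension p V C) (hns : ¬ SplitsGlobally C) :
    ∃ b : GQ → ZMod p,
      (∀ σ τ, b (σ * τ) = om p τ * b σ + b τ) ∧
      (∃ σ₀, om p σ₀ = 1 ∧ b σ₀ = 1) ∧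
      (∀ σ, (∀ v : V, σ • v = v) → om p σ = 1 ∧ b σ = 0) ∧
      (∀ A : ValuationSubring Qb, A.LiesOverPrime p →
        ∀ σ ∈ A.decompositionSubgroup ℚ, om p σ = 1 → b σ = 0) := by
  have h1 : ∃ σ₀ : GQ, om p σ₀ = 1 ∧ ∃ v₀ : V, σ₀ • v₀ ≠ v₀ := by
    by_contra hcon
    push Not at hcon
    exact hns (splits_of_trivial V C hadm hcon)
  obtain ⟨σ₀, hσ₀, v₀, hv₀⟩ := h1
  set c₀ := σ₀ • v₀ - v₀ with hc₀
  have hquot : ∀ (σ : GQ) (x : V), σ • x - om p σ • x ∈ C := hadm.cyclo_quot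
  have hc₀C : c₀ ∈ C := by
    have := hquot σ₀ v₀
    rwa [hσ₀, one_smul] at this
  have hc₀0 : c₀ ≠ 0 := sub_ne_zero.mpr hv₀
  have hv₀C : v₀ ∉ C := fun h => hv₀ (hadm.fixed_sub σ₀ v₀ h)
  have hgen : ∀ x ∈ C, ∃ t : ZMod p, x = t • c₀ := by
    have hfin : Finite C := Nat.finite_of_card_ne_zero (by
      rw [hadm.card_sub]; exact (Fact.out : p.Prime).ne_zero)
    have hrk : Module.finrank (ZMod p) C = 1 := by
      have h2 := Module.natCard_eq_pow_finrank (K := ZMod p) (V := C)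
      rw [hadm.card_sub, Nat.card_zmod] at h2
      have h3 : p ^ 1 = p ^ Module.finrank (ZMod p) C := by rw [pow_one]; exact h2
      exact (Nat.pow_right_injective (Fact.out : p.Prime).two_le h3).symm
    have h4 := (finrank_eq_one_iff_of_nonzero' (⟨c₀, hc₀C⟩ : C) (by
      intro h; exact hc₀0 (congrArg Subtype.val h))).mp hrk
    intro x hx
    obtain ⟨t, ht⟩ := h4 ⟨x, hx⟩
    exact ⟨t, (congrArg Subtype.val ht).symm⟩
  choose! f hf using hgen
  have hind : ∀ x y : ZMod p, x • v₀ + y • c₀ = 0 → x = 0 ∧ y = 0 := by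
    intro x y h
    have hx : x = 0 := by
      by_contra hx
      apply hv₀C
      have h2 : v₀ = x⁻¹ • (-(y • c₀)) := by
        rw [← eq_neg_of_add_eq_zero_left h, smul_smul, inv_mul_cancel₀ hx, one_smul]
      rw [h2]
      exact C.smul_mem _ (C.neg_mem (C.smul_mem _ hc₀C))
    refine ⟨hx, ?_⟩
    rw [hx, zero_smul, zero_add] at h
    exact (smul_eq_zero.mp h).resolve_right hc₀0
  have hind2 : ∀ x y x' y' : ZMod p, x • v₀ + y • c₀ = x' • v₀ + y' • c₀ → x = x' ∧ y = y' := by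
    intro x y x' y' h
    have h2 := hind (x - x') (y - y') (by
      rw [sub_smul, sub_smul]
      have := sub_eq_zero.mpr h
      rw [← this]; abel)
    exact ⟨sub_eq_zero.mp h2.1, sub_eq_zero.mp h2.2⟩
  let b : GQ → ZMod p := fun σ => f (σ • v₀ - om p σ • v₀)
  have hb : ∀ σ, σ • v₀ = om p σ • v₀ + b σ • c₀ := by
    intro σ
    have := hf _ (hquot σ v₀)
    rw [← this]; abel
  have hfix : ∀ σ : GQ, σ • c₀ = c₀ := fun σ => hadm.fixed_sub σ c₀ hc₀C
  have hfixv : ∀ σ : GQ, σ • v₀ = v₀ → om p σ = 1 ∧ b σ = 0 := by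
    intro σ h
    have h2 := hb σ
    rw [h] at h2
    have h3 := hind2 1 0 (om p σ) (b σ) (by rw [one_smul, zero_smul, add_zero]; exact h2)
    exact ⟨h3.1.symm, h3.2.symm⟩
  refine ⟨b, ?_, ⟨σ₀, hσ₀, ?_⟩, ?_, ?_⟩
  · intro σ τ
    have h2 := hb (σ * τ)
    rw [mul_smul, hb τ, smul_add, smul_comm, smul_comm σ (b τ), hfix, hb σ, smul_add, smul_smul,
      smul_smul, add_assoc, ← add_smul] at h2
    exact (hind2 _ _ _ _ h2).2.symm
  · have h2 := hb σ₀
    rw [hσ₀, one_smul] at h2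
    have h3 : (0 : ZMod p) • v₀ + (1 : ZMod p) • c₀ = (0 : ZMod p) • v₀ + b σ₀ • c₀ := by
      rw [zero_smul, zero_add, zero_add, one_smul]
      calc c₀ = σ₀ • v₀ - v₀ := hc₀
        _ = b σ₀ • c₀ := by rw [h2]; abel
    exact (hind2 _ _ _ _ h3).2.symm
  · intro σ h
    exact hfixv σ (h v₀)
  · intro A hA σ hσ hom
    obtain ⟨C', hstab, hcompl⟩ := hadm.locally_split A hA
    obtain ⟨c, x, hc, hx, hcx⟩ := Submodule.codisjoint_iff_exists_add_eq.mp hcompl.codisjoint v₀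
    have h2 : σ • x - x ∈ C := by
      have := hquot σ x
      rwa [hom, one_smul] at this
    have h3 : σ • x - x ∈ C' := C'.sub_mem (hstab σ hσ x hx) hx
    have h4 : σ • x - x = 0 := Submodule.disjoint_def.mp hcompl.disjoint _ h2 h3
    refine (hfixv σ ?_).2
    rw [← hcx, smul_add, hadm.fixed_sub σ c hc, sub_eq_zero.mp h4]

end alg


section field

variable {p}

theorem sum_zp_mul (x : ZMod p) (hx : x ≠ 0) : ∑ j : ZMod p, zp p (j * x) = 0 := by
  have h1 : zp p x * ∑ j : ZMod p, zp p (j * x) = ∑ j : ZMod p, zp p (j * x) := by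
    rw [Finset.mul_sum, ← Equiv.sum_comp (Equiv.addRight (1 : ZMod p)) (fun j => zp p (j * x))]
    refine Finset.sum_congr rfl fun j _ => ?_
    rw [← zp_add, Equiv.coe_addRight, add_mul, one_mul, add_comm]
  have h2 : (zp p x - 1) * ∑ j : ZMod p, zp p (j * x) = 0 := by
    rw [sub_mul, h1, one_mul, sub_self]
  refine (mul_eq_zero.mp h2).resolve_left ?_
  rw [sub_eq_zero, zp_eq_one_iff]
  exact hx

theorem exists_resolvent (b : GQ → ZMod p)
    (hb : ∀ σ τ, b (σ * τ) = om p τ * b σ + b τ)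
    (σ₀ : GQ) (hσ₀ : om p σ₀ = 1) (hbσ₀ : b σ₀ = 1)
    (N : Set GQ) (hN : IsOpen N) (hN1 : 1 ∈ N) (hNb : ∀ σ ∈ N, om p σ = 1 ∧ b σ = 0) :
    ∃ (j : ZMod p) (a : Qb), j ≠ 0 ∧ a ≠ 0 ∧ ∀ σ, om p σ = 1 → σ a = zp p (j * b σ) * a := by
  have hb1 : b 1 = 0 := by
    have := hb 1 1
    rw [mul_one, om_one, one_mul] at this
    exact left_eq_add.mp this
  have hominv : ∀ σ, om p σ = 1 → om p σ⁻¹ = 1 := by
    intro σ h
    have := om_inv_mul p σ
    rwa [h, mul_one] at this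
  have hbinv : ∀ σ, om p σ = 1 → b σ⁻¹ = - b σ := by
    intro σ h
    have := hb σ⁻¹ σ
    rw [inv_mul_cancel, hb1, h, one_mul] at this
    exact eq_neg_of_add_eq_zero_left this.symm
  let H : Subgroup GQ :=
    { carrier := {σ | om p σ = 1 ∧ b σ = 0}
      mul_mem' := by
        rintro σ τ ⟨h1, h2⟩ ⟨h3, h4⟩
        exact ⟨by rw [om_mul, h1, h3, one_mul], by rw [hb, h2, h4, mul_zero, add_zero]⟩
      one_mem' := ⟨om_one p, hb1⟩
      inv_mem' := by
        rintro σ ⟨h1, h2⟩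
        exact ⟨hominv σ h1, by rw [hbinv σ h1, h2, neg_zero]⟩ }
  have hHopen : IsOpen (H : Set GQ) :=
    Subgroup.isOpen_of_mem_nhds H (g := 1) (Filter.mem_of_superset (hN.mem_nhds hN1) hNb)
  have hHclosed : IsClosed (H : Set GQ) := H.isClosed_of_isOpen hHopen
  have : IsAlgClosure ℚ Qb := @AlgebraicClosure.instIsAlgClosure ℚ _
  have hfix := InfiniteGalois.fixingSubgroup_fixedField (k := ℚ) (K := Qb) ⟨H, hHclosed⟩
  have hσ₀H : σ₀ ∉ H := by
    rintro ⟨-, h⟩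
    rw [hbσ₀] at h
    exact one_ne_zero h
  obtain ⟨θ, hθH, hθ⟩ : ∃ θ : Qb, (∀ h ∈ H, h θ = θ) ∧ σ₀ θ ≠ θ := by
    by_contra hcon
    push Not at hcon
    apply hσ₀H
    change σ₀ ∈ (⟨H, hHclosed⟩ : ClosedSubgroup GQ).toSubgroup
    rw [← hfix, IntermediateField.mem_fixingSubgroup_iff]
    intro x hx
    exact hcon x (fun h hh => (IntermediateField.mem_fixedField_iff _ x).mp hx h hh)
  have hsame : ∀ x y : GQ, om p x = 1 → om p y = 1 → b x = b y → x θ = y θ := by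
    intro x y hx hy hxy
    have h1 : y⁻¹ * x ∈ H :=
      ⟨by rw [om_mul, hominv y hy, hx, one_mul], by rw [hb, hx, one_mul, hbinv y hy, hxy, neg_add_cancel]⟩
    have h2 := hθH _ h1
    have h3 : y ((y⁻¹ * x) θ) = x θ := by
      rw [← AlgEquiv.mul_apply, mul_inv_cancel_left]
    rw [← h3, h2]
  have hpow : ∀ n : ℕ, om p (σ₀ ^ n) = 1 ∧ b (σ₀ ^ n) = n := by
    intro n
    induction n with
    | zero => exact ⟨by rw [pow_zero, om_one], by rw [pow_zero, hb1, Nat.cast_zero]⟩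
    | succ n ih =>
      exact ⟨by rw [pow_succ, om_mul, ih.1, hσ₀, one_mul],
        by rw [pow_succ, hb, hσ₀, one_mul, ih.2, hbσ₀, Nat.cast_succ]⟩
  let s : ZMod p → Qb := fun i => (σ₀ ^ i.val) θ
  have hs : ∀ σ, om p σ = 1 → ∀ i, σ (s i) = s (i + b σ) := by
    intro σ hσ i
    change σ ((σ₀ ^ i.val) θ) = (σ₀ ^ (i + b σ).val) θ
    rw [← AlgEquiv.mul_apply]
    apply hsame
    · rw [om_mul, hσ, (hpow _).1, one_mul]
    · exact (hpow _).1
    · rw [hb, (hpow _).1, (hpow _).2, (hpow _).2, one_mul, ZMod.natCast_zmod_val,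
        ZMod.natCast_zmod_val, add_comm]
  let A : ZMod p → Qb := fun j => ∑ i : ZMod p, zp p (-(j * i)) * s i
  have hA : ∀ j σ, om p σ = 1 → σ (A j) = zp p (j * b σ) * A j := by
    intro j σ hσ
    change σ (∑ i : ZMod p, zp p (-(j * i)) * s i) = zp p (j * b σ) * ∑ i : ZMod p, zp p (-(j * i)) * s i
    rw [map_sum, Finset.mul_sum,
      ← Equiv.sum_comp (Equiv.addRight (b σ)) (fun i => zp p (j * b σ) * (zp p (-(j * i)) * s i))]
    refine Finset.sum_congr rfl fun i _ => ?_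
    rw [map_mul, map_zp, hσ, one_mul, hs σ hσ, Equiv.coe_addRight, ← mul_assoc, ← zp_add]
    congr 2
    ring
  have hsum : ∑ j : ZMod p, A j = p * θ := by
    change ∑ j : ZMod p, ∑ i : ZMod p, zp p (-(j * i)) * s i = p * θ
    rw [Finset.sum_comm]
    rw [Finset.sum_eq_single (0 : ZMod p)]
    · simp only [mul_zero, neg_zero, zp_zero, one_mul, Finset.sum_const, Finset.card_univ,
        ZMod.card, nsmul_eq_mul]
      congr 1
      change (σ₀ ^ (0 : ZMod p).val) θ = θ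
      rw [ZMod.val_zero, pow_zero, AlgEquiv.one_apply]
    · intro i _ hi
      rw [← Finset.sum_mul]
      have := sum_zp_mul (p := p) (-i) (neg_ne_zero.mpr hi)
      simp only [mul_neg] at this
      rw [this, zero_mul]
    · intro h
      exact absurd (Finset.mem_univ _) h
  by_contra hcon
  push Not at hcon
  have hA0 : ∀ j, j ≠ 0 → A j = 0 := by
    intro j hj
    by_contra hne
    obtain ⟨σ, h1, h2⟩ := hcon j (A j) hj hne
    exact h2 (hA j σ h1)
  rw [Finset.sum_eq_single (0 : ZMod p) (fun j _ hj => hA0 j hj)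
    (fun h => absurd (Finset.mem_univ _) h)] at hsum
  have h5 := hA 0 σ₀ hσ₀
  rw [zero_mul, zp_zero, one_mul, hsum, map_mul, map_natCast] at h5
  exact hθ (mul_left_cancel₀ (Nat.cast_ne_zero.mpr (Fact.out : p.Prime).ne_zero) h5)

end field

end T1

open T1 in
theorem exists_kummer_generator {p : ℕ} [Fact p.Prime] (V : Type) [AddCommGroup V]
    [Module (ZMod p) V] [DistribMulAction GQ V] [SMulCommClass GQ (ZMod p) V]
    (C : Submodule (ZMod p) V) (hadm : IsAdmissibleExtensionCts p V C)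
    (hns : ¬ SplitsGlobally C) :
    ∃ a : Qb, a ≠ 0 ∧
      (∀ σ : GQ, σ (zetaQb p) = zetaQb p → ∃ k : ℕ, σ a = zetaQb p ^ k * a) ∧
      (∃ σ : GQ, σ (zetaQb p) = zetaQb p ∧ σ a ≠ a) ∧
      (∀ (δ : GQ) (m : ℕ), δ (zetaQb p) = zetaQb p ^ m →
        ∀ σ : GQ, σ (zetaQb p) = zetaQb p → σ (δ a / a ^ (m ^ 2)) = δ a / a ^ (m ^ 2)) ∧
      (∀ ℓ : ℕ, ℓ.Prime → ℓ ≠ p → ∀ A : ValuationSubring Qb, A.LiesOverPrime ℓ →
        ∀ σ ∈ A.inertiaSubgroupIn ℚ, σ a = a) ∧
      (∀ A : ValuationSubring Qb, A.LiesOverPrime p →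
        ∀ σ ∈ A.decompositionSubgroup ℚ, σ (zetaQb p) = zetaQb p → σ a = a) := by
  obtain ⟨b, hb, ⟨σ₀, hσ₀, hbσ₀⟩, htriv, hdec⟩ :=
    exists_cocycle V C hadm.toIsAdmissibleExtension hns
  obtain ⟨j, a, hj, ha, hja⟩ := exists_resolvent b hb σ₀ hσ₀ hbσ₀ _ hadm.open_kernel
    (fun v => one_smul _ v) htriv
  have hb1 : b 1 = 0 := by
    have := hb 1 1
    rw [mul_one, om_one, one_mul] at this
    exact left_eq_add.mp this
  refine ⟨a, ha, ?_, ?_, ?_, ?_, ?_⟩
  · intro σ hσ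
    exact ⟨(j * b σ).val, hja σ ((om_eq_one_iff p σ).mpr hσ)⟩
  · refine ⟨σ₀, (om_eq_one_iff p σ₀).mp hσ₀, ?_⟩
    rw [hja σ₀ hσ₀, hbσ₀, mul_one]
    intro h
    have h2 : zp p j = 1 := mul_right_cancel₀ ha (by rw [h, one_mul])
    exact hj ((zp_eq_one_iff p j).mp h2)
  · intro δ m hδ σ hσ
    have hom := om_of_pow p δ m hδ
    have hσ1 := (om_eq_one_iff p σ).mpr hσ
    have h1 : σ (δ a) = δ ((δ⁻¹ * σ * δ) a) := by
      rw [← AlgEquiv.mul_apply, ← AlgEquiv.mul_apply]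
      congr 1
      group
    have h2 : om p (δ⁻¹ * σ * δ) = 1 := by
      rw [om_mul, om_mul, hσ1, mul_one, om_inv_mul]
    have h3 : b (δ⁻¹ * σ * δ) = om p δ * b σ := by
      have h4 := hb δ⁻¹ δ
      rw [inv_mul_cancel, hb1] at h4
      rw [hb, hb, hσ1, one_mul, mul_add]
      linear_combination -h4
    have h5 : om p δ * (j * (om p δ * b σ)) = ((m ^ 2 : ℕ) : ZMod p) * (j * b σ) := by
      rw [hom]
      push_cast
      ring
    rw [map_div₀, map_pow, h1, hja _ h2, h3, map_mul, map_zp, hja σ hσ1, mul_pow, zp_pow, h5,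
      mul_div_mul_left _ _ (zp_ne_zero _ _)]
  · intro ℓ hℓ hℓp A hA σ hσ
    have h := htriv σ (hadm.unramified_outside ℓ hℓ hℓp A hA σ hσ)
    rw [hja σ h.1, h.2, mul_zero, zp_zero, one_mul]
  · intro A hA σ hσ hζ
    have h1 := (om_eq_one_iff p σ).mpr hζ
    rw [hja σ h1, hdec A hA σ hσ h1, mul_zero, zp_zero, one_mul]

end Fermat.Agent.S14
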