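import Fermat.Agent.S14.TransDefs
import Fermat.Agent.S13.Minkowski

/-!
# S14, helper file for T2 / T3: valuations of `ℚ̄` above a prime of a number field, and the
ramification lemma `ram` (a generator whose valuation is not in the value group of `K` produces an
inertia element acting non-trivially).
-/

set_option autoImplicit false
set_option linter.style.haveILetI false
set_option linter.unusedSectionVars false

namespace Fermat.Agent.S14

open IsDedekindDomain NumberField Fermat.Agent.S54 Polynomial IntermediateField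
open scoped nonZeroDivisors Pointwise

section Dedekind

variable {R K : Type*} [CommRing R] [IsDedekindDomain R] [Field K] [Algebra R K]
  [IsFractionRing R K]

theorem val_eq_exp_count (v : HeightOneSpectrum R) {x : K} (hx : x ≠ 0) :
    v.valuation K x =
      WithZero.exp (-(FractionalIdeal.count K v (FractionalIdeal.spanSingleton R⁰ x))) := by
  obtain ⟨n, d, hd, rfl⟩ := IsFractionRing.div_surjective (A := R) x
  have hd0 : d ≠ 0 := nonZeroDivisors.ne_zero hd
  have hn0 : n ≠ 0 := by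
    rintro rfl
    simp at hx
  have hI : FractionalIdeal.spanSingleton R⁰ (algebraMap R K n / algebraMap R K d) =
      FractionalIdeal.spanSingleton R⁰ ((algebraMap R K) d)⁻¹ * ↑(Ideal.span {n} : Ideal R) := by
    rw [FractionalIdeal.coeIdeal_span_singleton, FractionalIdeal.spanSingleton_mul_spanSingleton]
    congr 1
    rw [div_eq_mul_inv, mul_comm]
  have h0 : FractionalIdeal.spanSingleton R⁰ (algebraMap R K n / algebraMap R K d) ≠ 0 := by
    rwa [FractionalIdeal.spanSingleton_ne_zero_iff]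
  rw [FractionalIdeal.count_well_defined K v h0 hI, map_div₀, v.valuation_of_algebraMap,
    v.valuation_of_algebraMap, v.intValuation_if_neg hn0, v.intValuation_if_neg hd0,
    ← WithZero.exp_sub]
  congr 1
  ring

theorem exists_pow_eq_of_dvd_count {p : ℕ} {I : FractionalIdeal R⁰ K} (hI : I ≠ 0)
    (h : ∀ v : HeightOneSpectrum R, (p : ℤ) ∣ FractionalIdeal.count K v I) :
    ∃ J : FractionalIdeal R⁰ K, I = J ^ p := by
  classical
  refine ⟨∏ᶠ v : HeightOneSpectrum R,
    (v.asIdeal : FractionalIdeal R⁰ K) ^ (FractionalIdeal.count K v I / (p : ℤ)), ?_⟩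
  have hfin : (Function.mulSupport fun v : HeightOneSpectrum R =>
      (v.asIdeal : FractionalIdeal R⁰ K) ^ (FractionalIdeal.count K v I / (p : ℤ))).Finite := by
    refine (FractionalIdeal.finite_factors I).subset ?_
    intro v hv
    simp only [Function.mem_mulSupport] at hv
    intro h0
    apply hv
    have h0' : FractionalIdeal.count K v I = 0 := h0
    rw [h0']
    simp
  rw [finprod_pow hfin]
  conv_lhs => rw [← FractionalIdeal.finprod_heightOneSpectrum_factorization' K hI]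
  apply finprod_congr
  intro v
  rw [← zpow_natCast, ← zpow_mul, Int.ediv_mul_cancel (h v)]

end Dedekind

noncomputable section

local notation "Zb" => integralClosure ℤ (AlgebraicClosure ℚ)

theorem exists_expansion (F : IntermediateField ℚ Qb) (b : Qb) (q : F[X]) (hq : q.Monic) {n : ℕ}
    (hn : 0 < n) (hqd : q.natDegree = n) (hqb : aeval b q = 0) (x : Qb) (hx : x ∈ F⟮b⟯) :
    ∃ c : ℕ → F, x = ∑ i ∈ Finset.range n, (c i : Qb) * b ^ i := by
  have hb : IsIntegral F b := ⟨q, hq, hqb⟩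
  have h1 : x ∈ F⟮b⟯.toSubalgebra := hx
  rw [IntermediateField.adjoin_simple_toSubalgebra_of_isAlgebraic hb.isAlgebraic,
    Algebra.adjoin_singleton_eq_range_aeval] at h1
  obtain ⟨f, rfl⟩ := h1
  have hq1 : q ≠ 1 := by
    rintro rfl
    simp at hqd
    omega
  refine ⟨fun i => (f %ₘ q).coeff i, ?_⟩
  have h2 : aeval b (f %ₘ q) = aeval b f := aeval_modByMonic_eq_self_of_root hqb
  have h3 : (f %ₘ q).natDegree < n := hqd ▸ natDegree_modByMonic_lt f hq hq1
  change aeval b f = _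
  rw [← h2, aeval_eq_sum_range' h3]
  apply Finset.sum_congr rfl
  intro i _
  rw [Algebra.smul_def]
  rfl

theorem val_le_one_of_sum {Γ : Type*} [LinearOrderedCommGroupWithZero Γ] (w : Valuation Qb Γ)
    (s : Finset ℕ) (T : ℕ → Qb)
    (hT : ∀ i ∈ s, ∀ j ∈ s, T i ≠ 0 → T j ≠ 0 → w (T i) = w (T j) → i = j)
    (hsum : w (∑ i ∈ s, T i) ≤ 1) : ∀ i ∈ s, w (T i) ≤ 1 := by
  classical
  intro i0 hi0
  by_contra hcon
  push Not at hcon
  obtain ⟨i1, hi1, hmax⟩ := Finset.exists_max_image s (fun i => w (T i)) ⟨i0, hi0⟩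
  have h1 : 1 < w (T i1) := lt_of_lt_of_le hcon (hmax i0 hi0)
  have hne : T i1 ≠ 0 := by
    intro h
    rw [h, map_zero] at h1
    exact absurd h1 (by simp)
  have h2 : w (∑ i ∈ s.erase i1, T i) < w (T i1) := by
    apply Valuation.map_sum_lt w (ne_of_gt (lt_trans zero_lt_one h1))
    intro i hi
    rw [Finset.mem_erase] at hi
    rcases (hmax i hi.2).lt_or_eq with h | h
    · exact h
    · exfalso
      have hi0' : T i ≠ 0 := by
        intro h0
        rw [h0, map_zero] at h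
        rw [← h] at h1
        exact absurd h1 (by simp)
      exact hi.1 (hT i hi.2 i1 hi1 hi0' hne h)
  rw [← Finset.add_sum_erase s T hi1, Valuation.map_add_eq_of_lt_left w h2] at hsum
  exact absurd h1 (not_lt.mpr hsum)

theorem fix_adjoin (s : Set Qb) (σ : GQ) (h : ∀ x ∈ s, σ x = x) :
    ∀ y ∈ adjoin ℚ s, σ y = y := by
  intro y hy
  have key : ((σ : Qb →ₐ[ℚ] Qb).comp (adjoin ℚ s).val) = (adjoin ℚ s).val :=
    IntermediateField.adjoin_algHom_ext ℚ (fun x hx => h x hx)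
  exact DFunLike.congr_fun key ⟨y, hy⟩


variable (F : IntermediateField ℚ Qb) [NumberField F]

/-- the inclusion `𝓞 F → ℤ̄`. -/
def iotaZ : 𝓞 F →+* Zb where
  toFun y := ⟨((y : F) : Qb), by
    have h := y.2
    exact h.map (IsScalarTower.toAlgHom ℤ F Qb)⟩
  map_one' := rfl
  map_mul' _ _ := rfl
  map_zero' := rfl
  map_add' _ _ := rfl

theorem coe_iotaZ (y : 𝓞 F) : ((iotaZ F y : Zb) : Qb) = ((y : F) : Qb) := rfl

theorem iotaZ_injective : Function.Injective (iotaZ F) := by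
  intro x y h
  have := congrArg (fun z : Zb => (z : Qb)) h
  simp only [coe_iotaZ] at this
  exact RingOfIntegers.ext (Subtype.ext this)

/-- a prime of `ℤ̄` above a given prime of `𝓞 F`. -/
theorem exists_prime_over (v : HeightOneSpectrum (𝓞 F)) :
    ∃ Q : Ideal Zb, Q.IsPrime ∧ Q.comap (iotaZ F) = v.asIdeal := by
  letI : Algebra (𝓞 F) Zb := (iotaZ F).toAlgebra
  haveI : Algebra.IsIntegral (𝓞 F) Zb := ⟨fun x => by
    have hx : IsIntegral ℤ x := Algebra.IsIntegral.isIntegral x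
    exact hx.tower_top⟩
  haveI := v.isPrime
  obtain ⟨Q, hQ1, hQ2⟩ := Ideal.exists_ideal_over_prime_of_isIntegral (S := Zb) v.asIdeal
    (⊥ : Ideal Zb) (by
      change Ideal.comap (iotaZ F) ⊥ ≤ _
      rw [Ideal.comap_bot_of_injective _ (iotaZ_injective F)]
      exact bot_le)
  exact ⟨Q, hQ2.1, hQ2.2⟩

/-- the residue characteristic. -/
theorem exists_prime_mem (v : HeightOneSpectrum (𝓞 F)) :
    ∃ ℓ : ℕ, ℓ.Prime ∧ (ℓ : 𝓞 F) ∈ v.asIdeal := by
  haveI := v.isPrime
  have h1 : ((Ideal.absNorm v.asIdeal : ℕ) : 𝓞 F) ∈ v.asIdeal := Ideal.absNorm_mem _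
  have h2 : Ideal.absNorm v.asIdeal ≠ 1 := by
    rw [Ne, Ideal.absNorm_eq_one_iff]
    exact v.isPrime.ne_top
  have h3 : Ideal.absNorm v.asIdeal ≠ 0 := by
    rw [Ne, Ideal.absNorm_eq_zero_iff]
    exact v.ne_bot
  generalize Ideal.absNorm v.asIdeal = N at h1 h2 h3
  induction N using Nat.strong_induction_on with
  | _ N ih =>
    obtain ⟨q, hq, m, rfl⟩ := Nat.exists_prime_and_dvd h2
    rw [Nat.cast_mul] at h1
    rcases v.isPrime.mem_or_mem h1 with h | h
    · exact ⟨q, hq, h⟩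
    · have hm0 : m ≠ 0 := by rintro rfl; simp at h3
      have hm1 : m ≠ 1 := by
        rintro rfl
        apply v.isPrime.ne_top
        rw [Ideal.eq_top_iff_one]
        simpa using h
      exact ih m (by nlinarith [hq.two_le, Nat.pos_of_ne_zero hm0]) h hm1 hm0


section Val

variable {F}
variable {v : HeightOneSpectrum (𝓞 F)} {ℓ : ℕ} {hℓ : ℓ.Prime} {Q : Ideal Zb} [Q.IsPrime]
  {hℓQ : (ℓ : Zb) ∈ Q} (hQv : Q.comap (iotaZ F) = v.asIdeal)

theorem coe_mem_loc (y : Zb) : (y : Qb) ∈ locValuationSubring ℓ hℓ Q hℓQ :=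
  ⟨y, 1, fun h => (Ideal.IsPrime.ne_top inferInstance) ((Ideal.eq_top_iff_one Q).mpr h), by simp⟩

theorem wval_coe_le_one (y : Zb) : (locValuationSubring ℓ hℓ Q hℓQ).valuation (y : Qb) ≤ 1 :=
  (ValuationSubring.valuation_le_one_iff _ _).mpr (coe_mem_loc y)

theorem wval_coe_lt_one_iff (y : Zb) :
    (locValuationSubring ℓ hℓ Q hℓQ).valuation (y : Qb) < 1 ↔ y ∈ Q := by
  constructor
  · intro h
    by_contra hy
    have hy0 : (y : Qb) ≠ 0 := by
      intro h0
      apply hy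
      have : y = 0 := Subtype.ext h0
      rw [this]; exact Q.zero_mem
    have h1 : ((y : Qb))⁻¹ ∈ locValuationSubring ℓ hℓ Q hℓQ :=
      ⟨1, y, hy, by rw [inv_mul_cancel₀ hy0]; rfl⟩
    have h2 := (ValuationSubring.valuation_le_one_iff _ _).mpr h1
    rw [map_inv₀] at h2
    have h3 : (locValuationSubring ℓ hℓ Q hℓQ).valuation (y : Qb) ≠ 0 := by
      rwa [Ne, map_eq_zero]
    have h4 := (inv_le_one₀ (zero_lt_iff.mpr h3)).mp h2
    exact absurd h (not_lt.mpr h4)
  · intro h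
    have := coe_mem_nonunits_loc (hℓ := hℓ) (hℓQ := hℓQ) h
    exact this

include hQv in
theorem wval_int_lt_one_iff (y : 𝓞 F) :
    (locValuationSubring ℓ hℓ Q hℓQ).valuation (((y : F) : Qb)) < 1 ↔ y ∈ v.asIdeal := by
  rw [← hQv, Ideal.mem_comap, ← wval_coe_lt_one_iff (hℓ := hℓ) (hℓQ := hℓQ), coe_iotaZ]

include hQv in
theorem wval_int_eq_one {y : 𝓞 F} (hy : y ∉ v.asIdeal) :
    (locValuationSubring ℓ hℓ Q hℓQ).valuation (((y : F) : Qb)) = 1 := by
  have h1 := wval_coe_le_one (hℓ := hℓ) (hℓQ := hℓQ) (iotaZ F y)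
  rw [coe_iotaZ] at h1
  rcases h1.lt_or_eq with h | h
  · exact absurd ((wval_int_lt_one_iff hQv y).mp h) hy
  · exact h

include hQv in
theorem wval_le_one_of {x : F} (hx : v.valuation F x ≤ 1) :
    (locValuationSubring ℓ hℓ Q hℓQ).valuation (x : Qb) ≤ 1 := by
  obtain ⟨n, d, hnd⟩ := v.exists_primeCompl_mul_eq_of_integer x hx
  have h1 : (x : Qb) * (((d : 𝓞 F) : F) : Qb) = (((n : 𝓞 F) : F) : Qb) :=
    congrArg (fun z : F => (z : Qb)) hnd
  have h2 := congrArg (locValuationSubring ℓ hℓ Q hℓQ).valuation h1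
  rw [map_mul, wval_int_eq_one hQv d.2, mul_one] at h2
  rw [h2]
  exact wval_coe_le_one (iotaZ F n)

include hQv in
theorem wval_lt_one_of {x : F} (hx : v.valuation F x < 1) :
    (locValuationSubring ℓ hℓ Q hℓQ).valuation (x : Qb) < 1 := by
  obtain ⟨n, d, hnd⟩ := v.exists_primeCompl_mul_eq_of_integer x hx.le
  have h1 : (x : Qb) * (((d : 𝓞 F) : F) : Qb) = (((n : 𝓞 F) : F) : Qb) :=
    congrArg (fun z : F => (z : Qb)) hnd
  have h2 := congrArg (locValuationSubring ℓ hℓ Q hℓQ).valuation h1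
  rw [map_mul, wval_int_eq_one hQv d.2, mul_one] at h2
  rw [h2, wval_int_lt_one_iff hQv, ← v.valuation_lt_one_iff_mem (K := F)]
  change v.valuation F (algebraMap (𝓞 F) F n) < 1
  rw [← hnd, map_mul]
  have h3 : v.valuation F (algebraMap (𝓞 F) F d) = 1 :=
    (v.valuation_eq_one_iff_notMem).mpr d.2
  rw [h3, mul_one]
  exact hx

include hQv in
theorem wval_eq_one_of {x : F} (hx : v.valuation F x = 1) :
    (locValuationSubring ℓ hℓ Q hℓQ).valuation (x : Qb) = 1 := by
  have hx0 : x ≠ 0 := by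
    rintro rfl
    simp at hx
  apply le_antisymm (wval_le_one_of hQv hx.le)
  have h1 : v.valuation F x⁻¹ ≤ 1 := by rw [map_inv₀, hx, inv_one]
  have h2 := wval_le_one_of (hℓ := hℓ) (hℓQ := hℓQ) hQv h1
  have h3 : ((x⁻¹ : F) : Qb) = ((x : F) : Qb)⁻¹ := rfl
  rw [h3, map_inv₀] at h2
  have h4 : (locValuationSubring ℓ hℓ Q hℓQ).valuation (x : Qb) ≠ 0 := by
    rw [Ne, map_eq_zero]
    exact_mod_cast hx0
  exact (inv_le_one₀ (zero_lt_iff.mpr h4)).mp h2

include hQv in
/-- the restriction of `w` to `F` is `g ^ ord_v`. -/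
theorem exists_wval_eq :
    ∃ g : (locValuationSubring ℓ hℓ Q hℓQ).ValueGroup, g ≠ 0 ∧ g < 1 ∧
      ∀ (x : F) (n : ℤ), v.valuation F x = WithZero.exp (-n) →
        (locValuationSubring ℓ hℓ Q hℓQ).valuation (x : Qb) = g ^ n := by
  obtain ⟨ϖ, hϖ⟩ := v.valuation_exists_uniformizer F
  have hϖ0 : ϖ ≠ 0 := by
    rintro rfl
    rw [map_zero] at hϖ
    exact WithZero.exp_ne_zero hϖ.symm
  have hϖQ : ((ϖ : F) : Qb) ≠ 0 := by exact_mod_cast hϖ0
  refine ⟨(locValuationSubring ℓ hℓ Q hℓQ).valuation (ϖ : Qb), ?_, ?_, ?_⟩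
  · rwa [Ne, map_eq_zero]
  · apply wval_lt_one_of hQv
    rw [hϖ]
    rw [← WithZero.exp_zero, WithZero.exp_lt_exp]
    norm_num
  · intro x n hx
    have h1 : v.valuation F (x * (ϖ ^ n)⁻¹) = 1 := by
      rw [map_mul, map_inv₀, map_zpow₀, hx, hϖ, ← WithZero.exp_zsmul]
      simp
    have h2 := wval_eq_one_of (hℓ := hℓ) (hℓQ := hℓQ) hQv h1
    have h3 : ((x * (ϖ ^ n)⁻¹ : F) : Qb) = (x : Qb) * (((ϖ : F) : Qb) ^ n)⁻¹ := by
      push_cast
      rfl
    rw [h3, map_mul, map_inv₀, map_zpow₀] at h2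
    have h4 : (locValuationSubring ℓ hℓ Q hℓQ).valuation (ϖ : Qb) ^ n ≠ 0 :=
      zpow_ne_zero _ (by rwa [Ne, map_eq_zero])
    exact (mul_inv_eq_one₀ h4).mp h2

end Val


section Ram

variable {p : ℕ} [Fact p.Prime]

attribute [local instance] isAlgClosure_Qbar isAlgebraic_int_Qbar isFractionRing_Zbar

theorem map_zeta_eq_pow (δ : GQ) : ∃ i : ℕ, δ (zetaQb p) = zetaQb p ^ i := by
  have h : (δ (zetaQb p)) ^ p = 1 := by rw [← map_pow, (zetaQb_prim p).pow_eq_one, map_one]
  obtain ⟨i, -, hi⟩ := (zetaQb_prim p).eq_pow_of_pow_eq_one h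
  exact ⟨i, hi.symm⟩

theorem stable_adjoin (a : Qb) (hgal : ∀ δ : GQ, δ a ∈ adjoin ℚ {zetaQb p, a}) (δ : GQ) :
    ∀ y ∈ adjoin ℚ {zetaQb p, a}, δ y ∈ adjoin ℚ {zetaQb p, a} := by
  intro y hy
  have h1 : (adjoin ℚ {zetaQb p, a}).map (δ : Qb →ₐ[ℚ] Qb) ≤ adjoin ℚ {zetaQb p, a} := by
    rw [IntermediateField.adjoin_map, IntermediateField.adjoin_le_iff]
    rintro _ ⟨x, hx, rfl⟩
    rcases hx with rfl | rfl
    · obtain ⟨i, hi⟩ := map_zeta_eq_pow (p := p) δ
      change δ (zetaQb p) ∈ _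
      rw [hi]
      exact pow_mem (subset_adjoin _ _ (by simp)) _
    · exact hgal δ
  exact h1 ⟨y, hy, rfl⟩

theorem normal_fixing (a : Qb) (hgal : ∀ δ : GQ, δ a ∈ adjoin ℚ {zetaQb p, a}) :
    (adjoin ℚ {zetaQb p, a}).fixingSubgroup.Normal := ⟨fun n hn g => by
  rw [IntermediateField.mem_fixingSubgroup_iff] at hn ⊢
  intro y hy
  have h1 := stable_adjoin a hgal g⁻¹ y hy
  have h2 := hn _ h1
  change g (n (g⁻¹ y)) = y
  rw [h2]
  exact g.apply_symm_apply y⟩

theorem fix_KQ (σ : GQ) (hσ : σ (zetaQb p) = zetaQb p) (c : KQ p) : σ (c : Qb) = c :=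
  fix_adjoin {zetaQb p} σ (by rintro x rfl; exact hσ) c c.2

/-- **Ramification lemma.** -/
theorem ram (a b : Qb) (σ : GQ) (hσζ : σ (zetaQb p) = zetaQb p)
    (hgal : ∀ δ : GQ, δ a ∈ adjoin ℚ {zetaQb p, a})
    (q : (KQ p)[X]) (hq : q.Monic) (hqd : q.natDegree = p) (hqb : aeval b q = 0)
    (hab : a ∈ (KQ p)⟮b⟯)
    (v : HeightOneSpectrum (𝓞 (KQ p))) (ℓ : ℕ) (hℓ : ℓ.Prime) (Q : Ideal Zb) [Q.IsPrime]
    (hℓQ : (ℓ : Zb) ∈ Q) (hQv : Q.comap (iotaZ (KQ p)) = v.asIdeal)
    (β : KQ p) (j : ℤ) (hβv : v.valuation (KQ p) β = WithZero.exp (-j)) (hj : ¬ (p : ℤ) ∣ j)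
    (hbβ : (locValuationSubring ℓ hℓ Q hℓQ).valuation b ^ p =
      (locValuationSubring ℓ hℓ Q hℓQ).valuation (β : Qb))
    (hσb : (locValuationSubring ℓ hℓ Q hℓQ).valuation (σ b) =
      (locValuationSubring ℓ hℓ Q hℓQ).valuation b) :
    ∃ h : GQ, h (zetaQb p) = zetaQb p ∧ h a = a ∧
      h * σ ∈ (locValuationSubring ℓ hℓ Q hℓQ).inertiaSubgroupIn ℚ := by
  have hp : p.Prime := Fact.out
  set w := (locValuationSubring ℓ hℓ Q hℓQ).valuation with hw
  obtain ⟨g, hg0, hg1, hgw⟩ := exists_wval_eq (hℓ := hℓ) (hℓQ := hℓQ) hQv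
  have ht : w b ^ p = g ^ j := by rw [hbβ, hgw β j hβv]
  have key : ∀ (c c' : KQ p) (i i' : ℕ), c ≠ 0 → c' ≠ 0 → i < p → i' < p →
      w ((c : Qb) * b ^ i) = w ((c' : Qb) * b ^ i') → i = i' := by
    intro c c' i i' hc hc' hi hi' h
    have h1 := hgw c _ (val_eq_exp_count v hc)
    have h2 := hgw c' _ (val_eq_exp_count v hc')
    rw [map_mul, map_mul, map_pow, map_pow, h1, h2] at h
    have h3 := congrArg (· ^ p) h
    simp only [mul_pow] at h3
    rw [← pow_mul (w b), ← pow_mul (w b), mul_comm i p, mul_comm i' p, pow_mul, pow_mul, ht,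
      ← zpow_natCast, ← zpow_natCast, ← zpow_natCast, ← zpow_natCast, ← zpow_mul, ← zpow_mul,
      ← zpow_mul, ← zpow_mul, ← zpow_add₀ hg0, ← zpow_add₀ hg0] at h3
    have h4 := zpow_right_injective₀ (zero_lt_iff.mpr hg0) hg1.ne h3
    have h5 : (p : ℤ) ∣ j * ((i : ℤ) - i') := by
      refine ⟨FractionalIdeal.count (KQ p) v (FractionalIdeal.spanSingleton (𝓞 (KQ p))⁰ c') -
        FractionalIdeal.count (KQ p) v (FractionalIdeal.spanSingleton (𝓞 (KQ p))⁰ c), ?_⟩
      linear_combination h4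
    have h6 : (p : ℤ) ∣ (i : ℤ) - i' :=
      ((Nat.prime_iff_prime_int.mp hp).dvd_or_dvd h5).resolve_left hj
    have h7 : (i : ℤ) - i' = 0 := by
      apply Int.eq_zero_of_abs_lt_dvd h6
      rw [abs_lt]
      constructor <;> omega
    omega
  have hγ : ∀ x : Zb, (∀ h ∈ (adjoin ℚ {zetaQb p, a}).fixingSubgroup, h • x = x) →
      σ • x - x ∈ Q := by
    intro x hx
    have hxL : (x : Qb) ∈ adjoin ℚ {zetaQb p, a} := by
      rw [← InfiniteGalois.fixedField_fixingSubgroup (adjoin ℚ {zetaQb p, a}),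
        IntermediateField.mem_fixedField_iff]
      intro h hh
      exact congrArg Subtype.val (hx h hh)
    have hxb : (x : Qb) ∈ (KQ p)⟮b⟯ := by
      have hle : adjoin ℚ {zetaQb p, a} ≤ ((KQ p)⟮b⟯).restrictScalars ℚ := by
        rw [adjoin_le_iff]
        rintro y (rfl | rfl)
        · exact (KQ p)⟮b⟯.algebraMap_mem (zK p)
        · exact hab
      exact hle hxL
    obtain ⟨c, hc⟩ := exists_expansion (KQ p) b q hq hp.pos hqd hqb x hxb
    have hle : ∀ i ∈ Finset.range p, w ((c i : Qb) * b ^ i) ≤ 1 := by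
      apply val_le_one_of_sum w (Finset.range p) (fun i => (c i : Qb) * b ^ i)
      · intro i hi i' hi' h1 h2 h3
        have hc1 : c i ≠ 0 := by
          rintro h0
          apply h1
          simp [h0]
        have hc2 : c i' ≠ 0 := by
          rintro h0
          apply h2
          simp [h0]
        exact key _ _ i i' hc1 hc2 (Finset.mem_range.mp hi) (Finset.mem_range.mp hi') h3
      · rw [← hc]
        exact wval_coe_le_one x
    have hlt : ∀ i ∈ Finset.range p, i ≠ 0 → w ((c i : Qb) * b ^ i) < 1 := by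
      intro i hi hi0
      by_cases hc0 : c i = 0
      · simp [hc0]
      · rcases (hle i hi).lt_or_eq with h | h
        · exact h
        · exfalso
          apply hi0
          apply key (c i) 1 i 0 hc0 one_ne_zero (Finset.mem_range.mp hi) hp.pos
          rw [h]
          simp
    rw [← wval_coe_lt_one_iff (hℓ := hℓ) (hℓQ := hℓQ)]
    change w (σ (x : Qb) - x) < 1
    rw [hc, map_sum, ← Finset.sum_sub_distrib]
    apply Valuation.map_sum_lt w one_ne_zero
    intro i hi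
    rw [map_mul, map_pow, fix_KQ σ hσζ]
    by_cases hi0 : i = 0
    · subst hi0
      simp
    · apply lt_of_le_of_lt (w.map_sub _ _) (max_lt ?_ ?_)
      · rw [map_mul, map_pow, hσb, ← map_pow, ← map_mul]
        exact hlt i hi hi0
      · exact hlt i hi hi0
  letI : TopologicalSpace Zb := ⊥
  haveI : DiscreteTopology Zb := ⟨rfl⟩
  haveI : ContinuousSMul GQ Zb := by
    rw [continuousSMul_iff_stabilizer_isOpen]
    intro x
    have := stabilizer_isOpen_of_isIntegral (K := ℚ) (L := Qb) (x : Qb)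
    convert this using 1
    ext g
    simp only [SetLike.mem_coe, MulAction.mem_stabilizer_iff]
    constructor
    · intro h; exact congrArg Subtype.val h
    · intro h; exact Subtype.ext h
  haveI := normal_fixing a hgal
  obtain ⟨h, hh, hx⟩ := Fermat.Agent.S13.Minkowski.exists_mul_mem_inertia
    (adjoin ℚ {zetaQb p, a}).fixingSubgroup
    (InfiniteGalois.fixingSubgroup_isClosed _) Q σ hγ
  rw [IntermediateField.mem_fixingSubgroup_iff] at hh
  exact ⟨h, hh _ (subset_adjoin _ _ (by simp)), hh _ (subset_adjoin _ _ (by simp)),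
    Fermat.Agent.S13.Minkowski.mem_inertiaSubgroupIn_loc ℓ hℓ Q hℓQ (h * σ) hx⟩

end Ram

end

end Fermat.Agent.S14
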