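import Fermat.Agent.S14.TransDefs
import Fermat.Agent.S14.TransRam

/-!
# S14 piece T2: unramified outside `p` (+ primary at `p`) ⇒ `(α)` is a `p`-th power of an ideal

It suffices: `p ∣ v_𝔯(α)` for every prime `𝔯` of `𝓞 K` (`exists_pow_eq_of_dvd_count`).
`𝔯 = (ζ-1)`: from `Primary`: `α b = y^p (b + π³ a)`, `π ∤ b`, so `v(α) = p v(y)`.
`𝔯 ∣ ℓ ≠ p`: if `p ∤ v_𝔯(α)` the ramification lemma `ram` (file `TransRam.lean`) produces an element of
an inertia group above `ℓ` which moves `a`.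
-/

set_option autoImplicit false
set_option linter.style.haveILetI false

namespace Fermat.Agent.S14

open IsDedekindDomain NumberField Fermat.Agent.S54 Polynomial IntermediateField
open scoped nonZeroDivisors

local notation "Zb" => integralClosure ℤ (AlgebraicClosure ℚ)

theorem wval_zeta {p : ℕ} [Fact p.Prime] (A : ValuationSubring Qb) :
    A.valuation (zetaQb p) = 1 := by
  have hp : p.Prime := Fact.out
  have h : A.valuation (zetaQb p) ^ p = 1 := by
    rw [← map_pow, (zetaQb_prim p).pow_eq_one, map_one]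
  exact (pow_eq_one_iff_of_nonneg zero_le hp.ne_zero).mp h

theorem asIdeal_eq_span {p : ℕ} [Fact p.Prime] (v : HeightOneSpectrum (𝓞 (KQ p)))
    (hpv : (p : 𝓞 (KQ p)) ∈ v.asIdeal) :
    v.asIdeal = Ideal.span {(zK_prim p).toInteger - 1} := by
  have hp : p.Prime := Fact.out
  have hpp : Prime (p : ℤ) := Nat.prime_iff_prime_int.mp hp
  haveI := v.isPrime
  haveI : v.asIdeal.LiesOver (Ideal.span {(p : ℤ)}) :=
    (Ideal.liesOver_span_iff Ideal.IsPrime.ne_top' hpp).mpr (by simpa using hpv)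
  exact IsCyclotomicExtension.Rat.eq_span_zeta_sub_one_of_liesOver' p (KQ p) (zK_prim p) v.asIdeal

theorem singular_of_unramified {p : ℕ} [Fact p.Prime] (a : Qb) (ha : a ≠ 0) (α : KQ p)
    (hα : (α : Qb) = a ^ p)
    (hkum : ∀ σ : GQ, σ (zetaQb p) = zetaQb p → ∃ k : ℕ, σ a = zetaQb p ^ k * a)
    (hgal : ∀ δ : GQ, δ a ∈ IntermediateField.adjoin ℚ {zetaQb p, a})
    (hunr : ∀ ℓ : ℕ, ℓ.Prime → ℓ ≠ p → ∀ A : ValuationSubring Qb, A.LiesOverPrime ℓ →
        ∀ σ ∈ A.inertiaSubgroupIn ℚ, σ a = a)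
    (hprim : Primary (zK_prim p) α) :
    Singular p α := by
  have hp : p.Prime := Fact.out
  have hα0 : α ≠ 0 := by
    rintro rfl
    exact pow_ne_zero p ha hα.symm
  apply exists_pow_eq_of_dvd_count
    ((FractionalIdeal.spanSingleton_ne_zero_iff).mpr hα0)
  intro v
  by_cases hpv : (p : 𝓞 (KQ p)) ∈ v.asIdeal
  · obtain ⟨y, a', b', hy, hb', h⟩ := hprim
    have hv := asIdeal_eq_span v hpv
    have hb1 : b' ∉ v.asIdeal := by
      rw [hv, Ideal.mem_span_singleton]
      exact hb'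
    have hb2 : b' + ((zK_prim p).toInteger - 1) ^ 3 * a' ∉ v.asIdeal := by
      intro hmem
      apply hb1
      have h1 : ((zK_prim p).toInteger - 1) ^ 3 * a' ∈ v.asIdeal := by
        rw [hv]
        apply Ideal.mul_mem_right
        exact Ideal.pow_mem_of_mem _ (Ideal.mem_span_singleton_self _) 3 (by norm_num)
      have := v.asIdeal.sub_mem hmem h1
      simpa using this
    have h2 : α * ((b' : 𝓞 (KQ p)) : KQ p) =
        y ^ p * ((b' + ((zK_prim p).toInteger - 1) ^ 3 * a' : 𝓞 (KQ p)) : KQ p) := by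
      have e : (((zK_prim p).toInteger : 𝓞 (KQ p)) : KQ p) = zK p := rfl
      have e2 : ((b' + ((zK_prim p).toInteger - 1) ^ 3 * a' : 𝓞 (KQ p)) : KQ p) =
          (b' : KQ p) + (zK p - 1) ^ 3 * (a' : KQ p) := by
        push_cast
        rfl
      rw [e2]
      linear_combination h
    have h3 := congrArg (v.valuation (KQ p)) h2
    rw [map_mul, map_mul, map_pow, (v.valuation_eq_one_iff_notMem).mpr hb1,
      (v.valuation_eq_one_iff_notMem).mpr hb2, mul_one, mul_one, val_eq_exp_count v hα0,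
      val_eq_exp_count v hy, ← WithZero.exp_nsmul, WithZero.exp_inj] at h3
    refine ⟨FractionalIdeal.count (KQ p) v (FractionalIdeal.spanSingleton (𝓞 (KQ p))⁰ y), ?_⟩
    rw [nsmul_eq_mul] at h3
    linarith
  · by_contra hdiv
    by_cases hex : ∃ σ : GQ, σ (zetaQb p) = zetaQb p ∧ σ a ≠ a
    · obtain ⟨σ, hσζ, hσa⟩ := hex
      obtain ⟨Q, hQ, hQv⟩ := exists_prime_over (KQ p) v
      obtain ⟨ℓ, hℓ, hℓv⟩ := exists_prime_mem (KQ p) v
      have hℓQ : (ℓ : Zb) ∈ Q := by
        rw [← hQv, Ideal.mem_comap, map_natCast] at hℓv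
        exact hℓv
      have hℓp : ℓ ≠ p := by
        rintro rfl
        exact hpv hℓv
      obtain ⟨k, hk⟩ := hkum σ hσζ
      obtain ⟨h, hhζ, hha, hin⟩ := ram a a σ hσζ hgal (X ^ p - C α)
        (monic_X_pow_sub_C α hp.ne_zero) (natDegree_X_pow_sub_C) (by
          simp only [map_sub, map_pow, aeval_X, aeval_C]
          rw [sub_eq_zero, ← hα]
          rfl) (mem_adjoin_simple_self _ a) v ℓ hℓ Q hℓQ hQv α _ (val_eq_exp_count v hα0) hdiv
        (by rw [← map_pow, hα]) (by rw [hk, map_mul, map_pow, wval_zeta, one_pow, one_mul])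
      have hA : (locValuationSubring ℓ hℓ Q hℓQ).LiesOverPrime ℓ := by
        have := coe_mem_nonunits_loc (hℓ := hℓ) (hℓQ := hℓQ) hℓQ
        simpa [ValuationSubring.LiesOverPrime] using this
      have h1 := hunr ℓ hℓ hℓp _ hA _ hin
      apply hσa
      have h2 : (h * σ) a = h (σ a) := rfl
      rw [h2, hk, map_mul, map_pow, hhζ, hha, ← hk] at h1
      exact h1
    · push Not at hex
      have hK := mem_KQ_of_fixed p a hex
      apply hdiv
      have h1 : α = (⟨a, hK⟩ : KQ p) ^ p := Subtype.ext hα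
      rw [h1, ← FractionalIdeal.spanSingleton_pow, FractionalIdeal.count_pow]
      exact Dvd.intro _ rfl

end Fermat.Agent.S14
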