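import Mathlib

/-!
# S14 piece T3, abstract part: the decomposition field is dense

`G` a profinite group acting continuously on a discrete commutative ring `B`, `H ≤ Γ ≤ G` with `H`
closed of finite index in `Γ`, `Q` a maximal ideal of `B` whose stabiliser in `Γ` is contained in
`H`, `J` an ideal with `Q ≤ J.radical`.  Then every `H`-invariant `x` is congruent modulo `J` to a
`Γ`-invariant `y`.
-/

set_option autoImplicit false
set_option linter.unusedSectionVars false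

namespace Fermat.Agent.S14

open scoped Pointwise

namespace Approx

variable {G B : Type*} [Group G] [CommRing B] [MulSemiringAction G B]
  [TopologicalSpace G] [CompactSpace G] [TotallyDisconnectedSpace G] [IsTopologicalGroup G]
  [TopologicalSpace B] [DiscreteTopology B] [ContinuousSMul G B]

/-- transitivity of a closed subgroup `H` on the primes above a prime of `B^H`. -/
theorem exists_smul_eq (H : Subgroup G) (hH : IsClosed (H : Set G))
    (P Q : Ideal B) [P.IsPrime] [Q.IsPrime]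
    (hPQ : ∀ x : B, (∀ h ∈ H, h • x = x) → (x ∈ P ↔ x ∈ Q)) :
    ∃ h ∈ H, Q = h • P := by
  have : CompactSpace H := isCompact_iff_compactSpace.mp hH.isCompact
  let A := FixedPoints.subalgebra ℤ B H
  have hAmem : ∀ a : A, ∀ h ∈ H, h • (a : B) = a := fun a h hh => a.2 ⟨h, hh⟩
  have : SMulCommClass H A B := ⟨fun h a b => by
    change h • ((a : B) * b) = (a : B) * h • b
    rw [smul_mul', a.2 h]⟩
  have : Algebra.IsInvariant A B H := ⟨fun b hb => ⟨⟨b, hb⟩, rfl⟩⟩
  have hunder : P.under A = Q.under A := by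
    ext a
    simp only [Ideal.under_def, Ideal.mem_comap]
    exact hPQ a (hAmem a)
  obtain ⟨h, hh⟩ := Algebra.IsInvariant.exists_smul_of_under_eq_of_profinite (A := A) (G := H)
    P Q hunder
  exact ⟨h, h.2, hh⟩

theorem isMaximal_smul (g : G) (Q : Ideal B) [hQ : Q.IsMaximal] : (g • Q).IsMaximal := by
  rw [Ideal.pointwise_smul_def]
  exact hQ.map_bijective (f := MulSemiringAction.toRingHom G B g)
    (MulSemiringAction.toRingEquiv G B g).bijective

theorem exists_invariant_sub_mem (Γ H : Subgroup G) (hH : IsClosed (H : Set G)) (hHΓ : H ≤ Γ)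
    [Finite (Γ ⧸ H.subgroupOf Γ)]
    (Q : Ideal B) [Q.IsMaximal] (hstab : ∀ g ∈ Γ, g • Q = Q → g ∈ H)
    (J : Ideal B) (hJ : Q ≤ J.radical) (x : B) (hx : ∀ h ∈ H, h • x = x) :
    ∃ y : B, (∀ g ∈ Γ, g • y = y) ∧ y - x ∈ J := by
  classical
  have : CompactSpace H := isCompact_iff_compactSpace.mp hH.isCompact
  let R := FixedPoints.subalgebra ℤ B H
  have hRmem : ∀ a : R, ∀ h ∈ H, h • (a : B) = a := fun a h hh => a.2 ⟨h, hh⟩
  have : SMulCommClass H R B := ⟨fun h a b => by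
    change h • ((a : B) * b) = (a : B) * h • b
    rw [smul_mul', a.2 h]⟩
  have : Algebra.IsInvariant R B H := ⟨fun b hb => ⟨⟨b, hb⟩, rfl⟩⟩
  have hint : Algebra.IsIntegral R B := Algebra.IsInvariant.isIntegral_of_profinite (G := H)
  have hmax : ∀ g : G, (g • Q).IsMaximal := fun g => isMaximal_smul g Q
  have hmaxR : ∀ g : G, ((g • Q).under R).IsMaximal := fun g => by
    have := hmax g
    exact Ideal.isMaximal_comap_of_isIntegral_of_isMaximal (R := R) (g • Q)
  -- a maximal ideal containing `(g • J) ∩ R` is `(g • Q) ∩ R`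
  have hle : ∀ (g : G) (M : Ideal R), M.IsMaximal → (g • J).under R ≤ M → (g • Q).under R = M := by
    intro g M hM hJM
    refine (hmaxR g).eq_of_le hM.ne_top fun r hr => ?_
    have hr' : g⁻¹ • (r : B) ∈ Q := by
      have : (r : B) ∈ g • Q := hr
      rwa [Ideal.mem_pointwise_smul_iff_inv_smul_mem] at this
    obtain ⟨n, hn⟩ := hJ hr'
    have h1 : r ^ n ∈ (g • J).under R := by
      change ((r ^ n : R) : B) ∈ g • J
      rw [Ideal.mem_pointwise_smul_iff_inv_smul_mem]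
      push_cast
      rwa [smul_pow']
    exact hM.isPrime.mem_of_pow_mem n (hJM h1)
  have hcop : ∀ g ∈ Γ, g ∉ H → IsCoprime (J.under R) ((g⁻¹ • J).under R) := by
    intro g hgΓ hgH
    rw [Ideal.isCoprime_iff_sup_eq]
    by_contra hne
    obtain ⟨M, hM, hle'⟩ := Ideal.exists_le_maximal _ hne
    have h1 := hle 1 M hM (by rw [one_smul]; exact le_sup_left.trans hle')
    have h2 := hle g⁻¹ M hM (le_sup_right.trans hle')
    rw [one_smul] at h1
    have := (hmax g⁻¹).isPrime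
    obtain ⟨h, hhH, hh⟩ := exists_smul_eq H hH (g⁻¹ • Q) Q (fun z hz => by
      have h3 : (⟨z, fun h => hz h h.2⟩ : R) ∈ (g⁻¹ • Q).under R ↔
          (⟨z, fun h => hz h h.2⟩ : R) ∈ Q.under R := by rw [h1, h2]
      exact h3)
    rw [← mul_smul] at hh
    have h4 := hstab (h * g⁻¹) (Γ.mul_mem (hHΓ hhH) (Γ.inv_mem hgΓ)) hh.symm
    apply hgH
    have h5 : g⁻¹ ∈ H := by
      have := H.mul_mem (H.inv_mem hhH) h4
      rwa [inv_mul_cancel_left] at this
    simpa using H.inv_mem h5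
  have := Fintype.ofFinite (Γ ⧸ H.subgroupOf Γ)
  set c₀ : Γ ⧸ H.subgroupOf Γ := ((1 : Γ) : Γ ⧸ H.subgroupOf Γ) with hc₀
  have hout : ∀ c : Γ ⧸ H.subgroupOf Γ, ((c.out : Γ) : G) ∈ H ↔ c = c₀ := by
    intro c
    rw [hc₀, ← QuotientGroup.out_eq' c, QuotientGroup.eq, mul_one, QuotientGroup.out_eq' c,
      Subgroup.inv_mem_iff, Subgroup.mem_subgroupOf]
  have hcop' : IsCoprime (J.under R)
      (∏ c ∈ Finset.univ.erase c₀, ((((c.out : Γ) : G)⁻¹ • J).under R)) :=
    IsCoprime.prod_right fun c hc =>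
      hcop _ (c.out : Γ).2 (fun h => (Finset.ne_of_mem_erase hc) ((hout c).mp h))
  obtain ⟨u, hu, e, he, hue⟩ := Ideal.isCoprime_iff_exists.mp hcop'
  have he' : ∀ c, c ≠ c₀ → ((c.out : Γ) : G) • (e : B) ∈ J := by
    intro c hc
    have h1 : e ∈ ((((c.out : Γ) : G)⁻¹ • J).under R) :=
      (Ideal.prod_le_inf.trans (Finset.inf_le (Finset.mem_erase.mpr ⟨hc, Finset.mem_univ c⟩))) he
    have h2 : (e : B) ∈ ((c.out : Γ) : G)⁻¹ • J := h1
    rwa [Ideal.mem_pointwise_smul_iff_inv_smul_mem, inv_inv] at h2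
  set w : B := (e : B) * x with hw
  have hwH : ∀ h ∈ H, h • w = w := fun h hh => by
    rw [hw, smul_mul', hRmem e h hh, hx h hh]
  refine ⟨∑ c : Γ ⧸ H.subgroupOf Γ, ((c.out : Γ) : G) • w, fun τ hτ => ?_, ?_⟩
  · rw [Finset.smul_sum]
    have h1 : ∀ c : Γ ⧸ H.subgroupOf Γ, τ • ((c.out : Γ) : G) • w =
        (((((⟨τ, hτ⟩ : Γ) • c).out : Γ)) : G) • w := by
      intro c
      have h2 : (((⟨τ, hτ⟩ : Γ) • c).out : Γ)⁻¹ * (⟨τ, hτ⟩ * c.out) ∈ H.subgroupOf Γ := by
        rw [← QuotientGroup.eq, QuotientGroup.out_eq']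
        conv_lhs => rw [← QuotientGroup.out_eq' c]
        rfl
      rw [Subgroup.mem_subgroupOf] at h2
      have h3 := hwH _ h2
      push_cast at h3
      rw [mul_smul, inv_smul_eq_iff, mul_smul] at h3
      exact h3
    rw [Finset.sum_congr rfl fun c _ => h1 c]
    exact Equiv.sum_comp (MulAction.toPerm (⟨τ, hτ⟩ : Γ))
      (fun c : Γ ⧸ H.subgroupOf Γ => ((c.out : Γ) : G) • w)
  · rw [← Finset.add_sum_erase _ _ (Finset.mem_univ c₀), hwH _ ((hout c₀).mpr rfl)]
    have h1 : w - x = -((u : B) * x) := by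
      have : (u : B) + (e : B) = 1 := congrArg (fun z : R => (z : B)) hue
      rw [hw]
      linear_combination x * this
    rw [add_sub_right_comm, h1]
    refine J.add_mem (J.neg_mem (J.mul_mem_right _ hu)) (J.sum_mem fun c hc => ?_)
    rw [hw, smul_mul']
    exact J.mul_mem_right _ (he' c (Finset.ne_of_mem_erase hc))

section Loc

variable {B : Type*} [CommRing B]

/-- `t B_Q ∩ B`. -/
def locIdeal (Q : Ideal B) [hQ : Q.IsPrime] (t : B) : Ideal B where
  carrier := {x | ∃ s, s ∉ Q ∧ t ∣ x * s}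
  add_mem' := by
    rintro x y ⟨s, hs, b, hb⟩ ⟨s', hs', b', hb'⟩
    refine ⟨s * s', fun h => (hQ.mem_or_mem h).elim hs hs', b * s' + b' * s, ?_⟩
    linear_combination s' * hb + s * hb'
  zero_mem' := ⟨1, fun h => hQ.ne_top ((Ideal.eq_top_iff_one Q).mpr h), by simp⟩
  smul_mem' := by
    rintro c x ⟨s, hs, b, hb⟩
    refine ⟨s, hs, c * b, ?_⟩
    rw [smul_eq_mul]
    linear_combination c * hb

theorem mem_locIdeal {Q : Ideal B} [Q.IsPrime] {t x : B} :
    x ∈ locIdeal Q t ↔ ∃ s, s ∉ Q ∧ t ∣ x * s := Iff.rfl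

theorem exists_pow_mul_aux {Q : Ideal B} [hQ : Q.IsPrime] {p : ℕ} (hp : p.Prime) (hpQ : (p : B) ∈ Q)
    {r : B} (hr : r ∈ Q) (i : ℕ) : ∀ (f : Polynomial ℤ), ¬ (p : ℤ) ∣ f.coeff i → ∀ k : ℕ,
      (p : B) ∣ r ^ k * Polynomial.aeval r f → ∃ (n : ℕ) (s : B), s ∉ Q ∧ (p : B) ∣ r ^ n * s := by
  have hcase : ∀ (f : Polynomial ℤ), ¬ (p : ℤ) ∣ f.coeff 0 → Polynomial.aeval r f ∉ Q := by
    intro f hf hmem
    have h1 : Polynomial.aeval r f = Polynomial.aeval r f.divX * r + ((f.coeff 0 : ℤ) : B) := by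
      conv_lhs => rw [← Polynomial.divX_mul_X_add f]
      simp
    have h2 : ((f.coeff 0 : ℤ) : B) ∈ Q := by
      have := Q.sub_mem hmem (Q.mul_mem_left (Polynomial.aeval r f.divX) hr)
      rwa [h1, add_sub_cancel_left] at this
    have hcop : IsCoprime (f.coeff 0) (p : ℤ) :=
      ((Nat.prime_iff_prime_int.mp hp).coprime_iff_not_dvd.mpr hf).symm
    obtain ⟨u, v, huv⟩ := hcop
    apply hQ.ne_top
    rw [Ideal.eq_top_iff_one]
    have h3 : ((u : ℤ) : B) * ((f.coeff 0 : ℤ) : B) + ((v : ℤ) : B) * (p : B) = 1 := by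
      exact_mod_cast congrArg (Int.cast : ℤ → B) huv
    rw [← h3]
    exact Q.add_mem (Q.mul_mem_left _ h2) (Q.mul_mem_left _ hpQ)
  induction i with
  | zero =>
    intro f hf k hk
    exact ⟨k, _, hcase f hf, hk⟩
  | succ i ih =>
    intro f hf k hk
    by_cases h0 : (p : ℤ) ∣ f.coeff 0
    · refine ih f.divX (by rwa [Polynomial.coeff_divX]) (k + 1) ?_
      obtain ⟨c, hc⟩ := h0
      obtain ⟨d, hd⟩ := hk
      have h1 : Polynomial.aeval r f = Polynomial.aeval r f.divX * r + ((f.coeff 0 : ℤ) : B) := by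
        conv_lhs => rw [← Polynomial.divX_mul_X_add f]
        simp
      rw [h1, hc] at hd
      push_cast at hd
      exact ⟨d - r ^ k * c, by linear_combination hd⟩
    · exact ⟨k, _, hcase f h0, hk⟩

theorem exists_pow_mul {Q : Ideal B} [hQ : Q.IsPrime] {p : ℕ} (hp : p.Prime) (hpQ : (p : B) ∈ Q)
    {r : B} (hr : r ∈ Q) (hint : IsIntegral ℤ r) :
    ∃ (n : ℕ) (s : B), s ∉ Q ∧ (p : B) ∣ r ^ n * s := by
  obtain ⟨f, hf, hfr⟩ := hint
  refine exists_pow_mul_aux hp hpQ hr f.natDegree f ?_ 0 ?_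
  · rw [Polynomial.coeff_natDegree, hf.leadingCoeff]
    intro h
    have := Int.eq_one_of_dvd_one (by positivity) h
    exact hp.one_lt.ne' (by exact_mod_cast this)
  · rw [Polynomial.aeval_def, hfr]
    simp

theorem le_radical_locIdeal {Q : Ideal B} [hQ : Q.IsPrime] {p : ℕ} (hp : p.Prime)
    (hpQ : (p : B) ∈ Q) (hint : ∀ r : B, IsIntegral ℤ r) {t : B} (ht : t ∣ (p : B)) (M : ℕ) :
    Q ≤ (locIdeal Q (t ^ M)).radical := by
  intro r hr
  obtain ⟨n, s, hs, hd⟩ := exists_pow_mul hp hpQ hr (hint r)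
  refine ⟨n * M, s ^ M, fun h => hs (hQ.mem_of_pow_mem M h), ?_⟩
  rw [pow_mul, ← mul_pow]
  exact pow_dvd_pow_of_dvd (ht.trans hd) M

end Loc

end Approx

end Fermat.Agent.S14
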