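import Fermat.Agent.S14.TransDefs
import Fermat.Agent.S14.Trans3Approx
import Fermat.Agent.S54.Frobenius

/-!
# S14 piece T3: split at `p` ⇒ `α` is primary

Proof.  `Q` a maximal ideal of `ℤ̄` containing `p`, `Γ = G_K`, `H = G_{K(a)}`.  By `hsplit` the stabiliser
of `Q` in `Γ` is contained in `H`, so (abstract density of the decomposition field,
`Approx.exists_invariant_sub_mem`) the `H`-invariant element `a₁ = n a ∈ ℤ̄` is congruent to a
`Γ`-invariant `y ∈ ℤ̄` modulo `J = {x : ∃ s ∉ Q, π^M ∣ s x}`.  Then `π^M ∣ α₁ - y^p` in `𝓞 K` and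
elementary algebra in `𝓞 K` (`T3.final_algebra`) gives `Primary`.
-/

set_option autoImplicit false
set_option linter.unusedSectionVars false
set_option linter.style.haveILetI false
set_option linter.unusedVariables false

namespace Fermat.Agent.S14

namespace T3

open NumberField Approx Fermat.Agent.S54
open scoped Pointwise

local notation "Zb" => integralClosure ℤ (AlgebraicClosure ℚ)

attribute [local instance] isAlgClosure_Qbar isAlgebraic_int_Qbar isFractionRing_Zbar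

noncomputable section

variable (p : ℕ) [Fact p.Prime]

/-- `𝓞 K → ℤ̄`. -/
def iK : 𝓞 (KQ p) →+* Zb where
  toFun y := ⟨((y : KQ p) : Qb), y.2.map (IsScalarTower.toAlgHom ℤ (KQ p) Qb)⟩
  map_one' := rfl
  map_mul' _ _ := rfl
  map_zero' := rfl
  map_add' _ _ := rfl

theorem coe_iK (y : 𝓞 (KQ p)) : ((iK p y : Zb) : Qb) = ((y : KQ p) : Qb) := rfl

theorem iK_injective : Function.Injective (iK p) := by
  intro x y h
  have h1 : ((x : KQ p) : Qb) = ((y : KQ p) : Qb) := congrArg (fun z : Zb => (z : Qb)) h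
  exact RingOfIntegers.ext (Subtype.ext h1)

theorem exists_iK_eq (y : Zb) (hy : (y : Qb) ∈ KQ p) : ∃ y' : 𝓞 (KQ p), iK p y' = y := by
  have h1 : IsIntegral ℤ (⟨(y : Qb), hy⟩ : KQ p) :=
    (isIntegral_algebraMap_iff (FaithfulSMul.algebraMap_injective (KQ p) Qb)).mp y.2
  exact ⟨⟨⟨(y : Qb), hy⟩, h1⟩, rfl⟩

/-- `π = ζ - 1` in `𝓞 K`. -/
def piK : 𝓞 (KQ p) := (zK_prim p).toInteger - 1

theorem coe_piK : ((piK p : 𝓞 (KQ p)) : KQ p) = zK p - 1 := rfl

theorem piK_prime : Prime (piK p) := (zK_prim p).zeta_sub_one_prime'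

theorem piK_dvd : piK p ∣ (p : 𝓞 (KQ p)) := (zK_prim p).toInteger_sub_one_dvd_prime'

variable {p}

theorem iK_piK_mem {Q : Ideal Zb} [hQ : Q.IsPrime] (hpQ : (p : Zb) ∈ Q) : iK p (piK p) ∈ Q := by
  obtain ⟨u, hu⟩ := IsCyclotomicExtension.Rat.associated_zeta_sub_one_pow_prime p (zK_prim p)
  have h1 : iK p (piK p) ^ (p - 1) * iK p u = (p : Zb) := by
    rw [← map_pow, ← map_mul, piK, hu, map_natCast]
  have hu' : IsUnit (iK p u) := u.isUnit.map (iK p)
  have h2 : iK p (piK p) ^ (p - 1) ∈ Q := by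
    obtain ⟨v, hv⟩ := hu'.exists_right_inv
    have : iK p (piK p) ^ (p - 1) = (p : Zb) * v := by
      rw [← h1, mul_assoc, hv, mul_one]
    rw [this]
    exact Q.mul_mem_right _ hpQ
  exact hQ.mem_of_pow_mem _ h2

theorem piK_dvd_of_mem {Q : Ideal Zb} [hQ : Q.IsPrime] (hpQ : (p : Zb) ∈ Q) {w : 𝓞 (KQ p)}
    (hw : iK p w ∈ Q) : piK p ∣ w := by
  by_contra hnd
  obtain ⟨u, v, huv⟩ := IsCyclotomicExtension.Rat.isCoprime_of_not_zeta_sub_one_dvd p (zK_prim p) hnd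
  apply hQ.ne_top
  rw [Ideal.eq_top_iff_one]
  have h1 := congrArg (iK p) huv
  rw [map_add, map_mul, map_mul, map_natCast, map_one] at h1
  rw [← h1]
  exact Q.add_mem (Q.mul_mem_left _ hpQ) (Q.mul_mem_left _ hw)

theorem pow_dvd_of_mem_locIdeal {Q : Ideal Zb} [hQ : Q.IsPrime] (hpQ : (p : Zb) ∈ Q) (M : ℕ) :
    ∀ w : 𝓞 (KQ p), iK p w ∈ locIdeal Q (iK p (piK p) ^ M) → piK p ^ M ∣ w := by
  induction M with
  | zero => intro w _; simp
  | succ M ih =>
    rintro w ⟨s, hs, b, hb⟩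
    have h1 : iK p w ∈ Q := by
      have : iK p w * s ∈ Q := by
        rw [hb, pow_succ, mul_assoc]
        exact Q.mul_mem_left _ (Q.mul_mem_right _ (iK_piK_mem hpQ))
      exact (hQ.mem_or_mem this).resolve_right hs
    obtain ⟨w₁, rfl⟩ := piK_dvd_of_mem hpQ h1
    have h0 : iK p (piK p) ≠ 0 := by
      rw [Ne, map_eq_zero_iff _ (iK_injective p)]
      exact (piK_prime p).ne_zero
    have h2 : iK p w₁ ∈ locIdeal Q (iK p (piK p) ^ M) := by
      refine ⟨s, hs, b, ?_⟩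
      apply mul_left_cancel₀ h0
      rw [map_mul] at hb
      linear_combination hb
    obtain ⟨c, rfl⟩ := ih w₁ h2
    exact ⟨c, by ring⟩

theorem final_algebra (α₁ : 𝓞 (KQ p)) (hα₁ : α₁ ≠ 0) :
    ∃ M : ℕ, ∀ y : 𝓞 (KQ p), piK p ^ M ∣ α₁ - y ^ p →
      ∃ a' b' : 𝓞 (KQ p), y ≠ 0 ∧ ¬ piK p ∣ b' ∧ (α₁ - y ^ p) * b' = y ^ p * piK p ^ 3 * a' := by
  obtain ⟨m, α', hα', rfl⟩ := WfDvdMonoid.max_power_factor hα₁ (piK_prime p).irreducible
  refine ⟨m + 3, fun y ⟨c, hc⟩ => ⟨c, α' - piK p ^ 3 * c, ?_, ?_, ?_⟩⟩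
  · have hyp : y ^ p = piK p ^ m * (α' - piK p ^ 3 * c) := by linear_combination -hc
    rintro rfl
    rw [zero_pow (Fact.out : p.Prime).ne_zero] at hyp
    rcases mul_eq_zero.mp hyp.symm with h | h
    · exact (piK_prime p).ne_zero (eq_zero_of_pow_eq_zero h)
    · apply hα'
      rw [sub_eq_zero] at h
      rw [h]
      exact Dvd.dvd.mul_right (dvd_pow_self _ (by norm_num)) _
  · intro h
    apply hα'
    have := dvd_add h (Dvd.dvd.mul_right (dvd_pow_self (piK p) (by norm_num : 3 ≠ 0)) c)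
    rwa [sub_add_cancel] at this
  · have hyp : y ^ p = piK p ^ m * (α' - piK p ^ 3 * c) := by linear_combination -hc
    rw [hc, hyp]
    ring

/-- an automorphism stabilising `Q` lies in the decomposition group of `ℤ̄_Q`. -/
theorem mem_decomposition (hp : p.Prime) (Q : Ideal Zb) [Q.IsPrime]
    (hpQ : (p : Zb) ∈ Q) (σ : GQ) (hσ : σ • Q = Q) :
    σ ∈ (locValuationSubring p hp Q hpQ).decompositionSubgroup ℚ := by
  have hσQ : ∀ x : Zb, x ∈ Q ↔ σ • x ∈ Q := by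
    intro x
    conv_rhs => rw [← hσ]
    exact (Ideal.smul_mem_pointwise_smul_iff (a := σ) (S := Q) (x := x)).symm
  have hfwd : ∀ x, x ∈ locValuationSubring p hp Q hpQ → σ x ∈ locValuationSubring p hp Q hpQ := by
    rintro x ⟨b, s, hs, h⟩
    refine ⟨σ • b, σ • s, fun hm => hs ((hσQ s).mpr hm), ?_⟩
    change σ x * σ (s : Qb) = σ (b : Qb)
    rw [← map_mul, h]
  have hbwd : ∀ x, x ∈ locValuationSubring p hp Q hpQ →
      σ⁻¹ x ∈ locValuationSubring p hp Q hpQ := by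
    rintro x ⟨b, s, hs, h⟩
    refine ⟨σ⁻¹ • b, σ⁻¹ • s, fun hm => hs ?_, ?_⟩
    · have := (hσQ (σ⁻¹ • s)).mp hm
      rwa [smul_inv_smul] at this
    · change σ⁻¹ x * σ⁻¹ (s : Qb) = σ⁻¹ (b : Qb)
      rw [← map_mul, h]
  rw [MulAction.mem_stabilizer_iff]
  ext x
  rw [ValuationSubring.mem_pointwise_smul_iff_inv_smul_mem]
  constructor
  · intro h
    have := hfwd _ h
    change σ • (σ⁻¹ • x) ∈ _ at this
    rwa [smul_inv_smul] at this
  · intro h
    exact hbwd _ h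

end

end T3

attribute [local instance] Fermat.Agent.S54.isAlgClosure_Qbar Fermat.Agent.S54.isAlgebraic_int_Qbar
  Fermat.Agent.S54.isFractionRing_Zbar

open T3 Approx NumberField Fermat.Agent.S54 in
open scoped Pointwise in
theorem primary_of_split {p : ℕ} [Fact p.Prime] (hp3 : 3 ≤ p) (a : Qb) (ha : a ≠ 0) (α : KQ p)
    (hα : (α : Qb) = a ^ p)
    (hkum : ∀ σ : GQ, σ (zetaQb p) = zetaQb p → ∃ k : ℕ, σ a = zetaQb p ^ k * a)
    (hgal : ∀ δ : GQ, δ a ∈ IntermediateField.adjoin ℚ {zetaQb p, a})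
    (hsplit : ∀ A : ValuationSubring Qb, A.LiesOverPrime p →
        ∀ σ ∈ A.decompositionSubgroup ℚ, σ (zetaQb p) = zetaQb p → σ a = a) :
    Primary (zK_prim p) α := by
  have hp : p.Prime := Fact.out
  letI : TopologicalSpace (integralClosure ℤ Qb) := ⊥
  haveI : DiscreteTopology (integralClosure ℤ Qb) := ⟨rfl⟩
  haveI : ContinuousSMul GQ (integralClosure ℤ Qb) := by
    rw [continuousSMul_iff_stabilizer_isOpen]
    intro x
    have := stabilizer_isOpen_of_isIntegral (K := ℚ) (L := Qb) (x : Qb)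
    convert this using 1
    ext g
    simp only [SetLike.mem_coe, MulAction.mem_stabilizer_iff]
    constructor
    · intro h; exact congrArg Subtype.val h
    · intro h; exact Subtype.ext h
  obtain ⟨Q, _, hQmax, hpQ, _, _⟩ := exists_frobenius_ideal p hp
  haveI : Q.IsPrime := hQmax.isPrime
  -- an integral multiple of `a`
  obtain ⟨n, hn0, hna⟩ := ((isAlgebraic_int_Qbar).isAlgebraic a).exists_integral_multiple
  let a₁ : integralClosure ℤ Qb := ⟨n • a, hna⟩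
  have ha₁ : ((a₁ ^ p : integralClosure ℤ Qb) : Qb) = (((n : KQ p) ^ p * α : KQ p) : Qb) := by
    push_cast
    rw [hα]
    change (n • a) ^ p = _
    rw [zsmul_eq_mul, mul_pow]
  obtain ⟨α₁, hα₁⟩ := exists_iK_eq p (a₁ ^ p) (by rw [ha₁]; exact ((n : KQ p) ^ p * α).2)
  have hα₁K : (α₁ : KQ p) = (n : KQ p) ^ p * α := by
    apply Subtype.ext
    rw [← ha₁, ← hα₁]
    rfl
  have hnK : (n : KQ p) ≠ 0 := by exact_mod_cast hn0
  have hα0 : α ≠ 0 := by
    rintro rfl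
    exact pow_ne_zero p ha hα.symm
  have hα₁0 : α₁ ≠ 0 := by
    rintro rfl
    exact mul_ne_zero (pow_ne_zero p hnK) hα0 hα₁K.symm
  obtain ⟨M, hM⟩ := final_algebra α₁ hα₁0
  -- the groups
  set Γ : Subgroup GQ := MulAction.stabilizer GQ (zetaQb p) with hΓ
  set H : Subgroup GQ := Γ ⊓ MulAction.stabilizer GQ a with hH
  have hΓopen : IsOpen (Γ : Set GQ) := stabilizer_isOpen_of_isIntegral (K := ℚ) (L := Qb) _
  have hHopen : IsOpen (H : Set GQ) :=
    hΓopen.inter (stabilizer_isOpen_of_isIntegral (K := ℚ) (L := Qb) a)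
  have hHclosed : IsClosed (H : Set GQ) := H.isClosed_of_isOpen hHopen
  haveI : Finite (Γ ⧸ H.subgroupOf Γ) :=
    Subgroup.quotient_finite_of_isOpen' Γ (H.subgroupOf Γ) hΓopen (Γ.subgroupOf_isOpen H hHopen)
  have hstab : ∀ g ∈ Γ, g • Q = Q → g ∈ H := by
    intro g hg hgQ
    refine ⟨hg, ?_⟩
    exact hsplit (locValuationSubring p hp Q hpQ) (coe_mem_nonunits_loc (y := (p : integralClosure ℤ Qb)) hpQ) g
      (mem_decomposition hp Q hpQ g hgQ) hg
  have hJ := le_radical_locIdeal (Q := Q) hp hpQ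
    (fun r => (isIntegral_algebraMap_iff (A := integralClosure ℤ Qb) (B := Qb)
      Subtype.val_injective).mp r.2) (t := iK p (piK p))
    (by have := map_dvd (iK p) (piK_dvd p); rwa [map_natCast] at this) M
  obtain ⟨y, hyΓ, hyJ⟩ := exists_invariant_sub_mem Γ H hHclosed inf_le_left Q hstab _ hJ a₁ (by
    intro h hh
    apply Subtype.ext
    change h (n • a) = n • a
    rw [map_zsmul]
    congr 1
    exact hh.2)
  obtain ⟨yK, hyK⟩ := exists_iK_eq p y (mem_KQ_of_fixed p _ fun σ hσ =>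
    congrArg Subtype.val (hyΓ σ hσ))
  have hdvd : piK p ^ M ∣ α₁ - yK ^ p := by
    apply pow_dvd_of_mem_locIdeal hpQ M
    rw [map_sub, map_pow, hα₁, hyK]
    obtain ⟨c, hc⟩ := sub_dvd_pow_sub_pow a₁ y p
    rw [hc, ← neg_sub y a₁, neg_mul]
    exact neg_mem (Ideal.mul_mem_right _ _ hyJ)
  obtain ⟨a', b', hy0, hb', hab⟩ := hM yK hdvd
  refine ⟨(yK : KQ p) / n, a', b', ?_, hb', ?_⟩
  · exact div_ne_zero (by simpa using hy0) hnK
  · have h1 := congrArg (fun z : 𝓞 (KQ p) => (z : KQ p)) hab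
    simp only [map_mul, map_sub, map_pow] at h1
    have hα₁K' : algebraMap (𝓞 (KQ p)) (KQ p) α₁ = (n : KQ p) ^ p * α := hα₁K
    have hπ : algebraMap (𝓞 (KQ p)) (KQ p) (piK p) = zK p - 1 := coe_piK p
    rw [hα₁K', hπ] at h1
    have hnp : (n : KQ p) ^ p ≠ 0 := pow_ne_zero p hnK
    change (α - ((algebraMap (𝓞 (KQ p)) (KQ p)) yK / n) ^ p) * (algebraMap (𝓞 (KQ p)) (KQ p)) b' =
      ((algebraMap (𝓞 (KQ p)) (KQ p)) yK / n) ^ p * (zK p - 1) ^ 3 * (algebraMap (𝓞 (KQ p)) (KQ p)) a'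
    rw [div_pow]
    apply mul_left_cancel₀ hnp
    have e1 : (n : KQ p) ^ p * ((algebraMap (𝓞 (KQ p)) (KQ p)) yK ^ p / (n : KQ p) ^ p) =
        (algebraMap (𝓞 (KQ p)) (KQ p)) yK ^ p := mul_div_cancel₀ _ hnp
    generalize (algebraMap (𝓞 (KQ p)) (KQ p)) yK ^ p / (n : KQ p) ^ p = w at e1 ⊢
    rw [← e1] at h1
    linear_combination h1

end Fermat.Agent.S14
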