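import Fermat.Agent.S14.ClassAlg
import Fermat.Agent.S14.Three
import Fermat.Agent.S14.Trans1
import Fermat.Agent.S14.Trans2
import Fermat.Agent.S14.Trans3

/-!
# S14 piece FIN: assembly

By contradiction: `exists_kummer_generator` gives `a`.  `a^p` is `G_K`-fixed (`(ζ^k a)^p = a^p`), so `a^p = α ∈ KQ p`
(`mem_KQ_of_fixed`), `α ≠ 0`.  `hgal`: `δ a = a^{m²} γ` with `γ ∈ KQ p` (`mem_KQ_of_fixed`, `map_zetaQb`).
`Eigen2 α`: for `τ : KQ p ≃ₐ[ℚ] KQ p` take a lift `δ` (`exists_lift`), `δ ζ = ζ^{mE τ}` (`mE_spec`), `τ α = (δ a)^p = α^{m²} γ^p`.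
`Primary α` (`primary_of_split`), `Singular p α` (`singular_of_unramified`).  `core` (`p ≥ 5`) or `core_three` (`p = 3`; `p = 4`
is not prime): `α = β^p`, so `(a/β)^p = 1`, `a = ζ^i β ∈ KQ p` is fixed by `G_K`: contradiction.
-/

set_option autoImplicit false

namespace Fermat.Agent.S14

open IntermediateField

theorem fixed_of_mem_KQ (p : ℕ) [NeZero p] {x : Qb} (hx : x ∈ KQ p) (σ : GQ)
    (hσ : σ (zetaQb p) = zetaQb p) : σ x = x := by
  have hx' : x ∈ IntermediateField.adjoin ℚ {zetaQb p} := hx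
  clear hx
  induction hx' using IntermediateField.adjoin_induction with
  | mem y hy =>
    rw [Set.mem_singleton_iff] at hy
    rw [hy, hσ]
  | algebraMap r => exact σ.commutes r
  | add y z _ _ hy hz => rw [map_add, hy, hz]
  | inv y _ hy => rw [map_inv₀, hy]
  | mul y z _ _ hy hz => rw [map_mul, hy, hz]

theorem ext_vanishing {p : ℕ} [Fact p.Prime] (h3 : 3 ≤ p) : ExtCitation.ExtVanishingCts p := by
  intro V _ _ _ _ C hadm
  by_contra hns
  obtain ⟨a, ha, hkum, ⟨σ₀, hσ₀ζ, hσ₀a⟩, heig, hunr, hsplit⟩ :=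
    exists_kummer_generator V C hadm hns
  have hp0 : p ≠ 0 := (Fact.out : p.Prime).ne_zero
  have hαmem : a ^ p ∈ KQ p := mem_KQ_of_fixed p _ (fun σ hσ => by
    obtain ⟨k, hk⟩ := hkum σ hσ
    rw [map_pow, hk, mul_pow, ← pow_mul, mul_comm k p, pow_mul, (zetaQb_prim p).pow_eq_one,
      one_pow, one_mul])
  set α : KQ p := ⟨a ^ p, hαmem⟩ with hαdef
  have hα : (α : Qb) = a ^ p := rfl
  have hα0 : α ≠ 0 := by
    intro h
    have h1 : (α : Qb) = 0 := by rw [h]; rfl
    rw [hα] at h1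
    exact ha (pow_eq_zero_iff hp0 |>.mp h1)
  have hγ : ∀ (δ : GQ) (m : ℕ), δ (zetaQb p) = zetaQb p ^ m → δ a / a ^ (m ^ 2) ∈ KQ p :=
    fun δ m h => mem_KQ_of_fixed p _ (heig δ m h)
  have hle : KQ p ≤ IntermediateField.adjoin ℚ {zetaQb p, a} :=
    IntermediateField.adjoin.mono ℚ _ _ (by
      intro x hx
      rw [Set.mem_singleton_iff] at hx
      rw [hx]
      exact Set.mem_insert _ _)
  have hamem : a ∈ IntermediateField.adjoin ℚ {zetaQb p, a} :=
    IntermediateField.subset_adjoin ℚ _ (Set.mem_insert_of_mem _ rfl)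
  have hgal : ∀ δ : GQ, δ a ∈ IntermediateField.adjoin ℚ {zetaQb p, a} := by
    intro δ
    have h1 := hle (hγ δ _ (map_zetaQb p δ))
    have h2 : δ a = δ a / a ^ (ExtCitation.cycloExp p δ ^ 2) * a ^ (ExtCitation.cycloExp p δ ^ 2) := by
      rw [div_mul_cancel₀ _ (pow_ne_zero _ ha)]
    rw [h2]
    exact mul_mem h1 (pow_mem hamem _)
  have hprim := primary_of_split h3 a ha α hα hkum hgal hsplit
  have hsing := singular_of_unramified a ha α hα hkum hgal hunr hprim
  have heig2 : Eigen2 (zK_prim p) α := by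
    intro τ
    obtain ⟨δ, hδ⟩ := exists_lift p τ
    have h1 : δ (zetaQb p) = zetaQb p ^ mE (zK_prim p) τ := by
      have h2 := hδ (zK p)
      rw [mE_spec (zK_prim p) τ] at h2
      exact h2
    refine ⟨⟨δ a / a ^ (mE (zK_prim p) τ ^ 2), hγ δ _ h1⟩, ?_⟩
    apply Subtype.ext
    rw [← hδ α, hα, map_pow]
    change (δ a) ^ p = (a ^ p) ^ (mE (zK_prim p) τ ^ 2) * (δ a / a ^ (mE (zK_prim p) τ ^ 2)) ^ p
    rw [div_pow, ← pow_mul, ← pow_mul, mul_comm p, mul_div_cancel₀ _ (pow_ne_zero _ ha)]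
  obtain ⟨β, hβ⟩ : ∃ β : KQ p, α = β ^ p := by
    by_cases h5 : 5 ≤ p
    · exact core h5 (zK_prim p) α hα0 hsing heig2 hprim
    · have hp3 : p = 3 := by
        have hp4 : p ≠ 4 := by
          intro h
          have := (Fact.out : p.Prime)
          rw [h] at this
          exact absurd this (by decide)
        omega
      subst hp3
      exact core_three (zK_prim 3) α hα0 hsing heig2
  have hβ0 : (β : Qb) ≠ 0 := by
    intro h
    apply hα0
    rw [hβ]
    have : β = 0 := Subtype.ext h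
    rw [this, zero_pow hp0]
  have hβ' : a ^ p = (β : Qb) ^ p := by
    rw [← hα, hβ]
    rfl
  have hroot : (a / (β : Qb)) ^ p = 1 := by
    rw [div_pow, hβ', div_self (pow_ne_zero _ hβ0)]
  obtain ⟨i, -, hi⟩ := (zetaQb_prim p).eq_pow_of_pow_eq_one hroot
  have haK : a ∈ KQ p := by
    have h1 : a = zetaQb p ^ i * (β : Qb) := by
      rw [hi, div_mul_cancel₀ _ hβ0]
    rw [h1]
    exact mul_mem (pow_mem (zK p).2 _) β.2
  exact hσ₀a (fixed_of_mem_KQ p haK σ₀ hσ₀ζ)

end Fermat.Agent.S14
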