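import Fermat.Agent.S14.DensChi
import Fermat.Agent.S14.DensKummer

/-!
# S14 piece DENS: existence of the auxiliary prime (union bound on upper densities)

Paper proof.  Suppose not: every `v ∈ degOne K` with `p ∉ v` has `χ(v) = 1` or `η` is a residue mod `v`.
Finitely many `v` contain `p` (each contributes `≤ 1` to the sum).  For `s` near `1`:
`log (c/(s-1)) ≤ log ζ_K(s) ≤ primeSum (degOne K) s + C₁
   ≤ primeSum {χ = 1} s + primeSum {p ∉ v, residue} s + C₂ ≤ (2/p) log (1/(s-1)) + C₃`,
so `(1 - 2/p) log (1/(s-1))` is bounded as `s → 1+`: contradiction (`p ≥ 3`).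
(`primeIdealZetaSum` is monotone and subadditive in the set because of `summable_prime_rpow`.)
`nrRealPlaces K = 0` because `K ∋ ζ_p`, `p ≥ 3`.
-/

set_option autoImplicit false

namespace Fermat.Agent.S14

open NumberField IsDedekindDomain Filter Topology

/-- subadditivity of `primeIdealZetaSum`. -/
theorem dens_sum_le {K : Type*} [Field K] [NumberField K]
    {S A B P : Set (HeightOneSpectrum (𝓞 K))} (h : S ⊆ A ∪ B ∪ P) {s : ℝ} (hs : 1 < s) :
    NumberField.Set.primeIdealZetaSum S s ≤ NumberField.Set.primeIdealZetaSum A s +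
      NumberField.Set.primeIdealZetaSum B s + NumberField.Set.primeIdealZetaSum P s := by
  classical
  set f : HeightOneSpectrum (𝓞 K) → ℝ := fun v => (Ideal.absNorm v.asIdeal : ℝ) ^ (-s) with hf
  have hsum : Summable f := summable_prime_rpow K hs
  have hf0 : ∀ v, 0 ≤ f v := fun v => by positivity
  have e : ∀ T : Set (HeightOneSpectrum (𝓞 K)),
      NumberField.Set.primeIdealZetaSum T s = ∑' v, T.indicator f v := by
    intro T
    rw [NumberField.Set.primeIdealZetaSum_def]
    exact tsum_subtype T f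
  rw [e, e, e, e, ← (hsum.indicator A).tsum_add (hsum.indicator B),
    ← ((hsum.indicator A).add (hsum.indicator B)).tsum_add (hsum.indicator P)]
  refine (hsum.indicator S).tsum_le_tsum (fun v => ?_)
    (((hsum.indicator A).add (hsum.indicator B)).add (hsum.indicator P))
  have hA := Set.indicator_nonneg (s := A) (fun v _ => hf0 v) v
  have hB := Set.indicator_nonneg (s := B) (fun v _ => hf0 v) v
  have hP := Set.indicator_nonneg (s := P) (fun v _ => hf0 v) v
  by_cases hv : v ∈ S
  · rw [Set.indicator_of_mem hv]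
    rcases h hv with (h1 | h1) | h1
    · rw [Set.indicator_of_mem h1]; linarith
    · rw [Set.indicator_of_mem h1]; linarith
    · rw [Set.indicator_of_mem h1]; linarith
  · rw [Set.indicator_of_notMem hv]; positivity

theorem dens_finite_primes {K : Type*} [Field K] [NumberField K] {p : ℕ} (hp : p ≠ 0) :
    {v : HeightOneSpectrum (𝓞 K) | (p : 𝓞 K) ∈ v.asIdeal}.Finite := by
  have h0 : Ideal.span {(p : 𝓞 K)} ≠ 0 := by
    rw [Ne, Ideal.zero_eq_bot, Ideal.span_singleton_eq_bot]
    exact_mod_cast hp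
  refine (Ideal.finite_factors h0).subset fun v hv => ?_
  simp only [Set.mem_ofPred_eq] at hv ⊢
  rw [Ideal.dvd_iff_le, Ideal.span_singleton_le_iff_mem]
  exact hv

theorem dens_tendsto_log : Tendsto (fun s : ℝ => Real.log (1 / (s - 1))) (𝓝[>] 1) atTop := by
  have h1 : Tendsto (fun s : ℝ => s - 1) (𝓝[>] 1) (𝓝[>] 0) := by
    refine tendsto_nhdsWithin_iff.2 ⟨?_, ?_⟩
    · have : Tendsto (fun s : ℝ => s - 1) (𝓝 1) (𝓝 (1 - 1)) :=
        (continuous_id.sub continuous_const).tendsto 1
      simpa using this.mono_left nhdsWithin_le_nhds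
    · filter_upwards [self_mem_nhdsWithin] with s hs
      simpa using hs
  have h2 := Real.tendsto_log_atTop.comp (tendsto_inv_nhdsGT_zero.comp h1)
  refine h2.congr fun s => ?_
  simp [one_div]

theorem dens {p : ℕ} (hp : p.Prime) (hp3 : 3 ≤ p) {K : Type*} [Field K] [NumberField K]
    {ζ : K} (hζ : IsPrimitiveRoot ζ p)
    (χ : ClassGroup (𝓞 K) →* Multiplicative (ZMod p)) (hχ : χ ≠ 1)
    (η : 𝓞 K) (hη : ¬ ∃ x : K, x ^ p = (η : K)) :
    ∃ v : HeightOneSpectrum (𝓞 K), (Ideal.absNorm v.asIdeal).Prime ∧ (p : 𝓞 K) ∉ v.asIdeal ∧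
      χ (clsOf v) ≠ 1 ∧ ¬ IsResidue p η v.asIdeal := by
  by_contra hcon
  have hK : InfinitePlace.nrRealPlaces K = 0 := NumberField.InfinitePlace.IsPrimitiveRoot.nrRealPlaces_eq_zero_of_two_lt (by omega) hζ
  set A : Set (HeightOneSpectrum (𝓞 K)) := {v | χ (clsOf v) = 1} with hA
  set B : Set (HeightOneSpectrum (𝓞 K)) :=
    {v | (p : 𝓞 K) ∉ v.asIdeal ∧ IsResidue p η v.asIdeal} with hB
  set P : Set (HeightOneSpectrum (𝓞 K)) := {v | (p : 𝓞 K) ∈ v.asIdeal} with hP
  have hsub : degOne K ⊆ A ∪ B ∪ P := by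
    intro v hv
    by_cases h1 : (p : 𝓞 K) ∈ v.asIdeal
    · exact Or.inr h1
    · by_cases h2 : χ (clsOf v) = 1
      · exact Or.inl (Or.inl h2)
      · by_cases h3 : IsResidue p η v.asIdeal
        · exact Or.inl (Or.inr ⟨h1, h3⟩)
        · exact (hcon ⟨v, hv, h1, h2, h3⟩).elim
  have hPfin : P.Finite := dens_finite_primes hp.ne_zero
  obtain ⟨CA, hCA⟩ := dens_chi hp hK χ hχ
  obtain ⟨CB, hCB⟩ := dens_kummer hp hζ η hη
  obtain ⟨c, C, hc, -, hcC⟩ := eventually_zetaR_bounds K
  obtain ⟨C₁, hC₁⟩ := log_zetaR_le K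
  set R : ℝ := CA + CB + p * (P.ncard + C₁ - Real.log c) with hR
  have hev := dens_tendsto_log.eventually_gt_atTop |R|
  have hgt : ∀ᶠ s : ℝ in 𝓝[>] 1, 1 < s := self_mem_nhdsWithin
  obtain ⟨s, h1, h2, h3, h4, hs⟩ := (hCA.and (hCB.and (hcC.and (hev.and hgt)))).exists
  set L : ℝ := Real.log (1 / (s - 1)) with hL
  have hs1 : 0 < s - 1 := by linarith
  have e1 : Real.log (c / (s - 1)) = Real.log c + L := by
    rw [hL, div_eq_mul_one_div, Real.log_mul hc.ne' (by positivity)]
  have e2 : Real.log (c / (s - 1)) ≤ Real.log (zetaR K s) :=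
    Real.log_le_log (by positivity) h3.1
  have e3 := hC₁ s hs
  have e4 := dens_sum_le hsub hs
  have e5 := NumberField.Set.primeIdealZetaSum_le_card_of_finite hPfin (s := s) (by linarith)
  have hpR : (3 : ℝ) ≤ p := by exact_mod_cast hp3
  have hL0 : 0 < L := lt_of_le_of_lt (abs_nonneg _) h4
  have hLR : R < L := lt_of_le_of_lt (le_abs_self _) h4
  have key : (p : ℝ) * (Real.log c + L) ≤ 2 * L + CA + CB + p * (P.ncard + C₁) := by
    have : Real.log c + L ≤ NumberField.Set.primeIdealZetaSum A s +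
      NumberField.Set.primeIdealZetaSum B s + P.ncard + C₁ := by linarith
    calc (p : ℝ) * (Real.log c + L) ≤ p * (NumberField.Set.primeIdealZetaSum A s +
      NumberField.Set.primeIdealZetaSum B s + P.ncard + C₁) :=
          mul_le_mul_of_nonneg_left this (by positivity)
      _ = p * NumberField.Set.primeIdealZetaSum A s + p * NumberField.Set.primeIdealZetaSum B s
          + p * (P.ncard + C₁) := by ring
      _ ≤ _ := by linarith
  have : ((p : ℝ) - 2) * L ≤ R := by rw [hR]; linarith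
  nlinarith

end Fermat.Agent.S14
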