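import Fermat.Agent.S14.Units1

/-!
# S14 piece U2: the cyclotomic unit `η` modulo `π³`; the unit case

`π = ζ - 1` (Mathlib's sign; the formulas below only involve `π²`), `R = 𝓞 K/(π³)`, `p = 0` in `R`
(`(p) = (π)^{p-1}`, `p - 1 ≥ 4`), `𝓞 K/(π) = F_p`: every `x ∈ 𝓞 K` is `≡` an integer mod `π`.
Paper proofs.
* `u = ζ^k (1+ζ)`, `k = (p-1)/2`: `ζ = 1 + π`, `ζ^k ≡ 1 + kπ + C(k,2) π²`, `2k ≡ -1`, `8 C(k,2) ≡ 3`:
  `8u ≡ (8 - 4π + 3π²)(2 + π) ≡ 16 + 2π² mod π³`.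
* `σ π = ζ^m - 1 ≡ m π mod π²`, so `σ(π²) ≡ m² π² mod π³` and `8 σ(u) ≡ 16 + 2 m_σ² π²`.
* `8^N η = ∏ (8 σ u)^{n_σ} ≡ 16^N (1 + (∑ n_σ m_σ²) π²/8) `, `N = ∑ n_σ`, i.e.
  `8 · 8^N η ≡ 16^N (8 - π²) mod π³` (`sum_nE_mul_mE_sq`), and `8·(8^N η)^k ≡ 16^{Nk} (8 - kπ²)`.
* `u` is a unit: `1 + ζ = (ζ² - 1)/(ζ - 1)` (Mathlib: `IsPrimitiveRoot.associated_sub_one…`/
  `IsCyclotomicExtension.Rat.associated_sub_one_of_isPrimitiveRoot`, or `∏` trick), so `η` is a unit.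
* `x ≡ c mod π` ⇒ `x^p ≡ c^p mod π^p` (binomial; `p ∈ (π^{p-1})`), in particular mod `π³`.
* `primary_eta_pow`: `η^k θ^p = y^p (1 + π³ a/b)`; `w = y/θ` has `𝔭`-valuation `0` (`η` unit, `π ∤ b`,
  `π ∤ b + π³a`), `w = w₁/w₂`, `π ∤ w_i`; `η^k w₂^p b = w₁^p (b + π³ a)`; mod `π³`, cancel `b`:
  `η^k c₂^p ≡ c₁^p`; multiply by `8·8^{Nk}`: `16^{Nk} (8 - kπ²) c₂^p ≡ 8·8^{Nk} c₁^p`, i.e.
  `X + k Y π² ≡ 0 mod π³` with integers `X`, `Y`, `p ∤ Y`; `π ∣ X ⇒ p ∣ X ⇒ π³ ∣ X ⇒ π ∣ kY ⇒ p ∣ k`.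
* `etaO_not_pow`: `η = x^p` ⇒ `Primary (η^1 · 1^p)` (take `y = x`, `a = 0`, `b = 1`) ⇒ `p ∣ 1`.
* `unit_case`: `eigen2_units_dim_le_one` with `ε₁ = η`: `ε = η^k θ^p`, `p ∣ k`.
-/

set_option autoImplicit false
set_option linter.unusedSectionVars false

namespace Fermat.Agent.S14

open NumberField

variable {p : ℕ} [Fact p.Prime] {K : Type*} [Field K] [NumberField K]
  [IsCyclotomicExtension {p} ℚ K] {ζ : K} (hζ : IsPrimitiveRoot ζ p)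

/-! ### generalities on `π = ζ - 1` -/

theorem u2_prime : Prime (hζ.toInteger - 1) := hζ.zeta_sub_one_prime'

theorem u2_exists_int (x : 𝓞 K) : ∃ n : ℤ, hζ.toInteger - 1 ∣ x - (n : 𝓞 K) := by
  obtain ⟨f, hf⟩ := hζ.integralPowerBasis.exists_eq_aeval' x
  rw [hζ.integralPowerBasis_gen] at hf
  refine ⟨f.eval 1, ?_⟩
  have h := Polynomial.sub_dvd_eval_sub hζ.toInteger 1 (f.map (algebraMap ℤ (𝓞 K)))
  rw [Polynomial.eval_map_algebraMap, ← hf, Polynomial.eval_one_map] at h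
  simpa using h

theorem u2_pi3_dvd_p (hp5 : 5 ≤ p) : (hζ.toInteger - 1) ^ 3 ∣ (p : 𝓞 K) :=
  (pow_dvd_pow _ (by omega)).trans
    (IsCyclotomicExtension.Rat.associated_zeta_sub_one_pow_prime p hζ).dvd

/-- the ring `𝓞 K / (π³)`. -/
abbrev A3 : Type _ := 𝓞 K ⧸ Ideal.span {(hζ.toInteger - 1) ^ 3}

/-- the quotient map. -/
abbrev mk3 : 𝓞 K →+* A3 hζ := Ideal.Quotient.mk _

theorem mk3_eq_zero_iff (x : 𝓞 K) : mk3 hζ x = 0 ↔ (hζ.toInteger - 1) ^ 3 ∣ x := by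
  rw [Ideal.Quotient.eq_zero_iff_mem, Ideal.mem_span_singleton]

theorem u2_not_pow_dvd {i j : ℕ} (h : i < j) :
    ¬ (hζ.toInteger - 1) ^ j ∣ (hζ.toInteger - 1) ^ i := by
  intro hd
  have := (pow_dvd_pow_iff (u2_prime hζ).ne_zero (u2_prime hζ).not_isUnit).mp hd
  omega

instance u2_nontrivial : Nontrivial (A3 hζ) := by
  refine ⟨⟨1, 0, fun h => ?_⟩⟩
  have h1 : mk3 hζ 1 = 0 := by rw [map_one]; exact h
  rw [mk3_eq_zero_iff] at h1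
  exact u2_not_pow_dvd hζ (by norm_num : 0 < 3) (by simpa using h1)

theorem u2_charP (hp5 : 5 ≤ p) : CharP (A3 hζ) p := by
  rw [CharP.charP_iff_prime_eq_zero (Fact.out : p.Prime)]
  have : mk3 hζ (p : 𝓞 K) = 0 := (mk3_eq_zero_iff hζ _).mpr (u2_pi3_dvd_p hζ hp5)
  simpa using this

/-! ### dual numbers: a commutative ring with `ϖ³ = 0` -/

section dual

variable {A : Type*} [CommRing A] {ϖ : A}

theorem dual_sq_mul (h : ϖ ^ 3 = 0) : ϖ ^ 2 * ϖ = 0 := by rw [← h]; ring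

theorem dual_sq_mul_sq (h : ϖ ^ 3 = 0) : ϖ ^ 2 * ϖ ^ 2 = 0 := by
  have : ϖ ^ 2 * ϖ ^ 2 = ϖ ^ 3 * ϖ := by ring
  rw [this, h, zero_mul]

theorem dual_sq_mul_pow (h : ϖ ^ 3 = 0) (i : ℕ) : ϖ ^ 2 * (1 + ϖ) ^ i = ϖ ^ 2 := by
  induction i with
  | zero => simp
  | succ i ih =>
    rw [pow_succ (1 + ϖ) i, ← mul_assoc, ih, mul_add, mul_one, dual_sq_mul h, add_zero]

theorem dual_pow_sub_one_sq (h : ϖ ^ 3 = 0) (m : ℕ) :
    ((1 + ϖ) ^ m - 1) ^ 2 = (m : A) ^ 2 * ϖ ^ 2 := by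
  have h1 : (1 + ϖ) ^ m - 1 = (∑ i ∈ Finset.range m, (1 + ϖ) ^ i) * ϖ := by
    have := geom_sum_mul (1 + ϖ) m
    rw [← this]; ring
  have h2 : ϖ ^ 2 * (∑ i ∈ Finset.range m, (1 + ϖ) ^ i) = (m : A) * ϖ ^ 2 := by
    rw [Finset.mul_sum, Finset.sum_congr rfl (fun i _ => dual_sq_mul_pow h i)]
    simp
  set S := ∑ i ∈ Finset.range m, (1 + ϖ) ^ i
  calc ((1 + ϖ) ^ m - 1) ^ 2 = (ϖ ^ 2 * S) * S := by rw [h1]; ring
    _ = (m : A) * (ϖ ^ 2 * S) := by rw [h2, mul_assoc, h2]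
    _ = (m : A) ^ 2 * ϖ ^ 2 := by rw [h2]; ring

theorem dual_one_add_mul (h : ϖ ^ 3 = 0) (a b : A) :
    (1 + a * ϖ ^ 2) * (1 + b * ϖ ^ 2) = 1 + (a + b) * ϖ ^ 2 := by
  have := dual_sq_mul_sq h
  linear_combination (a * b) * this

theorem dual_one_add_pow (h : ϖ ^ 3 = 0) (a : A) (n : ℕ) :
    (1 + a * ϖ ^ 2) ^ n = 1 + ((n : A) * a) * ϖ ^ 2 := by
  induction n with
  | zero => simp
  | succ n ih =>
    rw [pow_succ, ih, dual_one_add_mul h]; push_cast; ring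

theorem dual_prod {ι : Type*} (h : ϖ ^ 3 = 0) (s : Finset ι) (c : A) (a : ι → A) (n : ι → ℕ) :
    ∏ i ∈ s, (c * (1 + a i * ϖ ^ 2)) ^ n i =
      c ^ (∑ i ∈ s, n i) * (1 + (∑ i ∈ s, (n i : A) * a i) * ϖ ^ 2) := by
  classical
  induction s using Finset.induction_on with
  | empty => simp
  | insert i s hi ih =>
    rw [Finset.prod_insert hi, ih, Finset.sum_insert hi, Finset.sum_insert hi, mul_pow,
      dual_one_add_pow h, pow_add]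
    rw [← dual_one_add_mul h]
    ring

end dual

/-! ### the unit `u` and its conjugates -/

theorem u2_toInteger_pow : hζ.toInteger ^ p = 1 := hζ.toInteger_isPrimitiveRoot.pow_eq_one

theorem u2_smul_toInteger (σ : K ≃ₐ[ℚ] K) : σ • hζ.toInteger = hζ.toInteger ^ mE hζ σ := by
  apply RingOfIntegers.ext
  show σ ζ = _
  rw [mE_spec hζ σ]
  simp only [map_pow]
  rfl

theorem u2_two_mul_half (hp5 : 5 ≤ p) : 2 * ((p - 1) / 2) + 1 = p := by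
  have := (Fact.out : p.Prime).eq_one_or_self_of_dvd 2
  have h2 : ¬ 2 ∣ p := fun h => by rcases this h with h | h <;> omega
  omega

theorem u2_uO_sq (hp5 : 5 ≤ p) :
    hζ.toInteger * uO hζ ^ 2 = 4 * hζ.toInteger + (hζ.toInteger - 1) ^ 2 := by
  have h1 : hζ.toInteger * (hζ.toInteger ^ ((p - 1) / 2)) ^ 2 = 1 := by
    rw [← pow_mul, ← pow_succ', mul_comm, u2_two_mul_half hp5, u2_toInteger_pow]
  unfold uO
  linear_combination (1 + hζ.toInteger) ^ 2 * h1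

theorem u2_smul_uO_sq (hp5 : 5 ≤ p) (σ : K ≃ₐ[ℚ] K) :
    hζ.toInteger ^ mE hζ σ * (σ • uO hζ) ^ 2 =
      4 * hζ.toInteger ^ mE hζ σ + (hζ.toInteger ^ mE hζ σ - 1) ^ 2 := by
  have h := congrArg (MulSemiringAction.toRingHom (K ≃ₐ[ℚ] K) (𝓞 K) σ) (u2_uO_sq hζ hp5)
  simp only [map_mul, map_pow, map_add, map_sub, map_one, map_ofNat,
    MulSemiringAction.toRingHom_apply, u2_smul_toInteger] at h
  exact h

theorem u2_isUnit_one_add (hp5 : 5 ≤ p) : IsUnit (1 + hζ.toInteger) := by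
  -- `(ζ - 1) = (ζ² - 1) S`, `S = ∑_{i < (p+1)/2} ζ^{2i}`
  have hm : 2 * ((p + 1) / 2) = p + 1 := by have := u2_two_mul_half hp5; omega
  have h1 := geom_sum_mul (hζ.toInteger ^ 2) ((p + 1) / 2)
  rw [← pow_mul, hm, pow_succ hζ.toInteger p, u2_toInteger_pow, one_mul] at h1
  have h0 : hζ.toInteger - 1 ≠ 0 := (u2_prime hζ).ne_zero
  refine IsUnit.of_mul_eq_one (∑ i ∈ Finset.range ((p + 1) / 2), (hζ.toInteger ^ 2) ^ i) ?_
  apply mul_right_cancel₀ h0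
  linear_combination h1

theorem u2_isUnit_uO (hp5 : 5 ≤ p) : IsUnit (uO hζ) := by
  unfold uO
  exact ((IsUnit.of_pow_eq_one (u2_toInteger_pow hζ) (Fact.out : p.Prime).ne_zero).pow _).mul
    (u2_isUnit_one_add hζ hp5)

theorem isUnit_etaO (hp5 : 5 ≤ p) : IsUnit (etaO hζ) := by
  unfold etaO e2O
  refine (Finset.univ : Finset (K ≃ₐ[ℚ] K)).prod_induction _ IsUnit (fun _ _ => IsUnit.mul)
    isUnit_one fun σ _ => IsUnit.pow _ ?_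
  exact (u2_isUnit_uO hζ hp5).map (MulSemiringAction.toRingHom (K ≃ₐ[ℚ] K) (𝓞 K) σ)

theorem eigen2_etaO (hp5 : 5 ≤ p) : Eigen2 hζ ((etaO hζ : 𝓞 K) : K) := by
  unfold etaO
  rw [coe_e2O]
  apply eigen2_e2
  intro h
  have : uO hζ = 0 := RingOfIntegers.ext h
  exact (u2_isUnit_uO hζ hp5).ne_zero this

/-! ### computations in `𝓞 K / (π³)` -/

theorem u2_varpi_cube : (mk3 hζ (hζ.toInteger - 1)) ^ 3 = 0 := by
  rw [← map_pow, mk3_eq_zero_iff]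

theorem u2_mk3_toInteger : mk3 hζ hζ.toInteger = 1 + mk3 hζ (hζ.toInteger - 1) := by
  rw [map_sub, map_one]; ring

theorem u2_mk3_smul_uO_sq (hp5 : 5 ≤ p) (σ : K ≃ₐ[ℚ] K) :
    (mk3 hζ (σ • uO hζ)) ^ 2 =
      4 + (mE hζ σ : A3 hζ) ^ 2 * (mk3 hζ (hζ.toInteger - 1)) ^ 2 := by
  have hϖ := u2_varpi_cube hζ
  have h := congrArg (mk3 hζ) (u2_smul_uO_sq hζ hp5 σ)
  simp only [map_mul, map_pow, map_add, map_sub (mk3 hζ) (_ ^ _), map_one, map_ofNat,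
    u2_mk3_toInteger] at h
  rw [dual_pow_sub_one_sq hϖ] at h
  have hu : IsUnit ((1 + mk3 hζ (hζ.toInteger - 1)) ^ mE hζ σ) := by
    refine IsUnit.pow _ (IsUnit.of_pow_eq_one (n := p) ?_ (Fact.out : p.Prime).ne_zero)
    rw [← u2_mk3_toInteger, ← map_pow, u2_toInteger_pow, map_one]
  apply hu.mul_left_cancel
  rw [h, mul_add]
  congr 1
  · ring
  · have := dual_sq_mul_pow hϖ (mE hζ σ)
    linear_combination (-(mE hζ σ : A3 hζ) ^ 2) * this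

theorem u2_mk3_eta_sq (hp5 : 5 ≤ p) (i4 : A3 hζ) (hi4 : 4 * i4 = 1) :
    (mk3 hζ (etaO hζ)) ^ 2 = 4 ^ (∑ σ : K ≃ₐ[ℚ] K, nE hζ σ) *
      (1 + (-i4) * (mk3 hζ (hζ.toInteger - 1)) ^ 2) := by
  have hϖ := u2_varpi_cube hζ
  have := u2_charP hζ hp5
  have h1 : (mk3 hζ (etaO hζ)) ^ 2 = ∏ σ : K ≃ₐ[ℚ] K,
      (4 * (1 + (i4 * (mE hζ σ : A3 hζ) ^ 2) * (mk3 hζ (hζ.toInteger - 1)) ^ 2)) ^ nE hζ σ := by
    unfold etaO e2O
    rw [map_prod, ← Finset.prod_pow]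
    refine Finset.prod_congr rfl fun σ _ => ?_
    rw [map_pow, ← pow_mul, mul_comm, pow_mul, u2_mk3_smul_uO_sq hζ hp5]
    congr 1
    linear_combination (-(mE hζ σ : A3 hζ) ^ 2 * (mk3 hζ (hζ.toInteger - 1)) ^ 2) * hi4
  rw [h1, dual_prod hϖ]
  congr 3
  have h2 := sum_nE_mul_mE_sq hζ
  have h3 : ((∑ σ : K ≃ₐ[ℚ] K, nE hζ σ * mE hζ σ ^ 2 : ℕ) : A3 hζ) = -1 := by
    have h4 : (((∑ σ : K ≃ₐ[ℚ] K, nE hζ σ * mE hζ σ ^ 2) + 1 : ℕ) : ZMod p) = 0 := by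
      push_cast at h2 ⊢; rw [h2]; ring
    rw [ZMod.natCast_eq_zero_iff] at h4
    have h5 := (CharP.cast_eq_zero_iff (A3 hζ) p _).mpr h4
    push_cast at h5 ⊢
    linear_combination h5
  calc ∑ σ : K ≃ₐ[ℚ] K, (nE hζ σ : A3 hζ) * (i4 * (mE hζ σ : A3 hζ) ^ 2)
      = i4 * ((∑ σ : K ≃ₐ[ℚ] K, nE hζ σ * mE hζ σ ^ 2 : ℕ) : A3 hζ) := by
        push_cast
        rw [Finset.mul_sum]
        exact Finset.sum_congr rfl fun σ _ => by ring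
    _ = -i4 := by rw [h3]; ring

/-- `p`-th powers are integers modulo `π³`. -/
theorem u2_mk3_pow_p (hp5 : 5 ≤ p) (x : 𝓞 K) (hx : ¬ hζ.toInteger - 1 ∣ x) :
    ∃ n : ℤ, ¬ (p : ℤ) ∣ n ∧ (mk3 hζ x) ^ p = ((n ^ p : ℤ) : A3 hζ) := by
  have := u2_charP hζ hp5
  obtain ⟨n, z, hz⟩ := u2_exists_int hζ x
  refine ⟨n, fun hn => hx ?_, ?_⟩
  · have h1 := (IsCyclotomicExtension.Rat.zeta_sub_one_dvd_intCast_iff' p hζ).mpr hn
    have h2 : x = (n : 𝓞 K) + (hζ.toInteger - 1) * z := by rw [← hz]; ring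
    rw [h2]
    exact dvd_add h1 (dvd_mul_right _ _)
  · have h2 : x = (n : 𝓞 K) + (hζ.toInteger - 1) * z := by rw [← hz]; ring
    rw [h2, map_add, add_pow_char, map_mul, mul_pow]
    have h3 : (mk3 hζ (hζ.toInteger - 1)) ^ p = 0 := by
      obtain ⟨e, he⟩ := Nat.exists_eq_add_of_le (show 3 ≤ p by omega)
      calc (mk3 hζ (hζ.toInteger - 1)) ^ p = (mk3 hζ (hζ.toInteger - 1)) ^ (3 + e) := by
            exact congrArg _ he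
        _ = 0 := by rw [pow_add, u2_varpi_cube, zero_mul]
    rw [h3, zero_mul, add_zero, map_intCast]
    push_cast; rfl

/-- `1` and `π²` are independent over `𝔽_p` in `𝓞 K / (π³)`. -/
theorem u2_indep (hp5 : 5 ≤ p) (X Y : ℤ)
    (h : (X : A3 hζ) + (Y : A3 hζ) * (mk3 hζ (hζ.toInteger - 1)) ^ 2 = 0) : (p : ℤ) ∣ Y := by
  have hπ := u2_prime hζ
  have h1 : (hζ.toInteger - 1) ^ 3 ∣ (X : 𝓞 K) + (Y : 𝓞 K) * (hζ.toInteger - 1) ^ 2 := by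
    rw [← mk3_eq_zero_iff]
    simpa using h
  have h2 : hζ.toInteger - 1 ∣ (X : 𝓞 K) := by
    have h3 : hζ.toInteger - 1 ∣ (X : 𝓞 K) + (Y : 𝓞 K) * (hζ.toInteger - 1) ^ 2 :=
      (dvd_pow_self _ (by norm_num)).trans h1
    exact (dvd_add_left (Dvd.dvd.mul_left (dvd_pow_self _ (by norm_num)) _)).mp h3
  rw [IsCyclotomicExtension.Rat.zeta_sub_one_dvd_intCast_iff' p hζ] at h2
  have h4 : (hζ.toInteger - 1) ^ 3 ∣ (X : 𝓞 K) := by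
    obtain ⟨X', rfl⟩ := h2
    push_cast
    exact Dvd.dvd.mul_right (u2_pi3_dvd_p hζ hp5) _
  have h5 : (hζ.toInteger - 1) ^ 3 ∣ (Y : 𝓞 K) * (hζ.toInteger - 1) ^ 2 :=
    (dvd_add_right h4).mp h1
  rw [← IsCyclotomicExtension.Rat.zeta_sub_one_dvd_intCast_iff' p hζ]
  rw [show (hζ.toInteger - 1) ^ 3 = (hζ.toInteger - 1) * (hζ.toInteger - 1) ^ 2 by ring] at h5
  exact (mul_dvd_mul_iff_right (pow_ne_zero 2 hπ.ne_zero)).mp h5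

/-- every `w ∈ K^*` is `c / d` with `c`, `d` not both divisible by `π`. -/
theorem u2_rep (w : K) (hw : w ≠ 0) : ∃ c d : 𝓞 K, c ≠ 0 ∧ d ≠ 0 ∧ w * (d : K) = (c : K) ∧
    ¬ (hζ.toInteger - 1 ∣ c ∧ hζ.toInteger - 1 ∣ d) := by
  have hπ := u2_prime hζ
  obtain ⟨c₀, d₀, hd₀, rfl⟩ := IsFractionRing.div_surjective (𝓞 K) w
  have hd0 : d₀ ≠ 0 := nonZeroDivisors.ne_zero hd₀
  have hc0 : c₀ ≠ 0 := by rintro rfl; simp at hw
  obtain ⟨c', hc', hc'n⟩ := (FiniteMultiplicity.of_prime_left hπ hc0).exists_eq_pow_mul_and_not_dvd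
  obtain ⟨d', hd', hd'n⟩ := (FiniteMultiplicity.of_prime_left hπ hd0).exists_eq_pow_mul_and_not_dvd
  set i := multiplicity (hζ.toInteger - 1) c₀
  set j := multiplicity (hζ.toInteger - 1) d₀
  have hc'0 : c' ≠ 0 := by rintro rfl; simp at hc'n
  have hd'0 : d' ≠ 0 := by rintro rfl; simp at hd'n
  have hd0K : (algebraMap (𝓞 K) K) d₀ ≠ 0 := by
    simpa using hd0
  rcases le_total i j with hij | hij
  · obtain ⟨e, he⟩ := Nat.exists_eq_add_of_le hij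
    refine ⟨c', (hζ.toInteger - 1) ^ e * d', hc'0, mul_ne_zero (pow_ne_zero _ hπ.ne_zero) hd'0,
      ?_, fun h => hc'n h.1⟩
    rw [div_mul_eq_mul_div, div_eq_iff hd0K, hc', hd', he]
    simp only [map_mul, map_pow]
    ring
  · obtain ⟨e, he⟩ := Nat.exists_eq_add_of_le hij
    refine ⟨(hζ.toInteger - 1) ^ e * c', d', mul_ne_zero (pow_ne_zero _ hπ.ne_zero) hc'0, hd'0,
      ?_, fun h => hd'n h.2⟩
    rw [div_mul_eq_mul_div, div_eq_iff hd0K, hc', hd', he]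
    simp only [map_mul, map_pow]
    ring

theorem u2_exists_i4 (hp5 : 5 ≤ p) : ∃ i4 : A3 hζ, 4 * i4 = 1 := by
  have := u2_charP hζ hp5
  have hcop : Nat.Coprime 4 p := by
    have h2 : Nat.Coprime 2 p := by
      rw [Nat.coprime_comm, (Fact.out : p.Prime).coprime_iff_not_dvd]
      intro h
      have := Nat.le_of_dvd (by norm_num) h
      omega
    exact Nat.Coprime.pow_left 2 h2
  obtain ⟨a, b, hab⟩ := Nat.isCoprime_iff_coprime.mpr hcop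
  refine ⟨(a : A3 hζ), ?_⟩
  have h1 := congrArg (Int.cast : ℤ → A3 hζ) hab
  push_cast at h1
  rw [CharP.cast_eq_zero (A3 hζ) p, mul_zero, add_zero] at h1
  rw [← h1]; ring

theorem primary_eta_pow (hp5 : 5 ≤ p) (k : ℕ) (θ : K) (hθ : θ ≠ 0)
    (h : Primary hζ (((etaO hζ : 𝓞 K) : K) ^ k * θ ^ p)) : p ∣ k := by
  have hπ := u2_prime hζ
  obtain ⟨y, a, b, hy, hb, hE⟩ := h
  obtain ⟨c, d, hc0, hd0, hw, hcd⟩ := u2_rep hζ (θ / y) (div_ne_zero hθ hy)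
  have hθ' : θ * (d : K) = (c : K) * y := by
    rw [← hw]; field_simp
  have hpow : θ ^ p * (d : K) ^ p = (c : K) ^ p * y ^ p := by rw [← mul_pow, hθ', mul_pow]
  have hR : (etaO hζ ^ k * c ^ p - d ^ p) * b = d ^ p * (hζ.toInteger - 1) ^ 3 * a := by
    apply RingOfIntegers.coe_injective
    simp only [map_mul, map_sub, map_pow, map_one]
    apply mul_left_cancel₀ (pow_ne_zero p hy)
    have hz : (algebraMap (𝓞 K) K) hζ.toInteger = ζ := rfl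
    rw [hz]
    linear_combination (d : K) ^ p * hE - ((etaO hζ : 𝓞 K) : K) ^ k * (b : K) * hpow
  have hdvd : (hζ.toInteger - 1) ^ 3 ∣ etaO hζ ^ k * c ^ p - d ^ p :=
    hπ.pow_dvd_of_dvd_mul_right 3 hb ⟨d ^ p * a, by rw [hR]; ring⟩
  have hdvd1 : hζ.toInteger - 1 ∣ etaO hζ ^ k * c ^ p - d ^ p :=
    (dvd_pow_self _ (by norm_num)).trans hdvd
  have hηu := isUnit_etaO hζ hp5
  have hc : ¬ hζ.toInteger - 1 ∣ c := by
    intro hc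
    apply hcd
    refine ⟨hc, hπ.dvd_of_dvd_pow (n := p) ?_⟩
    have h1 : hζ.toInteger - 1 ∣ etaO hζ ^ k * c ^ p :=
      Dvd.dvd.mul_left (dvd_pow hc (Fact.out : p.Prime).ne_zero) _
    exact (dvd_sub_right h1).mp hdvd1
  have hd : ¬ hζ.toInteger - 1 ∣ d := by
    intro hd
    apply hc
    have h1 : hζ.toInteger - 1 ∣ d ^ p := dvd_pow hd (Fact.out : p.Prime).ne_zero
    have h2 : hζ.toInteger - 1 ∣ etaO hζ ^ k * c ^ p := (dvd_sub_left h1).mp hdvd1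
    exact hπ.dvd_of_dvd_pow ((hηu.pow k).dvd_mul_left.mp h2)
  obtain ⟨n1, hn1, hC⟩ := u2_mk3_pow_p hζ hp5 c hc
  obtain ⟨n2, hn2, hD⟩ := u2_mk3_pow_p hζ hp5 d hd
  have hA : (mk3 hζ (etaO hζ)) ^ k * ((n1 ^ p : ℤ) : A3 hζ) = ((n2 ^ p : ℤ) : A3 hζ) := by
    rw [← hC, ← hD, ← sub_eq_zero, ← map_pow, ← map_pow, ← map_pow, ← map_mul, ← map_sub,
      mk3_eq_zero_iff]
    exact hdvd
  obtain ⟨i4, hi4⟩ := u2_exists_i4 hζ hp5
  have hE2 := u2_mk3_eta_sq hζ hp5 i4 hi4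
  set N := ∑ σ : K ≃ₐ[ℚ] K, nE hζ σ
  set E := mk3 hζ (etaO hζ)
  set ϖ := mk3 hζ (hζ.toInteger - 1)
  have hE2k : (E ^ k) ^ 2 = (4 ^ N) ^ k * (1 + ((k : A3 hζ) * (-i4)) * ϖ ^ 2) := by
    rw [← pow_mul, mul_comm k 2, pow_mul, hE2, mul_pow, dual_one_add_pow (u2_varpi_cube hζ)]
  have key : ((4 * (4 ^ N) ^ k * (n1 ^ p) ^ 2 - 4 * (n2 ^ p) ^ 2 : ℤ) : A3 hζ) +
      ((-((4 ^ N) ^ k * k * (n1 ^ p) ^ 2) : ℤ) : A3 hζ) * ϖ ^ 2 = 0 := by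
    have h1 : ((n2 ^ p : ℤ) : A3 hζ) ^ 2 = (E ^ k) ^ 2 * ((n1 ^ p : ℤ) : A3 hζ) ^ 2 := by
      rw [← hA]; ring
    rw [hE2k] at h1
    push_cast at h1 ⊢
    linear_combination (-4 : A3 hζ) * h1 +
      ((4 ^ N) ^ k * (k : A3 hζ) * ((n1 : A3 hζ) ^ p) ^ 2 * ϖ ^ 2) * hi4
  have hY := u2_indep hζ hp5 _ _ key
  have hpp : Prime (p : ℤ) := Nat.prime_iff_prime_int.mp Fact.out
  rw [dvd_neg] at hY
  have h4 : ¬ (p : ℤ) ∣ (4 ^ N) ^ k := by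
    intro h
    have h1 := hpp.dvd_of_dvd_pow (hpp.dvd_of_dvd_pow h)
    have := Int.le_of_dvd (by norm_num) h1
    omega
  rcases hpp.dvd_or_dvd hY with h | h
  · rcases hpp.dvd_or_dvd h with h | h
    · exact absurd h h4
    · exact Int.natCast_dvd_natCast.mp h
  · exact absurd (hpp.dvd_of_dvd_pow (hpp.dvd_of_dvd_pow h)) hn1

theorem etaO_not_pow (hp5 : 5 ≤ p) : ¬ ∃ x : K, x ^ p = ((etaO hζ : 𝓞 K) : K) := by
  rintro ⟨x, hx⟩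
  have hη0 : ((etaO hζ : 𝓞 K) : K) ≠ 0 := by
    intro h
    exact (isUnit_etaO hζ hp5).ne_zero (RingOfIntegers.ext h)
  have hx0 : x ≠ 0 := by
    rintro rfl
    rw [zero_pow (Fact.out : p.Prime).ne_zero] at hx
    exact hη0 hx.symm
  have h1 : Primary hζ (((etaO hζ : 𝓞 K) : K) ^ 1 * (1 : K) ^ p) := by
    refine ⟨x, 0, 1, hx0, fun h => (u2_prime hζ).not_isUnit (isUnit_of_dvd_one h), ?_⟩
    rw [hx]; simp
  have := primary_eta_pow hζ hp5 1 1 one_ne_zero h1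
  have := Nat.le_of_dvd one_pos this
  omega

theorem unit_case (hp5 : 5 ≤ p) (ε : (𝓞 K)ˣ) (h₁ : Eigen2 hζ ((ε : 𝓞 K) : K))
    (h₂ : Primary hζ ((ε : 𝓞 K) : K)) : ∃ θ : K, ((ε : 𝓞 K) : K) = θ ^ p := by
  obtain ⟨η, hη⟩ := isUnit_etaO hζ hp5
  have hn : ¬ ∃ θ : K, ((η : 𝓞 K) : K) = θ ^ p := by
    rintro ⟨θ, hθ⟩
    exact etaO_not_pow hζ hp5 ⟨θ, by rw [← hθ, hη]⟩
  obtain ⟨k, θ, hk⟩ := eigen2_units_dim_le_one hp5 hζ η ε (by rw [hη]; exact eigen2_etaO hζ hp5)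
    h₁ hn
  rw [hη] at hk
  have hε0 : ((ε : 𝓞 K) : K) ≠ 0 := by
    intro h
    exact ε.ne_zero (RingOfIntegers.ext h)
  have hθ0 : θ ≠ 0 := by
    rintro rfl
    rw [zero_pow (Fact.out : p.Prime).ne_zero, mul_zero] at hk
    exact hε0 hk
  rw [hk] at h₂
  obtain ⟨j, rfl⟩ := primary_eta_pow hζ hp5 k θ hθ0 h₂
  exact ⟨((etaO hζ : 𝓞 K) : K) ^ j * θ, by rw [hk, mul_pow, ← pow_mul, mul_comm j p]⟩

end Fermat.Agent.S14
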