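import Fermat.Agent.S14.ThaineProj
import Fermat.Agent.S14.Units2
import Fermat.Agent.S14.Dens

/-!
# S14 piece ALG: class group algebra and the CORE theorem

Paper proof.  `Cl = ClassGroup (𝓞 K)` (finite abelian).  `Δ` acts on ideals (`σ • I`), preserving
principal ideals, so `e2I` induces a hom `e₂ : Cl → Cl`.  `H = {c | e₂ c ∈ Cl^p}` is a subgroup `⊇ Cl^p`.
(1) `H = Cl`: otherwise `Cl/H` is a nontrivial group killed by `p`, so there is a nontrivial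
 `χ : Cl →* Multiplicative (ZMod p)` trivial on `H`.  `dens` (with `η = etaO`, `etaO_not_pow`) gives a prime `v` of
 degree one, `p ∉ v`, `χ(v) ≠ 1`, `η` non-residue; `thaine` gives `e₂ [v] ∈ Cl^p`, i.e. `[v] ∈ H`: contradiction.
(2) `(α) = I^p`, `x = [I]`: `x^p = 1`.  `σ(α) = α^{m²} γ^p` ⇒ `(σ I)^p = (I^{m²} (γ))^p` ⇒ `σ I = I^{m²} (γ)`
 (fractional ideals form a torsion-free group) ⇒ `σ x = x^{m_σ²}` ⇒ `e₂ x = x^{∑ n m²} = x^{-1}`
 (`sum_nE_mul_mE_sq`, `x^p = 1`).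
(3) if `x ≠ 1`, let `k` be maximal with `x ∈ Cl^{p^k}` (exists: `x ∈ Cl^{p^k}` for all `k` ⇒ order of `x` prime to
 `p`, and it divides `p`).  `x = y^{p^k}`, `e₂ y = z^p` by (1), `x⁻¹ = e₂ x = z^{p^{k+1}}`: contradiction.
(4) so `I = (β)`, `α = ε β^p`, `ε ∈ (𝓞 K)ˣ`; `Eigen2 ε` (`eigen2_mul`, `eigen2_pow_p`, `eigen2_inv`), `Primary ε`
 (replace `y` by `y/β`); `unit_case` ⇒ `ε = θ^p`, `α = (θ β)^p`.
-/

set_option autoImplicit false

namespace Fermat.Agent.S14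

open NumberField IsDedekindDomain
open scoped Pointwise nonZeroDivisors


theorem alg_group {G : Type*} [CommGroup G] [Finite G] {p : ℕ} (hp : p.Prime) (e : G →* G)
    (he : ∀ c, ∃ z, e c = z ^ p) {x : G} (hx : x ^ p = 1) (hex : e x = x⁻¹) : x = 1 := by
  have key : ∀ k : ℕ, ∃ y, x = y ^ (p ^ k) := by
    intro k
    induction k with
    | zero => exact ⟨x, by simp⟩
    | succ k ih =>
      obtain ⟨y, hy⟩ := ih
      obtain ⟨z, hz⟩ := he y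
      refine ⟨z⁻¹, ?_⟩
      have h1 : x⁻¹ = z ^ (p ^ (k + 1)) := by
        rw [← hex, hy, map_pow, hz, ← pow_mul, pow_succ, mul_comm]
      rw [inv_pow, ← h1, inv_inv]
  obtain ⟨a, m, hm, hcard⟩ := Nat.exists_eq_pow_mul_and_not_dvd (n := Nat.card G)
    Nat.card_pos.ne' p hp.ne_one
  obtain ⟨y, hy⟩ := key a
  have h1 : x ^ m = 1 := by
    rw [hy, ← pow_mul, ← hcard, pow_card_eq_one']
  have h2 : x ^ Nat.gcd m p = 1 := pow_gcd_eq_one.2 ⟨h1, hx⟩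
  have h3 : Nat.gcd m p = 1 := by
    rw [Nat.gcd_comm]
    exact (Nat.Prime.coprime_iff_not_dvd hp).2 hm
  rwa [h3, pow_one] at h2



theorem alg_exists_functional' {k A : Type*} [Field k] [AddCommGroup A] [Module k A] {v : A}
    (hv : v ≠ 0) : ∃ φ : A →ₗ[k] k, φ v ≠ 0 := by
  by_contra hcon
  push Not at hcon
  exact hv ((Module.forall_dual_apply_eq_zero_iff k v).1 hcon)

theorem alg_exists_functional {A : Type*} [AddCommGroup A] {p : ℕ} [Fact p.Prime]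
    (hkill : ∀ x : A, p • x = 0) {v : A} (hv : v ≠ 0) : ∃ φ : A →+ ZMod p, φ v ≠ 0 := by
  obtain ⟨φ, hφ⟩ := @alg_exists_functional' (ZMod p) A _ _ (AddCommGroup.zmodModule hkill) v hv
  exact ⟨@LinearMap.toAddMonoidHom _ _ _ _ _ _ _ _ (AddCommGroup.zmodModule hkill) _ _ φ, hφ⟩

theorem alg_exists_char {G : Type*} [CommGroup G] {p : ℕ} [Fact p.Prime] (H : Subgroup G)
    (hH : ∀ c : G, c ^ p ∈ H) (hne : H ≠ ⊤) :
    ∃ χ : G →* Multiplicative (ZMod p), χ ≠ 1 ∧ ∀ h ∈ H, χ h = 1 := by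
  obtain ⟨g, hg⟩ : ∃ g : G, g ∉ H := by
    by_contra hcon
    push Not at hcon
    exact hne ((Subgroup.eq_top_iff' H).2 hcon)
  have hkill : ∀ x : Additive (G ⧸ H), p • x = 0 := by
    intro x
    induction x using Additive.rec with
    | ofMul x =>
    obtain ⟨c, rfl⟩ := QuotientGroup.mk_surjective x
    rw [← ofMul_pow, ← QuotientGroup.mk_pow, (QuotientGroup.eq_one_iff _).2 (hH c)]
    rfl
  have hv : Additive.ofMul (g : G ⧸ H) ≠ 0 := by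
    intro h
    exact hg ((QuotientGroup.eq_one_iff g).1 h)
  obtain ⟨φ, hφ⟩ := alg_exists_functional hkill hv
  refine ⟨(AddMonoidHom.toMultiplicativeRight φ).comp (QuotientGroup.mk' H), ?_, ?_⟩
  · intro h
    apply hφ
    have := DFunLike.congr_fun h g
    exact this
  · intro h hh
    show Multiplicative.ofAdd (φ (Additive.ofMul (h : G ⧸ H))) = 1
    rw [(QuotientGroup.eq_one_iff h).2 hh]
    show Multiplicative.ofAdd (φ 0) = 1
    rw [map_zero]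
    rfl




section Cls

variable {K : Type*} [Field K] [NumberField K]

theorem alg_ideal_pow_inj {I J : Ideal (𝓞 K)} {n : ℕ} (hn : n ≠ 0) (h : I ^ n = J ^ n) : I = J := by
  apply dvd_antisymm
  · exact (UniqueFactorizationMonoid.pow_dvd_pow_iff_dvd hn).1 (h ▸ dvd_rfl)
  · exact (UniqueFactorizationMonoid.pow_dvd_pow_iff_dvd hn).1 (h ▸ dvd_rfl)

open Classical in
/-- the class of an ideal (`1` for the zero ideal). -/
noncomputable def algCls (I : Ideal (𝓞 K)) : ClassGroup (𝓞 K) :=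
  if h : I ∈ (Ideal (𝓞 K))⁰ then ClassGroup.mk0 ⟨I, h⟩ else 1

omit [NumberField K] in
theorem alg_mem {I : Ideal (𝓞 K)} (h : I ≠ ⊥) : I ∈ (Ideal (𝓞 K))⁰ :=
  mem_nonZeroDivisors_iff_ne_zero.mpr h

theorem algCls_of_ne {I : Ideal (𝓞 K)} (h : I ≠ ⊥) : algCls I = ClassGroup.mk0 ⟨I, alg_mem h⟩ :=
  dif_pos (alg_mem h)

theorem algCls_mul {I J : Ideal (𝓞 K)} (hI : I ≠ ⊥) (hJ : J ≠ ⊥) : algCls (I * J) = algCls I * algCls J := by
  rw [algCls_of_ne hI, algCls_of_ne hJ, algCls_of_ne (mul_ne_zero hI hJ), ← map_mul]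
  rfl

theorem algCls_one : algCls (1 : Ideal (𝓞 K)) = 1 := by
  rw [algCls_of_ne one_ne_zero]
  exact map_one _

theorem algCls_pow {I : Ideal (𝓞 K)} (hI : I ≠ ⊥) (n : ℕ) : algCls (I ^ n) = algCls I ^ n := by
  induction n with
  | zero => rw [pow_zero, pow_zero, algCls_one]
  | succ n ih => rw [pow_succ, pow_succ, algCls_mul (pow_ne_zero n hI) hI, ih]

theorem algCls_prod {ι : Type*} (s : Finset ι) (f : ι → Ideal (𝓞 K)) (hf : ∀ i ∈ s, f i ≠ ⊥) :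
    algCls (∏ i ∈ s, f i) = ∏ i ∈ s, algCls (f i) := by
  classical
  induction s using Finset.induction_on with
  | empty => rw [Finset.prod_empty, Finset.prod_empty, algCls_one]
  | insert a s ha ih =>
    rw [Finset.prod_insert ha, Finset.prod_insert ha,
      algCls_mul (hf a (Finset.mem_insert_self a s))
        (Finset.prod_ne_zero_iff.2 fun i hi => hf i (Finset.mem_insert_of_mem hi)),
      ih fun i hi => hf i (Finset.mem_insert_of_mem hi)]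

omit [NumberField K] in
theorem alg_span_ne {a : 𝓞 K} (ha : a ≠ 0) : Ideal.span {a} ≠ ⊥ := by
  rwa [Ne, Ideal.span_singleton_eq_bot]

theorem algCls_eq_one_iff {I : Ideal (𝓞 K)} (hI : I ≠ ⊥) : algCls I = 1 ↔ I.IsPrincipal := by
  rw [algCls_of_ne hI, ClassGroup.mk0_eq_one_iff]

theorem algCls_span {a : 𝓞 K} (ha : a ≠ 0) : algCls (Ideal.span {a}) = 1 :=
  (algCls_eq_one_iff (alg_span_ne ha)).2 ⟨a, rfl⟩

theorem algCls_surj (c : ClassGroup (𝓞 K)) : ∃ I : Ideal (𝓞 K), I ≠ ⊥ ∧ algCls I = c := by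
  obtain ⟨⟨I, hI⟩, rfl⟩ := ClassGroup.mk0_surjective c
  exact ⟨I, mem_nonZeroDivisors_iff_ne_zero.mp hI, dif_pos hI⟩

theorem algCls_eq_iff {I J : Ideal (𝓞 K)} (hI : I ≠ ⊥) (hJ : J ≠ ⊥) :
    algCls I = algCls J ↔ ∃ x y : 𝓞 K, x ≠ 0 ∧ y ≠ 0 ∧ Ideal.span {x} * I = Ideal.span {y} * J := by
  rw [algCls_of_ne hI, algCls_of_ne hJ, ClassGroup.mk0_eq_mk0_iff]
  constructor
  · rintro ⟨x, y, hx, hy, h⟩
    exact ⟨x, y, hx, hy, h⟩
  · rintro ⟨x, y, hx, hy, h⟩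
    exact ⟨x, y, hx, hy, h⟩

theorem alg_smul_span (σ : K ≃ₐ[ℚ] K) (a : 𝓞 K) :
    σ • (Ideal.span {a} : Ideal (𝓞 K)) = Ideal.span {σ • a} := by
  rw [Ideal.pointwise_smul_def, Ideal.map_span, Set.image_singleton]
  rfl

theorem alg_smul_ne (σ : K ≃ₐ[ℚ] K) {I : Ideal (𝓞 K)} (hI : I ≠ ⊥) : σ • I ≠ ⊥ := by
  intro h
  apply hI
  have : σ⁻¹ • (σ • I) = I := inv_smul_smul σ I
  rw [← this, h]
  exact smul_zero _

theorem alg_smul_ne' (σ : K ≃ₐ[ℚ] K) {a : 𝓞 K} (ha : a ≠ 0) : σ • a ≠ 0 := by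
  intro h
  apply ha
  have : σ⁻¹ • (σ • a) = a := inv_smul_smul σ a
  rw [← this, h, smul_zero]

theorem algCls_smul_congr (σ : K ≃ₐ[ℚ] K) {I J : Ideal (𝓞 K)} (hI : I ≠ ⊥) (hJ : J ≠ ⊥)
    (h : algCls I = algCls J) : algCls (σ • I) = algCls (σ • J) := by
  obtain ⟨x, y, hx, hy, h⟩ := (algCls_eq_iff hI hJ).1 h
  refine (algCls_eq_iff (alg_smul_ne σ hI) (alg_smul_ne σ hJ)).2
    ⟨σ • x, σ • y, alg_smul_ne' σ hx, alg_smul_ne' σ hy, ?_⟩
  rw [← alg_smul_span, ← alg_smul_span, ← smul_mul', ← smul_mul', h]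

/-- the class of an integral ideal which is `(κ) J ^ n` as a fractional ideal. -/
theorem algCls_of_frac_eq {A : Ideal (𝓞 K)} (hA : A ≠ ⊥) {κ : K} (hκ : κ ≠ 0)
    {J : FractionalIdeal (𝓞 K)⁰ K} (hJ : J ≠ 0) (n : ℕ)
    (h : (A : FractionalIdeal (𝓞 K)⁰ K) = FractionalIdeal.spanSingleton (𝓞 K)⁰ κ * J ^ n) :
    algCls A = (ClassGroup.mk K (Units.mk0 J hJ)) ^ n := by
  have hκ' : FractionalIdeal.spanSingleton (𝓞 K)⁰ κ ≠ 0 := by
    rwa [Ne, FractionalIdeal.spanSingleton_eq_zero_iff]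
  have e : FractionalIdeal.mk0 K ⟨A, alg_mem hA⟩ =
      Units.mk0 (FractionalIdeal.spanSingleton (𝓞 K)⁰ κ) hκ' * (Units.mk0 J hJ) ^ n := by
    apply Units.ext
    rw [Units.val_mul, Units.val_pow_eq_pow_val, Units.val_mk0, Units.val_mk0, ← h]
    rfl
  rw [algCls_of_ne hA, ← ClassGroup.mk_mk0 K, e, map_mul, map_pow]
  have : ClassGroup.mk K (Units.mk0 (FractionalIdeal.spanSingleton (𝓞 K)⁰ κ) hκ') = 1 := by
    rw [ClassGroup.mk_eq_one_iff]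
    exact ⟨κ, by rw [Units.val_mk0, FractionalIdeal.coe_spanSingleton]⟩
  rw [this, one_mul]

end Cls


section Core

variable {p : ℕ} [Fact p.Prime] {K : Type*} [Field K] [NumberField K] {ζ : K}
  (hζ : IsPrimitiveRoot ζ p)

theorem alg_e2I_ne {I : Ideal (𝓞 K)} (hI : I ≠ ⊥) : e2I hζ I ≠ ⊥ :=
  Finset.prod_ne_zero_iff.2 fun σ _ => pow_ne_zero _ (alg_smul_ne σ hI)

theorem alg_e2I_mul (I J : Ideal (𝓞 K)) : e2I hζ (I * J) = e2I hζ I * e2I hζ J := by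
  unfold e2I
  rw [← Finset.prod_mul_distrib]
  refine Finset.prod_congr rfl fun σ _ => ?_
  rw [smul_mul', mul_pow]

theorem algCls_e2I {I : Ideal (𝓞 K)} (hI : I ≠ ⊥) :
    algCls (e2I hζ I) = ∏ σ : K ≃ₐ[ℚ] K, algCls (σ • I) ^ nE hζ σ := by
  unfold e2I
  rw [algCls_prod _ _ fun σ _ => pow_ne_zero _ (alg_smul_ne σ hI)]
  exact Finset.prod_congr rfl fun σ _ => algCls_pow (alg_smul_ne σ hI) _

theorem algCls_e2I_congr {I J : Ideal (𝓞 K)} (hI : I ≠ ⊥) (hJ : J ≠ ⊥) (h : algCls I = algCls J) :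
    algCls (e2I hζ I) = algCls (e2I hζ J) := by
  rw [algCls_e2I hζ hI, algCls_e2I hζ hJ]
  exact Finset.prod_congr rfl fun σ _ => by rw [algCls_smul_congr σ hI hJ h]

/-- the endomorphism of the class group induced by `e2I`. -/
noncomputable def algE2Cl : ClassGroup (𝓞 K) →* ClassGroup (𝓞 K) :=
  MonoidHom.mk' (fun c => algCls (e2I hζ (algCls_surj c).choose)) (by
    intro a b
    have ha := (algCls_surj a).choose_spec
    have hb := (algCls_surj b).choose_spec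
    have hab := (algCls_surj (a * b)).choose_spec
    rw [← algCls_mul (alg_e2I_ne hζ ha.1) (alg_e2I_ne hζ hb.1), ← alg_e2I_mul]
    refine algCls_e2I_congr hζ hab.1 (mul_ne_zero ha.1 hb.1) ?_
    rw [hab.2, algCls_mul ha.1 hb.1, ha.2, hb.2])

theorem algE2Cl_cls {I : Ideal (𝓞 K)} (hI : I ≠ ⊥) : algE2Cl hζ (algCls I) = algCls (e2I hζ I) := by
  have h := (algCls_surj (algCls I)).choose_spec
  exact algCls_e2I_congr hζ h.1 hI h.2

theorem alg_clsOf_eq (v : HeightOneSpectrum (𝓞 K)) : clsOf v = algCls v.asIdeal :=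
  (algCls_of_ne v.ne_bot).symm

/-- (1) `e₂ c ∈ Cl^p` for every class `c`. -/
theorem algE2Cl_mem_pow [IsCyclotomicExtension {p} ℚ K] (hp5 : 5 ≤ p) (c : ClassGroup (𝓞 K)) :
    ∃ z, algE2Cl hζ c = z ^ p := by
  set H : Subgroup (ClassGroup (𝓞 K)) :=
    (powMonoidHom p : ClassGroup (𝓞 K) →* ClassGroup (𝓞 K)).range.comap (algE2Cl hζ) with hH
  have htop : H = ⊤ := by
    by_contra hne
    obtain ⟨χ, hχ, hχH⟩ := alg_exists_char (p := p) H (fun c => by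
      rw [hH, Subgroup.mem_comap, map_pow]
      exact ⟨algE2Cl hζ c, rfl⟩) hne
    obtain ⟨v, hv1, hv2, hv3, hv4⟩ := dens (Fact.out : p.Prime) (by omega) hζ χ hχ (etaO hζ)
      (etaO_not_pow hζ hp5)
    obtain ⟨κ, J, hκ, hJ, hJe⟩ := thaine hp5 hζ v hv1 hv2 hv4
    apply hv3
    apply hχH
    rw [hH, Subgroup.mem_comap, alg_clsOf_eq, algE2Cl_cls hζ v.ne_bot,
      algCls_of_frac_eq (alg_e2I_ne hζ v.ne_bot) hκ hJ p hJe]
    exact ⟨_, rfl⟩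
  have hc : c ∈ H := htop ▸ Subgroup.mem_top c
  rw [hH, Subgroup.mem_comap] at hc
  obtain ⟨z, hz⟩ := hc
  exact ⟨z, hz.symm⟩

end Core


section Final

variable {p : ℕ} [Fact p.Prime] {K : Type*} [Field K] [NumberField K] {ζ : K}
  (hζ : IsPrimitiveRoot ζ p)

theorem alg_coe_smul (σ : K ≃ₐ[ℚ] K) (a : 𝓞 K) : ((σ • a : 𝓞 K) : K) = σ (a : K) := rfl

/-- (2a) `σ [I₀] = [I₀]^{m_σ²}` if `I₀^p = (a₀)` with `a₀` in the `ω²`-eigenspace. -/
theorem algCls_smul_of_eigen2 {I₀ : Ideal (𝓞 K)} {a₀ : 𝓞 K} (ha₀ : a₀ ≠ 0)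
    (hI₀ : I₀ ^ p = Ideal.span {a₀}) (h : Eigen2 hζ (a₀ : K)) (σ : K ≃ₐ[ℚ] K) :
    algCls (σ • I₀) = algCls I₀ ^ (mE hζ σ ^ 2) := by
  have hp : p.Prime := Fact.out
  have hI₀ne : I₀ ≠ ⊥ := by
    rintro rfl
    rw [Ideal.bot_pow hp.ne_zero] at hI₀
    exact alg_span_ne ha₀ hI₀.symm
  obtain ⟨γ, hγ⟩ := h σ
  have ha₀K : (a₀ : K) ≠ 0 := by
    simpa using ha₀
  have hγ0 : γ ≠ 0 := by
    rintro rfl
    rw [zero_pow hp.ne_zero, mul_zero] at hγ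
    exact ha₀K ((map_eq_zero σ).1 hγ)
  obtain ⟨g1, g2, hg2, rfl⟩ := IsFractionRing.div_surjective (A := 𝓞 K) γ
  have hg2' : g2 ≠ 0 := nonZeroDivisors.ne_zero hg2
  have hg2K : (algebraMap (𝓞 K) K g2) ≠ 0 := by
    simpa using hg2'
  have hg1 : g1 ≠ 0 := by
    rintro rfl
    rw [map_zero, zero_div] at hγ0
    exact hγ0 rfl
  have e1 : g2 ^ p * (σ • a₀) = a₀ ^ (mE hζ σ ^ 2) * g1 ^ p := by
    apply RingOfIntegers.coe_injective
    push_cast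
    rw [AlgEquiv.smul_def, hγ, div_pow]
    have hg2K' : (g2 : K) ≠ 0 := hg2K
    show (g2 : K) ^ p * ((a₀ : K) ^ mE hζ σ ^ 2 * ((g1 : K) ^ p / (g2 : K) ^ p)) = _
    field_simp
  have e2 : (Ideal.span {g2} * σ • I₀) ^ p = (Ideal.span {g1} * I₀ ^ (mE hζ σ ^ 2)) ^ p := by
    rw [mul_pow, mul_pow, ← smul_pow', hI₀, alg_smul_span, ← pow_mul, mul_comm _ p, pow_mul, hI₀,
      Ideal.span_singleton_pow, Ideal.span_singleton_pow, Ideal.span_singleton_pow,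
      Ideal.span_singleton_mul_span_singleton, Ideal.span_singleton_mul_span_singleton, e1,
      mul_comm]
  have e3 := congrArg algCls (alg_ideal_pow_inj hp.ne_zero e2)
  rwa [algCls_mul (alg_span_ne hg2') (alg_smul_ne σ hI₀ne), algCls_mul (alg_span_ne hg1)
    (pow_ne_zero _ hI₀ne), algCls_span hg2', algCls_span hg1, one_mul, one_mul, algCls_pow hI₀ne] at e3

/-- (2b)+(3): `I₀` is principal. -/
theorem algCls_eq_one_of_eigen2 [IsCyclotomicExtension {p} ℚ K] (hp5 : 5 ≤ p) {I₀ : Ideal (𝓞 K)}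
    {a₀ : 𝓞 K} (ha₀ : a₀ ≠ 0) (hI₀ : I₀ ^ p = Ideal.span {a₀}) (h : Eigen2 hζ (a₀ : K)) :
    algCls I₀ = 1 := by
  have hp : p.Prime := Fact.out
  have hI₀ne : I₀ ≠ ⊥ := by
    rintro rfl
    rw [Ideal.bot_pow hp.ne_zero] at hI₀
    exact alg_span_ne ha₀ hI₀.symm
  have hxp : algCls I₀ ^ p = 1 := by
    rw [← algCls_pow hI₀ne, hI₀, algCls_span ha₀]
  refine alg_group hp (algE2Cl hζ) (algE2Cl_mem_pow hζ hp5) hxp ?_
  rw [algE2Cl_cls hζ hI₀ne, algCls_e2I hζ hI₀ne]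
  have e1 : ∏ σ : K ≃ₐ[ℚ] K, algCls (σ • I₀) ^ nE hζ σ =
      algCls I₀ ^ (∑ σ : K ≃ₐ[ℚ] K, nE hζ σ * mE hζ σ ^ 2) := by
    rw [← Finset.prod_pow_eq_pow_sum]
    refine Finset.prod_congr rfl fun σ _ => ?_
    rw [algCls_smul_of_eigen2 hζ ha₀ hI₀ h σ, ← pow_mul, mul_comm]
  rw [e1]
  have hS := sum_nE_mul_mE_sq hζ
  set S := ∑ σ : K ≃ₐ[ℚ] K, nE hζ σ * mE hζ σ ^ 2 with hSdef
  have hdvd : p ∣ S + 1 := by
    rw [← ZMod.natCast_eq_zero_iff]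
    push_cast
    rw [hS]
    ring
  obtain ⟨k, hk⟩ := hdvd
  rw [eq_inv_iff_mul_eq_one, ← pow_succ, hk, pow_mul, hxp, one_pow]

end Final

theorem core {p : ℕ} [Fact p.Prime] (hp5 : 5 ≤ p) {K : Type*} [Field K] [NumberField K]
    [IsCyclotomicExtension {p} ℚ K] {ζ : K} (hζ : IsPrimitiveRoot ζ p)
    (α : K) (hα : α ≠ 0) (h₁ : Singular p α) (h₂ : Eigen2 hζ α) (h₃ : Primary hζ α) :
    ∃ β : K, α = β ^ p := by
  have hp : p.Prime := Fact.out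
  obtain ⟨I, hI⟩ := h₁
  obtain ⟨d, I₀, hd, hII⟩ := FractionalIdeal.exists_eq_spanSingleton_mul I
  have hdK : (algebraMap (𝓞 K) K d) ≠ 0 := by
    simpa using hd
  have h1 : FractionalIdeal.spanSingleton (𝓞 K)⁰ (α * (algebraMap (𝓞 K) K d) ^ p) =
      ((I₀ ^ p : Ideal (𝓞 K)) : FractionalIdeal (𝓞 K)⁰ K) := by
    rw [FractionalIdeal.coeIdeal_pow, ← FractionalIdeal.spanSingleton_mul_spanSingleton, hI, hII,
      mul_pow, FractionalIdeal.spanSingleton_pow, mul_comm, ← mul_assoc,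
      FractionalIdeal.spanSingleton_mul_spanSingleton, ← mul_pow, mul_inv_cancel₀ hdK, one_pow,
      FractionalIdeal.spanSingleton_one, one_mul]
  obtain ⟨a₀, -, ha₀⟩ := (FractionalIdeal.mem_coeIdeal (𝓞 K)⁰).1
    (h1 ▸ FractionalIdeal.mem_spanSingleton_self (𝓞 K)⁰ (α * (algebraMap (𝓞 K) K d) ^ p))
  have hI₀ : I₀ ^ p = Ideal.span {a₀} := by
    apply FractionalIdeal.coeIdeal_injective (K := K)
    show ((I₀ ^ p : Ideal (𝓞 K)) : FractionalIdeal (𝓞 K)⁰ K) = ((Ideal.span {a₀} : Ideal (𝓞 K)) :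
      FractionalIdeal (𝓞 K)⁰ K)
    rw [FractionalIdeal.coeIdeal_span_singleton, ha₀, h1]
  have ha₀ne : a₀ ≠ 0 := by
    rintro rfl
    rw [map_zero] at ha₀
    exact mul_ne_zero hα (pow_ne_zero p hdK) ha₀.symm
  have heig : Eigen2 hζ (a₀ : K) := by
    have : (a₀ : K) = α * (algebraMap (𝓞 K) K d) ^ p := ha₀
    rw [this]
    exact eigen2_mul hζ h₂ (eigen2_pow_p hζ _)
  have hI₀ne : I₀ ≠ ⊥ := by
    rintro rfl
    rw [Ideal.bot_pow hp.ne_zero] at hI₀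
    exact alg_span_ne ha₀ne hI₀.symm
  obtain ⟨β₀, hβ₀⟩ := (algCls_eq_one_iff hI₀ne).1 (algCls_eq_one_of_eigen2 hζ hp5 ha₀ne hI₀ heig)
  have hβ₀' : I₀ = Ideal.span {β₀} := hβ₀
  rw [hβ₀', Ideal.span_singleton_pow, Ideal.span_singleton_eq_span_singleton] at hI₀
  obtain ⟨ε, hε⟩ := hI₀
  have hβ₀ne : β₀ ≠ 0 := by
    rintro rfl
    exact hI₀ne (by rw [hβ₀', Ideal.span_singleton_eq_bot])
  have hβ₀K : (algebraMap (𝓞 K) K β₀) ≠ 0 := by
    simpa using hβ₀ne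
  set β : K := algebraMap (𝓞 K) K β₀ / algebraMap (𝓞 K) K d with hβ
  have hβne : β ≠ 0 := div_ne_zero hβ₀K hdK
  have hαε : α = ((ε : 𝓞 K) : K) * β ^ p := by
    have h2 : (algebraMap (𝓞 K) K β₀) ^ p * ((ε : 𝓞 K) : K) = α * (algebraMap (𝓞 K) K d) ^ p := by
      rw [← ha₀, ← hε]
      push_cast
      rfl
    rw [hβ, div_pow]
    field_simp
    linear_combination -h2
  clear_value β
  have hεα : ((ε : 𝓞 K) : K) = α * (β ^ p)⁻¹ := by
    rw [hαε]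
    field_simp
  have heps1 : Eigen2 hζ ((ε : 𝓞 K) : K) := by
    rw [hεα]
    exact eigen2_mul hζ h₂ (eigen2_inv hζ (eigen2_pow_p hζ β))
  have heps2 : Primary hζ ((ε : 𝓞 K) : K) := by
    obtain ⟨y, a, b, hy, hb, hyab⟩ := h₃
    refine ⟨y / β, a, b, div_ne_zero hy hβne, hb, ?_⟩
    rw [hεα, div_pow, show α * (β ^ p)⁻¹ - y ^ p / β ^ p = (α - y ^ p) / β ^ p by ring,
      div_mul_eq_mul_div, hyab]
    ring
  obtain ⟨θ, hθ⟩ := unit_case hζ hp5 ε heps1 heps2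
  exact ⟨θ * β, by rw [mul_pow, ← hθ, ← hαε]⟩

end Fermat.Agent.S14
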