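import Fermat.Agent.S14.LBound
import Fermat.Agent.S14.ZetaBound

/-!
# S14 piece D3: primes in the kernel of a class character of order `p` have upper density `≤ 1/p`

Paper proof.  Let `ψ : Multiplicative (ZMod p) →* ℂˣ` be faithful (`k ↦ exp(2π i k/p)`),
`χ_j = (ψ ∘ χ)^j`, `j = 0..p-1`, `x_v = N v^{-s}`.  For a finite set `T` of primes
`∏_j ∏_{v ∈ T} (1 - χ_j(v) x_v)⁻¹ = ∏_{v ∈ T, χ v = 1} (1 - x_v)^{-p} * ∏_{v ∈ T, χ v ≠ 1} (1 - x_v^p)⁻¹`
(`∏_j (1 - z^j x) = 1 - x^p` for a primitive `p`-th root `z`) which is real and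
`≥ exp (p ∑_{v ∈ T, χ v = 1} x_v)`.  Let `T → ∞` (`tendsto_euler`):
`exp (p ∑_{χ v = 1} x_v) ≤ ‖∏_j LSum (chiI χ_j) s‖ ≤ zetaR K s * B^{p-1}` (`LSum_chi_bounded`,
`zetaR_eq_LSum`), and `zetaR K s ≤ C/(s-1)` near `1`.
-/

set_option autoImplicit false

namespace Fermat.Agent.S14

open NumberField IsDedekindDomain Filter Topology

/-- the faithful character `k ↦ exp (2 π i k / p)`. -/
noncomputable def d3psi (p : ℕ) [NeZero p] : Multiplicative (ZMod p) →* ℂˣ :=
  (ZMod.stdAddChar (N := p)).toMonoidHom.toHomUnits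

theorem d3psi_apply (p : ℕ) [NeZero p] (a : Multiplicative (ZMod p)) :
    ((d3psi p a : ℂˣ) : ℂ) = ZMod.stdAddChar (Multiplicative.toAdd a) := rfl

theorem d3psi_injective (p : ℕ) [NeZero p] : Function.Injective (d3psi p) := by
  intro a b hab
  have h : ((d3psi p a : ℂˣ) : ℂ) = d3psi p b := by rw [hab]
  rw [d3psi_apply, d3psi_apply] at h
  exact Multiplicative.toAdd.injective (ZMod.injective_stdAddChar h)

theorem d3psi_pow (p : ℕ) [NeZero p] (a : Multiplicative (ZMod p)) : d3psi p a ^ p = 1 := by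
  rw [← map_pow]
  have : a ^ p = 1 := by
    apply Multiplicative.toAdd.injective
    rw [toAdd_pow, toAdd_one, nsmul_eq_mul, ZMod.natCast_self, zero_mul]
  rw [this, map_one]

/-- `∏_j (1 - w^j x) = 1 - x^p` for a primitive `p`-th root of unity `w`. -/
theorem d3_prod_primitive {p : ℕ} (hp : 0 < p) {w : ℂ} (hw : IsPrimitiveRoot w p) (x : ℂ) :
    ∏ j ∈ Finset.range p, (1 - w ^ j * x) = 1 - x ^ p := by
  classical
  have : NeZero p := ⟨hp.ne'⟩
  have h1 := hw.pow_sub_pow_eq_prod_sub_mul 1 x hp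
  rw [one_pow] at h1
  rw [h1]
  have h2 : Polynomial.nthRootsFinset p (1 : ℂ) = (Finset.range p).image (fun j => w ^ j) := by
    ext y
    rw [Polynomial.mem_nthRootsFinset hp, Finset.mem_image]
    constructor
    · intro hy
      obtain ⟨i, hi, rfl⟩ := hw.eq_pow_of_pow_eq_one hy
      exact ⟨i, Finset.mem_range.mpr hi, rfl⟩
    · rintro ⟨i, -, rfl⟩
      rw [← pow_mul, mul_comm, pow_mul, hw.pow_eq_one, one_pow]
  rw [h2, Finset.prod_image]
  intro i hi j hj hij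
  exact hw.pow_inj (Finset.mem_range.mp hi) (Finset.mem_range.mp hj) hij

theorem d3_exp_le_inv {x : ℝ} (h1 : x < 1) : Real.exp x ≤ (1 - x)⁻¹ := by
  have h2 : 1 - x ≤ Real.exp (-x) := by
    have := Real.add_one_le_exp (-x)
    linarith
  have h3 : 0 < 1 - x := by linarith
  rw [Real.exp_neg] at h2
  rw [le_inv_comm₀ (Real.exp_pos x) h3]
  exact h2

/-- local estimate. -/
theorem d3_local {p : ℕ} (hp : p.Prime) (w : ℂˣ) (hw : w ^ p = 1) {x : ℝ} (h0 : 0 ≤ x)
    (h1 : x < 1) :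
    (if w = 1 then Real.exp (p * x) else 1) ≤
      ‖∏ j ∈ Finset.range p, (1 - ((w ^ j : ℂˣ) : ℂ) * (x : ℂ))⁻¹‖ := by
  split_ifs with h
  · subst h
    simp only [one_pow, Units.val_one, one_mul, Finset.prod_const, Finset.card_range, norm_pow,
      norm_inv]
    have h2 : ‖(1 : ℂ) - (x : ℂ)‖ = 1 - x := by
      rw [← Complex.ofReal_one, ← Complex.ofReal_sub, Complex.norm_real, Real.norm_eq_abs,
        abs_of_pos (by linarith)]
    rw [h2, mul_comm, Real.exp_mul, Real.rpow_natCast]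
    exact pow_le_pow_left₀ (Real.exp_pos x).le (d3_exp_le_inv h1) p
  · have hw' : IsPrimitiveRoot (w : ℂ) p := by
      have : Fact p.Prime := ⟨hp⟩
      have h3 : orderOf w = p := orderOf_eq_prime hw h
      have := IsPrimitiveRoot.orderOf w
      rw [h3] at this
      exact IsPrimitiveRoot.coe_units_iff.mpr this
    rw [Finset.prod_inv_distrib, norm_inv]
    simp only [Units.val_pow_eq_pow_val]
    rw [d3_prod_primitive hp.pos hw']
    have h2 : ‖(1 : ℂ) - (x : ℂ) ^ p‖ = 1 - x ^ p := by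
      rw [← Complex.ofReal_one, ← Complex.ofReal_pow, ← Complex.ofReal_sub, Complex.norm_real,
        Real.norm_eq_abs, abs_of_pos (by have := pow_lt_one₀ h0 h1 hp.ne_zero; linarith)]
    rw [h2]
    have h4 : 0 < 1 - x ^ p := by have := pow_lt_one₀ h0 h1 hp.ne_zero; linarith
    rw [one_le_inv₀ h4]
    have := pow_nonneg h0 p
    linarith

section

variable {K : Type*} [Field K] [NumberField K]

theorem d3_one_lt_absNorm (v : HeightOneSpectrum (𝓞 K)) :
    (1 : ℝ) < (Ideal.absNorm v.asIdeal : ℝ) := by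
  have h0 : Ideal.absNorm v.asIdeal ≠ 0 := by
    rw [Ne, Ideal.absNorm_eq_zero_iff]
    exact v.ne_bot
  have h1 : Ideal.absNorm v.asIdeal ≠ 1 := by
    rw [Ne, Ideal.absNorm_eq_one_iff]
    exact v.isPrime.ne_top
  have : 1 < Ideal.absNorm v.asIdeal := by omega
  exact_mod_cast this

theorem d3_x_lt_one (v : HeightOneSpectrum (𝓞 K)) {s : ℝ} (hs : 0 < s) :
    (Ideal.absNorm v.asIdeal : ℝ) ^ (-s) < 1 :=
  Real.rpow_lt_one_of_one_lt_of_neg (d3_one_lt_absNorm v) (by linarith)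

theorem d3_chiI_prime (χ : ClassGroup (𝓞 K) →* ℂˣ) (v : HeightOneSpectrum (𝓞 K)) :
    chiI χ v.asIdeal = (χ (clsOf v) : ℂ) := by
  classical
  have h : v.asIdeal ∈ nonZeroDivisors (Ideal (𝓞 K)) := mem_nonZeroDivisors_iff_ne_zero.mpr v.ne_bot
  change (if h : v.asIdeal ∈ nonZeroDivisors (Ideal (𝓞 K)) then
    (χ (ClassGroup.mk0 ⟨v.asIdeal, h⟩) : ℂ) else 0) = _
  rw [dif_pos h]
  rfl

theorem d3_norm_chiI_le (χ : ClassGroup (𝓞 K) →* ℂˣ) (I : Ideal (𝓞 K)) : ‖chiI χ I‖ ≤ 1 := by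
  classical
  change ‖(if h : I ∈ nonZeroDivisors (Ideal (𝓞 K)) then
    (χ (ClassGroup.mk0 ⟨I, h⟩) : ℂ) else 0)‖ ≤ 1
  split_ifs with h
  · have h1 : (χ (ClassGroup.mk0 ⟨I, h⟩) : ℂ) ^ Fintype.card (ClassGroup (𝓞 K)) = 1 := by
      rw [← Units.val_pow_eq_pow_val, ← map_pow, pow_card_eq_one, map_one, Units.val_one]
    exact (Complex.norm_eq_one_of_pow_eq_one h1 Fintype.card_ne_zero).le
  · rw [norm_zero]
    exact zero_le_one

theorem d3_key {p : ℕ} [NeZero p] (hp : p.Prime)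
    (χ : ClassGroup (𝓞 K) →* Multiplicative (ZMod p)) {s : ℝ} (hs : 1 < s) :
    Real.exp (p * NumberField.Set.primeIdealZetaSum
        {v : HeightOneSpectrum (𝓞 K) | χ (clsOf v) = 1} s) ≤
      ‖∏ j ∈ Finset.range p, LSum (chiI (((d3psi p).comp χ) ^ j)) s‖ := by
  classical
  set S : Set (HeightOneSpectrum (𝓞 K)) := {v | χ (clsOf v) = 1} with hS
  set x : HeightOneSpectrum (𝓞 K) → ℝ := fun v => (Ideal.absNorm v.asIdeal : ℝ) ^ (-s) with hx
  have hsum : Summable x := summable_prime_rpow K hs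
  have h1 : HasSum (S.indicator x) (NumberField.Set.primeIdealZetaSum S s) := by
    rw [NumberField.Set.primeIdealZetaSum_def]
    have := (hsum.indicator S).hasSum
    rwa [← tsum_subtype S x] at this
  have h2 : Tendsto (fun T : Finset (HeightOneSpectrum (𝓞 K)) =>
      Real.exp (p * ∑ v ∈ T, S.indicator x v)) atTop
      (𝓝 (Real.exp (p * NumberField.Set.primeIdealZetaSum S s))) :=
    (Real.continuous_exp.tendsto _).comp (Tendsto.const_mul _ h1)
  have h3 : Tendsto (fun T : Finset (HeightOneSpectrum (𝓞 K)) =>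
      ‖∏ j ∈ Finset.range p, ∏ v ∈ T, (1 - chiI (((d3psi p).comp χ) ^ j) v.asIdeal *
        (((Ideal.absNorm v.asIdeal : ℝ) ^ (-s) : ℝ) : ℂ))⁻¹‖) atTop
      (𝓝 ‖∏ j ∈ Finset.range p, LSum (chiI (((d3psi p).comp χ) ^ j)) s‖) :=
    (tendsto_finsetProd _ (fun j _ => tendsto_euler _ (d3_norm_chiI_le _) hs)).norm
  refine le_of_tendsto_of_tendsto' h2 h3 (fun T => ?_)
  rw [Finset.prod_comm, norm_prod, Finset.mul_sum, Real.exp_sum]
  refine Finset.prod_le_prod (fun v _ => (Real.exp_pos _).le) (fun v _ => ?_)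
  have h4 := d3_local hp (d3psi p (χ (clsOf v))) (d3psi_pow p _)
    (x := x v) (by positivity) (d3_x_lt_one v (by linarith))
  have h5 : (d3psi p (χ (clsOf v)) = 1) ↔ v ∈ S := by
    rw [hS, Set.mem_ofPred_eq, ← map_one (d3psi p)]
    exact (d3psi_injective p).eq_iff
  have h6 : Real.exp (p * S.indicator x v) =
      if d3psi p (χ (clsOf v)) = 1 then Real.exp (p * x v) else 1 := by
    by_cases hv : v ∈ S
    · rw [if_pos (h5.mpr hv), Set.indicator_of_mem hv]
    · rw [if_neg (fun h => hv (h5.mp h)), Set.indicator_of_notMem hv, mul_zero, Real.exp_zero]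
  rw [h6]
  refine h4.trans (le_of_eq ?_)
  congr 1
  refine Finset.prod_congr rfl (fun j _ => ?_)
  rw [d3_chiI_prime]
  rfl

end

theorem dens_chi {p : ℕ} (hp : p.Prime) {K : Type*} [Field K] [NumberField K]
    (hK : InfinitePlace.nrRealPlaces K = 0)
    (χ : ClassGroup (𝓞 K) →* Multiplicative (ZMod p)) (hχ : χ ≠ 1) :
    ∃ C : ℝ, ∀ᶠ s in 𝓝[>] (1 : ℝ),
      (p : ℝ) * NumberField.Set.primeIdealZetaSum {v : HeightOneSpectrum (𝓞 K) | χ (clsOf v) = 1} s
        ≤ Real.log (1 / (s - 1)) + C := by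
  classical
  have : NeZero p := ⟨hp.ne_zero⟩
  have : Fact p.Prime := ⟨hp⟩
  -- the twisted characters are nontrivial
  have hne : ∀ j : ℕ, 0 < j → j < p → ((d3psi p).comp χ) ^ j ≠ 1 := by
    intro j hj0 hjp h
    apply hχ
    ext c
    have h1 : (((d3psi p).comp χ) ^ j) c = 1 := by rw [h]; rfl
    have h2 : d3psi p (χ c ^ j) = d3psi p 1 := by
      rw [map_pow, map_one]
      exact h1
    have h3 := d3psi_injective p h2
    have h4 : (j : ZMod p) * Multiplicative.toAdd (χ c) = 0 := by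
      have := congrArg Multiplicative.toAdd h3
      rwa [toAdd_pow, toAdd_one, nsmul_eq_mul] at this
    have h5 : (j : ZMod p) ≠ 0 := by
      rw [Ne, ZMod.natCast_eq_zero_iff]
      exact fun hd => absurd (Nat.le_of_dvd hj0 hd) (by omega)
    have h6 : Multiplicative.toAdd (χ c) = 0 := (mul_eq_zero.mp h4).resolve_left h5
    exact congrArg Multiplicative.toAdd (Multiplicative.toAdd.injective (h6.trans toAdd_one.symm))
  have hB : ∀ j : ℕ, ∃ B : ℝ, 1 ≤ B ∧ (0 < j → j < p → ∀ s : ℝ, 1 < s → s ≤ 2 →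
      ‖LSum (chiI (((d3psi p).comp χ) ^ j)) s‖ ≤ B) := by
    intro j
    by_cases hj : 0 < j ∧ j < p
    · obtain ⟨B, hB⟩ := LSum_chi_bounded hK _ (hne j hj.1 hj.2)
      exact ⟨max B 1, le_max_right _ _, fun _ _ s h1 h2 => (hB s h1 h2).trans (le_max_left _ _)⟩
    · exact ⟨1, le_rfl, fun h1 h2 => absurd ⟨h1, h2⟩ hj⟩
  choose B hB1 hB2 using hB
  obtain ⟨c, C, hc, hC, hev⟩ := eventually_zetaR_bounds K
  set B' : ℝ := ∏ j ∈ (Finset.range p).erase 0, B j with hB'
  have hB'pos : 0 < B' := Finset.prod_pos (fun j _ => lt_of_lt_of_le one_pos (hB1 j))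
  refine ⟨Real.log (C * B'), ?_⟩
  filter_upwards [hev, Ioc_mem_nhdsGT (one_lt_two : (1 : ℝ) < 2)] with s hs1 hs2
  have hs : 1 < s := hs2.1
  have hs0 : 0 < s - 1 := by linarith
  have h1 := d3_key hp χ hs
  have h2 : ‖∏ j ∈ Finset.range p, LSum (chiI (((d3psi p).comp χ) ^ j)) s‖ ≤ zetaR K s * B' := by
    rw [norm_prod, ← Finset.mul_prod_erase _ _ (Finset.mem_range.mpr hp.pos)]
    have h3 : ‖LSum (chiI (((d3psi p).comp χ) ^ 0)) s‖ = zetaR K s := by
      rw [pow_zero, ← zetaR_eq_LSum, Complex.norm_real, Real.norm_eq_abs, abs_of_nonneg]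
      exact tsum_nonneg (fun I => by positivity)
    rw [h3]
    refine mul_le_mul_of_nonneg_left ?_ (tsum_nonneg (fun I => by positivity))
    refine Finset.prod_le_prod (fun j _ => norm_nonneg _) (fun j hj => ?_)
    rw [Finset.mem_erase, Finset.mem_range] at hj
    exact hB2 j (Nat.pos_of_ne_zero hj.1) hj.2 s hs hs2.2
  have h4 : zetaR K s * B' ≤ 1 / (s - 1) * (C * B') := by
    calc zetaR K s * B' ≤ C / (s - 1) * B' := mul_le_mul_of_nonneg_right hs1.2 hB'pos.le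
      _ = 1 / (s - 1) * (C * B') := by ring
  have h5 : 0 < 1 / (s - 1) := by positivity
  have h6 : 0 < C * B' := by positivity
  rw [← Real.log_mul h5.ne' h6.ne', Real.le_log_iff_exp_le (by positivity)]
  exact h1.trans (h2.trans h4)

end Fermat.Agent.S14
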