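import Fermat.Agent.S14.Defs

/-!
# S14 piece E2: elementary properties of `mE`, `nE`, `e2` (shared by U2, THP, ALG)
-/

set_option autoImplicit false

namespace Fermat.Agent.S14

open NumberField
open scoped Pointwise

variable {p : ℕ} [Fact p.Prime] {K : Type*} [Field K] [NumberField K] {ζ : K}
  (hζ : IsPrimitiveRoot ζ p)

theorem mE_spec (σ : K ≃ₐ[ℚ] K) : σ ζ = ζ ^ mE hζ σ :=
  (hζ.autToPow_spec ℚ σ).symm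

theorem mE_cast (σ : K ≃ₐ[ℚ] K) : (mE hζ σ : ZMod p) = ((hζ.autToPow ℚ σ : (ZMod p)ˣ) : ZMod p) := by
  rw [mE, ZMod.natCast_zmod_val]

theorem nE_cast (σ : K ≃ₐ[ℚ] K) :
    (nE hζ σ : ZMod p) = ((((hζ.autToPow ℚ σ)⁻¹ ^ 2 : (ZMod p)ˣ)) : ZMod p) := by
  rw [nE, ZMod.natCast_zmod_val]

theorem mE_mul (σ τ : K ≃ₐ[ℚ] K) : (mE hζ (σ * τ) : ZMod p) = mE hζ σ * mE hζ τ := by
  rw [mE_cast, mE_cast, mE_cast, map_mul, Units.val_mul]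

theorem nE_mul (σ τ : K ≃ₐ[ℚ] K) : (nE hζ (σ * τ) : ZMod p) = nE hζ σ * nE hζ τ := by
  rw [nE_cast, nE_cast, nE_cast, map_mul, ← Units.val_mul, mul_inv, mul_pow]

theorem nE_mul_mE_sq (σ : K ≃ₐ[ℚ] K) : (nE hζ σ : ZMod p) * (mE hζ σ : ZMod p) ^ 2 = 1 := by
  rw [nE_cast, mE_cast, ← Units.val_pow_eq_pow_val, ← Units.val_mul, ← mul_pow, inv_mul_cancel,
    one_pow, Units.val_one]

theorem mE_ne_zero (σ : K ≃ₐ[ℚ] K) : (mE hζ σ : ZMod p) ≠ 0 := by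
  rw [mE_cast]
  exact Units.ne_zero _

theorem nE_lt (σ : K ≃ₐ[ℚ] K) : nE hζ σ < p := ZMod.val_lt _

theorem coe_smul_O (σ : K ≃ₐ[ℚ] K) (x : 𝓞 K) : ((σ • x : 𝓞 K) : K) = σ (x : K) := rfl

theorem coe_e2O (x : 𝓞 K) : ((e2O hζ x : 𝓞 K) : K) = e2 hζ (x : K) := by
  rw [e2O, e2]
  change algebraMap (𝓞 K) K _ = _
  rw [map_prod]
  refine Finset.prod_congr rfl fun σ _ => ?_
  rw [map_pow]
  rfl

theorem e2_mul (x y : K) : e2 hζ (x * y) = e2 hζ x * e2 hζ y := by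
  rw [e2, e2, e2, ← Finset.prod_mul_distrib]
  refine Finset.prod_congr rfl fun σ _ => ?_
  rw [map_mul, mul_pow]

theorem e2_ne_zero {x : K} (hx : x ≠ 0) : e2 hζ x ≠ 0 := by
  rw [e2, Finset.prod_ne_zero_iff]
  intro σ _
  exact pow_ne_zero _ ((map_ne_zero σ).mpr hx)

/-- `n_{τ⁻¹ρ} ≡ m_τ² n_ρ mod p`, in the form of an equation in `ℕ`. -/
theorem exists_nE_eq (τ ρ : K ≃ₐ[ℚ] K) :
    ∃ k : ℕ, mE hζ τ ^ 2 * nE hζ ρ = nE hζ (τ⁻¹ * ρ) + p * k := by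
  have h1 : ((mE hζ τ ^ 2 * nE hζ ρ : ℕ) : ZMod p) = (nE hζ (τ⁻¹ * ρ) : ℕ) := by
    have h2 := nE_mul hζ τ (τ⁻¹ * ρ)
    rw [mul_inv_cancel_left] at h2
    push_cast
    rw [h2, ← mul_assoc, mul_comm _ (nE hζ τ : ZMod p), nE_mul_mE_sq, one_mul]
  rw [ZMod.natCast_eq_natCast_iff'] at h1
  rw [Nat.mod_eq_of_lt (nE_lt hζ _)] at h1
  refine ⟨(mE hζ τ ^ 2 * nE hζ ρ) / p, ?_⟩
  rw [← h1]
  exact (Nat.mod_add_div _ _).symm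

/-- `e2 x` lies in the `ω²`-eigenspace: `τ (e2 x) = ∏_ρ ρ(x)^{n_{τ⁻¹ρ}}`, `n_{τ⁻¹ρ} ≡ m_τ² n_ρ`. -/
theorem eigen2_e2 {x : K} (hx : x ≠ 0) : Eigen2 hζ (e2 hζ x) := by
  intro τ
  choose k hk using fun ρ => exists_nE_eq hζ τ ρ
  refine ⟨(∏ ρ : K ≃ₐ[ℚ] K, (ρ x) ^ k ρ)⁻¹, ?_⟩
  have h0 : (∏ ρ : K ≃ₐ[ℚ] K, (ρ x) ^ k ρ) ≠ 0 := by
    rw [Finset.prod_ne_zero_iff]
    intro σ _
    exact pow_ne_zero _ ((map_ne_zero σ).mpr hx)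
  have h1 : τ (e2 hζ x) = ∏ ρ : K ≃ₐ[ℚ] K, (ρ x) ^ nE hζ (τ⁻¹ * ρ) := by
    rw [e2, map_prod]
    refine Fintype.prod_equiv (Equiv.mulLeft τ) _ _ fun σ => ?_
    rw [map_pow, Equiv.coe_mulLeft, inv_mul_cancel_left]
    rfl
  have h2 : e2 hζ x ^ (mE hζ τ ^ 2) =
      (∏ ρ : K ≃ₐ[ℚ] K, (ρ x) ^ nE hζ (τ⁻¹ * ρ)) * (∏ ρ : K ≃ₐ[ℚ] K, (ρ x) ^ k ρ) ^ p := by
    rw [e2, ← Finset.prod_pow, ← Finset.prod_pow, ← Finset.prod_mul_distrib]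
    refine Finset.prod_congr rfl fun ρ _ => ?_
    rw [← pow_mul, ← pow_mul, ← pow_add, mul_comm (nE hζ ρ), hk ρ, mul_comm (k ρ)]
  rw [h1, h2, inv_pow, mul_assoc, mul_inv_cancel₀ (pow_ne_zero _ h0), mul_one]

/-- `∑_σ n_σ m_σ² = p - 1 = -1` in `ZMod p`. -/
theorem sum_nE_mul_mE_sq [IsCyclotomicExtension {p} ℚ K] :
    ((∑ σ : K ≃ₐ[ℚ] K, nE hζ σ * mE hζ σ ^ 2 : ℕ) : ZMod p) = -1 := by
  have hp : p.Prime := Fact.out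
  push_cast
  rw [Finset.sum_congr rfl (fun σ _ => nE_mul_mE_sq hζ σ), Finset.sum_const, Finset.card_univ,
    nsmul_eq_mul, mul_one]
  have : IsGalois ℚ K := IsCyclotomicExtension.isGalois {p} ℚ K
  have h1 : Fintype.card (K ≃ₐ[ℚ] K) = p - 1 := by
    rw [← Nat.card_eq_fintype_card, IsGalois.card_aut_eq_finrank,
      IsCyclotomicExtension.finrank K (Polynomial.cyclotomic.irreducible_rat hp.pos),
      Nat.totient_prime hp]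
  rw [h1, Nat.cast_sub hp.one_le, ZMod.natCast_self, Nat.cast_one, zero_sub]

/-- on the `ω²`-eigenspace `e2` is `x ↦ x^{p-1}`, i.e. `x⁻¹` modulo `p`-th powers
(needs `#Δ = p - 1`). -/
theorem e2_of_eigen2 [IsCyclotomicExtension {p} ℚ K] {x : K} (_hx : x ≠ 0) (h : Eigen2 hζ x) :
    ∃ γ : K, e2 hζ x * x = γ ^ p := by
  choose γ hγ using h
  have h1 : ((∑ σ : K ≃ₐ[ℚ] K, nE hζ σ * mE hζ σ ^ 2 + 1 : ℕ) : ZMod p) = 0 := by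
    rw [Nat.cast_add, sum_nE_mul_mE_sq hζ]
    simp
  rw [ZMod.natCast_eq_zero_iff] at h1
  obtain ⟨k, hk⟩ := h1
  refine ⟨x ^ k * ∏ σ : K ≃ₐ[ℚ] K, γ σ ^ nE hζ σ, ?_⟩
  have h2 : e2 hζ x = x ^ (∑ σ : K ≃ₐ[ℚ] K, nE hζ σ * mE hζ σ ^ 2) *
      (∏ σ : K ≃ₐ[ℚ] K, γ σ ^ nE hζ σ) ^ p := by
    rw [e2, ← Finset.prod_pow_eq_pow_sum, ← Finset.prod_pow, ← Finset.prod_mul_distrib]
    refine Finset.prod_congr rfl fun σ _ => ?_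
    rw [hγ σ, mul_pow, ← pow_mul, ← pow_mul, ← pow_mul, mul_comm (nE hζ σ), mul_comm p]
  rw [h2, mul_pow, ← pow_mul, mul_comm k p, ← hk, pow_succ]
  ring

theorem eigen2_mul {x y : K} (hx : Eigen2 hζ x) (hy : Eigen2 hζ y) : Eigen2 hζ (x * y) := by
  intro σ
  obtain ⟨γ, hγ⟩ := hx σ
  obtain ⟨δ, hδ⟩ := hy σ
  refine ⟨γ * δ, ?_⟩
  rw [map_mul, hγ, hδ, mul_pow, mul_pow]
  ring

theorem eigen2_pow_p (x : K) : Eigen2 hζ (x ^ p) := by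
  intro σ
  have hp0 : p ≠ 0 := (Fact.out : p.Prime).ne_zero
  by_cases hx : x = 0
  · refine ⟨0, ?_⟩
    rw [hx, zero_pow hp0, map_zero, mul_zero]
  · refine ⟨σ x / x ^ (mE hζ σ ^ 2), ?_⟩
    rw [map_pow, div_pow, ← pow_mul, ← pow_mul, mul_comm p, mul_div_cancel₀ _ (pow_ne_zero _ hx)]

theorem eigen2_inv {x : K} (hx : Eigen2 hζ x) : Eigen2 hζ x⁻¹ := by
  intro σ
  obtain ⟨γ, hγ⟩ := hx σ
  refine ⟨γ⁻¹, ?_⟩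
  rw [map_inv₀, hγ, mul_inv, inv_pow, inv_pow]

end Fermat.Agent.S14
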