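import Fermat.Agent.S14.Defs

/-!
# S14 piece EP: summability and Euler product over prime ideals (any number field `F`)

Paper proofs.
* `summable_absNorm_rpow`: group ideals by norm; `a_n = #{I | N I = n}`, `∑_{n ≤ x} a_n = O(x)`
  (Mathlib `NumberField.Ideal.tendsto_norm_le_div_atTop`), so `∑ a_n n^{-s}` converges for `s > 1`
  (`LSeriesSummable_of_sum_norm_bigO` in `NumberTheory/LSeries/SumCoeff.lean`, as for
  `dedekindZeta`), then `summable_sigma`/fibers of `absNorm` are finite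
  (`Ideal.finite_setOf_absNorm_eq`).
* `tendsto_euler`: for a finite set `T` of primes let `⟨T⟩` be the set of ideals all of whose prime
  factors are in `T`.  By induction on `T` (geometric series, `tsum_mul_tsum_of_summable_norm`,
  unique factorisation `I = v^k * J`, `v ∤ J`):
  `∏_{v ∈ T} (1 - f v N v^{-s})⁻¹ = ∑_{I ∈ ⟨T⟩} f I N I^{-s}`; every ideal lies in `⟨T⟩` for `T` large,
  so the right side tends to `LSum f s` (dominated by the summable `N I^{-s}`; e.g.
  `tendsto_tsum_of_dominated_convergence` or `Summable.tendsto_... indicator`).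
  Model: Mathlib `NumberTheory/EulerProduct/Basic.lean` (`factoredNumbers`).
* `exp_primeSum_le_zetaR`: `(1-x)⁻¹ ≥ exp x` for `0 ≤ x < 1`; all factors are `≥ 1`.
-/

set_option autoImplicit false

namespace Fermat.Agent.S14

open NumberField IsDedekindDomain Filter Topology
open scoped nonZeroDivisors

section Abstract

variable {R : Type*} [CommRing R] [IsDedekindDomain R]

/-- the ideal `∏ v ∈ T, v ^ x v`. -/
noncomputable def epIdl (T : Finset (HeightOneSpectrum R)) (x : T → ℕ) : Ideal R :=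
  ∏ v : T, (v : HeightOneSpectrum R).asIdeal ^ x v

theorem epIdl_count (T : Finset (HeightOneSpectrum R)) (x : T → ℕ) (v : T) :
    FractionalIdeal.count (FractionRing R) (v : HeightOneSpectrum R)
      ((epIdl T x : Ideal R) : FractionalIdeal R⁰ (FractionRing R)) = x v := by
  classical
  have e : ((epIdl T x : Ideal R) : FractionalIdeal R⁰ (FractionRing R)) =
      ∏ w : T, (((w : HeightOneSpectrum R).asIdeal : Ideal R) :
        FractionalIdeal R⁰ (FractionRing R)) ^ x w := by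
    unfold epIdl
    rw [← FractionalIdeal.coeIdealHom_apply, map_prod]
    refine Finset.prod_congr rfl fun w _ => ?_
    rw [map_pow]
    rfl
  rw [e, FractionalIdeal.count_prod]
  · simp only [FractionalIdeal.count_pow, FractionalIdeal.count_maximal, mul_ite, mul_one, mul_zero]
    rw [Finset.sum_eq_single v]
    · simp
    · intro w _ hw
      rw [if_neg]
      exact fun h => hw (Subtype.ext h)
    · simp
  · intro w _
    exact pow_ne_zero _ (FractionalIdeal.coeIdeal_ne_zero.mpr (w : HeightOneSpectrum R).ne_bot)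

theorem epIdl_injective (T : Finset (HeightOneSpectrum R)) :
    Function.Injective (epIdl (R := R) T) := by
  intro x y h
  funext v
  have h1 := epIdl_count T x v
  rw [h, epIdl_count T y v] at h1
  exact_mod_cast h1.symm

theorem epIdl_surj {I : Ideal R} (hI : I ≠ ⊥) (T : Finset (HeightOneSpectrum R))
    (hT : ∀ v : HeightOneSpectrum R, v.asIdeal ∣ I → v ∈ T) :
    epIdl T (fun v => multiplicity (v : HeightOneSpectrum R).asIdeal I) = I := by
  conv_rhs => rw [← Ideal.finprod_heightOneSpectrum_pow_multiplicity hI]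
  rw [finprod_eq_finsetProd_of_mulSupport_subset (s := T)]
  · unfold epIdl
    exact Finset.prod_coe_sort T (fun v => v.asIdeal ^ multiplicity v.asIdeal I)
  · intro v hv
    rw [Function.mem_mulSupport] at hv
    refine hT v ?_
    by_contra h
    exact hv (by rw [multiplicity_eq_zero.mpr h, pow_zero])

open scoped Classical in
theorem ep_prod_sum (g : Ideal R →*₀ ℂ) (T : Finset (HeightOneSpectrum R)) (K : ℕ) :
    ∏ v ∈ T, ∑ j ∈ Finset.range K, g v.asIdeal ^ j =
      ∑ I ∈ (Fintype.piFinset (fun _ : T => Finset.range K)).image (epIdl T), g I := by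
  rw [Finset.sum_image (fun x _ y _ h => epIdl_injective T h),
    ← Finset.prod_coe_sort T (fun v => ∑ j ∈ Finset.range K, g v.asIdeal ^ j),
    Finset.prod_univ_sum]
  refine Finset.sum_congr rfl fun x _ => ?_
  unfold epIdl
  rw [map_prod]
  exact Finset.prod_congr rfl fun v _ => (map_pow g _ _).symm

theorem ep_tendsto_abstract (g : Ideal R →*₀ ℂ) (hg : Summable g)
    (hlt : ∀ v : HeightOneSpectrum R, ‖g v.asIdeal‖ < 1) :
    Tendsto (fun T : Finset (HeightOneSpectrum R) => ∏ v ∈ T, (1 - g v.asIdeal)⁻¹) atTop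
      (𝓝 (∑' I, g I)) := by
  classical
  have hS := hg.hasSum
  rw [Metric.tendsto_atTop]
  intro ε hε
  obtain ⟨B, hB⟩ := (Metric.tendsto_atTop.mp hS) (ε / 2) (half_pos hε)
  let T0 : Finset (HeightOneSpectrum R) :=
    B.biUnion (fun I => if hI : I = ⊥ then ∅ else (Ideal.finite_factors hI).toFinset)
  refine ⟨T0, fun T hT => ?_⟩
  have hlim : Tendsto (fun K : ℕ => ∏ v ∈ T, ∑ j ∈ Finset.range K, g v.asIdeal ^ j) atTop
      (𝓝 (∏ v ∈ T, (1 - g v.asIdeal)⁻¹)) :=
    tendsto_finsetProd _ fun v _ => (hasSum_geometric_of_norm_lt_one (hlt v)).tendsto_sum_nat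
  have hK : ∀ᶠ K : ℕ in atTop, ∀ I ∈ B, ∀ v ∈ T, multiplicity v.asIdeal I < K := by
    rw [Filter.eventually_all_finset]
    intro I _
    rw [Filter.eventually_all_finset]
    intro v _
    exact eventually_gt_atTop _
  have hev : ∀ᶠ K : ℕ in atTop,
      dist (∏ v ∈ T, ∑ j ∈ Finset.range K, g v.asIdeal ^ j) (∑' I, g I) ≤ ε / 2 := by
    filter_upwards [hK] with K hK
    rw [ep_prod_sum]
    set A := (Fintype.piFinset (fun _ : T => Finset.range K)).image (epIdl T) with hA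
    have h1 : ∑ I ∈ insert ⊥ A, g I = ∑ I ∈ A, g I :=
      Finset.sum_insert_of_eq_zero_if_notMem fun _ => map_zero g
    rw [← h1]
    refine (hB (insert ⊥ A) ?_).le
    intro I hI
    by_cases h0 : I = ⊥
    · rw [h0]; exact Finset.mem_insert_self _ _
    · refine Finset.mem_insert_of_mem ?_
      rw [hA, Finset.mem_image]
      refine ⟨fun v => multiplicity (v : HeightOneSpectrum R).asIdeal I, ?_, epIdl_surj h0 T ?_⟩
      · rw [Fintype.mem_piFinset]
        intro v
        exact Finset.mem_range.mpr (hK I hI v v.2)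
      · intro v hv
        refine hT ?_
        rw [Finset.mem_biUnion]
        refine ⟨I, hI, ?_⟩
        rw [dif_neg h0, Set.Finite.mem_toFinset]
        exact hv
  have := le_of_tendsto (hlim.dist tendsto_const_nhds) hev
  linarith

end Abstract

variable (F : Type*) [Field F] [NumberField F]

/-- partial sums of the number of ideals of norm `k` divided by `n` converge. -/
theorem ep_tendsto_card :
    Tendsto (fun n : ℕ => (∑ k ∈ Finset.Icc 1 n,
      (Nat.card {I : Ideal (𝓞 F) // Ideal.absNorm I = k} : ℝ)) / n) atTop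
      (𝓝 (dedekindZeta_residue F)) := by
  refine ((Ideal.tendsto_norm_le_div_atTop₀ F).comp tendsto_natCast_atTop_atTop).congr fun n ↦ ?_
  simp only [Function.comp_apply, Nat.cast_le, ← Nat.cast_sum]
  congr
  rw [← add_left_inj 1, ← Ideal.card_norm_le_eq_card_norm_le_add_one,
    show Finset.Icc 1 n = Finset.Ioc 0 n from Finset.Icc_succ_left_eq_Ioc _ _,
    show 1 = Nat.card {I : Ideal (𝓞 F) // Ideal.absNorm I = 0} by simp [Ideal.absNorm_eq_zero_iff],
    Finset.sum_Ioc_add_eq_sum_Icc (n.zero_le),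
    ← Finset.card_preimage_eq_sum_card_image_eq (fun k _ ↦ Ideal.finite_setOfPred_absNorm_eq k)]
  simp [Set.coe_eq_subtype]

theorem ep_lseriesSummable {s : ℝ} (hs : 1 < s) :
    LSeriesSummable (fun n => ((Nat.card {I : Ideal (𝓞 F) // Ideal.absNorm I = n} : ℝ) : ℂ))
      (s : ℂ) := by
  refine LSeriesSummable_of_sum_norm_bigO_and_nonneg (r := 1) ?_ (fun _ => Nat.cast_nonneg _)
    zero_le_one (by simpa using hs)
  have h := ep_tendsto_card F
  have := Asymptotics.isBigO_of_div_tendsto_nhds (l := atTop)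
    (f := fun n : ℕ => ∑ k ∈ Finset.Icc 1 n,
      (Nat.card {I : Ideal (𝓞 F) // Ideal.absNorm I = k} : ℝ)) (g := fun n : ℕ => (n : ℝ)) ?_ _ h
  · simpa using this
  · filter_upwards [eventually_gt_atTop 0] with n hn h0
    exact absurd h0 (by positivity)

theorem summable_absNorm_rpow {s : ℝ} (hs : 1 < s) :
    Summable (fun I : Ideal (𝓞 F) => (Ideal.absNorm I : ℝ) ^ (-s)) := by
  rw [← (Equiv.sigmaFiberEquiv (fun I : Ideal (𝓞 F) => Ideal.absNorm I)).summable_iff]
  have hfin : ∀ n : ℕ, Finite {I : Ideal (𝓞 F) // Ideal.absNorm I = n} := fun n =>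
    (Ideal.finite_setOfPred_absNorm_eq n).to_subtype
  have e : ((fun I : Ideal (𝓞 F) => (Ideal.absNorm I : ℝ) ^ (-s)) ∘
      (Equiv.sigmaFiberEquiv (fun I : Ideal (𝓞 F) => Ideal.absNorm I))) =
      fun x : (Σ n : ℕ, {I : Ideal (𝓞 F) // Ideal.absNorm I = n}) => (x.1 : ℝ) ^ (-s) := by
    funext x
    obtain ⟨n, y⟩ := x
    simp [y.2]
  rw [e, summable_sigma_of_nonneg (fun _ => Real.rpow_nonneg (Nat.cast_nonneg _) _)]
  refine ⟨fun n => ?_, ?_⟩
  · have := hfin n
    exact Summable.of_finite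
  · have h := (ep_lseriesSummable F hs).norm
    refine h.congr fun n => ?_
    have := hfin n
    show _ = ∑' _ : {I : Ideal (𝓞 F) // Ideal.absNorm I = n}, (n : ℝ) ^ (-s)
    rw [tsum_const, LSeries.term_def]
    split_ifs with hn
    · subst hn
      simp [Real.zero_rpow (by linarith : -s ≠ 0)]
    · rw [norm_div, Complex.norm_real, Real.norm_of_nonneg (Nat.cast_nonneg _),
        Complex.norm_natCast_cpow_of_pos (Nat.pos_of_ne_zero hn), Complex.ofReal_re,
        Real.rpow_neg (Nat.cast_nonneg _), nsmul_eq_mul, div_eq_mul_inv]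

theorem summable_prime_rpow {s : ℝ} (hs : 1 < s) :
    Summable (fun v : HeightOneSpectrum (𝓞 F) => (Ideal.absNorm v.asIdeal : ℝ) ^ (-s)) :=
  (summable_absNorm_rpow F hs).comp_injective
    (i := fun v : HeightOneSpectrum (𝓞 F) => v.asIdeal) (fun _ _ h => HeightOneSpectrum.ext h)

variable {F}

theorem ep_norm_term_le (f : Ideal (𝓞 F) →*₀ ℂ) (hf : ∀ I, ‖f I‖ ≤ 1) (s : ℝ) (I : Ideal (𝓞 F)) :
    ‖f I * (((Ideal.absNorm I : ℝ) ^ (-s) : ℝ) : ℂ)‖ ≤ (Ideal.absNorm I : ℝ) ^ (-s) := by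
  have h0 : 0 ≤ (Ideal.absNorm I : ℝ) ^ (-s) := Real.rpow_nonneg (Nat.cast_nonneg _) _
  rw [norm_mul, Complex.norm_real, Real.norm_of_nonneg h0]
  exact mul_le_of_le_one_left h0 (hf I)

theorem summable_LSum (f : Ideal (𝓞 F) →*₀ ℂ) (hf : ∀ I, ‖f I‖ ≤ 1) {s : ℝ} (hs : 1 < s) :
    Summable (fun I : Ideal (𝓞 F) => f I * (((Ideal.absNorm I : ℝ) ^ (-s) : ℝ) : ℂ)) :=
  Summable.of_norm_bounded (summable_absNorm_rpow F hs) (ep_norm_term_le f hf s)

/-- the completely multiplicative function `I ↦ f I * N I ^ (-s)`. -/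
noncomputable def epG (f : Ideal (𝓞 F) →*₀ ℂ) (s : ℝ) : Ideal (𝓞 F) →*₀ ℂ where
  toFun I := f I * (((Ideal.absNorm I : ℝ) ^ (-s) : ℝ) : ℂ)
  map_zero' := by rw [map_zero, zero_mul]
  map_one' := by rw [map_one, one_mul, map_one]; simp
  map_mul' I J := by
    rw [map_mul, map_mul, Nat.cast_mul, Real.mul_rpow (Nat.cast_nonneg _) (Nat.cast_nonneg _),
      Complex.ofReal_mul]
    ring

theorem ep_absNorm_rpow_lt_one (v : HeightOneSpectrum (𝓞 F)) {s : ℝ} (hs : 0 < s) :
    (Ideal.absNorm v.asIdeal : ℝ) ^ (-s) < 1 := by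
  have h1 : 1 < (Ideal.absNorm v.asIdeal : ℝ) := by
    have h0 : Ideal.absNorm v.asIdeal ≠ 0 := by
      rw [Ne, Ideal.absNorm_eq_zero_iff]; exact v.ne_bot
    have h1 : Ideal.absNorm v.asIdeal ≠ 1 := by
      rw [Ne, Ideal.absNorm_eq_one_iff]; exact v.isPrime.ne_top
    exact_mod_cast (by omega : 1 < Ideal.absNorm v.asIdeal)
  exact Real.rpow_lt_one_of_one_lt_of_neg h1 (by linarith)

theorem tendsto_euler (f : Ideal (𝓞 F) →*₀ ℂ) (hf : ∀ I, ‖f I‖ ≤ 1) {s : ℝ} (hs : 1 < s) :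
    Tendsto (fun T : Finset (HeightOneSpectrum (𝓞 F)) =>
      ∏ v ∈ T, (1 - f v.asIdeal * (((Ideal.absNorm v.asIdeal : ℝ) ^ (-s) : ℝ) : ℂ))⁻¹)
      atTop (𝓝 (LSum f s)) :=
  ep_tendsto_abstract (epG f s) (summable_LSum f hf hs) fun v =>
    (ep_norm_term_le f hf s v.asIdeal).trans_lt (ep_absNorm_rpow_lt_one v (by linarith))

variable (F)

theorem ep_chiI_one (I : Ideal (𝓞 F)) (hI : I ≠ ⊥) :
    chiI (1 : ClassGroup (𝓞 F) →* ℂˣ) I = 1 := by
  classical
  have h : I ∈ (Ideal (𝓞 F))⁰ := mem_nonZeroDivisors_iff_ne_zero.mpr hI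
  have e : chiI (1 : ClassGroup (𝓞 F) →* ℂˣ) I = (if h : I ∈ (Ideal (𝓞 F))⁰ then
    (((1 : ClassGroup (𝓞 F) →* ℂˣ) (ClassGroup.mk0 ⟨I, h⟩) : ℂˣ) : ℂ) else 0) := by
    unfold chiI
    simp only [MonoidWithZeroHom.coe_mk, ZeroHom.coe_mk]
  rw [e, dif_pos h]
  simp

theorem ep_norm_chiI_one_le (I : Ideal (𝓞 F)) : ‖chiI (1 : ClassGroup (𝓞 F) →* ℂˣ) I‖ ≤ 1 := by
  by_cases hI : I = ⊥
  · rw [hI]
    have : chiI (1 : ClassGroup (𝓞 F) →* ℂˣ) (⊥ : Ideal (𝓞 F)) = 0 := map_zero _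
    rw [this]; simp
  · rw [ep_chiI_one F I hI]; simp

theorem zetaR_eq_LSum (s : ℝ) : ((zetaR F s : ℝ) : ℂ) = LSum (chiI (1 : ClassGroup (𝓞 F) →* ℂˣ)) s := by
  unfold zetaR LSum
  rw [Complex.ofReal_tsum]
  have e := tsum_subtype ((Ideal (𝓞 F))⁰ : Set (Ideal (𝓞 F)))
      (fun I : Ideal (𝓞 F) => (((Ideal.absNorm I : ℝ) ^ (-s) : ℝ) : ℂ))
  refine e.trans ?_
  refine tsum_congr fun I => ?_
  by_cases hI : I = ⊥
  · have h : I ∉ ((Ideal (𝓞 F))⁰ : Set (Ideal (𝓞 F))) := fun h =>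
      (mem_nonZeroDivisors_iff_ne_zero.mp h) hI
    rw [Set.indicator_of_notMem h, hI]
    have : chiI (1 : ClassGroup (𝓞 F) →* ℂˣ) (⊥ : Ideal (𝓞 F)) = 0 := map_zero _
    rw [this, zero_mul]
  · have h : I ∈ ((Ideal (𝓞 F))⁰ : Set (Ideal (𝓞 F))) := mem_nonZeroDivisors_iff_ne_zero.mpr hI
    rw [Set.indicator_of_mem h, ep_chiI_one F I hI, one_mul]

/-- real Euler product for `zetaR`. -/
theorem tendsto_euler_zetaR {s : ℝ} (hs : 1 < s) :
    Tendsto (fun T : Finset (HeightOneSpectrum (𝓞 F)) =>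
      ∏ v ∈ T, (1 - (Ideal.absNorm v.asIdeal : ℝ) ^ (-s))⁻¹) atTop (𝓝 (zetaR F s)) := by
  have h := tendsto_euler (chiI (1 : ClassGroup (𝓞 F) →* ℂˣ)) (ep_norm_chiI_one_le F) hs
  rw [← zetaR_eq_LSum] at h
  rw [← Filter.tendsto_ofReal_iff]
  refine h.congr fun T => ?_
  rw [Complex.ofReal_prod]
  refine Finset.prod_congr rfl fun v _ => ?_
  rw [ep_chiI_one F _ v.ne_bot, one_mul]
  push_cast
  rfl

theorem exp_primeSum_le_zetaR (S : Set (HeightOneSpectrum (𝓞 F))) {s : ℝ} (hs : 1 < s) :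
    Real.exp (NumberField.Set.primeIdealZetaSum S s) ≤ zetaR F s := by
  have hsum := summable_prime_rpow F hs
  have h1 : NumberField.Set.primeIdealZetaSum S s ≤
      ∑' v : HeightOneSpectrum (𝓞 F), (Ideal.absNorm v.asIdeal : ℝ) ^ (-s) :=
    hsum.tsum_subtype_le _ S (fun _ => Real.rpow_nonneg (Nat.cast_nonneg _) _)
  refine (Real.exp_le_exp.mpr h1).trans ?_
  have h2 : Tendsto (fun T : Finset (HeightOneSpectrum (𝓞 F)) =>
      Real.exp (∑ v ∈ T, (Ideal.absNorm v.asIdeal : ℝ) ^ (-s))) atTop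
      (𝓝 (Real.exp (∑' v : HeightOneSpectrum (𝓞 F), (Ideal.absNorm v.asIdeal : ℝ) ^ (-s)))) :=
    (Real.continuous_exp.tendsto _).comp hsum.hasSum
  refine le_of_tendsto_of_tendsto' h2 (tendsto_euler_zetaR F hs) fun T => ?_
  rw [Real.exp_sum]
  refine Finset.prod_le_prod (fun _ _ => (Real.exp_pos _).le) fun v _ => ?_
  have hlt := ep_absNorm_rpow_lt_one v (by linarith : 0 < s)
  set x := (Ideal.absNorm v.asIdeal : ℝ) ^ (-s) with hx
  have h3 : 1 - x ≤ Real.exp (-x) := by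
    have := Real.add_one_le_exp (-x)
    linarith
  have h4 : 0 < 1 - x := by linarith
  rw [← inv_inv (Real.exp x), ← Real.exp_neg]
  exact inv_anti₀ h4 h3

end Fermat.Agent.S14
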