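import Mathlib

/-!
# S14 piece FR: the frontier of `normLeOne K` is covered by Lipschitz images of `[0,1]^(n-1)`

Imports Mathlib only.  `K` totally complex (we only need `K ∋ ζ_p`, `p` odd).

Paper proof.  Mathlib (`NumberTheory/NumberField/CanonicalEmbedding/NormLeOne.lean`) gives
* `closure_normLeOne_subset : closure (normLeOne K) ⊆ normAtAllPlaces ⁻¹' (compactSet K)`,
* `compactSet_eq_union : compactSet K = expMapBasis '' closure (paramSet K) ∪ {0}`,
* `subset_interior_normLeOne :
    normAtAllPlaces ⁻¹' (expMapBasis '' interior (paramSet K)) ⊆ interior (normLeOne K)`,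
* `closure_paramSet`, `interior_paramSet` (box `Iic 0 × [0,1]^r` resp. `Iio 0 × (0,1)^r`),
* `expMapBasis_apply'` : `expMapBasis x = exp (x w₀) • ∏_{i ≠ w₀} |η_i| ^ x i`.
So a frontier point `x` is `0` or has `(|x_w|)_w = expMapBasis y` with `y w₀ ≤ 0`, `y i ∈ [0,1]` and
(`y w₀ = 0` or some `y i ∈ {0,1}`).  Hence `frontier` is covered by the `2r+1` faces
`(ρ, (y_i), (θ_w)) ↦ (ρ ∏_i |η_i|_w^{y_i} e^{2π i θ_w})_w`, `ρ = exp (y w₀) ∈ [0,1]` (`ρ = 0` gives the
point `0`), with one of the coordinates `ρ = 1`, `y_i = 0`, `y_i = 1` frozen: the number of free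
parameters is `(1 + r - 1) + r₂ = 2 r₂ - 1 = n - 1` (`r + 1 = r₂`).  Each map is `C¹` on a
neighbourhood of the compact cube, hence Lipschitz on it (or: products of bounded Lipschitz
functions are Lipschitz).
-/

set_option autoImplicit false

namespace Fermat.Agent.S14

open NumberField NumberField.mixedEmbedding NumberField.mixedEmbedding.fundamentalCone
open NumberField.InfinitePlace NumberField.Units NumberField.Units.dirichletUnitTheorem

namespace FR

section generic

variable {ι : Type*} {k : ℕ}

open scoped Classical in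
/-- insert the constant `b` at the coordinate `a`. -/
noncomputable def ins (a : ι) (b : ℝ) (e : Fin k ≃ {c : ι // c ≠ a}) (u : Fin k → ℝ) : ι → ℝ :=
  fun c => if h : c = a then b else u (e.symm ⟨c, h⟩)

theorem ins_lipschitz [Fintype ι] (a : ι) (b : ℝ) (e : Fin k ≃ {c : ι // c ≠ a}) :
    LipschitzWith 1 (ins a b e) := by
  refine LipschitzWith.of_dist_le_mul fun u u' => ?_
  rw [NNReal.coe_one, one_mul, dist_pi_le_iff dist_nonneg]
  intro c
  unfold ins
  split_ifs with h
  · rw [dist_self]; exact dist_nonneg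
  · exact dist_le_pi_dist u u' _

theorem ins_mapsTo (a : ι) {b : ℝ} (hb : b ∈ Set.Icc (0 : ℝ) 1) (e : Fin k ≃ {c : ι // c ≠ a}) :
    Set.MapsTo (ins a b e) (Set.Icc 0 1) (Set.Icc 0 1) := by
  intro u hu
  refine ⟨fun c => ?_, fun c => ?_⟩
  · unfold ins
    split_ifs with h
    · exact hb.1
    · exact hu.1 _
  · unfold ins
    split_ifs with h
    · exact hb.2
    · exact hu.2 _

theorem exists_ins (a : ι) {b : ℝ} (e : Fin k ≃ {c : ι // c ≠ a}) {y : ι → ℝ}
    (hy : y ∈ Set.Icc (0 : ι → ℝ) 1) (hya : y a = b) :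
    ∃ u ∈ Set.Icc (0 : Fin k → ℝ) 1, ins a b e u = y := by
  refine ⟨fun i => y (e i).1, ⟨fun i => hy.1 _, fun i => hy.2 _⟩, ?_⟩
  funext c
  unfold ins
  split_ifs with h
  · rw [h, hya]
  · simp

end generic

variable (K : Type*) [Field K] [NumberField K]

theorem contDiff_expMapBasis :
    ContDiff ℝ 1 (fun x : realSpace K => (expMapBasis x : realSpace K)) := by
  rw [contDiff_pi]
  intro w
  have : (fun x : realSpace K => (expMapBasis x : realSpace K) w) =
      fun x => Real.exp ((w.mult : ℝ)⁻¹ * ((completeBasis K).equivFunL.symm x) w) := by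
    ext x; rw [expMapBasis_apply, expMap_apply]; rfl
  rw [this]
  exact Real.contDiff_exp.comp (contDiff_const.mul
    ((contDiff_apply ℝ ℝ w).comp (completeBasis K).equivFunL.symm.contDiff))

open scoped Classical in
/-- the radial part -/
noncomputable def rad (y : InfinitePlace K ⊕ InfinitePlace K → ℝ) : realSpace K :=
  y (Sum.inl w₀) • expMapBasis (fun w => if w = w₀ then 0 else y (Sum.inl w))

theorem contDiff_rad : ContDiff ℝ 1 (rad K) := by
  classical
  unfold rad
  refine ContDiff.smul (contDiff_apply ℝ ℝ _) ((contDiff_expMapBasis K).comp ?_)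
  rw [contDiff_pi]
  intro w
  by_cases h : w = w₀
  · simp only [h, if_true]; exact contDiff_const
  · simp only [h, if_false]; exact contDiff_apply ℝ ℝ _

/-- the parametrisation -/
noncomputable def Psi (y : InfinitePlace K ⊕ InfinitePlace K → ℝ) : mixedSpace K :=
  (fun _ => 0, fun w => (rad K y w.1 : ℂ) *
    Complex.exp (((2 * Real.pi * y (Sum.inr w.1) - Real.pi : ℝ) : ℂ) * Complex.I))

open scoped Classical in
theorem contDiff_Psi : ContDiff ℝ 1 (Psi K) := by
  unfold Psi
  refine ContDiff.prodMk contDiff_const ?_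
  rw [contDiff_pi]
  intro w
  refine ContDiff.mul ?_ ?_
  · exact Complex.ofRealCLM.contDiff.comp ((contDiff_apply ℝ ℝ w.1).comp (contDiff_rad K))
  · refine ContDiff.cexp (ContDiff.mul ?_ contDiff_const)
    refine Complex.ofRealCLM.contDiff.comp ?_
    exact (contDiff_const.mul (contDiff_apply ℝ ℝ _)).sub contDiff_const

open scoped Classical in
theorem exists_lipschitz_Psi : ∃ C, LipschitzOnWith C (Psi K) (Set.Icc 0 1) :=
  (contDiff_Psi K).contDiffOn.exists_lipschitzOnWith one_ne_zero (convex_Icc _ _) isCompact_Icc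

theorem isComplex_of (hK : InfinitePlace.nrRealPlaces K = 0) (w : InfinitePlace K) :
    w.IsComplex := by
  classical
  rw [← not_isReal_iff_isComplex]
  intro hw
  have : IsEmpty {w : InfinitePlace K // w.IsReal} := by
    rw [← Fintype.card_eq_zero_iff]; exact hK
  exact this.false ⟨w, hw⟩

open scoped Classical in
theorem mem_cover (hK : InfinitePlace.nrRealPlaces K = 0) {x : mixedSpace K}
    (hx : x ∈ frontier (normLeOne K)) :
    ∃ y : InfinitePlace K ⊕ InfinitePlace K → ℝ, y ∈ Set.Icc 0 1 ∧
      (∃ w, y (Sum.inl w) = 0 ∨ y (Sum.inl w) = 1) ∧ Psi K y = x := by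
  have hC := isComplex_of K hK
  have hE : IsEmpty {w : InfinitePlace K // w.IsReal} := by
    rw [← Fintype.card_eq_zero_iff]; exact hK
  obtain ⟨hx1, hx2⟩ := hx
  obtain ⟨c, hc, _, ⟨y0, hy0, rfl⟩, hcy⟩ := closure_normLeOne_subset K hx1
  have hcy : c • (expMapBasis y0 : realSpace K) = normAtAllPlaces x := hcy
  have hy00 : y0 w₀ = 0 := by simpa using hy0 w₀ (Set.mem_univ _)
  have hy01 : ∀ w, w ≠ w₀ → y0 w ∈ Set.Icc (0 : ℝ) 1 := fun w hw => by
    simpa [hw] using hy0 w (Set.mem_univ _)
  set y : InfinitePlace K ⊕ InfinitePlace K → ℝ :=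
    Sum.elim (fun w => if w = w₀ then c else y0 w)
      (fun w => (Complex.arg (x.2 ⟨w, hC w⟩) + Real.pi) / (2 * Real.pi)) with hy
  have hrad : rad K y = normAtAllPlaces x := by
    rw [← hcy]
    unfold rad
    have h1 : y (Sum.inl w₀) = c := by simp [hy]
    have h2 : (fun w => if w = w₀ then 0 else y (Sum.inl w)) = y0 := by
      funext w
      by_cases h : w = w₀
      · simp [h, hy00]
      · simp [h, hy]
    rw [h1, h2]
  refine ⟨y, ⟨fun a => ?_, fun a => ?_⟩, ?_, ?_⟩
  · rcases a with w | w
    · by_cases h : w = w₀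
      · simpa [hy, h] using hc.1
      · simpa [hy, h] using (hy01 w h).1
    · have := Complex.neg_pi_lt_arg (x.2 ⟨w, hC w⟩)
      simp only [hy, Sum.elim_inr, Pi.zero_apply]
      have hpi := Real.pi_pos
      exact div_nonneg (by linarith) (by positivity)
  · rcases a with w | w
    · by_cases h : w = w₀
      · simpa [hy, h] using hc.2
      · simpa [hy, h] using (hy01 w h).2
    · have := Complex.arg_le_pi (x.2 ⟨w, hC w⟩)
      simp only [hy, Sum.elim_inr, Pi.one_apply]
      have hpi := Real.pi_pos
      rw [div_le_one (by positivity)]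
      linarith
  · by_contra hcon
    push Not at hcon
    apply hx2
    apply subset_interior_normLeOne K
    refine ⟨fun w => if w = w₀ then Real.log c else y0 w, ?_, ?_⟩
    · have hc0 : 0 < c := by
        have := (hcon w₀).1
        simp only [hy, Sum.elim_inl, if_true] at this
        exact lt_of_le_of_ne hc.1 (Ne.symm this)
      have hc1 : c < 1 := by
        have := (hcon w₀).2
        simp only [hy, Sum.elim_inl, if_true] at this
        exact lt_of_le_of_ne hc.2 this
      rw [interior_paramSet, Set.mem_univ_pi]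
      intro w
      by_cases h : w = w₀
      · simp only [h, if_true]
        exact Real.log_neg hc0 hc1
      · simp only [h, if_false]
        have h0 := (hcon w).1
        have h1 := (hcon w).2
        simp only [hy, Sum.elim_inl, h, if_false] at h0 h1
        exact ⟨lt_of_le_of_ne (hy01 w h).1 (Ne.symm h0), lt_of_le_of_ne (hy01 w h).2 h1⟩
    · have hc0 : 0 < c := by
        have := (hcon w₀).1
        simp only [hy, Sum.elim_inl, if_true] at this
        exact lt_of_le_of_ne hc.1 (Ne.symm this)
      rw [expMapBasis_apply'', if_pos rfl, Real.exp_log hc0, ← hcy]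
      congr 2
      funext w
      by_cases h : w = w₀
      · simp [h, hy00]
      · simp [h]
  · unfold Psi
    refine Prod.ext (funext fun w => (hE.false w).elim) (funext fun w => ?_)
    simp only
    rw [hrad, normAtAllPlaces_apply, normAtPlace_apply_of_isComplex w.2]
    have h1 : y (Sum.inr w.1) = (Complex.arg (x.2 w) + Real.pi) / (2 * Real.pi) := by
      simp [hy]
    have h2 : 2 * Real.pi * y (Sum.inr w.1) - Real.pi = Complex.arg (x.2 w) := by
      rw [h1]
      have hpi := Real.pi_pos
      field_simp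
      ring
    rw [h2]
    exact Complex.norm_mul_exp_arg_mul_I _

end FR

open FR in
open scoped Classical in
/-- NB: `open scoped Classical` is needed for the norm on `mixedSpace K` (as in Mathlib). -/
theorem frontier_normLeOne_cover (K : Type*) [Field K] [NumberField K]
    (hK : InfinitePlace.nrRealPlaces K = 0) :
    ∃ (m : ℕ) (φ : Fin m → (Fin (Module.finrank ℝ (mixedSpace K) - 1) → ℝ) → mixedSpace K),
      (∀ i, ∃ C, LipschitzOnWith C (φ i) (Set.Icc 0 1)) ∧
      frontier (normLeOne K) ⊆ ⋃ i, φ i '' Set.Icc 0 1 := by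
  have hcard : Fintype.card (InfinitePlace K ⊕ InfinitePlace K) =
      Module.finrank ℝ (mixedSpace K) := by
    rw [Fintype.card_sum, mixedEmbedding.finrank, ← InfinitePlace.card_add_two_mul_card_eq_rank,
      InfinitePlace.card_eq_nrRealPlaces_add_nrComplexPlaces, hK]
    ring
  have hcard' : ∀ a : InfinitePlace K ⊕ InfinitePlace K,
      Fintype.card {c : InfinitePlace K ⊕ InfinitePlace K // c ≠ a} =
        Module.finrank ℝ (mixedSpace K) - 1 := by
    intro a
    rw [← hcard, Fintype.card_subtype_compl]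
    simp
  let e : ∀ a : InfinitePlace K ⊕ InfinitePlace K,
      Fin (Module.finrank ℝ (mixedSpace K) - 1) ≃
        {c : InfinitePlace K ⊕ InfinitePlace K // c ≠ a} :=
    fun a => (Fintype.equivFinOfCardEq (hcard' a)).symm
  let idx := Fintype.equivFin (InfinitePlace K × Bool)
  let F : InfinitePlace K × Bool →
      (Fin (Module.finrank ℝ (mixedSpace K) - 1) → ℝ) → mixedSpace K :=
    fun q => Psi K ∘ ins (Sum.inl q.1) (if q.2 then 1 else 0) (e _)
  refine ⟨Fintype.card (InfinitePlace K × Bool), fun i => F (idx.symm i), fun i => ?_, ?_⟩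
  · obtain ⟨C, hC⟩ := exists_lipschitz_Psi K
    refine ⟨C * 1, hC.comp (ins_lipschitz _ _ _).lipschitzOnWith (ins_mapsTo _ ?_ _)⟩
    split_ifs
    · exact ⟨zero_le_one, le_rfl⟩
    · exact ⟨le_rfl, zero_le_one⟩
  · intro x hx
    obtain ⟨y, hy, ⟨w, hw⟩, rfl⟩ := mem_cover K hK hx
    rw [Set.mem_iUnion]
    rcases hw with hw | hw
    · refine ⟨idx (w, false), ?_⟩
      obtain ⟨u, hu, hu'⟩ := exists_ins (Sum.inl w) (e (Sum.inl w)) hy hw
      refine ⟨u, hu, ?_⟩
      show F (idx.symm (idx (w, false))) u = _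
      rw [Equiv.symm_apply_apply]
      simp only [F, Function.comp_apply]
      simp [hu']
    · refine ⟨idx (w, true), ?_⟩
      obtain ⟨u, hu, hu'⟩ := exists_ins (Sum.inl w) (e (Sum.inl w)) hy hw
      refine ⟨u, hu, ?_⟩
      show F (idx.symm (idx (w, true))) u = _
      rw [Equiv.symm_apply_apply]
      simp only [F, Function.comp_apply]
      simp [hu']

end Fermat.Agent.S14
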