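import Mathlib

/-!
# S14 piece LP: lattice points in `t • D` with error term `O(t^(n-1))`

PURE GEOMETRY, imports Mathlib only.

Proof.  Let `b` be a `ℤ`-basis of `L`, `P` the half-open fundamental parallelotope
(`ZSpan.fundamentalDomain`), `N(t) = #(L ∩ tD)`, `μ` a Haar measure.
* every `x : E` lies in exactly one cell `v + P`, `v ∈ L`.
* call `v` a boundary cell of `S = tD` if `v + P` meets `S` and its complement.  `v + P` is convex,
  hence preconnected, so it meets `frontier (tD) = t • frontier D`.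
* `B(t) := #boundary cells ≤ C t^(n-1)`: cut `[0,1]^(n-1)` into `⌈t⌉^(n-1)` cubes of side `1/⌈t⌉`;
  a ball of radius `R` contains at most `#(L ∩ ball 0 (2R))` lattice points.
* `(N(t) - B(t)) μ(P) ≤ μ(tD) = t^n μ(D) ≤ (N(t) + B(t)) μ(P)` (outer measure: no measurability of
  `D` is needed).
* hence `|N(t) - κ' t^n| ≤ B(t)` with `κ' = μ(D)/μ(P)`, and `κ' = κ` by uniqueness of limits.
-/

set_option autoImplicit false
set_option linter.unusedSectionVars false

namespace Fermat.Agent.S14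

open Filter Topology
open scoped Pointwise

namespace LP

open MeasureTheory Module Submodule ZSpan

theorem inter_frontier_nonempty {X : Type*} [TopologicalSpace X] {C S : Set X}
    (hC : IsPreconnected C) (h1 : (C ∩ S).Nonempty) (h2 : (C ∩ Sᶜ).Nonempty) :
    (C ∩ frontier S).Nonempty := by
  by_contra hne
  rw [Set.not_nonempty_iff_eq_empty] at hne
  have hmem : ∀ x ∈ C, x ∉ frontier S := fun x hx hf => by
    have : x ∈ C ∩ frontier S := ⟨hx, hf⟩
    rw [hne] at this
    exact this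
  have hS : ∀ x ∈ C, x ∈ S → x ∈ interior S := fun x hx hxS => by
    by_contra hi
    exact hmem x hx ⟨subset_closure hxS, hi⟩
  have hS' : ∀ x ∈ C, x ∈ Sᶜ → x ∈ interior Sᶜ := fun x hx hxS => by
    by_contra hi
    refine hmem x hx ?_
    rw [← frontier_compl]
    exact ⟨subset_closure hxS, hi⟩
  obtain ⟨x, hx, hxu, hxv⟩ := hC (interior S) (interior Sᶜ) isOpen_interior isOpen_interior
    (fun x hx => by
      by_cases hxS : x ∈ S
      · exact Or.inl (hS x hx hxS)
      · exact Or.inr (hS' x hx hxS))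
    (by obtain ⟨x, hx, hxS⟩ := h1; exact ⟨x, hx, hS x hx hxS⟩)
    (by obtain ⟨x, hx, hxS⟩ := h2; exact ⟨x, hx, hS' x hx hxS⟩)
  exact (interior_subset hxv) (interior_subset hxu)

variable {E ι : Type*} [NormedAddCommGroup E] [NormedSpace ℝ E] [Fintype ι] (b : Basis ι ℝ E)

/-- the cell `v + P`. -/
def cell (v : E) : Set E := {x | x - v ∈ fundamentalDomain b}

theorem self_mem_cell (v : E) : v ∈ cell b v := by
  simp [cell, mem_fundamentalDomain]

theorem convex_cell (v : E) : Convex ℝ (cell b v) := by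
  intro x hx y hy a c ha hc hac
  simp only [cell, Set.mem_ofPred_eq, mem_fundamentalDomain] at hx hy ⊢
  intro i
  have h1 : a • x + c • y - v = a • (x - v) + c • (y - v) := by
    have : v = a • v + c • v := by rw [← add_smul, hac, one_smul]
    conv_lhs => rw [this]
    simp only [smul_sub]
    abel
  rw [h1, map_add, map_smul, map_smul]
  exact convex_Ico (0 : ℝ) 1 (hx i) (hy i) ha hc hac

theorem mem_cell_floor (x : E) : x ∈ cell b (floor b x : E) :=
  fract_mem_fundamentalDomain b x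

theorem eq_of_mem_cell {v x : E} (hv : v ∈ span ℤ (Set.range b)) (hx : x ∈ cell b v) :
    v = (floor b x : E) := by
  have h1 : fract b x = x - v := by
    have : x = v + (x - v) := by abel
    conv_lhs => rw [this]
    rw [fract_zSpan_add b _ hv, fract_eq_self]
    exact hx
  rw [fract_apply] at h1
  exact (sub_right_injective h1).symm

theorem norm_sub_le_of_mem_cell {v x : E} (hx : x ∈ cell b v) : ‖x - v‖ ≤ ∑ i, ‖b i‖ := by
  have := norm_fract_le b (x - v)
  rwa [fract_eq_self.mpr hx] at this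

/-- boundary cells of `S`. -/
def Bd (S : Set E) : Set E :=
  {v | v ∈ span ℤ (Set.range b) ∧ (cell b v ∩ S).Nonempty ∧ (cell b v ∩ Sᶜ).Nonempty}


section Measure

variable [MeasurableSpace E] [BorelSpace E] (μ : Measure E) [μ.IsAddHaarMeasure]

theorem cell_eq_preimage (v : E) : cell b v = (fun x => -v + x) ⁻¹' fundamentalDomain b := by
  ext x
  simp [cell, sub_eq_neg_add]

theorem measure_cell (v : E) : μ (cell b v) = μ (fundamentalDomain b) := by
  rw [cell_eq_preimage, measure_preimage_add]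

theorem measurableSet_cell (v : E) : MeasurableSet (cell b v) := by
  rw [cell_eq_preimage]
  exact (measurable_const_add _) (fundamentalDomain_measurableSet b)

theorem lower (S : Set E) (A : Finset E)
    (hA : ∀ v ∈ A, v ∈ span ℤ (Set.range b) ∧ cell b v ⊆ S) :
    (A.card : ENNReal) * μ (fundamentalDomain b) ≤ μ S := by
  calc (A.card : ENNReal) * μ (fundamentalDomain b) = ∑ v ∈ A, μ (cell b v) := by
        simp [measure_cell]
    _ = μ (⋃ v ∈ A, cell b v) := by
        refine (measure_biUnion_finset ?_ fun v _ => measurableSet_cell b v).symm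
        intro v hv w hw hvw
        rw [Function.onFun, Set.disjoint_left]
        intro x hxv hxw
        exact hvw ((eq_of_mem_cell b (hA v hv).1 hxv).trans (eq_of_mem_cell b (hA w hw).1 hxw).symm)
    _ ≤ μ S := measure_mono (Set.iUnion₂_subset fun v hv => (hA v hv).2)

theorem upper (S : Set E) (A : Finset E) (hA : ∀ x ∈ S, (floor b x : E) ∈ A) :
    μ S ≤ (A.card : ENNReal) * μ (fundamentalDomain b) := by
  calc μ S ≤ μ (⋃ v ∈ A, cell b v) := measure_mono fun x hx =>
        Set.mem_iUnion₂.mpr ⟨_, hA x hx, mem_cell_floor b x⟩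
    _ ≤ ∑ v ∈ A, μ (cell b v) := measure_biUnion_finset_le _ _
    _ = _ := by simp [measure_cell]

theorem sandwich (S : Set E) (hS : μ S ≠ ⊤) (hP : μ (fundamentalDomain b) ≠ ⊤)
    (hF : ((span ℤ (Set.range b) : Set E) ∩ S).Finite) (hB : (Bd b S).Finite) :
    |(((span ℤ (Set.range b) : Set E) ∩ S).ncard : ℝ) * (μ (fundamentalDomain b)).toReal -
      (μ S).toReal| ≤ ((Bd b S).ncard : ℝ) * (μ (fundamentalDomain b)).toReal := by
  classical
  set c := (μ (fundamentalDomain b)).toReal with hc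
  have hc0 : 0 ≤ c := ENNReal.toReal_nonneg
  rw [Set.ncard_eq_toFinset_card _ hF, Set.ncard_eq_toFinset_card _ hB]
  set F := hF.toFinset
  set G := hB.toFinset
  have h1 : (((F \ G).card : ℕ) : ℝ) * c ≤ (μ S).toReal := by
    have := lower b μ S (F \ G) (fun v hv => by
      simp only [Finset.mem_sdiff, F, G, Set.Finite.mem_toFinset] at hv
      obtain ⟨⟨hvL, hvS⟩, hvB⟩ := hv
      refine ⟨hvL, fun x hx => ?_⟩
      by_contra hxS
      exact hvB ⟨hvL, ⟨v, self_mem_cell b v, hvS⟩, ⟨x, hx, hxS⟩⟩)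
    have h2 := ENNReal.toReal_mono hS this
    rwa [ENNReal.toReal_mul, ENNReal.toReal_natCast] at h2
  have h2 : (μ S).toReal ≤ (((F ∪ G).card : ℕ) : ℝ) * c := by
    have := upper b μ S (F ∪ G) (fun x hx => by
      simp only [Finset.mem_union, F, G, Set.Finite.mem_toFinset]
      by_cases hsub : cell b (floor b x : E) ⊆ S
      · exact Or.inl ⟨(floor b x).2, hsub (self_mem_cell b _)⟩
      · obtain ⟨y, hy, hyS⟩ := Set.not_subset.mp hsub
        exact Or.inr ⟨(floor b x).2, ⟨x, mem_cell_floor b x, hx⟩, ⟨y, hy, hyS⟩⟩)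
    have h2 := ENNReal.toReal_mono (ENNReal.mul_ne_top (ENNReal.natCast_ne_top _) hP) this
    rwa [ENNReal.toReal_mul, ENNReal.toReal_natCast] at h2
  have h3 : (F.card : ℝ) ≤ (F \ G).card + G.card := by
    exact_mod_cast Finset.card_le_card_sdiff_add_card
  have h4 : ((F ∪ G).card : ℝ) ≤ F.card + G.card := by
    exact_mod_cast Finset.card_union_le F G
  rw [abs_le]
  constructor
  · nlinarith
  · nlinarith

end Measure


section Count

variable [FiniteDimensional ℝ E]

theorem finite_inter_ball (y : E) (R : ℝ) :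
    ((span ℤ (Set.range b) : Set E) ∩ Metric.closedBall y R).Finite := by
  have := setFinite_inter b (Metric.isBounded_closedBall (x := y) (r := R))
  rwa [Set.inter_comm] at this

theorem ncard_ball_le (y : E) (R : ℝ) :
    ((span ℤ (Set.range b) : Set E) ∩ Metric.closedBall y R).ncard ≤
      ((span ℤ (Set.range b) : Set E) ∩ Metric.closedBall 0 (2 * R)).ncard := by
  rcases Set.eq_empty_or_nonempty ((span ℤ (Set.range b) : Set E) ∩ Metric.closedBall y R) with
    h | ⟨v₀, hv₀L, hv₀⟩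
  · rw [h]; simp
  · refine Set.ncard_le_ncard_of_injOn (fun v => v - v₀) ?_ ?_ (finite_inter_ball b 0 (2 * R))
    · rintro v ⟨hvL, hv⟩
      refine ⟨sub_mem hvL hv₀L, ?_⟩
      rw [Metric.mem_closedBall] at hv hv₀ ⊢
      rw [dist_zero_right, ← dist_eq_norm]
      have := dist_triangle_right v v₀ y
      linarith
    · exact (sub_left_injective).injOn

theorem exists_grid (d T : ℕ) (hT : 0 < T) (u : Fin d → ℝ) (hu : u ∈ Set.Icc (0 : Fin d → ℝ) 1) :
    ∃ a : Fin d → Fin T, (fun j => ((a j : ℕ) : ℝ) / T) ∈ Set.Icc (0 : Fin d → ℝ) 1 ∧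
      dist u (fun j => ((a j : ℕ) : ℝ) / T) ≤ 1 / T := by
  have hT' : (0 : ℝ) < T := by exact_mod_cast hT
  refine ⟨fun j => ⟨min ⌊(T : ℝ) * u j⌋₊ (T - 1), by omega⟩, ⟨fun j => ?_, fun j => ?_⟩, ?_⟩
  · simp only [Pi.zero_apply]
    positivity
  · simp only [Pi.one_apply]
    rw [div_le_one hT']
    have : min ⌊(T : ℝ) * u j⌋₊ (T - 1) ≤ T := by omega
    exact_mod_cast this
  · rw [dist_pi_le_iff (by positivity)]
    intro j
    have hu0 : 0 ≤ u j := hu.1 j
    have hu1 : u j ≤ 1 := hu.2 j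
    have hTu : 0 ≤ (T : ℝ) * u j := by positivity
    set a := min ⌊(T : ℝ) * u j⌋₊ (T - 1) with ha
    have h1 : (a : ℝ) ≤ T * u j := by
      have : (a : ℝ) ≤ (⌊(T : ℝ) * u j⌋₊ : ℝ) := by exact_mod_cast min_le_left _ _
      exact this.trans (Nat.floor_le hTu)
    have h2 : (T : ℝ) * u j ≤ a + 1 := by
      rcases min_choice ⌊(T : ℝ) * u j⌋₊ (T - 1) with h | h
      · rw [ha, h]
        exact (Nat.lt_floor_add_one _).le
      · rw [ha, h]
        have : ((T - 1 : ℕ) : ℝ) + 1 = T := by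
          rw [Nat.cast_sub hT]; simp
        rw [this]
        nlinarith
    have h3 : u j - (a : ℝ) / T = (T * u j - a) / T := by field_simp
    rw [Real.dist_eq, h3, abs_le]
    constructor
    · have : 0 ≤ (T * u j - a) / T := div_nonneg (by linarith) hT'.le
      have h4 : 0 ≤ 1 / (T : ℝ) := by positivity
      linarith
    · gcongr
      linarith

theorem frontier_smul_set {t : ℝ} (ht : t ≠ 0) (D : Set E) :
    frontier (t • D) = t • frontier D := by
  have := (Homeomorph.smulOfNeZero t ht).image_frontier D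
  simpa [Set.image_smul] using this.symm

theorem Bd_subset (D : Set E) {m d : ℕ} (φ : Fin m → (Fin d → ℝ) → E) (K : NNReal)
    (hφ : ∀ i, LipschitzOnWith K (φ i) (Set.Icc 0 1))
    (hfr : frontier D ⊆ ⋃ i, φ i '' Set.Icc 0 1) (t : ℝ) (ht : 1 ≤ t) :
    Bd b (t • D) ⊆ ⋃ q : Fin m × (Fin d → Fin ⌈t⌉₊),
      ((span ℤ (Set.range b) : Set E) ∩
        Metric.closedBall (t • φ q.1 (fun j => ((q.2 j : ℕ) : ℝ) / ⌈t⌉₊)) (K + ∑ i, ‖b i‖)) := by
  rintro v ⟨hvL, h1, h2⟩
  have ht0 : 0 < t := by linarith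
  have hT : 0 < ⌈t⌉₊ := Nat.ceil_pos.mpr ht0
  have hT' : (0 : ℝ) < ⌈t⌉₊ := by exact_mod_cast hT
  obtain ⟨x, hxc, hxf⟩ := inter_frontier_nonempty (convex_cell b v).isPreconnected h1 h2
  rw [frontier_smul_set ht0.ne'] at hxf
  obtain ⟨z, hz, rfl⟩ := hxf
  obtain ⟨i, hi⟩ := Set.mem_iUnion.mp (hfr hz)
  obtain ⟨u, hu, rfl⟩ := hi
  obtain ⟨a, ha, hdist⟩ := exists_grid d ⌈t⌉₊ hT u hu
  refine Set.mem_iUnion.mpr ⟨(i, a), hvL, ?_⟩
  rw [Metric.mem_closedBall]
  have h3 : dist v (t • φ i u) ≤ ∑ i, ‖b i‖ := by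
    rw [dist_comm, dist_eq_norm]
    exact norm_sub_le_of_mem_cell b hxc
  have h4 : dist (t • φ i u) (t • φ i (fun j => ((a j : ℕ) : ℝ) / ⌈t⌉₊)) ≤ K := by
    rw [dist_smul₀, Real.norm_of_nonneg ht0.le]
    have h5 := (hφ i).dist_le_mul u hu _ ha
    have h6 : t * (1 / (⌈t⌉₊ : ℝ)) ≤ 1 := by
      rw [mul_one_div, div_le_one hT']
      exact Nat.le_ceil t
    calc t * dist (φ i u) (φ i fun j => ((a j : ℕ) : ℝ) / ⌈t⌉₊)
        ≤ t * (K * (1 / (⌈t⌉₊ : ℝ))) := by gcongr; exact h5.trans (by gcongr)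
      _ = K * (t * (1 / (⌈t⌉₊ : ℝ))) := by ring
      _ ≤ K * 1 := by gcongr
      _ = K := mul_one _
  calc dist v _ ≤ dist v (t • φ i u) + dist (t • φ i u) _ := dist_triangle _ _ _
    _ ≤ _ := by linarith

theorem Bd_count (D : Set E) {m d : ℕ} (φ : Fin m → (Fin d → ℝ) → E) (K : NNReal)
    (hφ : ∀ i, LipschitzOnWith K (φ i) (Set.Icc 0 1))
    (hfr : frontier D ⊆ ⋃ i, φ i '' Set.Icc 0 1) (t : ℝ) (ht : 1 ≤ t) :
    (Bd b (t • D)).Finite ∧ ((Bd b (t • D)).ncard : ℝ) ≤
      (m * ((span ℤ (Set.range b) : Set E) ∩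
        Metric.closedBall 0 (2 * (K + ∑ i, ‖b i‖))).ncard * 2 ^ d : ℝ) * t ^ d := by
  have hsub := Bd_subset b D φ K hφ hfr t ht
  have hfin : (⋃ q : Fin m × (Fin d → Fin ⌈t⌉₊),
      ((span ℤ (Set.range b) : Set E) ∩
        Metric.closedBall (t • φ q.1 (fun j => ((q.2 j : ℕ) : ℝ) / ⌈t⌉₊))
          (K + ∑ i, ‖b i‖))).Finite :=
    Set.finite_iUnion fun q => finite_inter_ball b _ _
  refine ⟨hfin.subset hsub, ?_⟩
  set M := ((span ℤ (Set.range b) : Set E) ∩
        Metric.closedBall 0 (2 * (K + ∑ i, ‖b i‖))).ncard with hM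
  have h1 : (Bd b (t • D)).ncard ≤ m * ⌈t⌉₊ ^ d * M := by
    calc (Bd b (t • D)).ncard ≤ _ := Set.ncard_le_ncard hsub hfin
      _ ≤ ∑ q : Fin m × (Fin d → Fin ⌈t⌉₊), _ := Set.ncard_iUnion_le_of_fintype _
      _ ≤ ∑ _q : Fin m × (Fin d → Fin ⌈t⌉₊), M := Finset.sum_le_sum fun q _ => ncard_ball_le b _ _
      _ = _ := by simp
  have h2 : (⌈t⌉₊ : ℝ) ≤ 2 * t := by
    have := (Nat.ceil_lt_add_one (by linarith : 0 ≤ t)).le
    linarith
  calc ((Bd b (t • D)).ncard : ℝ) ≤ ((m * ⌈t⌉₊ ^ d * M : ℕ) : ℝ) := by exact_mod_cast h1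
    _ = m * (⌈t⌉₊ : ℝ) ^ d * M := by push_cast; ring
    _ ≤ m * (2 * t) ^ d * M := by gcongr
    _ = _ := by rw [mul_pow]; ring

end Count


theorem core [FiniteDimensional ℝ E] (D : Set E) (hD : Bornology.IsBounded D) {m d : ℕ}
    (φ : Fin m → (Fin d → ℝ) → E)
    (hφ : ∀ i, ∃ C, LipschitzOnWith C (φ i) (Set.Icc 0 1))
    (hfr : frontier D ⊆ ⋃ i, φ i '' Set.Icc 0 1) :
    ∃ κ' C : ℝ, ∀ t : ℝ, 1 ≤ t →
      |(((span ℤ (Set.range b) : Set E) ∩ t • D).ncard : ℝ) - κ' * t ^ finrank ℝ E| ≤ C * t ^ d := by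
  let _ : MeasurableSpace E := borel E
  have : BorelSpace E := ⟨rfl⟩
  set μ : Measure E := Measure.addHaar with hμ
  choose C hC using hφ
  set K : NNReal := ∑ i, C i with hK
  have hφ' : ∀ i, LipschitzOnWith K (φ i) (Set.Icc 0 1) := fun i =>
    (hC i).weaken (Finset.single_le_sum (f := C) (fun _ _ => zero_le) (Finset.mem_univ i))
  have hP : μ (fundamentalDomain b) ≠ ⊤ := (fundamentalDomain_isBounded b).measure_lt_top.ne
  have hP0 : μ (fundamentalDomain b) ≠ 0 := measure_fundamentalDomain_ne_zero b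
  have hDm : μ D ≠ ⊤ := hD.measure_lt_top.ne
  set c := (μ (fundamentalDomain b)).toReal with hc
  have hc0 : 0 < c := ENNReal.toReal_pos hP0 hP
  refine ⟨(μ D).toReal / c, (m * ((span ℤ (Set.range b) : Set E) ∩
        Metric.closedBall 0 (2 * (K + ∑ i, ‖b i‖))).ncard * 2 ^ d : ℝ), fun t ht => ?_⟩
  have ht0 : 0 < t := by linarith
  obtain ⟨hfin, hcount⟩ := Bd_count b D φ K hφ' hfr t ht
  have hS : μ (t • D) = ENNReal.ofReal (t ^ finrank ℝ E) * μ D := by
    rw [Measure.addHaar_smul, abs_of_pos (by positivity)]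
  have hS' : μ (t • D) ≠ ⊤ := by
    rw [hS]; exact ENNReal.mul_ne_top ENNReal.ofReal_ne_top hDm
  have hF : ((span ℤ (Set.range b) : Set E) ∩ t • D).Finite := by
    have := setFinite_inter b (hD.smul₀ t)
    rwa [Set.inter_comm] at this
  have h1 := sandwich b μ (t • D) hS' hP hF hfin
  rw [hS, ENNReal.toReal_mul, ENNReal.toReal_ofReal (by positivity)] at h1
  have h2 : (((span ℤ (Set.range b) : Set E) ∩ t • D).ncard : ℝ) -
      (μ D).toReal / c * t ^ finrank ℝ E =
      ((((span ℤ (Set.range b) : Set E) ∩ t • D).ncard : ℝ) * c -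
        t ^ finrank ℝ E * (μ D).toReal) / c := by
    field_simp
  rw [h2, abs_div, abs_of_pos hc0, div_le_iff₀ hc0]
  refine h1.trans ?_
  gcongr

end LP

open LP Module in
theorem lattice_count {E : Type*} [NormedAddCommGroup E] [NormedSpace ℝ E]
    [FiniteDimensional ℝ E] (L : Submodule ℤ E) [DiscreteTopology L] [IsZLattice ℝ L]
    (D : Set E) (hD : Bornology.IsBounded D) {m : ℕ}
    (φ : Fin m → (Fin (Module.finrank ℝ E - 1) → ℝ) → E)
    (hφ : ∀ i, ∃ C, LipschitzOnWith C (φ i) (Set.Icc 0 1))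
    (hfr : frontier D ⊆ ⋃ i, φ i '' Set.Icc 0 1) (κ : ℝ)
    (hlim : Tendsto (fun t : ℝ => (Nat.card ((L : Set E) ∩ t • D : Set E) : ℝ) /
      t ^ Module.finrank ℝ E) atTop (𝓝 κ)) :
    ∃ C : ℝ, ∀ t : ℝ, 1 ≤ t →
      |(Nat.card ((L : Set E) ∩ t • D : Set E) : ℝ) - κ * t ^ Module.finrank ℝ E| ≤
        C * t ^ (Module.finrank ℝ E - 1) := by
  set b := (Module.Free.chooseBasis ℤ L).ofZLatticeBasis ℝ L with hb
  have hspan : Submodule.span ℤ (Set.range b) = L := Basis.ofZLatticeBasis_span ℝ L _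
  obtain ⟨κ', C, hC⟩ := core b D hD φ hφ hfr
  rw [hspan] at hC
  simp only [Nat.card_coe_set_eq] at hlim ⊢
  rcases Nat.eq_zero_or_pos (finrank ℝ E) with hn | hn
  · -- dimension zero
    simp only [hn, pow_zero, mul_one, div_one, Nat.zero_sub] at hC hlim ⊢
    have h1 : |κ - κ'| ≤ C := by
      refine le_of_tendsto ((hlim.sub_const κ').abs) ?_
      filter_upwards [eventually_ge_atTop 1] with t ht using hC t ht
    refine ⟨2 * C, fun t ht => ?_⟩
    have h2 := hC t ht
    have h3 := abs_sub_le (((L : Set E) ∩ t • D).ncard : ℝ) κ' κ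
    rw [abs_sub_comm κ' κ] at h3
    linarith
  · have h1 : Tendsto (fun t : ℝ => (((L : Set E) ∩ t • D).ncard : ℝ) / t ^ finrank ℝ E) atTop
        (𝓝 κ') := by
      rw [tendsto_iff_norm_sub_tendsto_zero]
      refine squeeze_zero' (Eventually.of_forall fun _ => norm_nonneg _) ?_
        (tendsto_const_nhds.div_atTop tendsto_id : Tendsto (fun t : ℝ => C / t) atTop (𝓝 0))
      filter_upwards [eventually_ge_atTop 1] with t ht
      have ht0 : 0 < t := by linarith
      have h2 := hC t ht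
      have h3 : (((L : Set E) ∩ t • D).ncard : ℝ) / t ^ finrank ℝ E - κ' =
          ((((L : Set E) ∩ t • D).ncard : ℝ) - κ' * t ^ finrank ℝ E) / t ^ finrank ℝ E := by
        field_simp
      rw [h3, Real.norm_eq_abs, abs_div, abs_of_pos (by positivity : 0 < t ^ finrank ℝ E),
        div_le_div_iff₀ (by positivity) ht0]
      calc _ ≤ C * t ^ (finrank ℝ E - 1) * t := by gcongr
        _ = C * t ^ finrank ℝ E := by
          rw [mul_assoc, ← pow_succ, Nat.sub_add_cancel hn]
    obtain rfl := tendsto_nhds_unique hlim h1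
    exact ⟨C, hC⟩

end Fermat.Agent.S14
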