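import Fermat.Agent.S14.Defs
import Fermat.Agent.S14.Lattice
import Fermat.Agent.S14.Frontier

/-!
# S14 piece IC: number of ideals of norm `≤ x` in an ideal class, with error term

Paper proof: rerun the proof of Mathlib's
`NumberField.Ideal.tendsto_norm_le_and_mk_eq_div_atTop` (`NumberTheory/NumberField/Ideal/Asymptotics.lean`).
For `J ∈ C⁻¹`: `#{I ∈ C, N I ≤ x} * torsionOrder K = #{a ∈ idealSet K J | norm a ≤ x * N J}`
(`tendsto_norm_le_and_mk_eq_div_atTop_aux₁`, `fundamentalCone.card_isPrincipal_dvd_norm_le`) and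
`{a ∈ fundamentalCone | norm a ≤ c} = c^(1/n) • normLeOne K`, so the count is
`#(idealLattice K J ∩ t • normLeOne K)`, `t = (x N J)^(1/n)`.  Apply `lattice_count` with
`E = mixedSpace K`, `L = idealLattice K (mk0 J)`, `D = normLeOne K` (`isBounded_normLeOne`),
`frontier_normLeOne_cover`; the hypothesis `hlim` (existence and value of the limit) follows from
Mathlib's theorem itself through the same dictionary.  The class group is finite: take the max of
the constants.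
-/

set_option autoImplicit false

namespace Fermat.Agent.S14

open NumberField
open scoped nonZeroDivisors

open Ideal Filter InfinitePlace mixedEmbedding fundamentalCone Submodule Topology NumberField.Units
open scoped Pointwise

/-- copy of Mathlib's private `tendsto_norm_le_and_mk_eq_div_atTop_aux₁`. -/
theorem ic_aux₁ (K : Type*) [Field K] [NumberField K] {C : ClassGroup (𝓞 K)} {J : (Ideal (𝓞 K))⁰}
    {s : ℝ} (hJ : ClassGroup.mk0 J = C⁻¹) :
    Nat.card {I : (Ideal (𝓞 K))⁰ // (absNorm (I : Ideal (𝓞 K)) : ℝ) ≤ s ∧ ClassGroup.mk0 I = C}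
      = Nat.card {I : (Ideal (𝓞 K))⁰ // (J : Ideal (𝓞 K)) ∣ I ∧ IsPrincipal (I : Ideal (𝓞 K)) ∧
        (absNorm (I : Ideal (𝓞 K)) : ℝ) ≤ s * absNorm (J : Ideal (𝓞 K))} := by
  simp_rw [← nonZeroDivisors_dvd_iff_dvd_coe]
  refine Nat.card_congr ?_
  refine ((Equiv.dvd J).subtypeEquiv fun I ↦ ?_).trans
    (Equiv.subtypeSubtypeEquivSubtypeInter (fun I : (Ideal (𝓞 K))⁰ ↦ J ∣ I) _)
  rw [← ClassGroup.mk0_eq_one_iff (SetLike.coe_mem _)]
  simp_rw [Equiv.dvd_apply, Submonoid.coe_mul, ← Submonoid.mul_def, _root_.map_mul, hJ,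
    inv_mul_eq_one, Nat.cast_mul, mul_comm s, eq_comm, and_comm, and_congr_left_iff]
  exact fun _ ↦
    (mul_le_mul_iff_of_pos_left (Nat.cast_pos.mpr (absNorm_pos_of_nonZeroDivisors J))).symm

/-- `t • normLeOne K = {x ∈ cone | norm x ≤ t ^ n}`. -/
theorem ic_smul_normLeOne (K : Type*) [Field K] [NumberField K] {t : ℝ} (ht : 0 < t) :
    t • normLeOne K =
      {x | x ∈ fundamentalCone K ∧ mixedEmbedding.norm x ≤ t ^ Module.finrank ℚ K} := by
  ext x
  rw [Set.mem_smul_set_iff_inv_smul_mem₀ ht.ne', mem_normLeOne,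
    smul_mem_iff_mem (inv_ne_zero ht.ne'), mixedEmbedding.norm_smul, abs_of_pos (inv_pos.2 ht),
    inv_pow, inv_mul_le_iff₀ (pow_pos ht _), mul_one]
  rfl

/-- the dictionary: lattice points in `t • normLeOne` versus ideals in a class. -/
theorem ic_card (K : Type*) [Field K] [NumberField K] {C : ClassGroup (𝓞 K)} {J : (Ideal (𝓞 K))⁰}
    (hJ : ClassGroup.mk0 J = C⁻¹) {t : ℝ} (ht : 0 < t) :
    Nat.card (((idealLattice K (FractionalIdeal.mk0 K J) : Submodule ℤ (mixedSpace K)) :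
        Set (mixedSpace K)) ∩ t • normLeOne K : Set (mixedSpace K)) =
      Nat.card {I : (Ideal (𝓞 K))⁰ // (absNorm (I : Ideal (𝓞 K)) : ℝ) ≤
        t ^ Module.finrank ℚ K / absNorm (J : Ideal (𝓞 K)) ∧ ClassGroup.mk0 I = C} *
        torsionOrder K := by
  have hN : (absNorm (J : Ideal (𝓞 K)) : ℝ) ≠ 0 :=
    Nat.cast_ne_zero.mpr (absNorm_ne_zero_of_nonZeroDivisors J)
  rw [ic_aux₁ K hJ, div_mul_cancel₀ _ hN, card_isPrincipal_dvd_norm_le, ic_smul_normLeOne K ht]
  refine Nat.card_congr ?_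
  refine (Equiv.subtypeEquivProp ?_).trans
    (Equiv.subtypeSubtypeEquivSubtypeInter _ (mixedEmbedding.norm · ≤ t ^ Module.finrank ℚ K)).symm
  ext x
  simp only [idealSet, Set.mem_inter_iff, Set.mem_ofPred_eq, SetLike.mem_coe]
  tauto

/-- the limit hypothesis of `lattice_count`, from Mathlib's theorem. -/
theorem ic_lim (K : Type*) [Field K] [NumberField K] {C : ClassGroup (𝓞 K)} {J : (Ideal (𝓞 K))⁰}
    (hJ : ClassGroup.mk0 J = C⁻¹) :
    Tendsto (fun t : ℝ => (Nat.card (((idealLattice K (FractionalIdeal.mk0 K J) :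
        Submodule ℤ (mixedSpace K)) : Set (mixedSpace K)) ∩ t • normLeOne K :
        Set (mixedSpace K)) : ℝ) / t ^ Module.finrank ℚ K) atTop
      (𝓝 (kappa K * (torsionOrder K / absNorm (J : Ideal (𝓞 K))))) := by
  have hN : (0 : ℝ) < (absNorm (J : Ideal (𝓞 K)) : ℝ) :=
    Nat.cast_pos.mpr (absNorm_pos_of_nonZeroDivisors J)
  have hn : Module.finrank ℚ K ≠ 0 := Module.finrank_pos.ne'
  have h := NumberField.Ideal.tendsto_norm_le_and_mk_eq_div_atTop K C
  have h1 : Tendsto (fun t : ℝ => t ^ Module.finrank ℚ K / (absNorm (J : Ideal (𝓞 K)) : ℝ))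
      atTop atTop := (tendsto_pow_atTop hn).atTop_div_const hN
  have h2 := (h.comp h1).mul_const ((torsionOrder K : ℝ) / absNorm (J : Ideal (𝓞 K)))
  refine h2.congr' ?_
  filter_upwards [eventually_gt_atTop 0] with t ht
  have htn : t ^ Module.finrank ℚ K ≠ 0 := (pow_pos ht _).ne'
  rw [ic_card K hJ ht]
  simp only [Function.comp_apply]
  push_cast
  generalize ((Nat.card {I : (Ideal (𝓞 K))⁰ // (absNorm (I : Ideal (𝓞 K)) : ℝ) ≤
    t ^ Module.finrank ℚ K / absNorm (J : Ideal (𝓞 K)) ∧ ClassGroup.mk0 I = C} : ℕ) : ℝ) = M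
  field_simp

theorem ideal_count_aux (K : Type*) [Field K] [NumberField K]
    (hK : InfinitePlace.nrRealPlaces K = 0) (C : ClassGroup (𝓞 K)) :
    ∃ C₀ : ℝ, ∀ (x : ℝ), 1 ≤ x →
      |(Nat.card {I : (Ideal (𝓞 K))⁰ //
          (Ideal.absNorm (I : Ideal (𝓞 K)) : ℝ) ≤ x ∧ ClassGroup.mk0 I = C} : ℝ) - kappa K * x| ≤
        C₀ * x ^ (1 - 1 / (Module.finrank ℚ K : ℝ)) := by
  classical
  obtain ⟨J, hJ⟩ := ClassGroup.mk0_surjective C⁻¹
  have hN1 : (1 : ℝ) ≤ (absNorm (J : Ideal (𝓞 K)) : ℝ) := by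
    exact_mod_cast absNorm_pos_of_nonZeroDivisors J
  have hN : (0 : ℝ) < (absNorm (J : Ideal (𝓞 K)) : ℝ) := by linarith
  have hτ : (0 : ℝ) < (torsionOrder K : ℝ) := Nat.cast_pos.mpr (torsionOrder_pos K)
  have hn : 0 < Module.finrank ℚ K := Module.finrank_pos
  have hnR : (0 : ℝ) < (Module.finrank ℚ K : ℝ) := Nat.cast_pos.mpr hn
  obtain ⟨m, φ, hφ, hfr⟩ := frontier_normLeOne_cover K hK
  have hlim := ic_lim K hJ
  rw [← mixedEmbedding.finrank K] at hlim
  obtain ⟨C₁, hC₁⟩ := lattice_count (idealLattice K (FractionalIdeal.mk0 K J)) (normLeOne K)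
    (isBounded_normLeOne K) φ hφ hfr _ hlim
  rw [mixedEmbedding.finrank K] at hC₁
  refine ⟨C₁ * (absNorm (J : Ideal (𝓞 K)) : ℝ) ^ (1 - 1 / (Module.finrank ℚ K : ℝ)) /
    torsionOrder K, fun x hx => ?_⟩
  have hx0 : 0 < x := by linarith
  set y : ℝ := x * absNorm (J : Ideal (𝓞 K)) with hy
  have hy1 : 1 ≤ y := by nlinarith
  have hy0 : 0 < y := by linarith
  set t : ℝ := y ^ (1 / (Module.finrank ℚ K : ℝ)) with ht
  have ht1 : 1 ≤ t := Real.one_le_rpow hy1 (by positivity)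
  have ht0 : 0 < t := by linarith
  have htn : t ^ Module.finrank ℚ K = y := by
    rw [ht, ← Real.rpow_natCast, ← Real.rpow_mul hy0.le, one_div, inv_mul_cancel₀ hnR.ne',
      Real.rpow_one]
  have htn1 : t ^ (Module.finrank ℚ K - 1) = y ^ (1 - 1 / (Module.finrank ℚ K : ℝ)) := by
    rw [ht, ← Real.rpow_natCast, ← Real.rpow_mul hy0.le, Nat.cast_sub hn]
    congr 1
    push_cast
    field_simp
  have h := hC₁ t ht1
  rw [ic_card K hJ ht0, htn, htn1, hy, mul_div_cancel_right₀ _ hN.ne',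
    Real.mul_rpow hx0.le hN.le] at h
  push_cast at h
  set M : ℝ := (Nat.card {I : (Ideal (𝓞 K))⁰ //
          (Ideal.absNorm (I : Ideal (𝓞 K)) : ℝ) ≤ x ∧ ClassGroup.mk0 I = C} : ℝ) with hM
  have e : M * (torsionOrder K : ℝ) - kappa K * ((torsionOrder K : ℝ) /
      (absNorm (J : Ideal (𝓞 K)) : ℝ)) * (x * (absNorm (J : Ideal (𝓞 K)) : ℝ)) =
      (M - kappa K * x) * torsionOrder K := by
    field_simp
  rw [e, abs_mul, abs_of_pos hτ] at h
  rw [div_mul_eq_mul_div, le_div_iff₀ hτ]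
  calc |M - kappa K * x| * (torsionOrder K : ℝ) ≤ _ := h
    _ = _ := by ring

theorem ideal_count (K : Type*) [Field K] [NumberField K]
    (hK : InfinitePlace.nrRealPlaces K = 0) :
    ∃ C₀ : ℝ, ∀ (C : ClassGroup (𝓞 K)) (x : ℝ), 1 ≤ x →
      |(Nat.card {I : (Ideal (𝓞 K))⁰ //
          (Ideal.absNorm (I : Ideal (𝓞 K)) : ℝ) ≤ x ∧ ClassGroup.mk0 I = C} : ℝ) - kappa K * x| ≤
        C₀ * x ^ (1 - 1 / (Module.finrank ℚ K : ℝ)) := by
  classical
  choose c hc using ideal_count_aux K hK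
  refine ⟨∑ C : ClassGroup (𝓞 K), |c C|, fun C x hx => (hc C x hx).trans ?_⟩
  have hx0 : 0 ≤ x ^ (1 - 1 / (Module.finrank ℚ K : ℝ)) := by positivity
  refine mul_le_mul_of_nonneg_right ?_ hx0
  exact (le_abs_self _).trans
    (Finset.single_le_sum (f := fun C => |c C|) (fun _ _ => abs_nonneg _) (Finset.mem_univ C))

end Fermat.Agent.S14
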