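import Fermat.Agent.S14.IdealCount
import Fermat.Agent.S14.Euler

/-!
# S14 piece LB: `L(s,χ)` is bounded on `(1,2]` for a nontrivial class group character

Paper proof.  `a_n = ∑_{N I = n} χ(I)`, `A(x) = ∑_{n ≤ x} a_n = ∑_C χ(C) #{I ∈ C, N I ≤ x}
 = κ x ∑_C χ(C) + O(x^{1-1/n}) = O(x^{1-1/n})` by `ideal_count` and `∑_C χ(C) = 0` (`χ ≠ 1`).
`LSum (chiI χ) s = LSeries a s` (group by norm) `= s ∫_1^∞ A(t) t^{-s-1} dt`
(Mathlib `LSeries_eq_mul_integral`, `NumberTheory/LSeries/SumCoeff.lean`), so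
`‖L‖ ≤ s C₁ ∫_1^∞ t^{-s-1/n} dt ≤ 2 C₁ n`.
-/

set_option autoImplicit false

namespace Fermat.Agent.S14

open NumberField Filter Topology MeasureTheory
open scoped nonZeroDivisors

section LB

variable {K : Type*} [Field K] [NumberField K]

instance finite_fiber_LB (n : ℕ) :
    Finite {I : (Ideal (𝓞 K))⁰ // Ideal.absNorm (I : Ideal (𝓞 K)) = n} :=
  ((Ideal.finite_setOfPred_absNorm_le₀ (S := 𝓞 K) n).subset fun _ h => le_of_eq h)

/-- the coefficient of `n^{-s}` in `L(s,χ)`. -/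
noncomputable def coefLB (χ : ClassGroup (𝓞 K) →* ℂˣ) (n : ℕ) : ℂ :=
  ∑' I : {I : (Ideal (𝓞 K))⁰ // Ideal.absNorm (I : Ideal (𝓞 K)) = n},
    (χ (ClassGroup.mk0 I.1) : ℂ)

theorem chiI_coe_LB (χ : ClassGroup (𝓞 K) →* ℂˣ) (I : (Ideal (𝓞 K))⁰) :
    chiI χ (I : Ideal (𝓞 K)) = (χ (ClassGroup.mk0 I) : ℂ) := by
  classical
  change (if h : (I : Ideal (𝓞 K)) ∈ (Ideal (𝓞 K))⁰ then
    (χ (ClassGroup.mk0 ⟨(I : Ideal (𝓞 K)), h⟩) : ℂ) else 0) = _
  rw [dif_pos I.2]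

theorem chiI_of_not_mem_LB (χ : ClassGroup (𝓞 K) →* ℂˣ) {I : Ideal (𝓞 K)}
    (h : I ∉ (Ideal (𝓞 K))⁰) : chiI χ I = 0 := by
  classical
  change (if h : (I : Ideal (𝓞 K)) ∈ (Ideal (𝓞 K))⁰ then
    (χ (ClassGroup.mk0 ⟨(I : Ideal (𝓞 K)), h⟩) : ℂ) else 0) = _
  rw [dif_neg h]

theorem norm_chi_LB (χ : ClassGroup (𝓞 K) →* ℂˣ) (C : ClassGroup (𝓞 K)) :
    ‖(χ C : ℂ)‖ = 1 := by
  have h : (χ C : ℂ) ^ (Fintype.card (ClassGroup (𝓞 K))) = 1 := by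
    rw [← Units.val_pow_eq_pow_val, ← map_pow, pow_card_eq_one, map_one, Units.val_one]
  exact Complex.norm_eq_one_of_pow_eq_one h Fintype.card_ne_zero

theorem norm_chiI_le_LB (χ : ClassGroup (𝓞 K) →* ℂˣ) (I : Ideal (𝓞 K)) : ‖chiI χ I‖ ≤ 1 := by
  by_cases h : I ∈ (Ideal (𝓞 K))⁰
  · have := chiI_coe_LB χ ⟨I, h⟩
    simp only at this
    rw [this, norm_chi_LB]
  · rw [chiI_of_not_mem_LB χ h]; simp

theorem hasSum_term_coefLB (χ : ClassGroup (𝓞 K) →* ℂˣ) {s : ℝ} (hs : 1 < s) :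
    HasSum (fun n => LSeries.term (coefLB χ) (s : ℂ) n) (LSum (chiI χ) s) := by
  set g : Ideal (𝓞 K) → ℂ := fun I => chiI χ I * (((Ideal.absNorm I : ℝ) ^ (-s) : ℝ) : ℂ) with hg
  have hsum : Summable g := summable_LSum (chiI χ) (norm_chiI_le_LB χ) hs
  have hsupp : Function.support g ⊆ ((Ideal (𝓞 K))⁰ : Set (Ideal (𝓞 K))) := by
    intro I hI
    by_contra h
    apply hI
    simp only [hg]
    rw [chiI_of_not_mem_LB χ h, zero_mul]
  have h1 : HasSum (fun I : (Ideal (𝓞 K))⁰ => g I) (LSum (chiI χ) s) := by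
    have := hsum.hasSum
    rw [← hasSum_subtype_iff_of_support_subset hsupp] at this
    exact this
  let e := Equiv.sigmaFiberEquiv (fun I : (Ideal (𝓞 K))⁰ => Ideal.absNorm (I : Ideal (𝓞 K)))
  have h2 : HasSum (fun x => g (e x)) (LSum (chiI χ) s) := (e.hasSum_iff (f := fun I : (Ideal (𝓞 K))⁰ => g I)).mpr h1
  refine h2.sigma fun n => ?_
  have h3 : ∀ c : {I : (Ideal (𝓞 K))⁰ // Ideal.absNorm (I : Ideal (𝓞 K)) = n},
      g (e ⟨n, c⟩) = (χ (ClassGroup.mk0 c.1) : ℂ) * (((n : ℝ) ^ (-s) : ℝ) : ℂ) := by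
    intro c
    have : (e ⟨n, c⟩ : (Ideal (𝓞 K))⁰) = c.1 := rfl
    rw [this]
    simp only [hg]
    rw [chiI_coe_LB, c.2]
  simp_rw [h3]
  have h4 : LSeries.term (coefLB χ) (s : ℂ) n = coefLB χ n * (((n : ℝ) ^ (-s) : ℝ) : ℂ) := by
    rcases Nat.eq_zero_or_pos n with rfl | hn
    · rw [LSeries.term_zero]
      have : ((0 : ℕ) : ℝ) ^ (-s) = 0 := by
        rw [Nat.cast_zero, Real.zero_rpow (by linarith)]
      rw [this]; simp
    · rw [LSeries.term_of_ne_zero hn.ne', div_eq_mul_inv]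
      congr 1
      rw [Complex.ofReal_cpow (Nat.cast_nonneg n), Complex.ofReal_neg, Complex.cpow_neg]
      simp
  rw [h4]
  apply HasSum.mul_right
  exact (Summable.of_finite).hasSum

theorem sum_coefLB (χ : ClassGroup (𝓞 K) →* ℂˣ) (N : ℕ) :
    ∑ k ∈ Finset.Icc 1 N, coefLB χ k = ∑ C : ClassGroup (𝓞 K), (χ C : ℂ) *
      (Nat.card {I : (Ideal (𝓞 K))⁰ //
        (Ideal.absNorm (I : Ideal (𝓞 K)) : ℝ) ≤ (N : ℝ) ∧ ClassGroup.mk0 I = C} : ℂ) := by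
  classical
  set T : Finset (Ideal (𝓞 K))⁰ := (Ideal.finite_setOfPred_absNorm_le₀ (S := 𝓞 K) N).toFinset with hT
  have hmemT : ∀ I : (Ideal (𝓞 K))⁰, I ∈ T ↔ Ideal.absNorm (I : Ideal (𝓞 K)) ≤ N := by
    intro I; simp [hT]
  have hL : ∑ k ∈ Finset.Icc 1 N, coefLB χ k = ∑ I ∈ T, (χ (ClassGroup.mk0 I) : ℂ) := by
    rw [← Finset.sum_fiberwise_of_maps_to (s := T) (t := Finset.Icc 1 N)
      (g := fun I : (Ideal (𝓞 K))⁰ => Ideal.absNorm (I : Ideal (𝓞 K)))]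
    · refine Finset.sum_congr rfl fun k hk => ?_
      unfold coefLB
      have := tsum_subtype {I : (Ideal (𝓞 K))⁰ | Ideal.absNorm (I : Ideal (𝓞 K)) = k}
        (fun I => (χ (ClassGroup.mk0 I) : ℂ))
      refine this.trans ?_
      rw [tsum_eq_sum (s := T.filter fun I : (Ideal (𝓞 K))⁰ => Ideal.absNorm (I : Ideal (𝓞 K)) = k)]
      · refine Finset.sum_congr rfl fun I hI => ?_
        rw [Set.indicator_of_mem]
        exact (Finset.mem_filter.mp hI).2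
      · intro I hI
        rw [Set.indicator_of_notMem]
        intro h
        apply hI
        rw [Finset.mem_filter, hmemT]
        have h' : Ideal.absNorm (I : Ideal (𝓞 K)) = k := h
        exact ⟨h' ▸ (Finset.mem_Icc.mp hk).2, h'⟩
    · intro I hI
      rw [Finset.mem_Icc]
      refine ⟨?_, (hmemT I).mp hI⟩
      rw [Nat.one_le_iff_ne_zero, Ne, Ideal.absNorm_eq_zero_iff]
      exact mem_nonZeroDivisors_iff_ne_zero.mp I.2
  rw [hL, ← Finset.sum_fiberwise T (fun I => ClassGroup.mk0 I)]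
  refine Finset.sum_congr rfl fun C _ => ?_
  have h1 : ∑ I ∈ T with ClassGroup.mk0 I = C, (χ (ClassGroup.mk0 I) : ℂ) =
      ∑ I ∈ T with ClassGroup.mk0 I = C, (χ C : ℂ) :=
    Finset.sum_congr rfl fun I hI => by rw [(Finset.mem_filter.mp hI).2]
  rw [h1, Finset.sum_const, nsmul_eq_mul, mul_comm]
  congr 2
  rw [← Nat.card_eq_finsetCard]
  refine Nat.card_congr (Equiv.subtypeEquivRight fun I => ?_)
  rw [Finset.mem_filter, hmemT, Nat.cast_le]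

theorem sum_chi_LB (χ : ClassGroup (𝓞 K) →* ℂˣ) (hχ : χ ≠ 1) :
    ∑ C : ClassGroup (𝓞 K), (χ C : ℂ) = 0 := by
  have := sum_hom_units_eq_zero ((Units.coeHom ℂ).comp χ) (by
    intro h
    apply hχ
    ext C
    have := DFunLike.congr_fun h C
    simpa using this)
  simpa using this

theorem norm_sum_coefLB_le (χ : ClassGroup (𝓞 K) →* ℂˣ) (hχ : χ ≠ 1) {C₀ : ℝ}
    (hC₀ : ∀ (C : ClassGroup (𝓞 K)) (x : ℝ), 1 ≤ x →
      |(Nat.card {I : (Ideal (𝓞 K))⁰ //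
          (Ideal.absNorm (I : Ideal (𝓞 K)) : ℝ) ≤ x ∧ ClassGroup.mk0 I = C} : ℝ) - kappa K * x| ≤
        C₀ * x ^ (1 - 1 / (Module.finrank ℚ K : ℝ))) (N : ℕ) (hN : 1 ≤ N) :
    ‖∑ k ∈ Finset.Icc 1 N, coefLB χ k‖ ≤
      (Fintype.card (ClassGroup (𝓞 K)) * C₀) * (N : ℝ) ^ (1 - 1 / (Module.finrank ℚ K : ℝ)) := by
  rw [sum_coefLB]
  have h1 : ∑ C : ClassGroup (𝓞 K), (χ C : ℂ) *
      (Nat.card {I : (Ideal (𝓞 K))⁰ //
        (Ideal.absNorm (I : Ideal (𝓞 K)) : ℝ) ≤ (N : ℝ) ∧ ClassGroup.mk0 I = C} : ℂ) =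
      ∑ C : ClassGroup (𝓞 K), (χ C : ℂ) *
      (((Nat.card {I : (Ideal (𝓞 K))⁰ //
        (Ideal.absNorm (I : Ideal (𝓞 K)) : ℝ) ≤ (N : ℝ) ∧ ClassGroup.mk0 I = C} : ℝ)
          - kappa K * (N : ℝ) : ℝ) : ℂ) := by
    have : ∀ C : ClassGroup (𝓞 K), (χ C : ℂ) *
      (((Nat.card {I : (Ideal (𝓞 K))⁰ //
        (Ideal.absNorm (I : Ideal (𝓞 K)) : ℝ) ≤ (N : ℝ) ∧ ClassGroup.mk0 I = C} : ℝ)
          - kappa K * (N : ℝ) : ℝ) : ℂ) = (χ C : ℂ) *
      (Nat.card {I : (Ideal (𝓞 K))⁰ //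
        (Ideal.absNorm (I : Ideal (𝓞 K)) : ℝ) ≤ (N : ℝ) ∧ ClassGroup.mk0 I = C} : ℂ) -
        (χ C : ℂ) * ((kappa K * (N : ℝ) : ℝ) : ℂ) := by
      intro C
      push_cast
      ring
    simp_rw [this]
    rw [Finset.sum_sub_distrib, ← Finset.sum_mul, sum_chi_LB χ hχ, zero_mul, sub_zero]
  rw [h1]
  refine (norm_sum_le _ _).trans ?_
  have h2 : ∀ C ∈ (Finset.univ : Finset (ClassGroup (𝓞 K))), ‖(χ C : ℂ) *
      (((Nat.card {I : (Ideal (𝓞 K))⁰ //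
        (Ideal.absNorm (I : Ideal (𝓞 K)) : ℝ) ≤ (N : ℝ) ∧ ClassGroup.mk0 I = C} : ℝ)
          - kappa K * (N : ℝ) : ℝ) : ℂ)‖ ≤ C₀ * (N : ℝ) ^ (1 - 1 / (Module.finrank ℚ K : ℝ)) := by
    intro C _
    rw [norm_mul, norm_chi_LB, one_mul, Complex.norm_real, Real.norm_eq_abs]
    exact hC₀ C N (by exact_mod_cast hN)
  refine (Finset.sum_le_sum h2).trans ?_
  rw [Finset.sum_const, nsmul_eq_mul, Finset.card_univ, mul_assoc]

end LB

theorem LSum_chi_bounded {K : Type*} [Field K] [NumberField K]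
    (hK : InfinitePlace.nrRealPlaces K = 0) (χ : ClassGroup (𝓞 K) →* ℂˣ) (hχ : χ ≠ 1) :
    ∃ B : ℝ, ∀ s : ℝ, 1 < s → s ≤ 2 → ‖LSum (chiI χ) s‖ ≤ B := by
  obtain ⟨C₀, hC₀⟩ := ideal_count K hK
  set n : ℝ := (Module.finrank ℚ K : ℝ) with hn
  have hn1 : 1 ≤ n := by
    rw [hn]; exact_mod_cast (Module.finrank_pos : 0 < Module.finrank ℚ K)
  set r : ℝ := 1 - 1 / n with hr
  have hn0 : 0 < n := by linarith
  have hr0 : 0 ≤ r := by
    rw [hr, sub_nonneg, div_le_one hn0]; exact hn1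
  have hr1 : r < 1 := by
    rw [hr]; have : 0 < 1 / n := by positivity
    linarith
  have hC₀0 : 0 ≤ C₀ := by
    have := hC₀ 1 1 le_rfl
    rw [Real.one_rpow, mul_one C₀] at this
    exact (abs_nonneg _).trans this
  set D : ℝ := Fintype.card (ClassGroup (𝓞 K)) * C₀ with hD
  have hD0 : 0 ≤ D := by positivity
  have hA : ∀ N : ℕ, 1 ≤ N → ‖∑ k ∈ Finset.Icc 1 N, coefLB χ k‖ ≤ D * (N : ℝ) ^ r :=
    fun N hN => norm_sum_coefLB_le χ hχ hC₀ N hN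
  refine ⟨2 * (D * n), fun s hs hs2 => ?_⟩
  have hsum := hasSum_term_coefLB χ hs
  have hL : LSum (chiI χ) s = LSeries (coefLB χ) (s : ℂ) := hsum.tsum_eq.symm
  have hS : LSeriesSummable (coefLB χ) (s : ℂ) := hsum.summable
  have hO : (fun N : ℕ ↦ ∑ k ∈ Finset.Icc 1 N, coefLB χ k) =O[atTop] fun N ↦ (N : ℝ) ^ r := by
    refine Asymptotics.IsBigO.of_bound D ?_
    filter_upwards [eventually_ge_atTop 1] with N hN
    rw [Real.norm_of_nonneg (Real.rpow_nonneg (Nat.cast_nonneg N) r)]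
    exact hA N hN
  rw [hL, LSeries_eq_mul_integral (coefLB χ) hr0 (by simpa using hr1.trans hs) hS hO, norm_mul,
    Complex.norm_real, Real.norm_of_nonneg (by linarith)]
  have hint : IntegrableOn (fun t : ℝ => D * t ^ (r - s - 1)) (Set.Ioi 1) :=
    (integrableOn_Ioi_rpow_of_lt (by linarith) zero_lt_one).const_mul D
  have hbound : ‖∫ t in Set.Ioi (1 : ℝ), (∑ k ∈ Finset.Icc 1 ⌊t⌋₊, coefLB χ k) *
      (t : ℂ) ^ (-((s : ℂ) + 1))‖ ≤ ∫ t in Set.Ioi (1 : ℝ), D * t ^ (r - s - 1) := by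
    refine norm_integral_le_of_norm_le hint ?_
    rw [ae_restrict_iff' measurableSet_Ioi]
    refine Eventually.of_forall fun t ht => ?_
    have ht1 : (1 : ℝ) < t := ht
    have ht0 : 0 < t := by linarith
    have hfl : 1 ≤ ⌊t⌋₊ := Nat.one_le_floor_iff t |>.mpr ht1.le
    rw [norm_mul]
    have e1 : ‖(t : ℂ) ^ (-((s : ℂ) + 1))‖ = t ^ (-s - 1) := by
      rw [Complex.norm_cpow_eq_rpow_re_of_pos ht0]
      simp; ring_nf
    rw [e1]
    have e2 : t ^ (r - s - 1) = t ^ r * t ^ (-s - 1) := by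
      rw [← Real.rpow_add ht0]; ring_nf
    rw [e2, ← mul_assoc]
    refine mul_le_mul_of_nonneg_right ?_ (Real.rpow_nonneg ht0.le _)
    refine (hA _ hfl).trans ?_
    refine mul_le_mul_of_nonneg_left ?_ hD0
    exact Real.rpow_le_rpow (Nat.cast_nonneg _) (Nat.floor_le ht0.le) hr0
  have hval : ∫ t in Set.Ioi (1 : ℝ), D * t ^ (r - s - 1) = D / (s - r) := by
    rw [integral_const_mul, integral_Ioi_rpow_of_lt (by linarith) zero_lt_one, Real.one_rpow]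
    have : r - s - 1 + 1 = -(s - r) := by ring
    rw [this, neg_div_neg_eq, mul_one_div]
  rw [hval] at hbound
  have hsr : 1 / n ≤ s - r := by rw [hr]; linarith
  have h1n : 0 < 1 / n := by positivity
  have h3 : D / (s - r) ≤ D * n := by
    rw [div_le_iff₀ (by linarith)]
    have : 1 ≤ n * (s - r) := by
      have := mul_le_mul_of_nonneg_left hsr hn0.le
      rwa [mul_one_div, div_self hn0.ne'] at this
    calc D = D * 1 := (mul_one D).symm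
      _ ≤ D * (n * (s - r)) := mul_le_mul_of_nonneg_left this hD0
      _ = D * n * (s - r) := by ring
  calc s * ‖∫ t in Set.Ioi (1 : ℝ), (∑ k ∈ Finset.Icc 1 ⌊t⌋₊, coefLB χ k) *
      (t : ℂ) ^ (-((s : ℂ) + 1))‖ ≤ s * (D * n) :=
        mul_le_mul_of_nonneg_left (hbound.trans h3) (by linarith)
    _ ≤ 2 * (D * n) := mul_le_mul_of_nonneg_right hs2 (by positivity)

end Fermat.Agent.S14
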