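import Fermat.Agent.S14.ThaineAux

/-!
# S14 piece TH: Thaine's element `κ` (Hilbert 90 in `K(ζ_ℓ)/K`)

Paper proof.  `ℓ ≡ 1 mod p`.  `M = CyclotomicField ℓ K` (`= ℚ(ζ_{pℓ})`), `ξ = ζ_ℓ ∈ M`, `z` = image of `ζ`.
(1) `[M:K] = ℓ - 1` (`φ(pℓ)/φ(p)`), `Gal(M/K) ≃ (ZMod ℓ)ˣ` is cyclic
 (`IsCyclotomicExtension.autEquivPow`, needs `cyclotomic ℓ K` irreducible: degree count), generated
 by `s : ξ ↦ ξ^g`, `g` a primitive root mod `ℓ`.
(2) `ε = z^((p-1)/2) (1 + z ξ) ∈ 𝓞 M`, `N_{M/K} ε = z^{(ℓ-1)(p-1)/2} ∏_{j=1}^{ℓ-1} (1 + z ξ^j)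
 = 1 · (1 + z^ℓ)/(1 + z) = 1` (`∏_{j=0}^{ℓ-1} (1 + y ξ^j) = 1 + y^ℓ`, `ℓ` odd; `p ∣ ℓ - 1`, `z^ℓ = z`).
(3) Hilbert 90 for the cyclic extension `M/K`: `ε = s(β)/β`; multiply `β` by an integer: `β ∈ 𝓞 M`, `β ≠ 0`,
 `s β = ε β`.  As `ε` is a unit (`N ε = 1`, integral), the ideal `(β)` is `Gal(M/K)`-stable.
 `κ := N_{M/K} β ∈ 𝓞 K` (`RingOfIntegers.norm` / `Algebra.norm`), `κ ≠ 0`.
(4) ramification (Mathlib `NumberTheory/NumberField/Cyclotomic/Ideal.lean`, `ramificationIdx_eq`,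
 `inertiaDeg_eq` for `ℚ(ζ_{pℓ})/ℚ` and `ℚ(ζ_p)/ℚ`, multiplicativity in towers): for a prime `𝔯 ∤ ℓ` of `K`,
 `e(𝔔|𝔯) = 1` for all `𝔔 | 𝔯`; for `v ∣ ℓ`: `e(Λ|v) = ℓ - 1 = [M:K]`, so `Λ` is the unique prime above `v`,
 `f(Λ|v) = 1`.
(5) `v_𝔯(κ) = ∑_{𝔔|𝔯} f(𝔔|𝔯) v_𝔔(β)` (`Ideal.relNorm`/`Ideal.spanNorm`, `relNorm` of a prime is `𝔯^f`; or
 `κ 𝓞 M = ∏_τ τ(β)` and count).  For `𝔯 ∤ ℓ`: the `v_𝔔(β)` are all equal to some `w` (Galois acts
 transitively, `(β)` stable), so `v_𝔯(κ) = f g w = (ℓ-1) w`, divisible by `p`.  For `v ∣ ℓ`: `v_v(κ) = v_Λ(β) =: r`.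
(6) residue: `ϖ = 1 - ξ`, `v_Λ(ϖ) = 1` (`(ℓ) = (ϖ)^{ℓ-1}` up to units in `ℤ[ξ]`, `v_Λ(ℓ) = ℓ-1`).  `s ϖ = ϖ c`,
 `c = 1 + ξ + … + ξ^{g-1} ≡ g mod Λ`.  Choose `w₂ ∈ 𝓞 M ∖ Λ` with `w₁ := w₂ β/ϖ^r ∈ 𝓞 M ∖ Λ`.  Every `τ ∈ Gal(M/K)` acts
 trivially on `𝓞 M/Λ = 𝓞 K/v`.  From `s β = ε β`: `ε w₁ s(w₂) = c^r s(w₁) w₂`, so `ε ≡ g^r mod Λ`; and
 `ε ≡ z^((p-1)/2)(1+z) = u mod Λ` (`ξ ≡ 1`).  Both sides are in `𝓞 K`: `g^r - u ∈ Λ ∩ 𝓞 K = v`.
This piece can be split: TH-a = (1)(2)(3), TH-b = (4)(5), TH-c = (6); agree on the setup first.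
-/

set_option autoImplicit false

namespace Fermat.Agent.S14

open NumberField IsDedekindDomain

section
variable {K : Type*} [Field K]
  {M : Type*} [Field M] [NumberField M] [Algebra K M] [FiniteDimensional K M] [IsGalois K M]

/-- valuation of the norm of an element `b` with `s b = ε b`, `ε` a unit, `s` a generator. -/
theorem th_val_norm (s : M ≃ₐ[K] M) (hs : ∀ x, x ∈ Subgroup.zpowers s) (b ε : 𝓞 M) (hε : IsUnit ε)
    (hb : s • b = ε * b) (w : HeightOneSpectrum (𝓞 M)) :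
    w.intValuation (algebraMap (𝓞 K) (𝓞 M) (RingOfIntegers.norm K b)) =
      w.intValuation b ^ Module.finrank K M := by
  have h1 : algebraMap (𝓞 K) (𝓞 M) (RingOfIntegers.norm K b) = ∏ σ : M ≃ₐ[K] M, σ • b := by
    apply RingOfIntegers.ext
    rw [RingOfIntegers.coe_algebraMap_norm, Algebra.norm_eq_prod_automorphisms]
    change _ = algebraMap (𝓞 M) M _
    rw [map_prod]
    rfl
  have h2 : ∀ k : ℕ, w.intValuation ((s ^ k) • b) = w.intValuation b := by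
    intro k
    induction k with
    | zero => simp
    | succ k ih =>
      rw [pow_succ, mul_smul, hb, smul_mul', map_mul, ih]
      have : IsUnit ((s ^ k) • ε) := hε.map (MulSemiringAction.toRingHom (M ≃ₐ[K] M) (𝓞 M) (s ^ k))
      rw [th_intVal_unit w this, one_mul]
  have h3 : ∀ σ : M ≃ₐ[K] M, w.intValuation (σ • b) = w.intValuation b := by
    intro σ
    obtain ⟨k, rfl⟩ := (mem_powers_iff_mem_zpowers.mpr (hs σ))
    exact h2 k
  rw [h1, map_prod, Finset.prod_congr rfl (fun σ _ => h3 σ), Finset.prod_const, Finset.card_univ,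
    ← Nat.card_eq_fintype_card, IsGalois.card_aut_eq_finrank]

end

theorem th_exp_pow_eq {a c e n : ℕ}
    (h : (WithZero.exp (-(a : ℤ)) : WithZero (Multiplicative ℤ)) ^ e = WithZero.exp (-(c : ℤ)) ^ n) :
    e * a = n * c := by
  rw [← WithZero.exp_nsmul, ← WithZero.exp_nsmul, WithZero.exp_inj] at h
  simp only [nsmul_eq_mul, mul_neg, neg_inj] at h
  exact_mod_cast h

theorem thaine_kappa {p : ℕ} [Fact p.Prime] (hp3 : 3 ≤ p) {K : Type*} [Field K] [NumberField K]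
    [IsCyclotomicExtension {p} ℚ K] {ζ : K} (hζ : IsPrimitiveRoot ζ p)
    (ℓ : ℕ) (hℓ : ℓ.Prime) (hℓp : ℓ % p = 1) :
    ∃ (κ : 𝓞 K) (g : ℕ), κ ≠ 0 ∧
      (∀ v : HeightOneSpectrum (𝓞 K), (ℓ : 𝓞 K) ∉ v.asIdeal →
        ∃ k : ℕ, v.valuation K (κ : K) = WithZero.exp (-((p * k : ℕ) : ℤ))) ∧
      (∀ v : HeightOneSpectrum (𝓞 K), (ℓ : 𝓞 K) ∈ v.asIdeal →
        ∃ r : ℕ, v.valuation K (κ : K) = WithZero.exp (-(r : ℤ)) ∧
          (g : 𝓞 K) ^ r - uO hζ ∈ v.asIdeal) := by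
  have hp : p.Prime := Fact.out
  have : Fact ℓ.Prime := ⟨hℓ⟩
  have hne : p ≠ ℓ := by
    rintro rfl
    rw [Nat.mod_self] at hℓp
    exact zero_ne_one hℓp
  obtain ⟨q, hq⟩ : ∃ q, ℓ = 1 + p * q := ⟨ℓ / p, by rw [← hℓp]; exact (Nat.mod_add_div ℓ p).symm⟩
  have hodd : Odd ℓ := by
    apply hℓ.odd_of_ne_two
    rintro rfl
    rw [Nat.mod_eq_of_lt (by omega)] at hℓp
    omega
  let M := CyclotomicField ℓ K
  have hirr := th_irreducible (p := p) (ℓ := ℓ) K hne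
  have hfin : Module.finrank K M = ℓ - 1 := th_finrank (p := p) K M hne
  have hξ := IsCyclotomicExtension.zeta_spec ℓ K M
  have := IsCyclotomicExtension.finiteDimensional {ℓ} K M
  have := IsCyclotomicExtension.isGalois {ℓ} K M
  obtain ⟨s, g, hs, hsg⟩ := th_exists_gen hirr hξ
  have hz : IsPrimitiveRoot (algebraMap K M ζ) p := hζ.map_of_injective (algebraMap K M).injective
  have hζℓ : ζ ^ ℓ = ζ := by rw [hq, pow_add, pow_one, pow_mul, hζ.pow_eq_one, one_pow, mul_one]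
  have hζ1 : 1 + ζ ≠ 0 := by
    intro h
    have h1 : ζ = -1 := by linear_combination h
    have h2 : ζ ^ 2 = 1 := by rw [h1]; ring
    have := Nat.le_of_dvd (by norm_num) (hζ.dvd_of_pow_eq_one 2 h2)
    omega
  obtain ⟨εO, hεO⟩ : ∃ εO : 𝓞 M, εO = hz.toInteger ^ ((p - 1) / 2) * (1 + hz.toInteger * hξ.toInteger) :=
    ⟨_, rfl⟩
  have hεM : (εO : M) = algebraMap K M (ζ ^ ((p - 1) / 2)) * (1 + algebraMap K M ζ * IsCyclotomicExtension.zeta ℓ K M) := by
    rw [hεO, map_pow]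
    rfl
  have hnorm : Algebra.norm K (εO : M) = 1 := by
    rw [hεM, map_mul, Algebra.norm_algebraMap, th_norm_one_add hirr hodd hξ ζ hζℓ hζ1, mul_one, hfin,
      ← pow_mul, mul_comm, pow_mul]
    have : ζ ^ (ℓ - 1) = 1 := by
      rw [hq, Nat.add_sub_cancel_left, pow_mul, hζ.pow_eq_one, one_pow]
    rw [this, one_pow]
  have hεunit : IsUnit εO := by
    rw [← RingOfIntegers.isUnit_norm_of_isGalois K]
    have : RingOfIntegers.norm K εO = 1 := by
      apply RingOfIntegers.ext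
      rw [RingOfIntegers.coe_norm, hnorm]
      rfl
    rw [this]
    exact isUnit_one
  have hε0 : (εO : M) ≠ 0 := by
    intro h
    rw [h, Algebra.norm_zero] at hnorm
    exact zero_ne_one hnorm
  obtain ⟨β, hβ0, hβ⟩ := th_hilbert90 s hs (εO : M)⁻¹ (by rw [Algebra.norm_inv, hnorm, inv_one])
  have hβalg : IsAlgebraic ℤ β :=
    (IsFractionRing.isAlgebraic_iff ℤ ℚ M).mpr (Algebra.IsAlgebraic.isAlgebraic (R := ℚ) β)
  obtain ⟨c, hc0, hc⟩ := hβalg.exists_integral_multiple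
  obtain ⟨b, hbdef⟩ : ∃ b : 𝓞 M, (b : M) = c • β := ⟨⟨c • β, hc⟩, rfl⟩
  have hb0 : b ≠ 0 := by
    rintro rfl
    have h1 : c • β = 0 := hbdef.symm
    rw [smul_eq_zero] at h1
    exact h1.elim hc0 hβ0
  have hb : s • b = εO * b := by
    apply RingOfIntegers.ext
    show s (b : M) = (εO : M) * (b : M)
    rw [hbdef, zsmul_eq_mul, map_mul, map_intCast]
    have : s β = (εO : M) * β := by
      calc s β = (εO : M) * ((εO : M)⁻¹ * s β) := by rw [mul_inv_cancel_left₀ hε0]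
        _ = (εO : M) * β := by rw [hβ]
    rw [this]
    ring
  have hκ0 : RingOfIntegers.norm K b ≠ 0 := by
    intro h
    have h1 := congrArg (fun t : 𝓞 K => (t : K)) h
    simp only [RingOfIntegers.coe_norm, map_zero] at h1
    rw [Algebra.norm_eq_zero_iff] at h1
    exact hb0 (RingOfIntegers.ext h1)
  refine ⟨RingOfIntegers.norm K b, g, hκ0, ?_, ?_⟩
  · intro v hv
    obtain ⟨P, hPmax, hPlo⟩ := Ideal.exists_maximal_ideal_liesOver_of_isIntegral v.asIdeal (S := 𝓞 M)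
    let w : HeightOneSpectrum (𝓞 M) := ⟨P, hPmax.isPrime, Ideal.ne_bot_of_liesOver_of_ne_bot v.ne_bot P⟩
    have hwv : w.asIdeal.LiesOver v.asIdeal := hPlo
    have hw : (ℓ : 𝓞 M) ∉ w.asIdeal := by
      intro h
      apply hv
      rw [Ideal.mem_of_liesOver w.asIdeal v.asIdeal, map_natCast]
      exact h
    have h1 := HeightOneSpectrum.intValuation_liesOver v w (RingOfIntegers.norm K b)
    rw [(th_ramIdx (p := p) hne v w).1 hw, th_val_norm s hs b εO hεunit hb w, hfin,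
      HeightOneSpectrum.intValuation_eq_exp_neg_multiplicity w hb0,
      HeightOneSpectrum.intValuation_eq_exp_neg_multiplicity v hκ0] at h1
    have h2 := th_exp_pow_eq h1
    refine ⟨q * multiplicity w.asIdeal (Ideal.span {b}), ?_⟩
    show v.valuation K (algebraMap (𝓞 K) K (RingOfIntegers.norm K b)) = _
    rw [HeightOneSpectrum.valuation_of_algebraMap,
      HeightOneSpectrum.intValuation_eq_exp_neg_multiplicity v hκ0]
    congr 2
    rw [one_mul] at h2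
    have hℓq : ℓ - 1 = p * q := by omega
    rw [h2, hℓq, mul_assoc]
  · intro v hv
    obtain ⟨P, hPmax, hPlo⟩ := Ideal.exists_maximal_ideal_liesOver_of_isIntegral v.asIdeal (S := 𝓞 M)
    let w : HeightOneSpectrum (𝓞 M) := ⟨P, hPmax.isPrime, Ideal.ne_bot_of_liesOver_of_ne_bot v.ne_bot P⟩
    have hwv : w.asIdeal.LiesOver v.asIdeal := hPlo
    have hw : (ℓ : 𝓞 M) ∈ w.asIdeal := by
      rw [Ideal.mem_of_liesOver w.asIdeal v.asIdeal, map_natCast] at hv
      exact hv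
    have h1 := HeightOneSpectrum.intValuation_liesOver v w (RingOfIntegers.norm K b)
    rw [(th_ramIdx (p := p) hne v w).2 hw, th_val_norm s hs b εO hεunit hb w, hfin,
      HeightOneSpectrum.intValuation_eq_exp_neg_multiplicity w hb0,
      HeightOneSpectrum.intValuation_eq_exp_neg_multiplicity v hκ0] at h1
    have h2 := th_exp_pow_eq h1
    have hℓ1 : 0 < ℓ - 1 := by have := hℓ.two_le; omega
    have h3 := Nat.eq_of_mul_eq_mul_left hℓ1 h2
    refine ⟨multiplicity w.asIdeal (Ideal.span {b}), ?_, ?_⟩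
    · show v.valuation K (algebraMap (𝓞 K) K (RingOfIntegers.norm K b)) = _
      rw [HeightOneSpectrum.valuation_of_algebraMap,
        HeightOneSpectrum.intValuation_eq_exp_neg_multiplicity v hκ0, h3]
    · have hϖ := th_val_varpi (K := K) (p := p) hne hξ w hw
      have hϖmem : hξ.toInteger - 1 ∈ w.asIdeal := by
        rw [← HeightOneSpectrum.intValuation_lt_one_iff_mem, hϖ, ← WithZero.exp_zero,
          WithZero.exp_lt_exp]
        norm_num
      have hsx : ∀ x : 𝓞 M, s • x - x ∈ w.asIdeal := fun x =>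
        (Ideal.span_singleton_le_iff_mem _ |>.mpr hϖmem) (th_smul_sub_mem hne hζ hξ s x)
      have hsϖ : s • (hξ.toInteger - 1) = (hξ.toInteger - 1) * ∑ i ∈ Finset.range g, hξ.toInteger ^ i := by
        rw [mul_geom_sum]
        apply RingOfIntegers.ext
        show s (IsCyclotomicExtension.zeta ℓ K M - 1) = IsCyclotomicExtension.zeta ℓ K M ^ g - 1
        rw [map_sub, map_one, hsg]
      have h4 := th_congr w _ _ hϖ s hsϖ hsx b εO hb _
        (HeightOneSpectrum.intValuation_eq_exp_neg_multiplicity w hb0)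
      generalize multiplicity w.asIdeal (Ideal.span {b}) = r at h4 ⊢
      -- work in the quotient
      have hzmap : algebraMap (𝓞 K) (𝓞 M) hζ.toInteger = hz.toInteger := by
        apply RingOfIntegers.ext
        rfl
      rw [Ideal.mem_of_liesOver w.asIdeal v.asIdeal]
      rw [← Ideal.Quotient.eq_zero_iff_mem] at h4 hϖmem ⊢
      rw [map_sub, sub_eq_zero] at h4 hϖmem
      rw [map_one] at hϖmem
      rw [uO, map_sub, map_pow, map_natCast, map_mul, map_pow, map_add, map_one, hzmap, map_sub,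
        sub_eq_zero]
      rw [hεO] at h4
      simp only [map_pow, map_mul, map_add, map_one, map_sum, hϖmem, one_pow, mul_one,
        Finset.sum_const, Finset.card_range, nsmul_eq_mul, map_natCast] at h4 ⊢
      exact h4.symm

end Fermat.Agent.S14
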