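import Fermat.Agent.S14.Defs

/-!
# S14 piece TH, auxiliary file: the field `M = K(ζ_ℓ)`, Hilbert 90, ramification, residues
-/

set_option autoImplicit false
set_option linter.unusedSectionVars false

namespace Fermat.Agent.S14

open NumberField Polynomial IsDedekindDomain

section H90
variable {K : Type*} [Field K] {M : Type*} [Field M] [Algebra K M] [FiniteDimensional K M] [IsGalois K M]

/-- Hilbert 90 for a cyclic extension (universe polymorphic version). -/
theorem th_hilbert90 (s : M ≃ₐ[K] M) (hs : ∀ x, x ∈ Subgroup.zpowers s) (ε : M)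
    (hε : Algebra.norm K ε = 1) : ∃ β : M, β ≠ 0 ∧ ε * s β = β := by
  classical
  set n := orderOf s with hn
  have hn0 : 0 < n := orderOf_pos s
  let c : ℕ → M := fun k => ∏ j ∈ Finset.range k, (s ^ j) ε
  have hc0 : c 0 = 1 := by simp [c]
  have hcs : ∀ k, c (k + 1) = ε * s (c k) := by
    intro k
    simp only [c]
    rw [Finset.prod_range_succ', map_prod, mul_comm]
    congr 1
    apply Finset.prod_congr rfl
    intro j _
    rw [pow_succ']
    rfl
  have huniv : (Finset.univ : Finset (M ≃ₐ[K] M)) = (Finset.range n).image (s ^ ·) := by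
    ext σ
    simp only [Finset.mem_univ, true_iff]
    rw [← mem_powers_iff_mem_range_orderOf, mem_powers_iff_mem_zpowers]
    exact hs σ
  have hinj : Set.InjOn (s ^ ·) (Finset.range n : Set ℕ) := by
    intro a ha b hb hab
    simp only [Finset.coe_range, Set.mem_Iio] at ha hb
    exact pow_injOn_Iio_orderOf ha hb hab
  have hcn : c n = 1 := by
    have h1 := Algebra.norm_eq_prod_automorphisms K ε
    rw [hε, map_one, huniv, Finset.prod_image hinj] at h1
    exact h1.symm
  have hsn : s ^ n = 1 := pow_orderOf_eq_one s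
  let β : M → M := fun θ => ∑ i ∈ Finset.range n, c i * (s ^ i) θ
  have hβ : ∀ θ, ε * s (β θ) = β θ := by
    intro θ
    have h1 : ε * s (β θ) = ∑ i ∈ Finset.range n, c (i + 1) * (s ^ (i + 1)) θ := by
      simp only [β]
      rw [map_sum, Finset.mul_sum]
      apply Finset.sum_congr rfl
      intro i _
      rw [map_mul, hcs, pow_succ', mul_assoc]
      rfl
    have h2 := Finset.sum_range_succ' (fun i => c i * (s ^ i) θ) n
    have h3 := Finset.sum_range_succ (fun i => c i * (s ^ i) θ) n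
    rw [h1]
    simp only [β]
    rw [h3, hcn, hsn, hc0, pow_zero] at h2
    exact (add_right_cancel h2).symm
  by_contra hcon
  push Not at hcon
  have hz : ∀ θ, β θ = 0 := by
    intro θ
    by_contra h
    exact h (by
      have := hcon (β θ) h
      exact absurd (hβ θ) this)
  have hli : LinearIndependent M (fun i : Fin n => (((s ^ (i : ℕ) : M ≃ₐ[K] M) : M → M))) := by
    have h0 := linearIndependent_monoidHom M M
    have := LinearIndependent.comp h0 (fun i : Fin n => (((s ^ (i : ℕ) : M ≃ₐ[K] M) : M →ₐ[K] M) : M →* M)) (by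
      intro a b hab
      apply Fin.ext
      apply hinj (by simp) (by simp)
      ext x
      exact DFunLike.congr_fun hab x)
    exact this
  rw [Fintype.linearIndependent_iff] at hli
  have := hli (fun i => c i) (by
    ext θ
    have := hz θ
    simp only [β] at this
    rw [Finset.sum_apply, Pi.zero_apply, ← this, Finset.sum_range]
    rfl) ⟨0, hn0⟩
  simp only [hc0] at this
  exact one_ne_zero this

end H90

section
variable {p ℓ : ℕ} [hp : Fact p.Prime] [hℓ : Fact ℓ.Prime]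
  (K : Type*) [Field K] [NumberField K] [IsCyclotomicExtension {p} ℚ K]
  (M : Type*) [Field M] [NumberField M] [Algebra K M] [IsCyclotomicExtension {ℓ} K M]

include K in
theorem th_isCyclotomicExtension_mul (hne : p ≠ ℓ) : IsCyclotomicExtension {p * ℓ} ℚ M := by
  have h1 : IsCyclotomicExtension ({p} ∪ {ℓ}) ℚ M :=
    IsCyclotomicExtension.trans {p} {ℓ} ℚ K M (algebraMap K M).injective
  have : NeZero (p * ℓ) := ⟨Nat.mul_ne_zero hp.out.ne_zero hℓ.out.ne_zero⟩
  rw [IsCyclotomicExtension.iff_singleton]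
  constructor
  · obtain ⟨a, ha⟩ := h1.exists_isPrimitiveRoot (n := p) (by simp) hp.out.ne_zero
    obtain ⟨b, hb⟩ := h1.exists_isPrimitiveRoot (n := ℓ) (by simp) hℓ.out.ne_zero
    refine ⟨a * b, ?_⟩
    have hcop : Nat.Coprime p ℓ := (Nat.coprime_primes hp.out hℓ.out).mpr hne
    rw [IsPrimitiveRoot.iff_orderOf] at ha hb ⊢
    rw [(Commute.all a b).orderOf_mul_eq_mul_orderOf_of_coprime (by rw [ha, hb]; exact hcop), ha, hb]
  · intro x
    have := h1.adjoin_roots x
    refine Algebra.adjoin_mono ?_ this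
    rintro b ⟨n, hn, -, hb⟩
    simp only [Set.union_singleton, Set.mem_insert_iff, Set.mem_singleton_iff] at hn
    rcases hn with rfl | rfl
    · show b ^ (p * n) = 1
      rw [mul_comm, pow_mul, hb, one_pow]
    · show b ^ (n * ℓ) = 1
      rw [pow_mul, hb, one_pow]

include hp in
theorem th_finrank (hne : p ≠ ℓ) : Module.finrank K M = ℓ - 1 := by
  have h1 : IsCyclotomicExtension {p * ℓ} ℚ M := th_isCyclotomicExtension_mul K M hne
  have : NeZero (p * ℓ) := ⟨Nat.mul_ne_zero hp.out.ne_zero hℓ.out.ne_zero⟩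
  have hcop : Nat.Coprime p ℓ := (Nat.coprime_primes hp.out hℓ.out).mpr hne
  have e1 : Module.finrank ℚ M = (p - 1) * (ℓ - 1) := by
    rw [IsCyclotomicExtension.finrank (n := p * ℓ) M (cyclotomic.irreducible_rat (NeZero.pos _)),
      Nat.totient_mul hcop, Nat.totient_prime hp.out, Nat.totient_prime hℓ.out]
  have e2 : Module.finrank ℚ K = p - 1 := by
    rw [IsCyclotomicExtension.finrank (n := p) K (cyclotomic.irreducible_rat (NeZero.pos _)),
      Nat.totient_prime hp.out]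
  have e3 := Module.finrank_mul_finrank ℚ K M
  rw [e1, e2] at e3
  have : 0 < p - 1 := by have := hp.out.two_le; omega
  exact Nat.eq_of_mul_eq_mul_left this e3

include hp in
theorem th_irreducible (hne : p ≠ ℓ) : Irreducible (cyclotomic ℓ K) := by
  let M := CyclotomicField ℓ K
  have hμ := IsCyclotomicExtension.zeta_spec ℓ K M
  have h1 : minpoly K (IsCyclotomicExtension.zeta ℓ K M) ∣ cyclotomic ℓ K := by
    apply minpoly.dvd
    rw [aeval_def, eval₂_eq_eval_map, map_cyclotomic]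
    exact hμ.isRoot_cyclotomic (NeZero.pos _)
  have hint : IsIntegral K (IsCyclotomicExtension.zeta ℓ K M) :=
    Algebra.IsIntegral.isIntegral _
  have h2 : (minpoly K (IsCyclotomicExtension.zeta ℓ K M)).natDegree = ℓ - 1 := by
    rw [← th_finrank (p := p) K M hne]
    have := (hμ.powerBasis K).finrank
    rw [this, IsPrimitiveRoot.powerBasis_dim]
  have h3 : minpoly K (IsCyclotomicExtension.zeta ℓ K M) = cyclotomic ℓ K := by
    symm
    apply eq_of_monic_of_dvd_of_natDegree_le (minpoly.monic hint) (cyclotomic.monic _ _) h1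
    rw [h2, natDegree_cyclotomic, Nat.totient_prime hℓ.out]
  rw [← h3]
  exact minpoly.irreducible hint

variable {K M}

include hp in
theorem th_ramIdx (hne : p ≠ ℓ) (v : HeightOneSpectrum (𝓞 K)) (w : HeightOneSpectrum (𝓞 M))
    [hwv : w.asIdeal.LiesOver v.asIdeal] :
    ((ℓ : 𝓞 M) ∉ w.asIdeal → v.asIdeal.ramificationIdx' w.asIdeal = 1) ∧
    ((ℓ : 𝓞 M) ∈ w.asIdeal → v.asIdeal.ramificationIdx' w.asIdeal = ℓ - 1) := by
  have h1 : IsCyclotomicExtension {p * ℓ} ℚ M := th_isCyclotomicExtension_mul K M hne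
  have : NeZero (p * ℓ) := ⟨Nat.mul_ne_zero hp.out.ne_zero hℓ.out.ne_zero⟩
  rw [Ideal.ramificationIdx'_eq_ramificationIdx v.asIdeal w.asIdeal v.ne_bot]
  have : NeZero w.asIdeal := ⟨w.ne_bot⟩
  obtain ⟨r, hr⟩ : ∃ r, r = Ideal.absNorm (Ideal.under ℤ w.asIdeal) := ⟨_, rfl⟩
  have hrp : r.Prime := hr ▸ Nat.absNorm_under_prime w.asIdeal
  have : Fact r.Prime := ⟨hrp⟩
  have hw : w.asIdeal.LiesOver (Ideal.span {(r : ℤ)}) := hr ▸ Int.liesOver_span_absNorm w.asIdeal
  have hv : v.asIdeal.LiesOver (Ideal.span {(r : ℤ)}) := Ideal.LiesOver.tower_bot w.asIdeal v.asIdeal _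
  have htower := Ideal.ramificationIdx_tower (R := ℤ) v.asIdeal w.asIdeal
  have hmem : (ℓ : 𝓞 M) ∈ w.asIdeal ↔ r = ℓ := by
    have := Int.cast_mem_ideal_iff (I := w.asIdeal) (d := (ℓ : ℤ))
    rw [Int.cast_natCast, Int.natCast_dvd_natCast, ← hr, Nat.prime_dvd_prime_iff_eq hrp hℓ.out] at this
    exact this
  have hpℓ : ¬ p ∣ ℓ := fun h => hne ((Nat.prime_dvd_prime_iff_eq hp.out hℓ.out).mp h)
  have hℓp : ¬ ℓ ∣ p := fun h => hne ((Nat.prime_dvd_prime_iff_eq hℓ.out hp.out).mp h).symm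
  constructor
  · intro hn
    rw [hmem] at hn
    by_cases hrp' : r = p
    · subst hrp'
      rw [IsCyclotomicExtension.Rat.ramificationIdx_eq (r * ℓ) M w.asIdeal (k := 0) (m := ℓ) (by simp) hpℓ,
        IsCyclotomicExtension.Rat.ramificationIdx_eq_of_prime r K v.asIdeal, pow_zero, one_mul] at htower
      have h0 : 0 < r - 1 := by have := hrp.two_le; omega
      exact (Nat.eq_of_mul_eq_mul_left h0 (by rw [mul_one]; exact htower)).symm
    · have hnd : ¬ r ∣ p * ℓ := by
        rw [hrp.dvd_mul, Nat.prime_dvd_prime_iff_eq hrp hp.out, Nat.prime_dvd_prime_iff_eq hrp hℓ.out]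
        tauto
      rw [IsCyclotomicExtension.Rat.ramificationIdx_eq_of_not_dvd r M w.asIdeal hnd] at htower
      exact Nat.eq_one_of_mul_eq_one_left htower.symm
  · intro hn
    rw [hmem] at hn
    subst hn
    rw [IsCyclotomicExtension.Rat.ramificationIdx_eq (p * r) M w.asIdeal (k := 0) (m := p) (by simp [mul_comm]) hℓp,
      IsCyclotomicExtension.Rat.ramificationIdx_eq_of_not_dvd r K v.asIdeal hℓp, pow_zero, one_mul, one_mul] at htower
    exact htower.symm

/-- `∏_{μ primitive ℓ-th root} (1 + z μ) = 1` if `z^ℓ = z`, `z ≠ -1`, `ℓ` odd. -/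
theorem th_prod_primitiveRoots {E : Type*} [Field E] (hodd : Odd ℓ) {μ₀ : E} (hμ₀ : IsPrimitiveRoot μ₀ ℓ)
    (z : E) (hz : z ^ ℓ = z) (hz1 : 1 + z ≠ 0) :
    ∏ μ ∈ primitiveRoots ℓ E, (1 + z * μ) = 1 := by
  classical
  have h1 := hμ₀.pow_sub_pow_eq_prod_sub_mul (1 : E) (-z) hℓ.out.pos
  rw [one_pow, hodd.neg_pow, hz, sub_neg_eq_add] at h1
  have h3 : Disjoint (primitiveRoots ℓ E) {1} := by
    rw [Finset.disjoint_singleton_right]
    intro h
    have := (isPrimitiveRoot_of_mem_primitiveRoots h)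
    exact hℓ.out.one_lt.ne' (this.unique IsPrimitiveRoot.one)
  rw [nthRootsFinset_eq_of_prime hℓ.out, Finset.prod_union h3, Finset.prod_singleton] at h1
  have h4 : (1 + z) * 1 = (1 + z) * ∏ μ ∈ primitiveRoots ℓ E, (1 + z * μ) := by
    rw [mul_one, mul_comm]
    convert h1 using 2
    · apply Finset.prod_congr rfl
      intro x _
      ring
    · ring
  exact (mul_left_cancel₀ hz1 h4).symm

theorem th_norm_one_add (hirr : Irreducible (cyclotomic ℓ K)) (hodd : Odd ℓ) {ξ : M} (hξ : IsPrimitiveRoot ξ ℓ)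
    (z : K) (hz : z ^ ℓ = z) (hz1 : 1 + z ≠ 0) :
    Algebra.norm K (1 + algebraMap K M z * ξ) = 1 := by
  let E := AlgebraicClosure M
  apply (algebraMap K E).injective
  have := IsCyclotomicExtension.finiteDimensional {ℓ} K M
  have := IsCyclotomicExtension.isGalois {ℓ} K M
  rw [Algebra.norm_eq_prod_embeddings, map_one]
  have hμ₀ : IsPrimitiveRoot (algebraMap M E ξ) ℓ := hξ.map_of_injective (algebraMap M E).injective
  rw [← th_prod_primitiveRoots hodd hμ₀ (algebraMap K E z) (by rw [← map_pow, hz])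
    (by rw [← map_one (algebraMap K E), ← map_add]; exact (_root_.map_ne_zero _).mpr hz1)]
  rw [← Finset.prod_attach (primitiveRoots ℓ E), ← Finset.univ_eq_attach]
  refine Fintype.prod_equiv (hξ.embeddingsEquivPrimitiveRoots E hirr) _ _ fun σ => ?_
  simp

theorem th_exists_gen (hirr : Irreducible (cyclotomic ℓ K)) {ξ : M} (hξ : IsPrimitiveRoot ξ ℓ) :
    ∃ (s : M ≃ₐ[K] M) (g : ℕ), (∀ x, x ∈ Subgroup.zpowers s) ∧ s ξ = ξ ^ g := by
  obtain ⟨γ, hγ⟩ := IsCyclic.exists_generator (α := (ZMod ℓ)ˣ)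
  let e := IsCyclotomicExtension.autEquivPow M hirr
  refine ⟨e.symm γ, ((hξ.autToPow K (e.symm γ) : (ZMod ℓ)ˣ) : ZMod ℓ).val, ?_, ?_⟩
  · intro x
    obtain ⟨k, hk⟩ := Subgroup.mem_zpowers_iff.mp (hγ (e x))
    rw [Subgroup.mem_zpowers_iff]
    refine ⟨k, ?_⟩
    apply e.injective
    rw [map_zpow, MulEquiv.apply_symm_apply, hk]
  · exact (hξ.autToPow_spec K _).symm

theorem th_coe_smul (σ : M ≃ₐ[K] M) (x : 𝓞 M) : ((σ • x : 𝓞 M) : M) = σ (x : M) := rfl

/-- every `K`-automorphism of `M` is trivial modulo `ξ - 1`. -/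
theorem th_smul_sub_mem (hne : p ≠ ℓ) {ζ : K} (hζ : IsPrimitiveRoot ζ p) {ξ : M} (hξ : IsPrimitiveRoot ξ ℓ)
    (s : M ≃ₐ[K] M) (x : 𝓞 M) : s • x - x ∈ Ideal.span {hξ.toInteger - 1} := by
  have h1 : IsCyclotomicExtension {p * ℓ} ℚ M := th_isCyclotomicExtension_mul K M hne
  have : NeZero (p * ℓ) := ⟨Nat.mul_ne_zero hp.out.ne_zero hℓ.out.ne_zero⟩
  have hcop : Nat.Coprime p ℓ := (Nat.coprime_primes hp.out hℓ.out).mpr hne
  have hz : IsPrimitiveRoot (algebraMap K M ζ) p := hζ.map_of_injective (algebraMap K M).injective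
  have hθ : IsPrimitiveRoot (algebraMap K M ζ * ξ) (p * ℓ) := by
    rw [IsPrimitiveRoot.iff_orderOf] at hz hξ ⊢
    rw [(Commute.all _ _).orderOf_mul_eq_mul_orderOf_of_coprime (by rw [hz, hξ]; exact hcop), hz, hξ]
  have htop := IsCyclotomicExtension.Rat.adjoin_singleton_eq_top hθ
  have hx : x ∈ Algebra.adjoin ℤ {hθ.toInteger} := by rw [htop]; trivial
  induction hx using Algebra.adjoin_induction with
  | mem y hy =>
    rw [Set.mem_singleton_iff] at hy
    subst hy
    obtain ⟨g, hg⟩ : ∃ g : ℕ, s ξ = ξ ^ g := ⟨_, (hξ.autToPow_spec K s).symm⟩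
    have e1 : s • hθ.toInteger - hθ.toInteger = hz.toInteger * (hξ.toInteger ^ g - 1) - hz.toInteger * (hξ.toInteger - 1) := by
      apply RingOfIntegers.ext
      show s (algebraMap K M ζ * ξ) - algebraMap K M ζ * ξ = algebraMap K M ζ * (ξ ^ g - 1) - algebraMap K M ζ * (ξ - 1)
      rw [map_mul, AlgEquiv.commutes, hg]
      ring
    rw [e1]
    apply Ideal.sub_mem
    · apply Ideal.mul_mem_left
      rw [Ideal.mem_span_singleton]
      simpa using sub_dvd_pow_sub_pow hξ.toInteger 1 g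
    · apply Ideal.mul_mem_left
      exact Ideal.mem_span_singleton_self _
  | algebraMap r =>
    have : s • (algebraMap ℤ (𝓞 M) r) = algebraMap ℤ (𝓞 M) r := by
      apply RingOfIntegers.ext
      rw [th_coe_smul]
      simp
    rw [this, sub_self]
    exact Ideal.zero_mem _
  | add y z _ _ hy hz =>
    have : s • (y + z) - (y + z) = (s • y - y) + (s • z - z) := by rw [smul_add]; ring
    rw [this]
    exact Ideal.add_mem _ hy hz
  | mul y z _ _ hy hz =>
    have : s • (y * z) - (y * z) = (s • y - y) * (s • z) + y * (s • z - z) := by rw [smul_mul']; ring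
    rw [this]
    exact Ideal.add_mem _ (Ideal.mul_mem_right _ _ hy) (Ideal.mul_mem_left _ _ hz)

theorem th_intVal_unit (w : HeightOneSpectrum (𝓞 M)) {x : 𝓞 M} (hx : IsUnit x) : w.intValuation x = 1 := by
  rw [HeightOneSpectrum.intValuation_eq_one_iff]
  intro h
  exact w.isPrime.ne_top (Ideal.eq_top_of_isUnit_mem _ h hx)

/-- the residue computation. -/
theorem th_congr (w : HeightOneSpectrum (𝓞 M)) (ϖ γ : 𝓞 M) (hϖ : w.intValuation ϖ = WithZero.exp (-1 : ℤ))
    (s : M ≃ₐ[K] M) (hsϖ : s • ϖ = ϖ * γ) (hsx : ∀ x : 𝓞 M, s • x - x ∈ w.asIdeal)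
    (b ε : 𝓞 M) (hb : s • b = ε * b) (r : ℕ) (hr : w.intValuation b = WithZero.exp (-(r : ℤ))) :
    ε - γ ^ r ∈ w.asIdeal := by
  have hϖ0 : ϖ ≠ 0 := by
    rintro rfl
    rw [map_zero] at hϖ
    exact WithZero.exp_ne_zero hϖ.symm
  have hϖmem : ϖ ∈ w.asIdeal := by
    rw [← HeightOneSpectrum.intValuation_lt_one_iff_mem, hϖ]
    rw [← WithZero.exp_zero, WithZero.exp_lt_exp]
    norm_num
  obtain ⟨C, hC⟩ : w.asIdeal ∣ Ideal.span {ϖ} := by
    rw [Ideal.dvd_span_singleton]; exact hϖmem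
  have hCw : ¬ C ≤ w.asIdeal := by
    intro hle
    have : ϖ ∈ w.asIdeal ^ 2 := by
      have h1 : ϖ ∈ Ideal.span {ϖ} := Ideal.mem_span_singleton_self _
      rw [hC] at h1
      rw [pow_two]
      exact Ideal.mul_mono_right hle h1
    rw [← HeightOneSpectrum.intValuation_le_pow_iff_mem, hϖ] at this
    rw [WithZero.exp_le_exp] at this
    norm_num at this
  obtain ⟨c, hcC, hcw⟩ := SetLike.not_le_iff_exists.mp hCw
  have hbmem : b ∈ w.asIdeal ^ r := by
    rw [← HeightOneSpectrum.intValuation_le_pow_iff_mem, hr]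
  have h1 : b * c ^ r ∈ Ideal.span {ϖ ^ r} := by
    rw [← Ideal.span_singleton_pow, hC, mul_pow]
    exact Ideal.mul_mem_mul hbmem (Ideal.pow_mem_pow hcC r)
  obtain ⟨y, hy⟩ := Ideal.mem_span_singleton.mp h1
  obtain ⟨x, hx⟩ : ∃ x, x = c ^ r := ⟨_, rfl⟩
  rw [← hx] at hy
  have hxw : x ∉ w.asIdeal := fun h => hcw (w.isPrime.mem_of_pow_mem r (hx ▸ h))
  have hxv : w.intValuation x = 1 := HeightOneSpectrum.intValuation_eq_one_iff.mpr hxw
  have hyv : w.intValuation y = 1 := by
    have := congrArg w.intValuation hy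
    rw [map_mul, map_mul, map_pow, hr, hxv, hϖ, mul_one, ← WithZero.exp_nsmul] at this
    have h2 : (WithZero.exp (r • (-1 : ℤ)) : WithZero (Multiplicative ℤ)) = WithZero.exp (-(r : ℤ)) := by
      congr 1; simp
    rw [h2] at this
    have h3 : (WithZero.exp (-(r : ℤ)) : WithZero (Multiplicative ℤ)) ≠ 0 := WithZero.exp_ne_zero
    exact (mul_left_cancel₀ h3 (by rw [mul_one]; exact this)).symm
  have hyw : y ∉ w.asIdeal := HeightOneSpectrum.intValuation_eq_one_iff.mp hyv
  have h2 : ε * y * (s • x) = γ ^ r * (s • y) * x := by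
    have h3 := congrArg (fun t => s • t) hy
    simp only [smul_mul', smul_pow', hb, hsϖ] at h3
    have h4 : ϖ ^ r * (ε * y * (s • x)) = ϖ ^ r * (γ ^ r * (s • y) * x) := by
      calc ϖ ^ r * (ε * y * (s • x)) = ε * (ϖ ^ r * y) * (s • x) := by ring
        _ = ε * (b * x) * (s • x) := by rw [hy]
        _ = (ε * b * s • x) * x := by ring
        _ = ((ϖ * γ) ^ r * s • y) * x := by rw [h3]
        _ = ϖ ^ r * (γ ^ r * (s • y) * x) := by ring
    exact mul_left_cancel₀ (pow_ne_zero r hϖ0) h4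
  have h5 : (ε - γ ^ r) * (x * y) ∈ w.asIdeal := by
    have : (ε - γ ^ r) * (x * y) = γ ^ r * x * (s • y - y) - ε * y * (s • x - x) := by
      linear_combination h2
    rw [this]
    exact Ideal.sub_mem _ (Ideal.mul_mem_left _ _ (hsx y)) (Ideal.mul_mem_left _ _ (hsx x))
  rcases w.isPrime.mem_or_mem h5 with h | h
  · exact h
  · rcases w.isPrime.mem_or_mem h with h | h
    · exact absurd h hxw
    · exact absurd h hyw

include K hp in
theorem th_val_varpi (hne : p ≠ ℓ) {ξ : M} (hξ : IsPrimitiveRoot ξ ℓ) (w : HeightOneSpectrum (𝓞 M))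
    (hw : (ℓ : 𝓞 M) ∈ w.asIdeal) : w.intValuation (hξ.toInteger - 1) = WithZero.exp (-1 : ℤ) := by
  have h1 : IsCyclotomicExtension {p * ℓ} ℚ M := th_isCyclotomicExtension_mul K M hne
  have hℓp : ¬ ℓ ∣ p := fun h => hne ((Nat.prime_dvd_prime_iff_eq hℓ.out hp.out).mp h).symm
  have hℓ0 : (ℓ : ℤ) ≠ 0 := by exact_mod_cast hℓ.out.ne_zero
  let vZ : HeightOneSpectrum ℤ := ⟨Ideal.span {(ℓ : ℤ)},
    (Ideal.span_singleton_prime hℓ0).mpr (Nat.prime_iff_prime_int.mp hℓ.out), by simpa using hℓ0⟩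
  have hlo : w.asIdeal.LiesOver vZ.asIdeal := by
    constructor
    have hmax : (Ideal.span {(ℓ : ℤ)}).IsMaximal := Int.ideal_span_isMaximal_of_prime ℓ
    apply hmax.eq_of_le
    · exact (Ideal.IsPrime.under ℤ w.asIdeal).ne_top
    · rw [Ideal.span_singleton_le_iff_mem, Ideal.under_def, Ideal.mem_comap]
      simpa using hw
  have h2 := HeightOneSpectrum.intValuation_liesOver vZ w (ℓ : ℤ)
  have h3 : vZ.asIdeal.ramificationIdx' w.asIdeal = ℓ - 1 := by
    rw [Ideal.ramificationIdx'_eq_ramificationIdx vZ.asIdeal w.asIdeal vZ.ne_bot]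
    have hlo' : w.asIdeal.LiesOver (Ideal.span {(ℓ : ℤ)}) := hlo
    rw [IsCyclotomicExtension.Rat.ramificationIdx_eq (p * ℓ) M w.asIdeal (k := 0) (m := p) (by simp [mul_comm]) hℓp]
    simp
  have h4 : vZ.intValuation (ℓ : ℤ) = WithZero.exp (-1 : ℤ) :=
    HeightOneSpectrum.intValuation_singleton vZ hℓ0 rfl
  rw [h3, h4] at h2
  obtain ⟨u, hu⟩ := IsCyclotomicExtension.Rat.associated_zeta_sub_one_pow_prime ℓ hξ
  have h5 := congrArg w.intValuation hu
  rw [map_mul, map_pow, th_intVal_unit w u.isUnit, mul_one] at h5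
  have h6 : (algebraMap ℤ (𝓞 M) (ℓ : ℤ)) = (ℓ : 𝓞 M) := by simp
  rw [h6, ← h5] at h2
  have hpos : ℓ - 1 ≠ 0 := by have := hℓ.out.two_le; omega
  exact ((pow_left_inj₀ zero_le zero_le hpos).mp h2).symm

end

end Fermat.Agent.S14
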