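import Fermat.Agent.S14.Thaine
import Fermat.Agent.S14.E2

set_option autoImplicit false

namespace Fermat.Agent.S14

open NumberField IsDedekindDomain
open scoped nonZeroDivisors Pointwise

section general

variable {p : ℕ} [Fact p.Prime] {K : Type*} [Field K] [NumberField K] {ζ : K}
  (hζ : IsPrimitiveRoot ζ p)

theorem thp_e2I_mul (A B : Ideal (𝓞 K)) : e2I hζ (A * B) = e2I hζ A * e2I hζ B := by
  simp only [e2I, smul_mul', mul_pow, Finset.prod_mul_distrib]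

theorem thp_e2I_one : e2I hζ (1 : Ideal (𝓞 K)) = 1 := by
  simp only [e2I, smul_one, one_pow, Finset.prod_const_one]

theorem thp_e2I_pow (A : Ideal (𝓞 K)) (n : ℕ) : e2I hζ (A ^ n) = e2I hζ A ^ n := by
  induction n with
  | zero => rw [pow_zero, pow_zero, thp_e2I_one]
  | succ n ih => rw [pow_succ, pow_succ, thp_e2I_mul, ih]

theorem thp_e2I_prod {ι : Type*} (s : Finset ι) (f : ι → Ideal (𝓞 K)) :
    e2I hζ (∏ i ∈ s, f i) = ∏ i ∈ s, e2I hζ (f i) := by
  classical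
  induction s using Finset.induction_on with
  | empty => rw [Finset.prod_empty, Finset.prod_empty, thp_e2I_one]
  | insert a s ha ih => rw [Finset.prod_insert ha, Finset.prod_insert ha, thp_e2I_mul, ih]

theorem thp_smul_span (σ : K ≃ₐ[ℚ] K) (x : 𝓞 K) :
    σ • Ideal.span {x} = Ideal.span {σ • x} := by
  rw [Ideal.pointwise_smul_def, Ideal.map_span, Set.image_singleton]
  rfl

theorem thp_e2I_span (x : 𝓞 K) : e2I hζ (Ideal.span {x}) = Ideal.span {e2O hζ x} := by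
  simp only [e2I, e2O, thp_smul_span, Ideal.span_singleton_pow, Ideal.prod_span_singleton]

theorem thp_smul_ne_zero (σ : K ≃ₐ[ℚ] K) {I : Ideal (𝓞 K)} (hI : I ≠ 0) : σ • I ≠ 0 := by
  rwa [Ne, smul_eq_zero_iff_eq]

theorem thp_e2I_ne_zero {I : Ideal (𝓞 K)} (hI : I ≠ 0) : e2I hζ I ≠ 0 := by
  rw [e2I, Finset.prod_ne_zero_iff]
  exact fun σ _ => pow_ne_zero _ (thp_smul_ne_zero σ hI)

theorem thp_exists_nE_mul (ρ τ : K ≃ₐ[ℚ] K) :
    ∃ k : ℕ, nE hζ ρ * nE hζ τ = nE hζ (ρ * τ) + p * k := by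
  have h1 : ((nE hζ ρ * nE hζ τ : ℕ) : ZMod p) = (nE hζ (ρ * τ) : ℕ) := by
    push_cast
    rw [nE_mul]
  rw [ZMod.natCast_eq_natCast_iff', Nat.mod_eq_of_lt (nE_lt hζ _)] at h1
  refine ⟨(nE hζ ρ * nE hζ τ) / p, ?_⟩
  rw [← h1]
  exact (Nat.mod_add_div _ _).symm

/-- `e2I(I)^{n_τ} = e2I(τ⁻¹ I) B^p`. -/
theorem thp_e2I_smul (τ : K ≃ₐ[ℚ] K) {I : Ideal (𝓞 K)} (hI : I ≠ 0) :
    ∃ B : Ideal (𝓞 K), B ≠ 0 ∧ e2I hζ I ^ nE hζ τ = e2I hζ (τ⁻¹ • I) * B ^ p := by
  choose k hk using fun ρ => thp_exists_nE_mul hζ ρ τ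
  refine ⟨∏ ρ : K ≃ₐ[ℚ] K, (ρ • I) ^ k ρ, ?_, ?_⟩
  · rw [Finset.prod_ne_zero_iff]
    exact fun σ _ => pow_ne_zero _ (thp_smul_ne_zero σ hI)
  · have h1 : e2I hζ (τ⁻¹ • I) = ∏ ρ : K ≃ₐ[ℚ] K, (ρ • I) ^ nE hζ (ρ * τ) := by
      rw [e2I]
      refine Fintype.prod_equiv (Equiv.mulRight τ⁻¹) _ _ fun σ => ?_
      rw [Equiv.coe_mulRight, smul_smul, inv_mul_cancel_right]
    rw [h1, e2I, ← Finset.prod_pow, ← Finset.prod_pow, ← Finset.prod_mul_distrib]
    refine Finset.prod_congr rfl fun ρ _ => ?_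
    rw [← pow_mul, ← pow_mul, ← pow_add, hk ρ, mul_comm (k ρ)]

end general

section degone

variable {K : Type*} [Field K] [NumberField K]

theorem thp_card_quot (v : HeightOneSpectrum (𝓞 K)) :
    Nat.card (𝓞 K ⧸ v.asIdeal) = Ideal.absNorm v.asIdeal := by
  rw [Ideal.absNorm_apply, Submodule.cardQuot_apply]

/-- modulo a prime of degree one every algebraic integer is congruent to a rational integer. -/
theorem thp_exists_int (v : HeightOneSpectrum (𝓞 K)) (hv : (Ideal.absNorm v.asIdeal).Prime)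
    (x : 𝓞 K) : ∃ n : ℤ, x - (n : 𝓞 K) ∈ v.asIdeal := by
  have hcard := thp_card_quot v
  have : Fact (Nat.card (𝓞 K ⧸ v.asIdeal)).Prime := ⟨by rw [hcard]; exact hv⟩
  have : Nontrivial (𝓞 K ⧸ v.asIdeal) := Ideal.Quotient.nontrivial_iff.2 v.isPrime.ne_top
  have h := (AddSubgroup.zmultiples (1 : 𝓞 K ⧸ v.asIdeal)).eq_bot_or_eq_top_of_prime_card
  have h1 : AddSubgroup.zmultiples (1 : 𝓞 K ⧸ v.asIdeal) = ⊤ := by
    refine h.resolve_left fun hb => ?_
    have : (1 : 𝓞 K ⧸ v.asIdeal) ∈ AddSubgroup.zmultiples (1 : 𝓞 K ⧸ v.asIdeal) :=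
      AddSubgroup.mem_zmultiples _
    rw [hb, AddSubgroup.mem_bot] at this
    exact one_ne_zero this
  have h2 : Ideal.Quotient.mk v.asIdeal x ∈ AddSubgroup.zmultiples (1 : 𝓞 K ⧸ v.asIdeal) := by
    rw [h1]; trivial
  obtain ⟨n, hn⟩ := AddSubgroup.mem_zmultiples_iff.1 h2
  refine ⟨n, ?_⟩
  rw [← Ideal.Quotient.eq, ← hn]
  simp

theorem thp_smul_intCast (σ : K ≃ₐ[ℚ] K) (n : ℤ) : σ • (n : 𝓞 K) = (n : 𝓞 K) := by
  apply RingOfIntegers.ext
  change σ ((n : 𝓞 K) : K) = ((n : 𝓞 K) : K)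
  simp

theorem thp_smul_natCast (σ : K ≃ₐ[ℚ] K) (n : ℕ) : σ • (n : 𝓞 K) = (n : 𝓞 K) := by
  exact_mod_cast thp_smul_intCast σ (n : ℤ)

/-- an element of the decomposition group of a prime of degree one acts trivially modulo it. -/
theorem thp_smul_sub_mem (v : HeightOneSpectrum (𝓞 K)) (hv : (Ideal.absNorm v.asIdeal).Prime)
    (σ : K ≃ₐ[ℚ] K) (hσ : σ • v.asIdeal = v.asIdeal) (x : 𝓞 K) : σ • x - x ∈ v.asIdeal := by
  obtain ⟨n, hn⟩ := thp_exists_int v hv x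
  have h1 : σ • (x - (n : 𝓞 K)) ∈ σ • v.asIdeal := Ideal.smul_mem_pointwise_smul _ _ _ hn
  rw [hσ, smul_sub, thp_smul_intCast] at h1
  have : σ • x - x = (σ • x - (n : 𝓞 K)) - (x - (n : 𝓞 K)) := by ring
  rw [this]
  exact Ideal.sub_mem _ h1 hn

omit [NumberField K] in
theorem thp_under_eq (w : HeightOneSpectrum (𝓞 K)) {ℓ : ℕ} (hℓ : ℓ.Prime)
    (hw : (ℓ : 𝓞 K) ∈ w.asIdeal) : Ideal.under ℤ w.asIdeal = Ideal.span {(ℓ : ℤ)} := by
  have hmax : (Ideal.span {(ℓ : ℤ)}).IsMaximal :=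
    PrincipalIdealRing.isMaximal_of_irreducible (Nat.prime_iff_prime_int.1 hℓ).irreducible
  have hprime : (Ideal.under ℤ w.asIdeal).IsPrime := Ideal.IsPrime.under ℤ w.asIdeal
  refine (hmax.eq_of_le hprime.ne_top ?_).symm
  rw [Ideal.span_singleton_le_iff_mem, Ideal.under_def, Ideal.mem_comap]
  simpa using hw

/-- Galois acts transitively on the primes above `ℓ`. -/
theorem thp_exists_smul [IsGalois ℚ K] (v w : HeightOneSpectrum (𝓞 K)) {ℓ : ℕ} (hℓ : ℓ.Prime)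
    (hv : (ℓ : 𝓞 K) ∈ v.asIdeal) (hw : (ℓ : 𝓞 K) ∈ w.asIdeal) :
    ∃ τ : K ≃ₐ[ℚ] K, w.asIdeal = τ • v.asIdeal := by
  have hP := v.isPrime
  have hQ := w.isPrime
  exact Algebra.IsInvariant.exists_smul_of_under_eq ℤ (𝓞 K) (K ≃ₐ[ℚ] K) v.asIdeal w.asIdeal
    (by rw [thp_under_eq w hℓ hw, thp_under_eq v hℓ hv])

end degone

section factor

variable {K : Type*} [Field K] [NumberField K]

/-- the conjugate `τ v` of a prime. -/
noncomputable def thpPrime (v : HeightOneSpectrum (𝓞 K)) (τ : K ≃ₐ[ℚ] K) :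
    HeightOneSpectrum (𝓞 K) where
  asIdeal := τ • v.asIdeal
  isPrime := by
    have := v.isPrime
    exact Ideal.IsPrime.smul τ
  ne_bot := thp_smul_ne_zero τ v.ne_bot

theorem thpPrime_asIdeal (v : HeightOneSpectrum (𝓞 K)) (τ : K ≃ₐ[ℚ] K) :
    (thpPrime v τ).asIdeal = τ • v.asIdeal := rfl

theorem thp_count_eq (w : HeightOneSpectrum (𝓞 K)) {κ : 𝓞 K} (hκ : κ ≠ 0) {n : ℕ}
    (h : w.valuation K (κ : K) = WithZero.exp (-(n : ℤ))) :
    (Associates.mk w.asIdeal).count (Associates.mk (Ideal.span {κ})).factors = n := by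
  have h1 : w.valuation K (κ : K) = w.intValuation κ := w.valuation_of_algebraMap κ
  rw [h1, w.intValuation_if_neg hκ, WithZero.exp_inj, neg_inj] at h
  exact_mod_cast h

/-- Factorisation of `(κ)` from the valuations: `S` a finite set of primes given as the injective
image of a finite type. -/
theorem thp_factor {p : ℕ} (hp0 : 0 < p) {ι : Type*} [Fintype ι] (P : ι → HeightOneSpectrum (𝓞 K))
    (hP : Function.Injective P) {κ : 𝓞 K} (hκ : κ ≠ 0)
    (h1 : ∀ w : HeightOneSpectrum (𝓞 K), w ∉ Set.range P →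
      ∃ k : ℕ, w.valuation K (κ : K) = WithZero.exp (-((p * k : ℕ) : ℤ)))
    (r : ι → ℕ) (hr : ∀ i, (P i).valuation K (κ : K) = WithZero.exp (-(r i : ℤ))) :
    ∃ c : Ideal (𝓞 K), c ≠ 0 ∧ Ideal.span {κ} = (∏ i, (P i).asIdeal ^ r i) * c ^ p := by
  classical
  have hI : Ideal.span {κ} ≠ 0 := by
    rwa [Ne, Ideal.zero_eq_bot, Ideal.span_singleton_eq_bot]
  set cnt : HeightOneSpectrum (𝓞 K) → ℕ := fun w =>
    (Associates.mk w.asIdeal).count (Associates.mk (Ideal.span {κ})).factors with hcnt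
  set kf : HeightOneSpectrum (𝓞 K) → ℕ := fun w =>
    if h : w ∈ Set.range P then 0 else (h1 w h).choose with hkf
  have hk : ∀ w, w ∉ Set.range P → cnt w = p * kf w := by
    intro w hw
    have := (h1 w hw).choose_spec
    simp only [hkf, dif_neg hw]
    exact thp_count_eq w hκ this
  have hk0 : ∀ w, w ∈ Set.range P → kf w = 0 := by
    intro w hw
    simp only [hkf, dif_pos hw]
  set a : HeightOneSpectrum (𝓞 K) → Ideal (𝓞 K) := fun w =>
    if w ∈ Set.range P then w.asIdeal ^ cnt w else 1 with ha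
  set b : HeightOneSpectrum (𝓞 K) → Ideal (𝓞 K) := fun w => w.asIdeal ^ kf w with hb
  have hab : ∀ w : HeightOneSpectrum (𝓞 K), w.maxPowDividing (Ideal.span {κ}) = a w * b w ^ p := by
    intro w
    rw [HeightOneSpectrum.maxPowDividing]
    by_cases hw : w ∈ Set.range P
    · simp only [ha, hb, if_pos hw, hk0 w hw, pow_zero, one_pow, mul_one]
      rfl
    · simp only [ha, hb, if_neg hw, one_mul, ← pow_mul]
      rw [mul_comm, ← hk w hw]
  have hfin : (Function.mulSupport fun w : HeightOneSpectrum (𝓞 K) =>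
      w.maxPowDividing (Ideal.span {κ})).Finite := Ideal.hasFiniteMulSupport hI
  have hafin : Function.HasFiniteMulSupport a := by
    refine hfin.subset fun w hw => ?_
    rw [Function.mem_mulSupport] at hw ⊢
    intro h
    apply hw
    by_cases hw' : w ∈ Set.range P
    · simp only [ha, if_pos hw']
      exact h
    · simp only [ha, if_neg hw']
  have hbfin : Function.HasFiniteMulSupport b := by
    refine hfin.subset fun w hw => ?_
    rw [Function.mem_mulSupport] at hw ⊢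
    intro h
    apply hw
    by_cases hw' : w ∈ Set.range P
    · simp only [hb, hk0 w hw', pow_zero]
    · rw [hab w] at h
      simp only [ha, if_neg hw', one_mul] at h
      have h2 : b w ∣ 1 := by
        rw [← h]; exact dvd_pow_self _ hp0.ne'
      exact Ideal.isUnit_iff.1 (isUnit_of_dvd_one h2) |>.trans Ideal.one_eq_top.symm
  refine ⟨∏ᶠ w, b w, ?_, ?_⟩
  · rw [finprod_eq_prod b hbfin, Finset.prod_ne_zero_iff]
    exact fun w _ => pow_ne_zero _ w.ne_bot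
  · rw [← Ideal.finprod_heightOneSpectrum_factorization hI]
    simp only [hab]
    rw [finprod_mul_distrib hafin
      (show Function.HasFiniteMulSupport (fun w => b w ^ p) from hbfin.pow p), ← finprod_pow hbfin]
    congr 1
    rw [finprod_eq_prod_of_mulSupport_subset a (s := Finset.univ.image P)]
    · rw [Finset.prod_image (fun i _ j _ h => hP h)]
      refine Finset.prod_congr rfl fun i _ => ?_
      simp only [ha, if_pos (Set.mem_range_self i)]
      congr 1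
      exact thp_count_eq (P i) hκ (hr i)
    · intro w hw
      rw [Function.mem_mulSupport] at hw
      by_contra hw'
      apply hw
      have : w ∉ Set.range P := by
        intro ⟨i, hi⟩
        apply hw'
        simp [← hi]
      simp only [ha, if_neg this]

end factor

section cyclo

variable {p : ℕ} [Fact p.Prime] {K : Type*} [Field K] [NumberField K]
  [IsCyclotomicExtension {p} ℚ K] {ζ : K} (hζ : IsPrimitiveRoot ζ p)

include hζ

theorem thp_pow_sub_one_notMem (v : HeightOneSpectrum (𝓞 K)) (hvp : (p : 𝓞 K) ∉ v.asIdeal)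
    (j : ℕ) (hj : ¬ p ∣ j) : hζ.toInteger ^ j - 1 ∉ v.asIdeal := by
  have hp : p.Prime := Fact.out
  have hcop : Nat.Coprime j p := ((Nat.Prime.coprime_iff_not_dvd hp).2 hj).symm
  have hζ' : IsPrimitiveRoot (ζ ^ j) p := hζ.pow_of_coprime j hcop
  have h1 := hζ'.toInteger_sub_one_dvd_prime'
  have h2 : hζ'.toInteger = hζ.toInteger ^ j := rfl
  rw [h2] at h1
  intro h
  exact hvp (Ideal.mem_of_dvd _ h1 h)

omit [NumberField K] [IsCyclotomicExtension {p} ℚ K] in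
theorem thp_zeta_notMem (v : HeightOneSpectrum (𝓞 K)) : hζ.toInteger ∉ v.asIdeal := by
  have hp : p.Prime := Fact.out
  intro h
  have h1 : hζ.toInteger ^ p = 1 := by
    apply RingOfIntegers.ext
    exact hζ.pow_eq_one
  have h2 : (1 : 𝓞 K) ∈ v.asIdeal := by
    rw [← h1]; exact Ideal.pow_mem_of_mem _ h _ hp.pos
  exact v.isPrime.ne_top ((Ideal.eq_top_iff_one _).2 h2)

omit [IsCyclotomicExtension {p} ℚ K] in
theorem thp_smul_toInteger (σ : K ≃ₐ[ℚ] K) : σ • hζ.toInteger = hζ.toInteger ^ mE hζ σ := by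
  apply RingOfIntegers.ext
  change σ ζ = _
  rw [mE_spec hζ σ]
  rfl

/-- the decomposition group of a prime of degree one not above `p` is trivial. -/
theorem thp_stab_trivial (v : HeightOneSpectrum (𝓞 K)) (hv : (Ideal.absNorm v.asIdeal).Prime)
    (hvp : (p : 𝓞 K) ∉ v.asIdeal) (σ : K ≃ₐ[ℚ] K) (hσ : σ • v.asIdeal = v.asIdeal) : σ = 1 := by
  have hp : p.Prime := Fact.out
  have h1 := thp_smul_sub_mem v hv σ hσ hζ.toInteger
  rw [thp_smul_toInteger] at h1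
  have hm0 : mE hζ σ ≠ 0 := by
    intro h
    apply mE_ne_zero hζ σ
    rw [h]; simp
  have hmp : mE hζ σ < p := ZMod.val_lt _
  have hm1 : mE hζ σ = 1 := by
    by_contra hne
    have h2 : hζ.toInteger ^ mE hζ σ - hζ.toInteger =
        hζ.toInteger * (hζ.toInteger ^ (mE hζ σ - 1) - 1) := by
      obtain ⟨m, hm⟩ : ∃ m, mE hζ σ = m + 1 := ⟨mE hζ σ - 1, by omega⟩
      rw [hm, Nat.add_sub_cancel, pow_succ]; ring
    rw [h2] at h1
    rcases v.isPrime.mem_or_mem h1 with h3 | h3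
    · exact thp_zeta_notMem hζ v h3
    · refine thp_pow_sub_one_notMem hζ v hvp _ ?_ h3
      intro hd
      have := Nat.le_of_dvd (by omega) hd
      omega
  apply hζ.autToPow_injective ℚ
  apply Units.ext
  rw [← mE_cast hζ σ, hm1, map_one]
  simp

theorem thp_smul_injective (v : HeightOneSpectrum (𝓞 K)) (hv : (Ideal.absNorm v.asIdeal).Prime)
    (hvp : (p : 𝓞 K) ∉ v.asIdeal) {σ τ : K ≃ₐ[ℚ] K} (h : σ • v.asIdeal = τ • v.asIdeal) :
    σ = τ := by
  have h1 : (τ⁻¹ * σ) • v.asIdeal = v.asIdeal := by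
    rw [mul_smul, h, inv_smul_smul]
  have := thp_stab_trivial hζ v hv hvp _ h1
  rwa [inv_mul_eq_one, eq_comm] at this

/-- `N v ≡ 1 mod p`. -/
theorem thp_mod_eq_one (v : HeightOneSpectrum (𝓞 K)) (hv : (Ideal.absNorm v.asIdeal).Prime)
    (hvp : (p : 𝓞 K) ∉ v.asIdeal) : Ideal.absNorm v.asIdeal % p = 1 := by
  classical
  have hp : p.Prime := Fact.out
  have hmax : v.asIdeal.IsMaximal := v.isMaximal
  let _ : Field (𝓞 K ⧸ v.asIdeal) := Ideal.Quotient.field v.asIdeal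
  have hfin : Finite (𝓞 K ⧸ v.asIdeal) :=
    Nat.finite_of_card_ne_zero (by rw [thp_card_quot]; exact hv.ne_zero)
  let _ : Fintype (𝓞 K ⧸ v.asIdeal) := Fintype.ofFinite _
  set z : 𝓞 K ⧸ v.asIdeal := Ideal.Quotient.mk v.asIdeal hζ.toInteger with hz
  have hz0 : z ≠ 0 := by
    rw [hz, Ne, Ideal.Quotient.eq_zero_iff_mem]
    exact thp_zeta_notMem hζ v
  have hzp : z ^ p = 1 := by
    have h1 : hζ.toInteger ^ p = 1 := by
      apply RingOfIntegers.ext
      exact hζ.pow_eq_one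
    rw [hz, ← map_pow, h1, map_one]
  have hz1 : z ≠ 1 := by
    intro h
    have h2 := thp_pow_sub_one_notMem hζ v hvp 1 (by
      intro hd; have := Nat.le_of_dvd one_pos hd; have := hp.two_le; omega)
    apply h2
    rw [pow_one, ← Ideal.Quotient.eq, map_one]
    exact h
  have hord : orderOf z = p := orderOf_eq_prime hzp hz1
  have h3 := FiniteField.pow_card_sub_one_eq_one z hz0
  have h4 : p ∣ Fintype.card (𝓞 K ⧸ v.asIdeal) - 1 := by
    rw [← hord]; exact orderOf_dvd_of_pow_eq_one h3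
  rw [← Nat.card_eq_fintype_card, thp_card_quot] at h4
  obtain ⟨k, hk⟩ := h4
  have h5 : Ideal.absNorm v.asIdeal = 1 + p * k := by have := hv.two_le; omega
  rw [h5, Nat.add_mul_mod_self_left, Nat.mod_eq_of_lt hp.one_lt]

end cyclo

theorem thaine {p : ℕ} [Fact p.Prime] (hp5 : 5 ≤ p) {K : Type*} [Field K] [NumberField K]
    [IsCyclotomicExtension {p} ℚ K] {ζ : K} (hζ : IsPrimitiveRoot ζ p)
    (v : HeightOneSpectrum (𝓞 K)) (hv : (Ideal.absNorm v.asIdeal).Prime)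
    (hvp : (p : 𝓞 K) ∉ v.asIdeal) (hres : ¬ IsResidue p (etaO hζ) v.asIdeal) :
    ∃ (κ : K) (J : FractionalIdeal (𝓞 K)⁰ K), κ ≠ 0 ∧ J ≠ 0 ∧
      ((e2I hζ v.asIdeal : Ideal (𝓞 K)) : FractionalIdeal (𝓞 K)⁰ K) =
        FractionalIdeal.spanSingleton (𝓞 K)⁰ κ * J ^ p := by
  have hp : p.Prime := Fact.out
  set ℓ := Ideal.absNorm v.asIdeal with hℓdef
  have hℓv : (ℓ : 𝓞 K) ∈ v.asIdeal := Ideal.absNorm_mem _
  have hℓp : ℓ % p = 1 := thp_mod_eq_one hζ v hv hvp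
  obtain ⟨κ, g, hκ, h1, h2⟩ := thaine_kappa (by omega) hζ ℓ hv hℓp
  set P : (K ≃ₐ[ℚ] K) → HeightOneSpectrum (𝓞 K) := fun τ => thpPrime v τ⁻¹ with hPdef
  have hPinj : Function.Injective P := by
    intro σ τ h
    have : σ⁻¹ • v.asIdeal = τ⁻¹ • v.asIdeal := congrArg HeightOneSpectrum.asIdeal h
    exact inv_injective (thp_smul_injective hζ v hv hvp this)
  have hPℓ : ∀ τ, (ℓ : 𝓞 K) ∈ (P τ).asIdeal := by
    intro τ
    have := Ideal.smul_mem_pointwise_smul τ⁻¹ _ _ hℓv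
    rwa [thp_smul_natCast] at this
  have hrange : ∀ w, w ∉ Set.range P → (ℓ : 𝓞 K) ∉ w.asIdeal := by
    intro w hw hwℓ
    have : IsGalois ℚ K := IsCyclotomicExtension.isGalois {p} ℚ K
    obtain ⟨τ, hτ⟩ := thp_exists_smul v w hv hℓv hwℓ
    apply hw
    refine ⟨τ⁻¹, ?_⟩
    apply HeightOneSpectrum.ext
    rw [hPdef, thpPrime_asIdeal, inv_inv, hτ]
  choose r hr hgr using fun τ => h2 (P τ) (hPℓ τ)
  obtain ⟨c, hc0, hfac⟩ := thp_factor hp.pos P hPinj hκ (fun w hw => h1 w (hrange w hw)) r hr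
  choose B hB0 hB using fun τ => thp_e2I_smul hζ τ v.ne_bot
  set t := ∑ τ, nE hζ τ * r τ with ht
  -- the ideal identity
  have hid : Ideal.span {e2O hζ κ} * (∏ τ, B τ ^ r τ) ^ p =
      e2I hζ v.asIdeal ^ t * e2I hζ c ^ p := by
    have e1 : e2I hζ v.asIdeal ^ t = ∏ τ, (e2I hζ (P τ).asIdeal * B τ ^ p) ^ r τ := by
      rw [ht, ← Finset.prod_pow_eq_pow_sum]
      refine Finset.prod_congr rfl fun τ _ => ?_
      rw [pow_mul, hB τ]
      rfl
    have e2 : (∏ τ, B τ ^ r τ) ^ p = ∏ τ, (B τ ^ p) ^ r τ := by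
      rw [← Finset.prod_pow]
      refine Finset.prod_congr rfl fun τ _ => ?_
      rw [← pow_mul, ← pow_mul, mul_comm]
    rw [← thp_e2I_span, hfac, thp_e2I_mul, thp_e2I_prod, thp_e2I_pow, e1, e2]
    simp only [thp_e2I_pow, mul_pow, Finset.prod_mul_distrib]
    ring
  -- the residue
  have hgt : (g : 𝓞 K) ^ t - etaO hζ ∈ v.asIdeal := by
    rw [← Ideal.Quotient.eq]
    have e1 : ∀ τ, Ideal.Quotient.mk v.asIdeal ((g : 𝓞 K) ^ r τ) =
        Ideal.Quotient.mk v.asIdeal (τ • uO hζ) := by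
      intro τ
      rw [Ideal.Quotient.eq]
      have h3 : (g : 𝓞 K) ^ r τ - uO hζ ∈ τ⁻¹ • v.asIdeal := hgr τ
      rw [Ideal.mem_inv_pointwise_smul_iff, smul_sub, smul_pow', thp_smul_natCast] at h3
      exact h3
    rw [etaO, e2O, map_prod, ht, ← Finset.prod_pow_eq_pow_sum, map_prod]
    refine Finset.prod_congr rfl fun τ _ => ?_
    rw [map_pow (Ideal.Quotient.mk v.asIdeal) (τ • uO hζ), ← e1 τ, map_pow, map_pow, ← pow_mul,
      mul_comm]
  have hpt : ¬ p ∣ t := by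
    rintro ⟨t', ht'⟩
    apply hres
    refine ⟨(g : 𝓞 K) ^ t', ?_⟩
    rw [← pow_mul, mul_comm, ← ht']
    exact hgt
  have hcop : Nat.Coprime t p := ((Nat.Prime.coprime_iff_not_dvd hp).2 hpt).symm
  obtain ⟨t', -, ht'⟩ := Nat.exists_mul_mod_eq_one_of_coprime hcop hp.one_lt
  have htt : t * t' = 1 + p * (t * t' / p) := by
    conv_lhs => rw [← Nat.mod_add_div (t * t') p, ht']
  set k := t * t' / p with hk
  -- pass to fractional ideals
  set E : FractionalIdeal (𝓞 K)⁰ K := ((e2I hζ v.asIdeal : Ideal (𝓞 K)) : FractionalIdeal (𝓞 K)⁰ K)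
    with hE
  set X : FractionalIdeal (𝓞 K)⁰ K := FractionalIdeal.spanSingleton (𝓞 K)⁰ ((e2O hζ κ : 𝓞 K) : K)
    with hX
  set Bf : FractionalIdeal (𝓞 K)⁰ K := ((∏ τ, B τ ^ r τ : Ideal (𝓞 K)) : FractionalIdeal (𝓞 K)⁰ K)
    with hBf
  set Cf : FractionalIdeal (𝓞 K)⁰ K := ((e2I hζ c : Ideal (𝓞 K)) : FractionalIdeal (𝓞 K)⁰ K)
    with hCf
  have hidF : X * Bf ^ p = E ^ t * Cf ^ p := by
    have := congrArg (fun I : Ideal (𝓞 K) => (I : FractionalIdeal (𝓞 K)⁰ K)) hid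
    simp only [FractionalIdeal.coeIdeal_mul, FractionalIdeal.coeIdeal_pow,
      FractionalIdeal.coeIdeal_span_singleton] at this
    exact this
  have hE0 : E ≠ 0 := by
    rw [hE, Ne, FractionalIdeal.coeIdeal_eq_zero]
    exact thp_e2I_ne_zero hζ v.ne_bot
  have hC0 : Cf ≠ 0 := by
    rw [hCf, Ne, FractionalIdeal.coeIdeal_eq_zero]
    exact thp_e2I_ne_zero hζ hc0
  have hBf0 : Bf ≠ 0 := by
    rw [hBf, Ne, FractionalIdeal.coeIdeal_eq_zero, ← Ideal.zero_eq_bot, Finset.prod_eq_zero_iff]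
    rintro ⟨τ, -, h⟩
    exact pow_ne_zero _ (hB0 τ) h
  have hD : E ^ k * Cf ^ t' ≠ 0 := mul_ne_zero (pow_ne_zero _ hE0) (pow_ne_zero _ hC0)
  have hκ2 : ((e2O hζ κ : 𝓞 K) : K) ≠ 0 := by
    rw [coe_e2O]
    apply e2_ne_zero
    exact_mod_cast hκ
  refine ⟨((e2O hζ κ : 𝓞 K) : K) ^ t', Bf ^ t' * (E ^ k * Cf ^ t')⁻¹, pow_ne_zero _ hκ2,
    mul_ne_zero (pow_ne_zero _ hBf0) (inv_ne_zero hD), ?_⟩
  rw [← FractionalIdeal.spanSingleton_pow, ← hX, mul_pow, inv_pow, ← mul_assoc,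
    eq_mul_inv_iff_mul_eq₀ (pow_ne_zero _ hD)]
  have e3 : X ^ t' * (Bf ^ t') ^ p = (X * Bf ^ p) ^ t' := by ring
  have e4 : (E ^ t * Cf ^ p) ^ t' = E ^ (t * t') * Cf ^ (p * t') := by
    rw [mul_pow, ← pow_mul, ← pow_mul]
  rw [e3, hidF, e4, htt]
  ring

end Fermat.Agent.S14
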