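import Fermat.Agent.S14.Defs

/-!
# S14 piece TH-b: concrete ramification facts for `M = K(ζ_ℓ)` over `K = ℚ(ζ_p)`

`M` is any number field with `[Algebra K M] [IsCyclotomicExtension {ℓ} K M]`
(e.g. `CyclotomicField ℓ K`), `p ≠ ℓ` primes.

* (B0) `isCyclotomicExtension_mul : IsCyclotomicExtension {p * ℓ} ℚ M`
* (B1) `ramificationIdx_eq_one`: `e(Q | Q ∩ 𝓞 K) = 1` if `ℓ ∉ Q`
* (B2) `ramificationIdx_eq`: `e(Q | Q ∩ 𝓞 K) = ℓ - 1` if `ℓ ∈ Q`
* (B3) `zeta_sub_one_mem`, `zeta_sub_one_not_mem_sq`: `ξ - 1 ∈ Q ∖ Q ^ 2` if `ℓ ∈ Q`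
* (B4) `smul_sub_mem`: `s • x - x ∈ Q` for `s ∈ Gal(M/K)`, `ℓ ∈ Q`
* (B5) `finrank_eq`, `irreducible_cyclotomic`
-/

set_option autoImplicit false

namespace Fermat.Agent.S14.TH

open NumberField IsDedekindDomain Ideal

theorem isPrimitiveRoot_mul {R : Type*} [CommMonoid R] {a b : R} {m n : ℕ}
    (ha : IsPrimitiveRoot a m) (hb : IsPrimitiveRoot b n) (h : m.Coprime n) :
    IsPrimitiveRoot (a * b) (m * n) := by
  have h1 : orderOf (a * b) = m * n := by
    rw [(Commute.all a b).orderOf_mul_eq_mul_orderOf_of_coprime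
      (by rwa [← ha.eq_orderOf, ← hb.eq_orderOf]), ← ha.eq_orderOf, ← hb.eq_orderOf]
  rw [← h1]
  exact IsPrimitiveRoot.orderOf _

/-- the rational prime below a nonzero prime ideal. -/
theorem exists_prime_liesOver {F : Type*} [Field F] [NumberField F] (Q : Ideal (𝓞 F)) [Q.IsPrime]
    (hQ : Q ≠ ⊥) : ∃ q : ℕ, q.Prime ∧ Q.LiesOver (span {(q : ℤ)}) := by
  have h1 : (Q.under ℤ).IsPrime := inferInstance
  have h2 : Q.under ℤ ≠ ⊥ := Ideal.under_ne_bot ℤ hQ
  obtain ⟨n, hn⟩ := (IsPrincipalIdealRing.principal (Q.under ℤ)).principal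
  have hn' : Q.under ℤ = span {n} := hn
  have hn0 : n ≠ 0 := by
    rintro rfl
    apply h2
    rw [hn']
    simp
  have hnp : Prime n := by
    rw [← Ideal.span_singleton_prime hn0, ← hn']
    exact h1
  refine ⟨n.natAbs, Int.prime_iff_natAbs_prime.mp hnp, ⟨?_⟩⟩
  rw [hn', Ideal.span_singleton_eq_span_singleton]
  exact (Int.associated_natAbs n).symm

theorem natCast_mem_of_liesOver {F : Type*} [Field F] [NumberField F] (Q : Ideal (𝓞 F)) (q : ℕ)
    [h : Q.LiesOver (span {(q : ℤ)})] : (q : 𝓞 F) ∈ Q := by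
  have h1 : (q : ℤ) ∈ Q.under ℤ := by
    rw [← h.over]
    exact Ideal.mem_span_singleton_self _
  simpa using h1

theorem liesOver_of_natCast_mem {F : Type*} [Field F] [NumberField F] (Q : Ideal (𝓞 F)) [Q.IsPrime]
    (q : ℕ) (hq : q.Prime) (h : (q : 𝓞 F) ∈ Q) : Q.LiesOver (span {(q : ℤ)}) := by
  constructor
  have : Fact q.Prime := ⟨hq⟩
  have hmax : (span {(q : ℤ)}).IsMaximal := Int.ideal_span_isMaximal_of_prime q
  refine hmax.eq_of_le (Ideal.IsPrime.ne_top inferInstance) ?_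
  rw [Ideal.span_singleton_le_iff_mem, Ideal.under_def, Ideal.mem_comap]
  simpa using h

variable (p : ℕ) [hp : Fact p.Prime] (K : Type*) [Field K] [NumberField K]
  [IsCyclotomicExtension {p} ℚ K]
  (ℓ : ℕ) [hl : Fact ℓ.Prime] (M : Type*) [Field M] [NumberField M] [Algebra K M]
  [IsCyclotomicExtension {ℓ} K M]

include K in
/-- (B0) `M = ℚ(ζ_{pℓ})`. -/
theorem isCyclotomicExtension_mul (hpl : p ≠ ℓ) : IsCyclotomicExtension {p * ℓ} ℚ M := by
  have h1 : IsCyclotomicExtension ({p} ∪ {ℓ}) ℚ M :=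
    IsCyclotomicExtension.trans {p} {ℓ} ℚ K M (algebraMap K M).injective
  obtain ⟨a, ha⟩ := h1.exists_isPrimitiveRoot (Set.mem_union_left _ rfl) hp.out.ne_zero
  obtain ⟨b, hb⟩ := h1.exists_isPrimitiveRoot (Set.mem_union_right _ rfl) hl.out.ne_zero
  have hcop : p.Coprime ℓ := (Nat.coprime_primes hp.out hl.out).mpr hpl
  have hab : IsPrimitiveRoot (a * b) (p * ℓ) := isPrimitiveRoot_mul ha hb hcop
  have h2 : IsCyclotomicExtension ({p} ∪ {ℓ} ∪ {p * ℓ}) ℚ M :=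
    IsCyclotomicExtension.union_of_isPrimitiveRoot _ ℚ M hab
  have hne : p * ℓ ≠ 0 := Nat.mul_ne_zero hp.out.ne_zero hl.out.ne_zero
  rw [IsCyclotomicExtension.iff_union_of_dvd (S := {p * ℓ}) (n := p) ℚ M
      ⟨p * ℓ, rfl, hne, dvd_mul_right _ _⟩,
    IsCyclotomicExtension.iff_union_of_dvd (S := {p * ℓ} ∪ {p}) (n := ℓ) ℚ M
      ⟨p * ℓ, Set.mem_union_left _ rfl, hne, dvd_mul_left _ _⟩]
  convert h2 using 1
  ext x
  simp only [Set.mem_union, Set.mem_singleton_iff]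
  tauto

include p in
/-- (B5a) `[M : K] = ℓ - 1`. -/
theorem finrank_eq (hpl : p ≠ ℓ) : Module.finrank K M = ℓ - 1 := by
  have := isCyclotomicExtension_mul p K ℓ M hpl
  have : NeZero (p * ℓ) := ⟨Nat.mul_ne_zero hp.out.ne_zero hl.out.ne_zero⟩
  have : NeZero p := ⟨hp.out.ne_zero⟩
  have h1 : Module.finrank ℚ M = (p * ℓ).totient := IsCyclotomicExtension.Rat.finrank (p * ℓ) M
  have h2 : Module.finrank ℚ K = p.totient := IsCyclotomicExtension.Rat.finrank p K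
  have h3 := Module.finrank_mul_finrank ℚ K M
  have hcop : p.Coprime ℓ := (Nat.coprime_primes hp.out hl.out).mpr hpl
  rw [h1, h2, Nat.totient_mul hcop, Nat.totient_prime hl.out] at h3
  exact Nat.eq_of_mul_eq_mul_left (Nat.totient_pos.mpr hp.out.pos) h3

include p M in
/-- (B5b) the `ℓ`-th cyclotomic polynomial is irreducible over `K`. -/
theorem irreducible_cyclotomic (hpl : p ≠ ℓ) : Irreducible (Polynomial.cyclotomic ℓ K) := by
  have : NeZero ℓ := ⟨hl.out.ne_zero⟩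
  have hξ := IsCyclotomicExtension.zeta_spec ℓ K M
  set ξ := IsCyclotomicExtension.zeta ℓ K M
  have hint : IsIntegral K ξ := Algebra.IsIntegral.isIntegral ξ
  have h1 : (minpoly K ξ).natDegree = ℓ - 1 := by
    rw [← finrank_eq p K ℓ M hpl, (hξ.powerBasis K).finrank, ← PowerBasis.natDegree_minpoly,
      hξ.powerBasis_gen K]
  have h2 : minpoly K ξ ∣ Polynomial.cyclotomic ℓ K := by
    apply minpoly.dvd
    rw [Polynomial.aeval_def, Polynomial.eval₂_eq_eval_map, Polynomial.map_cyclotomic]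
    exact hξ.isRoot_cyclotomic hl.out.pos
  have h3 : Polynomial.cyclotomic ℓ K = minpoly K ξ := by
    apply Polynomial.eq_of_monic_of_dvd_of_natDegree_le (minpoly.monic hint)
      (Polynomial.cyclotomic.monic ℓ K) h2
    rw [h1, Polynomial.natDegree_cyclotomic, Nat.totient_prime hl.out]
  rw [h3]
  exact minpoly.irreducible hint

variable {M}

include p in
/-- (B1) `M/K` is unramified outside `ℓ`. -/
theorem ramificationIdx_eq_one (hpl : p ≠ ℓ) (Q : Ideal (𝓞 M)) [Q.IsPrime] (hQ : Q ≠ ⊥)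
    (hlQ : (ℓ : 𝓞 M) ∉ Q) : Q.ramificationIdx (𝓞 K) = 1 := by
  obtain ⟨q, hq, hQq⟩ := exists_prime_liesOver Q hQ
  have : Fact q.Prime := ⟨hq⟩
  have := isCyclotomicExtension_mul p K ℓ M hpl
  have hql : q ≠ ℓ := by
    rintro rfl
    exact hlQ (natCast_mem_of_liesOver Q q)
  have htower := Ideal.ramificationIdx_tower (R := ℤ) (Q.under (𝓞 K)) Q
  by_cases hqp : q = p
  · subst hqp
    have : (Q.under (𝓞 K)).LiesOver (span {(q : ℤ)}) := LiesOver.tower_bot Q _ _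
    have h1 : Q.ramificationIdx ℤ = q ^ 0 * (q - 1) :=
      IsCyclotomicExtension.Rat.ramificationIdx_eq (q * ℓ) M Q (k := 0) (m := ℓ) (by simp)
        (fun h => hql ((Nat.prime_dvd_prime_iff_eq hq hl.out).mp h))
    have h2 : (Q.under (𝓞 K)).ramificationIdx ℤ = q - 1 :=
      IsCyclotomicExtension.Rat.ramificationIdx_eq_of_prime q K _
    rw [h1, h2, pow_zero, one_mul] at htower
    have h3 : 0 < q - 1 := Nat.sub_pos_of_lt hq.one_lt
    exact (Nat.eq_of_mul_eq_mul_left h3 (by rw [mul_one]; exact htower)).symm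
  · have : NeZero (p * ℓ) := ⟨Nat.mul_ne_zero hp.out.ne_zero hl.out.ne_zero⟩
    have h1 : Q.ramificationIdx ℤ = 1 :=
      IsCyclotomicExtension.Rat.ramificationIdx_eq_of_not_dvd q M Q (m := p * ℓ) (by
        intro h
        rcases (Nat.Prime.dvd_mul hq).mp h with h | h
        · exact hqp ((Nat.prime_dvd_prime_iff_eq hq hp.out).mp h)
        · exact hql ((Nat.prime_dvd_prime_iff_eq hq hl.out).mp h))
    rw [h1] at htower
    exact Nat.eq_one_of_mul_eq_one_left htower.symm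

include p K in
theorem ramificationIdx_int_eq (hpl : p ≠ ℓ) (Q : Ideal (𝓞 M)) [Q.IsPrime]
    (hlQ : (ℓ : 𝓞 M) ∈ Q) : Q.ramificationIdx ℤ = ℓ - 1 := by
  have := isCyclotomicExtension_mul p K ℓ M hpl
  have hQl : Q.LiesOver (span {(ℓ : ℤ)}) := liesOver_of_natCast_mem Q ℓ hl.out hlQ
  have h1 : Q.ramificationIdx ℤ = ℓ ^ 0 * (ℓ - 1) :=
    IsCyclotomicExtension.Rat.ramificationIdx_eq (p * ℓ) M Q (k := 0) (m := p) (by simp [mul_comm])
      (fun h => hpl ((Nat.prime_dvd_prime_iff_eq hl.out hp.out).mp h).symm)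
  rw [h1, pow_zero, one_mul]

include p in
/-- (B2) `M/K` is totally ramified above `ℓ`. -/
theorem ramificationIdx_eq (hpl : p ≠ ℓ) (Q : Ideal (𝓞 M)) [Q.IsPrime]
    (hlQ : (ℓ : 𝓞 M) ∈ Q) : Q.ramificationIdx (𝓞 K) = ℓ - 1 := by
  have hQl : Q.LiesOver (span {(ℓ : ℤ)}) := liesOver_of_natCast_mem Q ℓ hl.out hlQ
  have htower := Ideal.ramificationIdx_tower (R := ℤ) (Q.under (𝓞 K)) Q
  have : (Q.under (𝓞 K)).LiesOver (span {(ℓ : ℤ)}) := LiesOver.tower_bot Q _ _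
  have h1 := ramificationIdx_int_eq p K ℓ hpl Q hlQ
  have : NeZero p := ⟨hp.out.ne_zero⟩
  have h2 : (Q.under (𝓞 K)).ramificationIdx ℤ = 1 :=
    IsCyclotomicExtension.Rat.ramificationIdx_eq_of_not_dvd ℓ K _ (m := p)
      (fun h => hpl ((Nat.prime_dvd_prime_iff_eq hl.out hp.out).mp h).symm)
  rw [h1, h2, one_mul] at htower
  exact htower.symm

variable {K}

omit [NumberField M] in
/-- (B3a) `ξ - 1 ∈ Λ`. -/
theorem zeta_sub_one_mem {ξ : M} (hξ : IsPrimitiveRoot ξ ℓ) (Q : Ideal (𝓞 M)) [Q.IsPrime]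
    (hlQ : (ℓ : 𝓞 M) ∈ Q) : hξ.toInteger - 1 ∈ Q := by
  have h := IsCyclotomicExtension.Rat.associated_zeta_sub_one_pow_prime ℓ hξ
  have h1 : (hξ.toInteger - 1) ^ (ℓ - 1) ∈ Q := by
    obtain ⟨u, hu⟩ := h.symm
    rw [← hu]
    exact Q.mul_mem_right _ hlQ
  exact Ideal.IsPrime.mem_of_pow_mem inferInstance _ h1

variable (K) in
include p K in
/-- (B3b) `ξ - 1 ∉ Λ ^ 2`. -/
theorem zeta_sub_one_not_mem_sq (hpl : p ≠ ℓ) {ξ : M} (hξ : IsPrimitiveRoot ξ ℓ) (Q : Ideal (𝓞 M))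
    [Q.IsPrime] (hlQ : (ℓ : 𝓞 M) ∈ Q) : hξ.toInteger - 1 ∉ Q ^ 2 := by
  intro hmem
  have hQl : Q.LiesOver (span {(ℓ : ℤ)}) := liesOver_of_natCast_mem Q ℓ hl.out hlQ
  have h1 := ramificationIdx_int_eq p K ℓ hpl Q hlQ
  have hne : (span {(ℓ : ℤ)}).map (algebraMap ℤ (𝓞 M)) ≠ ⊥ := by
    apply Ideal.map_ne_bot_of_ne_bot
    simp [hl.out.ne_zero]
  rw [Ideal.IsDedekindDomain.ramificationIdx_eq_multiplicity (span {(ℓ : ℤ)}) Q hne] at h1
  have h2 : Q ^ (2 * (ℓ - 1)) ∣ (span {(ℓ : ℤ)}).map (algebraMap ℤ (𝓞 M)) := by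
    rw [Ideal.dvd_iff_le, Ideal.map_span, Set.image_singleton, Ideal.span_singleton_le_iff_mem]
    obtain ⟨u, hu⟩ := IsCyclotomicExtension.Rat.associated_zeta_sub_one_pow_prime ℓ hξ
    have : (algebraMap ℤ (𝓞 M)) (ℓ : ℤ) = (ℓ : 𝓞 M) := by simp
    rw [this, ← hu, pow_mul]
    exact Ideal.mul_mem_right _ _ (Ideal.pow_mem_pow hmem _)
  have hfin : FiniteMultiplicity Q ((span {(ℓ : ℤ)}).map (algebraMap ℤ (𝓞 M))) := by
    apply FiniteMultiplicity.of_not_isUnit _ hne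
    rw [Ideal.isUnit_iff]
    exact Ideal.IsPrime.ne_top inferInstance
  have h3 := hfin.le_multiplicity_of_pow_dvd h2
  have h4 : 0 < ℓ - 1 := Nat.sub_pos_of_lt hl.out.one_lt
  omega

omit [NumberField K] [NumberField M] in
theorem coe_smul (s : M ≃ₐ[K] M) (x : 𝓞 M) : ((s • x : 𝓞 M) : M) = s (x : M) := rfl

include p in
/-- (B4) `Gal(M/K)` acts trivially on `𝓞 M / Λ`, `Λ ∣ ℓ`. -/
theorem smul_sub_mem (hpl : p ≠ ℓ) (s : M ≃ₐ[K] M) (Q : Ideal (𝓞 M)) [Q.IsPrime]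
    (hlQ : (ℓ : 𝓞 M) ∈ Q) (x : 𝓞 M) : s • x - x ∈ Q := by
  have := isCyclotomicExtension_mul p K ℓ M hpl
  have : NeZero (p * ℓ) := ⟨Nat.mul_ne_zero hp.out.ne_zero hl.out.ne_zero⟩
  have : NeZero p := ⟨hp.out.ne_zero⟩
  have : NeZero ℓ := ⟨hl.out.ne_zero⟩
  have hcop : p.Coprime ℓ := (Nat.coprime_primes hp.out hl.out).mpr hpl
  have hζ := IsCyclotomicExtension.zeta_spec p ℚ K
  have hz : IsPrimitiveRoot (algebraMap K M (IsCyclotomicExtension.zeta p ℚ K)) p :=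
    hζ.map_of_injective (algebraMap K M).injective
  have hξ := IsCyclotomicExtension.zeta_spec ℓ K M
  have hw := isPrimitiveRoot_mul hz hξ hcop
  have htop := IsCyclotomicExtension.Rat.adjoin_singleton_eq_top hw
  have hx : x ∈ Algebra.adjoin ℤ {hw.toInteger} := by rw [htop]; trivial
  induction hx using Algebra.adjoin_induction with
  | mem y hy =>
    rw [Set.mem_singleton_iff] at hy
    subst hy
    obtain ⟨i, -, hi⟩ := hξ.eq_pow_of_pow_eq_one (ξ := s (IsCyclotomicExtension.zeta ℓ K M))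
      (by rw [← map_pow, hξ.pow_eq_one, map_one])
    have h1 : s • hw.toInteger - hw.toInteger
        = hz.toInteger * ((hξ.toInteger ^ i - 1) - (hξ.toInteger - 1)) := by
      apply RingOfIntegers.ext
      have e1 : (algebraMap (𝓞 M) M) hw.toInteger = (algebraMap K M)
        (IsCyclotomicExtension.zeta p ℚ K) * IsCyclotomicExtension.zeta ℓ K M := rfl
      have e2 : (algebraMap (𝓞 M) M) hz.toInteger = (algebraMap K M)
        (IsCyclotomicExtension.zeta p ℚ K) := rfl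
      have e3 : (algebraMap (𝓞 M) M) hξ.toInteger = IsCyclotomicExtension.zeta ℓ K M := rfl
      have e4 : (algebraMap (𝓞 M) M) (s • hw.toInteger) = s ((algebraMap (𝓞 M) M) hw.toInteger) :=
        rfl
      change (algebraMap (𝓞 M) M) _ = (algebraMap (𝓞 M) M) _
      rw [map_sub, map_mul, map_sub, map_sub, map_sub, map_pow, map_one, e4, e1, e2, e3, map_mul,
        AlgEquiv.commutes, ← hi]
      ring
    rw [h1]
    have h2 := zeta_sub_one_mem ℓ hξ Q hlQ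
    refine Q.mul_mem_left _ (Q.sub_mem ?_ h2)
    obtain ⟨c, hc⟩ := sub_dvd_pow_sub_pow hξ.toInteger 1 i
    rw [one_pow] at hc
    rw [hc]
    exact Q.mul_mem_right _ h2
  | algebraMap r =>
    have : s • (algebraMap ℤ (𝓞 M) r) = algebraMap ℤ (𝓞 M) r := by
      apply RingOfIntegers.ext
      rw [coe_smul]
      simp
    rw [this, sub_self]
    exact Q.zero_mem
  | add a b _ _ ha hb =>
    have : s • (a + b) - (a + b) = (s • a - a) + (s • b - b) := by rw [smul_add]; ring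
    rw [this]
    exact Q.add_mem ha hb
  | mul a b _ _ ha hb =>
    have : s • (a * b) - (a * b) = (s • a) * (s • b - b) + (s • a - a) * b := by
      rw [smul_mul']; ring
    rw [this]
    exact Q.add_mem (Q.mul_mem_left _ hb) (Q.mul_mem_right _ ha)

end Fermat.Agent.S14.TH
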