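import Mathlib

/-!
# S14 piece TH-c: setup-independent lemmas for Thaine's argument

* `thaine_residue` (R1): `R` Dedekind, `L` a nonzero prime, `s : R →+* R` acting trivially mod `L`,
  `w ∈ L ∖ L²`, `s w = w c`, `β ∈ L^r ∖ L^(r+1)`, `s β = ε β`  ⟹  `ε ≡ c^r mod L`.
* `val_of_unit_mul_pow_unram`, `val_of_unit_mul_pow_totram` (R2): `κ ∈ A`, `κ = η β^n` in `B`, `η` a unit;
  `w | v` with `e(w|v) = 1`: `ord_v κ = n ord_w β`;  `e(w|v) = n`: `ord_v κ = ord_w β`.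
-/

set_option autoImplicit false

namespace Fermat.Agent.S14

/-- In a Dedekind domain: if `w ∈ L ∖ L²`, `β ∈ L^r ∖ L^(r+1)` there are `w₁ w₂ ∉ L` with
`w₂ β = w₁ w^r`. -/
theorem exists_mul_eq_mul_pow_unif {R : Type*} [CommRing R] [IsDedekindDomain R]
    (L : Ideal R) [hLp : L.IsPrime] (hL : L ≠ ⊥) {w β : R} (hw : w ∈ L) (hw2 : w ∉ L ^ 2)
    (r : ℕ) (hβ : β ∈ L ^ r) (hβ' : β ∉ L ^ (r + 1)) :
    ∃ w₁ w₂ : R, w₁ ∉ L ∧ w₂ ∉ L ∧ w₂ * β = w₁ * w ^ r := by
  have hprime : Prime L := Ideal.prime_of_isPrime hL hLp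
  obtain ⟨J, hJ⟩ : L ∣ Ideal.span {w} := by
    rw [Ideal.dvd_span_singleton]; exact hw
  have hJL : ¬ J ≤ L := by
    intro h
    apply hw2
    rw [← Ideal.dvd_span_singleton, hJ, pow_two]
    exact mul_dvd_mul_left L (Ideal.dvd_iff_le.mpr h)
  obtain ⟨t, htJ, htL⟩ := SetLike.not_le_iff_exists.mp hJL
  have h1 : t ^ r * β ∈ Ideal.span {w ^ r} := by
    rw [← Ideal.span_singleton_pow, hJ, mul_pow, mul_comm (L ^ r)]
    exact Ideal.mul_mem_mul (Ideal.pow_mem_pow htJ r) hβ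
  obtain ⟨w₁, hw₁⟩ := Ideal.mem_span_singleton'.mp h1
  have ht : t ^ r ∉ L := fun h => htL (hLp.mem_of_pow_mem r h)
  refine ⟨w₁, t ^ r, ?_, ht, hw₁.symm⟩
  intro hw₁L
  apply hβ'
  rw [← Ideal.dvd_span_singleton]
  have h2 : L ^ (r + 1) ∣ Ideal.span {t ^ r} * Ideal.span {β} := by
    rw [Ideal.span_singleton_mul_span_singleton, ← hw₁, Ideal.dvd_span_singleton, pow_succ, mul_comm]
    exact Ideal.mul_mem_mul hw₁L (Ideal.pow_mem_pow hw r)
  refine hprime.pow_dvd_of_dvd_mul_left (r + 1) ?_ h2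
  rw [Ideal.dvd_span_singleton]; exact ht

/-- **Residue computation in Thaine's argument** -/
theorem thaine_residue {R : Type*} [CommRing R] [IsDedekindDomain R]
    (L : Ideal R) [hLp : L.IsPrime] (hL : L ≠ ⊥) (s : R →+* R) (hs : ∀ x, s x - x ∈ L)
    {w c β ε : R} (hw : w ∈ L) (hw2 : w ∉ L ^ 2) (hsw : s w = w * c)
    (r : ℕ) (hβ : β ∈ L ^ r) (hβ' : β ∉ L ^ (r + 1)) (hsβ : s β = ε * β) :
    ε - c ^ r ∈ L := by
  obtain ⟨w₁, w₂, hw₁, hw₂, h⟩ := exists_mul_eq_mul_pow_unif L hL hw hw2 r hβ hβ'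
  have hw0 : w ≠ 0 := by
    rintro rfl
    exact hw2 (zero_mem _)
  have h1 : s w₂ * (ε * β) = s w₁ * (w * c) ^ r := by
    rw [← hsβ, ← hsw, ← map_pow, ← map_mul, ← map_mul, h]
  have h2 : ε * w₁ * s w₂ = c ^ r * s w₁ * w₂ := by
    have : w ^ r * (ε * w₁ * s w₂) = w ^ r * (c ^ r * s w₁ * w₂) := by
      calc w ^ r * (ε * w₁ * s w₂) = s w₂ * ε * (w₁ * w ^ r) := by ring
        _ = s w₂ * ε * (w₂ * β) := by rw [h]
        _ = (s w₂ * (ε * β)) * w₂ := by ring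
        _ = (s w₁ * (w * c) ^ r) * w₂ := by rw [h1]
        _ = w ^ r * (c ^ r * s w₁ * w₂) := by ring
    exact mul_left_cancel₀ (pow_ne_zero r hw0) this
  have h3 : (ε - c ^ r) * (w₁ * w₂) ∈ L := by
    have : (ε - c ^ r) * (w₁ * w₂) = c ^ r * w₂ * (s w₁ - w₁) - ε * w₁ * (s w₂ - w₂) := by
      linear_combination h2
    rw [this]
    exact L.sub_mem (L.mul_mem_left _ (hs w₁)) (L.mul_mem_left _ (hs w₂))
  rcases hLp.mem_or_mem h3 with h4 | h4
  · exact h4
  · rcases hLp.mem_or_mem h4 with h5 | h5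
    · exact absurd h5 hw₁
    · exact absurd h5 hw₂


open IsDedekindDomain WithZero

section R2

variable {A B : Type*} [CommRing A] [IsDedekindDomain A] [CommRing B] [IsDedekindDomain B]
  [Algebra A B] [Module.IsTorsionFree A B]

theorem intValuation_exists_exp {R : Type*} [CommRing R] [IsDedekindDomain R]
    (w : HeightOneSpectrum R) {β : R} (hβ : β ≠ 0) :
    ∃ r : ℕ, w.intValuation β = exp (-(r : ℤ)) ∧ β ∈ w.asIdeal ^ r ∧ β ∉ w.asIdeal ^ (r + 1) := by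
  refine ⟨_, w.intValuation_if_neg hβ, ?_, ?_⟩
  · rw [← w.intValuation_le_pow_iff_mem, w.intValuation_if_neg hβ]
  · rw [← w.intValuation_le_pow_iff_mem, w.intValuation_if_neg hβ, exp_le_exp]
    push_cast
    omega

theorem intValuation_pow_eq_of_unit_mul_pow (v : HeightOneSpectrum A) (w : HeightOneSpectrum B)
    [w.asIdeal.LiesOver v.asIdeal] {κ : A} {η β : B} (hη : IsUnit η) (n : ℕ)
    (h : algebraMap A B κ = η * β ^ n) :
    v.intValuation κ ^ (w.asIdeal.ramificationIdx A) = w.intValuation β ^ n := by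
  have hw : w.asIdeal.IsPrime := w.isPrime
  rw [← Ideal.ramificationIdx'_eq_ramificationIdx v.asIdeal w.asIdeal v.ne_bot,
    HeightOneSpectrum.intValuation_liesOver v w, h, map_mul, map_pow]
  have : w.intValuation η = 1 := by
    rw [HeightOneSpectrum.intValuation_eq_one_iff]
    intro hmem
    exact w.isPrime.ne_top (Ideal.eq_top_of_isUnit_mem _ hmem hη)
  rw [this, one_mul]

/-- unramified case -/
theorem val_of_unit_mul_pow_unram (K : Type*) [Field K] [Algebra A K] [IsFractionRing A K]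
    (v : HeightOneSpectrum A) (w : HeightOneSpectrum B)
    [w.asIdeal.LiesOver v.asIdeal] (he : w.asIdeal.ramificationIdx A = 1)
    {κ : A} {η β : B} (hη : IsUnit η) (hβ : β ≠ 0) (n : ℕ)
    (h : algebraMap A B κ = η * β ^ n) :
    ∃ j : ℕ, v.valuation K (algebraMap A K κ) = exp (-((n * j : ℕ) : ℤ)) := by
  obtain ⟨r, hr, -, -⟩ := intValuation_exists_exp w hβ
  refine ⟨r, ?_⟩
  have := intValuation_pow_eq_of_unit_mul_pow v w hη n h
  rw [he, pow_one, hr, ← exp_nsmul] at this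
  rw [HeightOneSpectrum.valuation_of_algebraMap, this]
  congr 1
  push_cast
  simp

/-- totally ramified case -/
theorem val_of_unit_mul_pow_totram (K : Type*) [Field K] [Algebra A K] [IsFractionRing A K]
    (v : HeightOneSpectrum A) (w : HeightOneSpectrum B)
    [w.asIdeal.LiesOver v.asIdeal] {κ : A} {η β : B} (hη : IsUnit η) (hβ : β ≠ 0) (n : ℕ)
    (hn : n ≠ 0) (he : w.asIdeal.ramificationIdx A = n)
    (h : algebraMap A B κ = η * β ^ n) :
    ∃ r : ℕ, v.valuation K (algebraMap A K κ) = exp (-(r : ℤ)) ∧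
      β ∈ w.asIdeal ^ r ∧ β ∉ w.asIdeal ^ (r + 1) := by
  obtain ⟨r, hr, h1, h2⟩ := intValuation_exists_exp w hβ
  refine ⟨r, ?_, h1, h2⟩
  have := intValuation_pow_eq_of_unit_mul_pow v w hη n h
  rw [he] at this
  rw [HeightOneSpectrum.valuation_of_algebraMap, ← hr]
  exact (pow_left_inj₀ zero_le zero_le hn).mp this

end R2

end Fermat.Agent.S14
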