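import Mathlib

/-!
# S14 piece T3, abstract part: an "idempotent" separating `Q` from finitely many translates
-/

set_option autoImplicit false

namespace Fermat.Agent.S14.T3

open scoped Pointwise

section Abstract

variable {G B : Type*} [Group G] [CommRing B] [MulSemiringAction G B]
  [TopologicalSpace G] [CompactSpace G] [TotallyDisconnectedSpace G] [IsTopologicalGroup G]
  [TopologicalSpace B] [DiscreteTopology B] [ContinuousSMul G B]

/-- If no element of `H γ` stabilises `Q` (`γ ∈ S`), there is an `H`-invariant `e ≡ 1 mod Q` lying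
in all `γ • Q`, `γ ∈ S`. -/
theorem exists_idem (H : Subgroup G) (hH : IsClosed (H : Set G))
    (Q : Ideal B) [hQ : Q.IsMaximal] (S : Finset G)
    (hS : ∀ γ ∈ S, ∀ h ∈ H, (h * γ) • Q ≠ Q) :
    ∃ e : B, (∀ h ∈ H, h • e = e) ∧ 1 - e ∈ Q ∧ ∀ γ ∈ S, e ∈ γ • Q := by
  have : CompactSpace H := isCompact_iff_compactSpace.mp hH.isCompact
  let A := FixedPoints.subalgebra ℤ B H
  have : SMulCommClass H A B := ⟨fun h a b => by
    change h • ((a : B) * b) = (a : B) * h • b
    rw [smul_mul', a.2 h]⟩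
  have : Algebra.IsInvariant A B H := ⟨fun b hb => ⟨⟨b, hb⟩, rfl⟩⟩
  have hint : Algebra.IsIntegral A B := Algebra.IsInvariant.isIntegral_of_profinite (G := H)
  have hmaxγ : ∀ γ : G, (γ • Q).IsMaximal := by
    intro γ
    rw [Ideal.pointwise_smul_eq_comap]
    exact Ideal.comap_isMaximal_of_equiv (MulSemiringAction.toRingEquiv G B γ⁻¹)
  have hmax0 : (Q.under A).IsMaximal := Ideal.isMaximal_comap_of_isIntegral_of_isMaximal Q
  have hmax : ∀ γ : G, ((γ • Q).under A).IsMaximal := fun γ =>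
    have := hmaxγ γ
    Ideal.isMaximal_comap_of_isIntegral_of_isMaximal (γ • Q)
  have hne : ∀ γ ∈ S, Q.under A ≠ (γ • Q).under A := by
    intro γ hγ heq
    have := (hmaxγ γ).isPrime
    obtain ⟨h1, hh1⟩ := Algebra.IsInvariant.exists_smul_of_under_eq_of_profinite (A := A) (G := H)
      (γ • Q) Q heq.symm
    apply hS γ hγ h1 h1.2
    rw [mul_smul]
    exact hh1.symm
  have htop : Q.under A ⊔ ∏ γ ∈ S, (γ • Q).under A = ⊤ :=
    Ideal.sup_prod_eq_top fun γ hγ => hmax0.coprime_of_ne (hmax γ) (hne γ hγ)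
  have h1 : (1 : A) ∈ Q.under A ⊔ ∏ γ ∈ S, (γ • Q).under A := by
    rw [htop]; trivial
  obtain ⟨x, hx, e, he, hxe⟩ := Submodule.mem_sup.mp h1
  refine ⟨(e : B), fun h hh => e.2 ⟨h, hh⟩, ?_, fun γ hγ => ?_⟩
  · have : (1 : B) - (e : B) = (x : B) := by
      have := congrArg (fun z : A => (z : B)) hxe
      simp only [Subalgebra.coe_add, Subalgebra.coe_one] at this
      rw [← this]; ring
    rw [this]
    exact hx
  · have h2 : e ∈ (γ • Q).under A :=
      (Ideal.prod_le_inf.trans (Finset.inf_le hγ)) he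
    exact h2

end Abstract

/-- shifting a periodic sum. -/
theorem sum_range_shift {M : Type*} [AddCommGroup M] (F : ℕ → M) (p : ℕ)
    (hF : ∀ i, F (i + p) = F i) (j : ℕ) :
    ∑ i ∈ Finset.range p, F (i + j) = ∑ i ∈ Finset.range p, F i := by
  induction j with
  | zero => simp
  | succ j ih =>
    rw [← ih]
    have h1 := Finset.sum_range_succ (fun i => F (i + j)) p
    have h2 := Finset.sum_range_succ' (fun i => F (i + j)) p
    rw [h1] at h2
    have h3 : F (p + j) = F (0 + j) := by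
      rw [add_comm p j, hF, zero_add]
    rw [h3] at h2
    have h4 := add_right_cancel h2
    rw [h4]
    refine Finset.sum_congr rfl fun i _ => ?_
    congr 1
    ring

/-- Archimedean property: an integral element of a prime `Q` above `p` has a power in `p B_Q`. -/
theorem exists_pow_mul_eq {B : Type*} [CommRing B] (p : ℕ) [Fact p.Prime] (Q : Ideal B) [Q.IsPrime]
    (hpQ : (p : B) ∈ Q) (x : B) (hx : x ∈ Q) (hint : IsIntegral ℤ x) :
    ∃ (n : ℕ) (u w : B), u ∉ Q ∧ u * x ^ n = p * w := by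
  obtain ⟨f, hf, hfx⟩ := hint
  set φ := Int.castRingHom (ZMod p) with hφ
  have hf0 : f.map φ ≠ 0 := (hf.map φ).ne_zero
  obtain ⟨g, hg, hgX⟩ := Polynomial.exists_eq_pow_rootMultiplicity_mul_and_not_dvd (f.map φ) hf0 0
  set r := (f.map φ).rootMultiplicity 0 with hr
  obtain ⟨h₁, rfl⟩ := Polynomial.map_surjective φ (ZMod.intCast_surjective) g
  have hk : ∃ k : Polynomial ℤ, f - Polynomial.X ^ r * h₁ = Polynomial.C (p : ℤ) * k := by
    rw [← dvd_def, Polynomial.C_dvd_iff_dvd_coeff]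
    intro i
    rw [← ZMod.intCast_zmod_eq_zero_iff_dvd]
    have : ((f - Polynomial.X ^ r * h₁).map φ) = 0 := by
      rw [Polynomial.map_sub, hg]
      simp
    have h2 := congrArg (fun q => q.coeff i) this
    rw [Polynomial.coeff_map] at h2
    simpa using h2
  obtain ⟨k, hk⟩ := hk
  refine ⟨r, Polynomial.eval₂ (Int.castRingHom B) x h₁, - Polynomial.eval₂ (Int.castRingHom B) x k,
    ?_, ?_⟩
  · intro hu
    apply hgX
    rw [map_zero, sub_zero, Polynomial.X_dvd_iff, Polynomial.coeff_map]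
    -- `h₁(x) ≡ h₁(0) mod x`
    have h3 : Polynomial.eval₂ (Int.castRingHom B) x h₁ - ((h₁.coeff 0 : ℤ) : B) ∈ Q := by
      have h4 : h₁ = Polynomial.X * h₁.divX + Polynomial.C (h₁.coeff 0) := by
        conv_lhs => rw [← Polynomial.divX_mul_X_add h₁]
        ring
      have h4' : Polynomial.eval₂ (Int.castRingHom B) x h₁ =
          x * Polynomial.eval₂ (Int.castRingHom B) x h₁.divX + ((h₁.coeff 0 : ℤ) : B) := by
        conv_lhs => rw [h4]
        rw [Polynomial.eval₂_add, Polynomial.eval₂_mul, Polynomial.eval₂_X, Polynomial.eval₂_C]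
        simp
      rw [h4', add_sub_cancel_right]
      exact Q.mul_mem_right _ hx
    have h5 : ((h₁.coeff 0 : ℤ) : B) ∈ Q := by
      have := Q.sub_mem hu h3
      simpa using this
    -- `Q ∩ ℤ = pℤ`
    by_contra h6
    have h7 : IsCoprime (h₁.coeff 0) (p : ℤ) := by
      rw [isCoprime_comm, Prime.coprime_iff_not_dvd (Nat.prime_iff_prime_int.mp Fact.out)]
      intro h8
      exact h6 ((ZMod.intCast_zmod_eq_zero_iff_dvd _ _).mpr h8)
    obtain ⟨a, b, hab⟩ := h7
    apply (Ideal.IsPrime.ne_top (I := Q) inferInstance)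
    rw [Ideal.eq_top_iff_one]
    have h9 : ((a * h₁.coeff 0 + b * p : ℤ) : B) = 1 := by rw [hab]; simp
    rw [← h9]
    push_cast
    exact Q.add_mem (Q.mul_mem_left _ h5) (Q.mul_mem_left _ hpQ)
  · have h2 := congrArg (Polynomial.eval₂ (Int.castRingHom B) x) hk
    rw [Polynomial.eval₂_sub, Polynomial.eval₂_mul, Polynomial.eval₂_mul, Polynomial.eval₂_pow,
      Polynomial.eval₂_X, Polynomial.eval₂_C] at h2
    have h3 : Polynomial.eval₂ (Int.castRingHom B) x f = 0 := by
      rw [← hfx]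
      congr 1
    rw [h3] at h2
    simp only [eq_intCast, Int.cast_natCast] at h2
    linear_combination -h2

end Fermat.Agent.S14.T3

namespace Fermat.Agent.S14.T3

/-- the contraction to `B` of the ideal `c B_Q`. -/
def locIdeal {B : Type*} [CommRing B] (Q : Ideal B) [hQ : Q.IsPrime] (c : B) : Ideal B where
  carrier := {x | ∃ u w : B, u ∉ Q ∧ u * x = c * w}
  add_mem' := by
    rintro x y ⟨u, w, hu, h⟩ ⟨u', w', hu', h'⟩
    refine ⟨u * u', u' * w + u * w', fun hm => ?_, ?_⟩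
    · rcases hQ.mem_or_mem hm with h1 | h1
      · exact hu h1
      · exact hu' h1
    · linear_combination u' * h + u * h'
  zero_mem' := ⟨1, 0, fun h => hQ.ne_top ((Ideal.eq_top_iff_one Q).mpr h), by simp⟩
  smul_mem' := by
    rintro r x ⟨u, w, hu, h⟩
    refine ⟨u, r * w, hu, ?_⟩
    rw [smul_eq_mul]
    linear_combination r * h

theorem mem_locIdeal {B : Type*} [CommRing B] {Q : Ideal B} [Q.IsPrime] {c x : B} :
    x ∈ locIdeal Q c ↔ ∃ u w : B, u ∉ Q ∧ u * x = c * w := Iff.rfl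

theorem locIdeal_le {B : Type*} [CommRing B] {Q : Ideal B} [hQ : Q.IsPrime] {c : B} (hc : c ∈ Q) :
    locIdeal Q c ≤ Q := by
  rintro x ⟨u, w, hu, h⟩
  have : u * x ∈ Q := by rw [h]; exact Q.mul_mem_right _ hc
  exact (hQ.mem_or_mem this).resolve_left hu

theorem exists_pow_mem_locIdeal {B : Type*} [CommRing B] (p : ℕ) [Fact p.Prime] (Q : Ideal B)
    [hQ : Q.IsPrime] (hpQ : (p : B) ∈ Q) (x : B) (hx : x ∈ Q) (hint : IsIntegral ℤ x) :
    ∃ n : ℕ, x ^ n ∈ locIdeal Q ((p : B) ^ 3) := by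
  obtain ⟨n, u, w, hu, h⟩ := exists_pow_mul_eq p Q hpQ x hx hint
  refine ⟨n * 3, u ^ 3, w ^ 3, fun hm => hu (hQ.mem_of_pow_mem _ hm), ?_⟩
  rw [pow_mul, ← mul_pow, h, mul_pow]

/-- sharpening an approximate idempotent. -/
theorem sharpen {B : Type*} [CommRing B] (e₀ : B) (N : ℕ) :
    (1 - e₀) ^ N ∣ 1 - (1 - (1 - e₀ ^ N) ^ N) ∧ e₀ ^ N ∣ 1 - (1 - e₀ ^ N) ^ N := by
  constructor
  · have h1 : (1 - e₀) ∣ 1 - e₀ ^ N := by
      have := sub_dvd_pow_sub_pow 1 e₀ N
      rwa [one_pow] at this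
    have h2 := pow_dvd_pow_of_dvd h1 N
    rwa [sub_sub_cancel]
  · have := sub_dvd_pow_sub_pow 1 (1 - e₀ ^ N) N
    rwa [one_pow, sub_sub_cancel] at this

end Fermat.Agent.S14.T3
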