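import Fermat.Agent.S14.Defs
import Fermat.Prelude.Def_ExtCitation_AdmissibleExtension_v2

/-!
# S14, translation side: the field `KQ p = ℚ(ζ_p) ⊆ ℚ̄` and basic facts (piece T0)
-/

set_option autoImplicit false

namespace Fermat.Agent.S14

open NumberField IntermediateField

noncomputable section

abbrev Qb := AlgebraicClosure ℚ
abbrev GQ := AlgebraicClosure ℚ ≃ₐ[ℚ] AlgebraicClosure ℚ

/-- NB: instance search does not find this by itself; use
`attribute [local instance] isAlgClosure_Qb` in your file. -/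
theorem isAlgClosure_Qb : IsAlgClosure ℚ Qb := @AlgebraicClosure.instIsAlgClosure ℚ _

attribute [local instance] isAlgClosure_Qb

variable (p : ℕ) [NeZero p]

theorem exists_prim : ∃ ζ : Qb, IsPrimitiveRoot ζ p :=
  HasEnoughRootsOfUnity.exists_primitiveRoot Qb p

/-- a fixed primitive `p`-th root of unity in `ℚ̄`. -/
def zetaQb : Qb := (exists_prim p).choose

theorem zetaQb_prim : IsPrimitiveRoot (zetaQb p) p := (exists_prim p).choose_spec

/-- `ℚ(ζ_p)` inside `ℚ̄`. -/
def KQ : IntermediateField ℚ Qb := ℚ⟮zetaQb p⟯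

/-- `ζ_p` as an element of `KQ p`. -/
def zK : KQ p := ⟨zetaQb p, mem_adjoin_simple_self ℚ _⟩

theorem zK_prim : IsPrimitiveRoot (zK p) p :=
  IsPrimitiveRoot.of_map_of_injective (f := (KQ p).val) (ζ := zK p)
    (show IsPrimitiveRoot ((KQ p).val (zK p)) p from zetaQb_prim p) (KQ p).val.injective

instance : FiniteDimensional ℚ (KQ p) :=
  adjoin.finiteDimensional (((zetaQb_prim p).isIntegral (NeZero.pos p)).tower_top)

instance : NumberField (KQ p) where
  to_charZero := inferInstance
  to_finiteDimensional := inferInstance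

instance : IsCyclotomicExtension {p} ℚ (KQ p) :=
  (zetaQb_prim p).intermediateField_adjoin_isCyclotomicExtension ℚ

/-- (infinite Galois correspondence) an element fixed by `G_K` lies in `K`. -/
theorem mem_KQ_of_fixed (x : Qb) (hx : ∀ σ : GQ, σ (zetaQb p) = zetaQb p → σ x = x) :
    x ∈ KQ p := by
  rw [← InfiniteGalois.fixedField_fixingSubgroup (KQ p), IntermediateField.mem_fixedField_iff]
  intro σ hσ
  rw [IntermediateField.mem_fixingSubgroup_iff] at hσ
  exact hx σ (hσ _ (mem_adjoin_simple_self ℚ _))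

/-- the Prelude's `cycloExp` is the exponent of `σ` on `ζ_p`. -/
theorem map_zetaQb [Fact p.Prime] (σ : GQ) :
    σ (zetaQb p) = zetaQb p ^ ExtCitation.cycloExp p σ := by
  have h := modularCyclotomicCharacter.spec Qb (ExtCitation.card_rootsOfUnity_eq_self p)
    (σ : Qb ≃+* Qb) (t := (zetaQb_prim p).toRootsOfUnity) (zetaQb_prim p).toRootsOfUnity.2
  exact h

/-- every automorphism of `KQ p` is induced by an element of `G_ℚ`. -/
theorem exists_lift (τ : KQ p ≃ₐ[ℚ] KQ p) : ∃ δ : GQ, ∀ x : KQ p, δ (x : Qb) = (τ x : KQ p) :=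
  ⟨τ.liftNormal Qb, fun x => τ.liftNormal_commutes Qb x⟩

end

end Fermat.Agent.S14
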