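import Fermat.Agent.S14.E2

/-!
# S14 piece U1: the `ω²`-eigenspace of `E/E^p` has dimension `≤ 1`

Paper proof.  `E = (𝓞 K)ˣ`, `Λ = E/torsion`, free of rank `r = m - 1`, `m = (p-1)/2`
(`NumberField.Units.rank`, `IsCyclotomicExtension.Rat.nrComplexPlaces_eq_totient_div_two`…).
Let `g₀` generate `Δ` (`m_{g₀}` a primitive root mod `p`), `T` its action on `Λ`.
(a) `charpoly_ℤ(T | Λ) = h := (X^m - 1)/(X - 1)`.  Either via the log embedding
 (`Λ ⊗ ℝ ≅ {x ∈ ℝ^{places} | ∑ x_w = 0}` equivariantly, `Δ` permutes the `m` places cyclically,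
 `charpoly` of the cyclic permutation is `X^m - 1 = (X-1) h`), or via a Minkowski unit:
 `NumberField.Units.dirichletUnitTheorem.exists_unit w₁` gives `u` with `log w(u) < 0` for `w ≠ w₁`; the
 matrix `(log |g₀^i u|_{g₀^j w₁})_{i,j<m-1}` is strictly diagonally dominant
 (`det_ne_zero_of_sum_row_lt_diag`, as in Mathlib's proof of the unit theorem), so `T^i u`, `i < m-1`,
 is a `ℚ`-basis of `Λ ⊗ ℚ`; `(1 + T + … + T^{m-1}) u = 0` (the norm is `±1`; `T^m = 1` on `Λ` because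
 `g₀^m` = complex conjugation fixes all `|·|_w`); so `T` is the companion matrix of `h`.
(b) `c = m_{g₀}² mod p` has order exactly `m ≥ 2`, so it is a simple root of `X^m - 1` and of `h` mod `p`;
 `charpoly(T | Λ/p) = h mod p` (`LinearMap.charpoly_baseChange`), and
 `dim ker (T - c) ≤ rootMultiplicity = 1` (`LinearMap.finrank_maxGenEigenspace_eq`).
(c) `Eigen2 ε` ⇒ the class of `ε` in `Λ/pΛ` lies in `ker (T - c)` (the `γ` in `Eigen2` is a unit).
 If the class of `ε` in `Λ/pΛ` is `0`: `ε = ξ θ^p`, `ξ` a root of unity, `ξ = ± ζ^i`; `±1 = (±1)^p`;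
 `Eigen2 (ζ^i)` for `g₀`: `ζ^{i m₀} = ζ^{i m₀²} γ^p`, so `ζ^{i m₀ (1 - m₀)}` is a `p`-th power in `K`, which
 forces `p ∣ i` (`K` has no primitive `p²`-th root of unity; `m₀ ≠ 0, 1 mod p`).  So `W₂ ↪ ker (T - c)`.
(d) dimension `≤ 1` + `ε₁ ≠ 0` in `W₂` ⇒ `ε₂ = ε₁^k θ^p`.
-/

set_option autoImplicit false
set_option linter.unusedSectionVars false
namespace Fermat.Agent.S14.U1

theorem u1_max_principle {A : Type*} [AddCommGroup A] [Fintype A] (F : A → ℝ) (a : A → ℤ)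
    (hsum : ∑ x, F x = 0) (hneg : ∀ x, x ≠ 0 → F x < 0)
    (hrel : ∀ j, ∑ x, (a x : ℝ) * F (x + j) = 0) : ∀ x y, a x = a y := by
  classical
  obtain ⟨x0, hx0⟩ := Finite.exists_max a
  have key : ∀ x, a x = a x0 := by
    have h1 : ∑ x, F (x + -x0) = 0 := by
      rw [← hsum]
      exact Fintype.sum_equiv (Equiv.addRight (-x0)) _ _ (fun x => rfl)
    have h2 : ∑ x, ((a x : ℝ) - a x0) * F (x + -x0) = 0 := by
      simp only [sub_mul, Finset.sum_sub_distrib, ← Finset.mul_sum, h1, hrel (-x0), mul_zero,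
        sub_zero]
    have h3 : ∀ x ∈ Finset.univ, 0 ≤ ((a x : ℝ) - a x0) * F (x + -x0) := by
      intro x _
      by_cases hx : x = x0
      · subst hx; simp
      · have hF : F (x + -x0) < 0 := hneg _ (by
          intro h; apply hx; rwa [← sub_eq_add_neg, sub_eq_zero] at h)
        have ha : (a x : ℝ) - a x0 ≤ 0 := by
          have := hx0 x
          have : (a x : ℝ) ≤ a x0 := by exact_mod_cast this
          linarith
        exact mul_nonneg_of_nonpos_of_nonpos ha hF.le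
    have h4 := (Finset.sum_eq_zero_iff_of_nonneg h3).mp h2
    intro x
    by_cases hx : x = x0
    · rw [hx]
    · have hF : F (x + -x0) < 0 := hneg _ (by
          intro h; apply hx; rwa [← sub_eq_add_neg, sub_eq_zero] at h)
      have := h4 x (Finset.mem_univ _)
      rcases mul_eq_zero.mp this with h | h
      · have : (a x : ℝ) = a x0 := by linarith
        exact_mod_cast this
      · exact absurd h hF.ne
  intro x y
  rw [key x, key y]

theorem u1_indep {m : ℕ} (hm : 2 ≤ m) (f : ℕ → ℝ) (hper : ∀ k, f (k + m) = f k)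
    (hneg : ∀ k, ¬ m ∣ k → f k < 0) (hsum : ∑ k ∈ Finset.range m, f k = 0)
    (d : ℕ → ℤ) (hrel : ∀ j, ∑ i ∈ Finset.range (m - 1), (d i : ℝ) * f (i + j) = 0) :
    ∀ i < m - 1, d i = 0 := by
  obtain ⟨n, rfl⟩ : ∃ n, m = n + 1 := ⟨m - 1, by omega⟩
  have hmod : ∀ k, f (k % (n + 1)) = f k := by
    intro k
    induction k using Nat.strong_induction_on with
    | _ k ih =>
      by_cases hk : k < n + 1
      · rw [Nat.mod_eq_of_lt hk]
      · have h1 : k = (k - (n + 1)) + (n + 1) := by omega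
        rw [h1, Nat.add_mod_right, hper, ih _ (by omega)]
  let F : ZMod (n + 1) → ℝ := fun x => f x.val
  let a : ZMod (n + 1) → ℤ := fun x => if x.val < n then d x.val else 0
  have hF : ∑ x, F x = 0 := by
    rw [← hsum]
    exact Fin.sum_univ_eq_sum_range (fun i => f i) (n + 1)
  have hFneg : ∀ x, x ≠ 0 → F x < 0 := by
    intro x hx
    apply hneg
    intro h
    apply hx
    have h2 := ZMod.val_lt x
    have h3 : x.val = 0 := Nat.eq_zero_of_dvd_of_lt h h2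
    exact (ZMod.val_eq_zero x).mp h3
  have hr : ∀ j, ∑ x, (a x : ℝ) * F (x + j) = 0 := by
    intro j
    have h1 : ∑ x : ZMod (n + 1), (a x : ℝ) * F (x + j)
        = ∑ i ∈ Finset.range (n + 1), ((if i < n then d i else 0 : ℤ) : ℝ) * f (i + j.val) := by
      rw [← Fin.sum_univ_eq_sum_range
        (fun i => ((if i < n then d i else 0 : ℤ) : ℝ) * f (i + j.val)) (n + 1)]
      refine Finset.sum_congr rfl (fun x _ => ?_)
      show ((if x.val < n then d x.val else 0 : ℤ) : ℝ) * f (x + j).val = _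
      rw [ZMod.val_add, hmod]
      rfl
    rw [h1, Finset.sum_range_succ]
    simp only [lt_self_iff_false, if_false, Int.cast_zero, zero_mul, add_zero]
    rw [← hrel j.val]
    simp only [Nat.add_sub_cancel]
    refine Finset.sum_congr rfl (fun i hi => ?_)
    rw [if_pos (Finset.mem_range.mp hi)]
  have hc := u1_max_principle F a hF hFneg hr
  intro i hi
  have hi' : i < n := by omega
  have h1 := hc (i : ZMod (n + 1)) (n : ZMod (n + 1))
  have hvi : ((i : ZMod (n + 1))).val = i := ZMod.val_natCast_of_lt (by omega)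
  have hvn : ((n : ZMod (n + 1))).val = n := ZMod.val_natCast_of_lt (by omega)
  simp only [a, hvi, hvn, if_pos hi', lt_self_iff_false, if_false] at h1
  exact h1

open NumberField NumberField.Units

noncomputable section

variable {K : Type*} [Field K] [NumberField K]

/-- the action of `σ` on units. -/
def uAct (σ : K ≃ₐ[ℚ] K) : (𝓞 K)ˣ →* (𝓞 K)ˣ :=
  Units.map ((MulSemiringAction.toRingHom (K ≃ₐ[ℚ] K) (𝓞 K) σ : 𝓞 K →+* 𝓞 K) : 𝓞 K →* 𝓞 K)

theorem coe_uAct (σ : K ≃ₐ[ℚ] K) (x : (𝓞 K)ˣ) :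
    (((uAct σ x : (𝓞 K)ˣ) : 𝓞 K) : K) = σ ((x : 𝓞 K) : K) := rfl

theorem uAct_mul (σ τ : K ≃ₐ[ℚ] K) (x : (𝓞 K)ˣ) : uAct (σ * τ) x = uAct σ (uAct τ x) := by
  apply Units.ext
  apply RingOfIntegers.ext
  rw [coe_uAct, coe_uAct, coe_uAct]
  rfl

theorem uAct_one (x : (𝓞 K)ˣ) : uAct (1 : K ≃ₐ[ℚ] K) x = x := by
  apply Units.ext
  apply RingOfIntegers.ext
  rw [coe_uAct]
  rfl

theorem uAct_mem_torsion (σ : K ≃ₐ[ℚ] K) {x : (𝓞 K)ˣ} (hx : x ∈ torsion K) :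
    uAct σ x ∈ torsion K := by
  rw [torsion, CommGroup.mem_torsion] at hx ⊢
  exact (uAct σ).isOfFinOrder hx

/-- the unit lattice `E / torsion`, additively. -/
def Lam (K : Type*) [Field K] [NumberField K] : Type _ := Additive ((𝓞 K)ˣ ⧸ torsion K)

instance instAddCommGroupLam : AddCommGroup (Lam K) :=
  inferInstanceAs (AddCommGroup (Additive ((𝓞 K)ˣ ⧸ torsion K)))

def lamEquiv : Lam K ≃ₗ[ℤ] unitLattice K := logEmbeddingEquiv K

instance instFreeLam : Module.Free ℤ (Lam K) := by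
  classical exact Module.Free.of_equiv (lamEquiv (K := K)).symm

instance instFiniteLam : Module.Finite ℤ (Lam K) := by
  classical exact Module.Finite.equiv (lamEquiv (K := K)).symm

theorem finrank_Lam : Module.finrank ℤ (Lam K) = rank K := by
  rw [← LinearEquiv.finrank_eq (lamEquiv (K := K)).symm, unitLattice_rank]

def cls (x : (𝓞 K)ˣ) : Lam K := (Additive.ofMul (QuotientGroup.mk x) : Additive ((𝓞 K)ˣ ⧸ torsion K))

theorem cls_mul (x y : (𝓞 K)ˣ) : cls (x * y) = cls x + cls y := rfl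

theorem cls_one : cls (1 : (𝓞 K)ˣ) = 0 := rfl

theorem cls_pow (x : (𝓞 K)ˣ) (n : ℕ) : cls (x ^ n) = n • cls x := rfl

theorem cls_inv (x : (𝓞 K)ˣ) : cls (x⁻¹) = - cls x := rfl

theorem cls_surjective : Function.Surjective (cls : (𝓞 K)ˣ → Lam K) := by
  intro v
  obtain ⟨x, hx⟩ := QuotientGroup.mk_surjective (Additive.toMul (show Additive ((𝓞 K)ˣ ⧸ torsion K) from v))
  exact ⟨x, by rw [cls, hx]; rfl⟩

theorem cls_eq_zero_iff (x : (𝓞 K)ˣ) : cls x = 0 ↔ x ∈ torsion K := by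
  rw [← QuotientGroup.eq_one_iff x]
  rfl

/-- the action of `σ` on the unit lattice. -/
def TThom (σ : K ≃ₐ[ℚ] K) : Lam K →+ Lam K :=
  (MonoidHom.toAdditive (QuotientGroup.map (torsion K) (torsion K) (uAct σ)
    (fun _ hx => uAct_mem_torsion σ hx)) :
      Additive ((𝓞 K)ˣ ⧸ torsion K) →+ Additive ((𝓞 K)ˣ ⧸ torsion K))

def TT (σ : K ≃ₐ[ℚ] K) : Lam K →ₗ[ℤ] Lam K := (TThom σ).toIntLinearMap

theorem TT_cls (σ : K ≃ₐ[ℚ] K) (x : (𝓞 K)ˣ) : TT σ (cls x) = cls (uAct σ x) := rfl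

theorem TT_pow_cls (σ : K ≃ₐ[ℚ] K) (k : ℕ) (x : (𝓞 K)ˣ) :
    (TT σ ^ k) (cls x) = cls (uAct (σ ^ k) x) := by
  induction k with
  | zero => rw [pow_zero, pow_zero, uAct_one]; rfl
  | succ k ih => rw [pow_succ', pow_succ', Module.End.mul_apply, ih, TT_cls, uAct_mul]

/-- `log w` on the unit lattice. -/
def Lw (w : InfinitePlace K) : Lam K →+ ℝ :=
  (MonoidHom.toAdditiveLeft (QuotientGroup.lift (torsion K)
    ({ toFun := fun x => Multiplicative.ofAdd (Real.log (w ((x : 𝓞 K) : K)))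
       map_one' := by simp
       map_mul' := fun x y => by
        rw [← ofAdd_add, Units.val_mul, RingOfIntegers.coe_eq_algebraMap, map_mul, map_mul, Real.log_mul]
        · exact (map_ne_zero w).mpr (by simp)
        · exact (map_ne_zero w).mpr (by simp) } : (𝓞 K)ˣ →* Multiplicative ℝ)
    (fun x hx => by
      have := (mem_torsion K).mp hx w
      show Multiplicative.ofAdd (Real.log (w ((x : 𝓞 K) : K))) = 1
      rw [show w ((x : 𝓞 K) : K) = 1 from this, Real.log_one]; rfl)) :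
        Additive ((𝓞 K)ˣ ⧸ torsion K) →+ ℝ)

theorem Lw_cls (w : InfinitePlace K) (x : (𝓞 K)ˣ) : Lw w (cls x) = Real.log (w ((x : 𝓞 K) : K)) :=
  rfl

theorem eq_zero_of_Lw (v : Lam K) (h : ∀ w, Lw w v = 0) : v = 0 := by
  obtain ⟨x, rfl⟩ := cls_surjective v
  rw [cls_eq_zero_iff, mem_torsion]
  intro w
  have h1 := h w
  rw [Lw_cls] at h1
  have hpos : 0 < w ((x : 𝓞 K) : K) := InfinitePlace.pos_iff.mpr (by simp)
  exact Real.eq_one_of_pos_of_log_eq_zero hpos h1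

theorem Lw_TT (w : InfinitePlace K) (σ : K ≃ₐ[ℚ] K) (v : Lam K) :
    Lw w (TT σ v) = Lw (σ⁻¹ • w) v := by
  obtain ⟨x, rfl⟩ := cls_surjective v
  rw [TT_cls, Lw_cls, Lw_cls, coe_uAct, InfinitePlace.smul_apply]
  rfl


section cyc

variable {p : ℕ} [Fact p.Prime] [IsCyclotomicExtension {p} ℚ K]

theorem u1_card_gal : Nat.card (K ≃ₐ[ℚ] K) = p - 1 := by
  rw [Nat.card_congr (IsCyclotomicExtension.Rat.galEquivZMod p K).toEquiv, Nat.card_eq_fintype_card,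
    ZMod.card_units]

theorem u1_exists_gen : ∃ g : K ≃ₐ[ℚ] K, (∀ σ, σ ∈ Subgroup.zpowers g) ∧ orderOf g = p - 1 := by
  have : IsCyclic (K ≃ₐ[ℚ] K) :=
    isCyclic_of_surjective (IsCyclotomicExtension.Rat.galEquivZMod p K).symm
      (IsCyclotomicExtension.Rat.galEquivZMod p K).symm.surjective
  obtain ⟨g, hg⟩ := IsCyclic.exists_generator (α := K ≃ₐ[ℚ] K)
  exact ⟨g, hg, by rw [orderOf_eq_card_of_forall_mem_zpowers hg, u1_card_gal (p := p)]⟩

theorem u1_stab_card (hp5 : 5 ≤ p) (w : InfinitePlace K) :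
    Nat.card (MulAction.stabilizer (K ≃ₐ[ℚ] K) w) = 2 := by
  have : IsGalois ℚ K := IsCyclotomicExtension.isGalois {p} ℚ K
  rw [InfinitePlace.card_stabilizer, if_neg]
  rw [InfinitePlace.isUnramified_iff, not_or]
  constructor
  · have h0 := IsCyclotomicExtension.Rat.nrRealPlaces_eq_zero (n := p) K (by omega)
    rw [NumberField.nrRealPlaces_eq_zero_iff] at h0
    exact InfinitePlace.not_isReal_iff_isComplex.mpr (h0.isComplex w)
  · rw [← InfinitePlace.not_isReal_iff_isComplex, not_not, InfinitePlace.isReal_iff,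
      ComplexEmbedding.isReal_iff]
    exact Subsingleton.elim _ _

theorem u1_sq_of_mem_stab (hp5 : 5 ≤ p) (w : InfinitePlace K) {τ : K ≃ₐ[ℚ] K}
    (hτ : τ ∈ MulAction.stabilizer (K ≃ₐ[ℚ] K) w) : τ ^ 2 = 1 := by
  have h := pow_card_eq_one' (G := MulAction.stabilizer (K ≃ₐ[ℚ] K) w) (x := ⟨τ, hτ⟩)
  rw [u1_stab_card (p := p) hp5 w] at h
  exact congrArg Subtype.val h

variable {g : K ≃ₐ[ℚ] K}

theorem u1_dvd_of_pow_mem_stab (hp5 : 5 ≤ p) (ho : orderOf g = p - 1) (w : InfinitePlace K)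
    {k : ℕ} (hk : g ^ k ∈ MulAction.stabilizer (K ≃ₐ[ℚ] K) w) : (p - 1) / 2 ∣ k := by
  obtain ⟨t, ht⟩ := (Fact.out : p.Prime).odd_of_ne_two (by omega)
  have h2 := u1_sq_of_mem_stab (p := p) hp5 w hk
  rw [← pow_mul] at h2
  have h3 := orderOf_dvd_of_pow_eq_one h2
  rw [ho] at h3
  have h4 : p - 1 = 2 * t := by omega
  rw [h4] at h3 ⊢
  rw [Nat.mul_div_cancel_left _ (by norm_num)]
  rw [mul_comm k 2] at h3
  exact Nat.dvd_of_mul_dvd_mul_left (by norm_num) h3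

theorem u1_pow_half_smul (hp5 : 5 ≤ p) (hg : ∀ σ, σ ∈ Subgroup.zpowers g) (ho : orderOf g = p - 1)
    (w : InfinitePlace K) : g ^ ((p - 1) / 2) • w = w := by
  obtain ⟨t, ht⟩ := (Fact.out : p.Prime).odd_of_ne_two (by omega)
  have h4 : p - 1 = 2 * t := by omega
  have hm : (p - 1) / 2 = t := by rw [h4, Nat.mul_div_cancel_left _ (by norm_num)]
  have hc := u1_stab_card (p := p) hp5 w
  have hne : MulAction.stabilizer (K ≃ₐ[ℚ] K) w ≠ ⊥ := by
    intro h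
    rw [h] at hc
    simp at hc
  obtain ⟨⟨τ, hτ⟩, hτ1'⟩ := (Subgroup.ne_bot_iff_exists_ne_one).mp hne
  have hτ1 : τ ≠ 1 := fun h' => hτ1' (Subtype.ext h')
  obtain ⟨k, hk⟩ := (mem_powers_iff_mem_zpowers).mpr (hg τ)
  have hk' : g ^ k = τ := hk
  clear hk hτ1'
  subst hk'
  obtain ⟨s, rfl⟩ := u1_dvd_of_pow_mem_stab (p := p) hp5 ho w hτ
  rw [hm] at hτ hτ1 ⊢
  have hsq : (g ^ t) ^ 2 = 1 := by
    rw [← pow_mul, mul_comm, ← h4, ← ho, pow_orderOf_eq_one]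
  rcases Nat.even_or_odd' s with ⟨r, rfl | rfl⟩
  · exfalso
    apply hτ1
    rw [pow_mul, pow_mul, hsq, one_pow]
  · have : g ^ (t * (2 * r + 1)) = g ^ t := by
      rw [pow_mul, pow_succ, pow_mul, hsq, one_pow, one_mul]
    rw [this] at hτ
    exact hτ

theorem u1_sum_full (hg : ∀ σ, σ ∈ Subgroup.zpowers g) (ho : orderOf g = p - 1)
    (w : InfinitePlace K) (v : Lam K) :
    ∑ k ∈ Finset.range (p - 1), Lw w ((TT g ^ k) v) = 0 := by
  classical
  have : IsGalois ℚ K := IsCyclotomicExtension.isGalois {p} ℚ K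
  obtain ⟨x, rfl⟩ := cls_surjective v
  simp only [TT_pow_cls, Lw_cls, coe_uAct]
  rw [← Real.log_prod (fun k _ => (map_ne_zero w).mpr
    ((EmbeddingLike.map_ne_zero_iff (f := g ^ k)).mpr (by simp))), ← map_prod]
  have h1 : ∏ k ∈ Finset.range (p - 1), (g ^ k) ((x : 𝓞 K) : K) = ∏ σ : K ≃ₐ[ℚ] K, σ ((x : 𝓞 K) : K) := by
    rw [← IsCyclic.image_range_orderOf hg, Finset.prod_image, ho]
    intro a ha b hb hab
    exact pow_injOn_Iio_orderOf (by simpa using ha) (by simpa using hb) hab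
  rw [h1, ← Algebra.norm_eq_prod_automorphisms ℚ]
  have h2 := Units.norm K x
  rcases abs_eq (zero_le_one' ℚ) |>.mp h2 with h | h
  · rw [show (Algebra.norm ℚ) ((x : 𝓞 K) : K) = 1 from h, map_one, map_one, Real.log_one]
  · rw [show (Algebra.norm ℚ) ((x : 𝓞 K) : K) = -1 from h, map_neg, map_one,
      ← InfinitePlace.norm_embedding_eq w, map_neg, map_one, norm_neg, norm_one, Real.log_one]

theorem u1_Lw_period (hp5 : 5 ≤ p) (hg : ∀ σ, σ ∈ Subgroup.zpowers g) (ho : orderOf g = p - 1)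
    (w : InfinitePlace K) (v : Lam K) (k : ℕ) :
    Lw w ((TT g ^ (k + (p - 1) / 2)) v) = Lw w ((TT g ^ k) v) := by
  obtain ⟨x, rfl⟩ := cls_surjective v
  rw [add_comm, pow_add, Module.End.mul_apply, TT_pow_cls g k, TT_pow_cls, ← TT_cls, Lw_TT]
  have h1 : (g ^ ((p - 1) / 2))⁻¹ • w = w := by
    rw [inv_smul_eq_iff]
    exact (u1_pow_half_smul (p := p) hp5 hg ho w).symm
  rw [h1]

theorem u1_sum_half (hp5 : 5 ≤ p) (hg : ∀ σ, σ ∈ Subgroup.zpowers g) (ho : orderOf g = p - 1)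
    (w : InfinitePlace K) (v : Lam K) :
    ∑ k ∈ Finset.range ((p - 1) / 2), Lw w ((TT g ^ k) v) = 0 := by
  obtain ⟨t, ht⟩ := (Fact.out : p.Prime).odd_of_ne_two (by omega)
  have h4 : p - 1 = t + t := by omega
  have hm : (p - 1) / 2 = t := by omega
  have h := u1_sum_full (p := p) hg ho w v
  have hper := u1_Lw_period (p := p) hp5 hg ho w v
  rw [hm] at hper ⊢
  rw [h4, Finset.sum_range_add] at h
  have h5 : ∑ x ∈ Finset.range t, Lw w ((TT g ^ (t + x)) v) = ∑ x ∈ Finset.range t, Lw w ((TT g ^ x) v) :=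
    Finset.sum_congr rfl (fun x _ => by rw [add_comm, hper])
  rw [h5] at h
  linarith

theorem u1_geom_sum_apply (hp5 : 5 ≤ p) (hg : ∀ σ, σ ∈ Subgroup.zpowers g) (ho : orderOf g = p - 1)
    (v : Lam K) : ∑ k ∈ Finset.range ((p - 1) / 2), (TT g ^ k) v = 0 := by
  apply eq_zero_of_Lw
  intro w
  rw [map_sum]
  exact u1_sum_half (p := p) hp5 hg ho w v

theorem u1_finrank (hp5 : 5 ≤ p) : Module.finrank ℤ (Lam K) = (p - 1) / 2 - 1 := by
  rw [finrank_Lam, rank, InfinitePlace.card_eq_nrRealPlaces_add_nrComplexPlaces,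
    IsCyclotomicExtension.Rat.nrRealPlaces_eq_zero (n := p) K (by omega),
    IsCyclotomicExtension.Rat.nrComplexPlaces_eq_totient_div_two p K,
    Nat.totient_prime Fact.out, zero_add]

open Polynomial in
theorem u1_charpoly (hp5 : 5 ≤ p) (hg : ∀ σ, σ ∈ Subgroup.zpowers g) (ho : orderOf g = p - 1) :
    (TT g).charpoly = ∑ i ∈ Finset.range ((p - 1) / 2), (X : ℤ[X]) ^ i := by
  set m := (p - 1) / 2 with hm
  have hm2 : 2 ≤ m := by omega
  obtain ⟨w1⟩ : Nonempty (InfinitePlace K) := inferInstance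
  obtain ⟨u, hu⟩ := dirichletUnitTheorem.exists_unit K w1
  set f : ℕ → ℝ := fun k => Lw w1 ((TT g ^ k) (cls u)) with hf
  have hper : ∀ k, f (k + m) = f k := fun k => u1_Lw_period (p := p) hp5 hg ho w1 (cls u) k
  have hsum : ∑ k ∈ Finset.range m, f k = 0 := u1_sum_half (p := p) hp5 hg ho w1 (cls u)
  have hneg : ∀ k, ¬ m ∣ k → f k < 0 := by
    intro k hk
    show Lw w1 ((TT g ^ k) (cls u)) < 0
    rw [TT_pow_cls, ← TT_cls, Lw_TT, Lw_cls]
    apply hu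
    intro h
    apply hk
    apply u1_dvd_of_pow_mem_stab (p := p) hp5 ho w1
    rw [MulAction.mem_stabilizer_iff]
    rw [inv_smul_eq_iff] at h
    exact h.symm
  set h : ℤ[X] := ∑ i ∈ Finset.range m, (X : ℤ[X]) ^ i with hh
  set d : ℤ[X] := (TT g).charpoly - h with hd
  have hcoeffh : ∀ k, h.coeff k = if k < m then 1 else 0 := by
    intro k
    rw [hh, finsetSum_coeff]
    simp only [coeff_X_pow]
    rw [Finset.sum_ite_eq]
    simp
  have hmon := LinearMap.charpoly_monic (TT g)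
  have hnat : (TT g).charpoly.natDegree = m - 1 := by
    rw [LinearMap.charpoly_natDegree, u1_finrank (p := p) hp5]
  have hdhigh : ∀ k, m - 2 < k → d.coeff k = 0 := by
    intro k hk
    rw [hd, coeff_sub, hcoeffh]
    rcases Nat.lt_or_ge (m - 1) k with h1 | h1
    · rw [coeff_eq_zero_of_natDegree_lt (by omega), if_neg (by omega), sub_zero]
    · have h2 : k = m - 1 := by omega
      rw [if_pos (by omega), h2, ← hnat]
      rw [show (TT g).charpoly.coeff (TT g).charpoly.natDegree = 1 from hmon]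
      ring
  have hdnat : d.natDegree < m - 1 := by
    have := (natDegree_le_iff_coeff_eq_zero).mpr hdhigh
    omega
  have hzero : (aeval (TT g) d) (cls u) = 0 := by
    rw [hd, map_sub, LinearMap.aeval_self_charpoly, zero_sub, hh, map_sum, LinearMap.neg_apply,
      LinearMap.sum_apply]
    simp only [map_pow, aeval_X]
    rw [u1_geom_sum_apply (p := p) hp5 hg ho, neg_zero]
  have hrel : ∀ j, ∑ i ∈ Finset.range (m - 1), ((d.coeff i : ℤ) : ℝ) * f (i + j) = 0 := by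
    intro j
    have h1 : Lw w1 ((TT g ^ j) ((aeval (TT g) d) (cls u))) = 0 := by rw [hzero, map_zero, map_zero]
    rw [aeval_eq_sum_range' hdnat, LinearMap.sum_apply, map_sum, map_sum] at h1
    rw [← h1]
    refine Finset.sum_congr rfl (fun i _ => ?_)
    rw [LinearMap.smul_apply, map_zsmul, map_zsmul, zsmul_eq_mul, ← Module.End.mul_apply, ← pow_add,
      add_comm j i]
  have hlow := u1_indep hm2 f hper hneg hsum (fun i => d.coeff i) hrel
  have hd0 : d = 0 := by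
    ext k
    rw [coeff_zero]
    rcases Nat.lt_or_ge k (m - 1) with h1 | h1
    · exact hlow k h1
    · exact hdhigh k (by omega)
  exact sub_eq_zero.mp hd0

open TensorProduct in
theorem u1_tmul_eq_zero (x : Lam K) (h : (1 : ZMod p) ⊗ₜ[ℤ] x = 0) : ∃ y : Lam K, x = p • y := by
  classical
  let b := Module.Free.chooseBasis ℤ (Lam K)
  have h1 : ∀ i, (p : ℤ) ∣ b.repr x i := by
    intro i
    have h2 := Module.Basis.baseChange_repr_tmul (ZMod p) b (1 : ZMod p) x i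
    rw [h, map_zero, Finsupp.zero_apply, zsmul_eq_mul, mul_one] at h2
    exact (ZMod.intCast_zmod_eq_zero_iff_dvd _ p).mp h2.symm
  choose c hc using h1
  refine ⟨∑ i, c i • b i, ?_⟩
  rw [Finset.smul_sum]
  conv_lhs => rw [← b.sum_repr x]
  refine Finset.sum_congr rfl (fun i _ => ?_)
  rw [hc i, mul_smul, natCast_zsmul]

open Polynomial in
theorem u1_eigenspace_le (hp5 : 5 ≤ p) (hg : ∀ σ, σ ∈ Subgroup.zpowers g) (ho : orderOf g = p - 1)
    (c : ZMod p) :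
    Module.finrank (ZMod p) (Module.End.eigenspace ((TT g).baseChange (ZMod p)) c) ≤ 1 := by
  refine (LinearMap.finrank_eigenspace_le _ c).trans ?_
  rw [LinearMap.charpoly_baseChange, u1_charpoly (p := p) hp5 hg ho]
  apply rootMultiplicity_le_one_of_separable
  have hm0 : (((p - 1) / 2 : ℕ) : ZMod p) ≠ 0 := by
    rw [Ne, ZMod.natCast_eq_zero_iff]
    intro h
    have := Nat.le_of_dvd (by omega) h
    omega
  have h1 : ((∑ i ∈ Finset.range ((p - 1) / 2), (X : ℤ[X]) ^ i).map (algebraMap ℤ (ZMod p))) * (X - 1)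
      = X ^ ((p - 1) / 2) - C 1 := by
    simp [Polynomial.map_sum, geom_sum_mul]
  have h2 := separable_X_pow_sub_C (1 : ZMod p) hm0 one_ne_zero
  rw [← h1] at h2
  exact h2.of_mul_left

open TensorProduct in
theorem u1_exists_smul (hp5 : 5 ≤ p) (hg : ∀ σ, σ ∈ Subgroup.zpowers g) (ho : orderOf g = p - 1)
    (n : ℕ) (x₁ x₂ y₁ y₂ : Lam K) (h₁ : TT g x₁ = n • x₁ + p • y₁) (h₂ : TT g x₂ = n • x₂ + p • y₂)
    (hx₁ : ¬ ∃ y, x₁ = p • y) : ∃ (k : ℕ) (y : Lam K), x₂ = k • x₁ + p • y := by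
  have key : ∀ x y : Lam K, TT g x = n • x + p • y →
      (1 : ZMod p) ⊗ₜ[ℤ] x ∈ Module.End.eigenspace ((TT g).baseChange (ZMod p)) (n : ZMod p) := by
    intro x y h
    rw [Module.End.mem_eigenspace_iff, LinearMap.baseChange_tmul, h, tmul_add, tmul_smul, tmul_smul,
      ← Nat.cast_smul_eq_nsmul (ZMod p) p, ZMod.natCast_self, zero_smul, add_zero,
      Nat.cast_smul_eq_nsmul (ZMod p)]
  obtain ⟨v0, hv0⟩ := finrank_le_one_iff.mp (u1_eigenspace_le (p := p) hp5 hg ho (n : ZMod p))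
  obtain ⟨c1, hc1⟩ := hv0 ⟨_, key x₁ y₁ h₁⟩
  obtain ⟨c2, hc2⟩ := hv0 ⟨_, key x₂ y₂ h₂⟩
  have hc1' : c1 • (v0 : ZMod p ⊗[ℤ] Lam K) = (1 : ZMod p) ⊗ₜ[ℤ] x₁ := congrArg Subtype.val hc1
  have hc2' : c2 • (v0 : ZMod p ⊗[ℤ] Lam K) = (1 : ZMod p) ⊗ₜ[ℤ] x₂ := congrArg Subtype.val hc2
  have hc1ne : c1 ≠ 0 := by
    rintro rfl
    rw [zero_smul] at hc1'
    exact hx₁ (u1_tmul_eq_zero (p := p) x₁ hc1'.symm)
  set k : ZMod p := c2 * c1⁻¹ with hk
  have h3 : (1 : ZMod p) ⊗ₜ[ℤ] x₂ = k • ((1 : ZMod p) ⊗ₜ[ℤ] x₁) := by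
    rw [← hc2', ← hc1', smul_smul, hk, mul_assoc, inv_mul_cancel₀ hc1ne, mul_one]
  have h4 : (1 : ZMod p) ⊗ₜ[ℤ] (x₂ - k.val • x₁) = 0 := by
    rw [tmul_sub, h3, tmul_smul, ← Nat.cast_smul_eq_nsmul (ZMod p) k.val, ZMod.natCast_zmod_val,
      sub_self]
  obtain ⟨y, hy⟩ := u1_tmul_eq_zero (p := p) _ h4
  exact ⟨k.val, y, by rw [← hy]; abel⟩

theorem u1_unit_of_pow (w : (𝓞 K)ˣ) (γ : K) (h : γ ^ p = ((w : 𝓞 K) : K)) :
    ∃ γ' : (𝓞 K)ˣ, ((γ' : 𝓞 K) : K) = γ := by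
  have hint : IsIntegral ℤ γ :=
    IsIntegral.of_pow (Fact.out : p.Prime).pos (h ▸ RingOfIntegers.isIntegral_coe _)
  have h1 : (⟨γ, hint⟩ : 𝓞 K) ^ p = (w : 𝓞 K) := by
    apply RingOfIntegers.ext
    rw [← h]
    rfl
  have h2 : IsUnit ((⟨γ, hint⟩ : 𝓞 K)) := by
    rw [← isUnit_pow_iff (Fact.out : p.Prime).ne_zero, h1]
    exact w.isUnit
  exact ⟨h2.unit, rfl⟩

variable {ζ : K} (hζ : IsPrimitiveRoot ζ p)

theorem u1_TT_of_eigen2 (σ : K ≃ₐ[ℚ] K) (ε : (𝓞 K)ˣ) (h : Eigen2 hζ ((ε : 𝓞 K) : K)) :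
    ∃ y : Lam K, TT σ (cls ε) = (mE hζ σ ^ 2) • cls ε + p • y := by
  obtain ⟨γ, hγ⟩ := h σ
  have hε : ((ε : 𝓞 K) : K) ≠ 0 := by simp
  have h1 : γ ^ p = (((uAct σ ε * (ε ^ (mE hζ σ ^ 2))⁻¹ : (𝓞 K)ˣ) : 𝓞 K) : K) := by
    have h2 : (((uAct σ ε * (ε ^ (mE hζ σ ^ 2))⁻¹ : (𝓞 K)ˣ) : 𝓞 K) : K) * ((ε : 𝓞 K) : K) ^ (mE hζ σ ^ 2)
        = σ ((ε : 𝓞 K) : K) := by
      rw [← coe_uAct]
      have h3 : (uAct σ ε * (ε ^ (mE hζ σ ^ 2))⁻¹) * ε ^ (mE hζ σ ^ 2) = uAct σ ε := by group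
      conv_rhs => rw [← h3]
      simp
    rw [hγ] at h2
    have h4 : ((ε : 𝓞 K) : K) ^ (mE hζ σ ^ 2) ≠ 0 := pow_ne_zero _ hε
    apply mul_right_cancel₀ h4
    rw [h2, mul_comm]
  obtain ⟨γ', hγ'⟩ := u1_unit_of_pow (p := p) _ γ h1
  refine ⟨cls γ', ?_⟩
  rw [TT_cls, ← cls_pow, ← cls_pow, ← cls_mul]
  congr 1
  apply Units.ext
  apply RingOfIntegers.ext
  rw [coe_uAct, hγ, ← hγ']
  simp

theorem u1_mE_gen (hp5 : 5 ≤ p) (ho : orderOf g = p - 1) :
    (mE hζ g : ZMod p) ≠ 0 ∧ (mE hζ g : ZMod p) ≠ 1 := by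
  have h1 : (mE hζ g : ZMod p) = ((hζ.autToPow ℚ g : (ZMod p)ˣ) : ZMod p) := by
    rw [mE, ZMod.natCast_zmod_val]
  rw [h1]
  refine ⟨Units.ne_zero _, fun h => ?_⟩
  rw [Units.val_eq_one] at h
  have h2 : g = 1 := IsPrimitiveRoot.autToPow_injective ℚ hζ (by rw [h, map_one])
  rw [h2, orderOf_one] at ho
  omega

theorem u1_torsion_case (hp5 : 5 ≤ p) (ho : orderOf g = p - 1) (ξ : (𝓞 K)ˣ) (hξ : ξ ∈ torsion K)
    (h : Eigen2 hζ ((ξ : 𝓞 K) : K)) : ∃ θ : K, ((ξ : 𝓞 K) : K) = θ ^ p := by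
  obtain ⟨t, ht⟩ := (Fact.out : p.Prime).odd_of_ne_two (by omega)
  have hpp : p.Prime := Fact.out
  have htor : torsionOrder K = 2 * p := by
    rw [IsCyclotomicExtension.Rat.torsionOrder_eq (n := p) (K := K), if_neg]
    rw [Nat.not_even_iff_odd]
    exact ⟨t, ht⟩
  set x : K := ((ξ : 𝓞 K) : K) with hx
  have hx0 : x ≠ 0 := by simp [hx]
  have hx2p : x ^ (2 * p) = 1 := by
    have h1 := pow_card_eq_one' (G := torsion K) (x := ⟨ξ, hξ⟩)
    have h2 : ξ ^ (2 * p) = 1 := by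
      rw [← htor]
      exact congrArg Subtype.val h1
    have h3 := congrArg (fun u : (𝓞 K)ˣ => ((u : 𝓞 K) : K)) h2
    simpa using h3
  obtain ⟨i, -, hi⟩ := hζ.eq_pow_of_pow_eq_one (ξ := x ^ 2) (by rw [← pow_mul, hx2p])
  set s := i * (t + 1) with hs
  have hxs : x = ζ ^ s * (x⁻¹) ^ p := by
    rw [hs, pow_mul, hi, ← pow_mul, inv_pow]
    rw [eq_mul_inv_iff_mul_eq₀ (pow_ne_zero _ hx0), ← pow_succ']
    congr 1
    omega
  by_cases hps : p ∣ s
  · obtain ⟨r, hr⟩ := hps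
    refine ⟨x⁻¹, ?_⟩
    conv_lhs => rw [hxs]
    rw [hr, pow_mul, hζ.pow_eq_one, one_pow, one_mul]
  · exfalso
    obtain ⟨γ, hγ⟩ := h g
    set m0 := mE hζ g with hm0
    obtain ⟨hm0a, hm0b⟩ := u1_mE_gen (p := p) hζ hp5 ho
    set y := x⁻¹ with hy
    have hy0 : y ≠ 0 := inv_ne_zero hx0
    have hgy0 : g y ≠ 0 := (EmbeddingLike.map_ne_zero_iff (f := g)).mpr hy0
    set δ : K := y ^ (m0 ^ 2) * γ / g y with hδ
    have h1 : ζ ^ (m0 * s) = ζ ^ (s * m0 ^ 2) * δ ^ p := by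
      have h2 : g x = ζ ^ (m0 * s) * (g y) ^ p := by
        conv_lhs => rw [hxs]
        rw [map_mul, map_pow, map_pow, mE_spec hζ g, ← pow_mul]
      have h3 : x ^ (m0 ^ 2) = ζ ^ (s * m0 ^ 2) * (y ^ (m0 ^ 2)) ^ p := by
        conv_lhs => rw [hxs]
        rw [mul_pow, ← pow_mul, ← pow_mul, ← pow_mul, mul_comm p]
      rw [h2, h3] at hγ
      rw [hδ, div_pow, mul_pow, mul_div_assoc', eq_div_iff (pow_ne_zero _ hgy0), hγ]
      ring
    have hζ0 : ζ ≠ 0 := hζ.ne_zero hpp.ne_zero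
    have hδp : δ ^ p ≠ 1 := by
      intro h4
      rw [h4, mul_one] at h1
      have h5 : ζ ^ (((m0 * s : ℕ) : ℤ) - ((s * m0 ^ 2 : ℕ) : ℤ)) = 1 := by
        rw [zpow_sub₀ hζ0, zpow_natCast, zpow_natCast, h1, div_self (pow_ne_zero _ hζ0)]
      have h6 := (ZMod.intCast_zmod_eq_zero_iff_dvd _ p).mpr ((hζ.zpow_eq_one_iff_dvd _).mp h5)
      push_cast at h6
      have h7 : (s : ZMod p) * (m0 : ZMod p) * (1 - (m0 : ZMod p)) = 0 := by
        linear_combination h6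
      have hs0 : (s : ZMod p) ≠ 0 := by
        rw [Ne, ZMod.natCast_eq_zero_iff]
        exact hps
      rcases mul_eq_zero.mp h7 with h8 | h8
      · rcases mul_eq_zero.mp h8 with h9 | h9
        · exact hs0 h9
        · exact hm0a h9
      · exact hm0b (sub_eq_zero.mp h8).symm
    have hδpp : δ ^ (p ^ 2) = 1 := by
      have h4 := congrArg (fun u => u ^ p) h1
      simp only [mul_pow] at h4
      rw [← pow_mul, ← pow_mul, mul_comm _ p, mul_comm _ p, pow_mul, pow_mul ζ p, hζ.pow_eq_one, one_pow,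
        one_pow, one_mul, ← pow_mul, ← sq] at h4
      exact h4.symm
    have hord : orderOf δ = p ^ 2 := by
      obtain ⟨k, hk, hk2⟩ := (Nat.dvd_prime_pow hpp).mp (orderOf_dvd_of_pow_eq_one hδpp)
      have : k = 2 := by
        by_contra hne
        have hk1 : k ≤ 1 := by omega
        apply hδp
        have : orderOf δ ∣ p := by
          rw [hk2]
          calc p ^ k ∣ p ^ 1 := pow_dvd_pow p hk1
            _ = p := pow_one p
        exact orderOf_dvd_iff_pow_eq_one.mp this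
      rw [hk2, this]
    have hprim : IsPrimitiveRoot δ (p ^ 2) := hord ▸ IsPrimitiveRoot.orderOf δ
    have : NeZero (p ^ 2) := ⟨pow_ne_zero _ hpp.ne_zero⟩
    have hdvd := dvd_torsionOrder_of_isPrimitiveRoot hprim
    rw [htor, sq] at hdvd
    have h6 : p ∣ 2 := Nat.dvd_of_mul_dvd_mul_right hpp.pos hdvd
    have := Nat.le_of_dvd (by norm_num) h6
    omega

theorem u1_eigen2_pow {x : K} (hx : Eigen2 hζ x) (k : ℕ) : Eigen2 hζ (x ^ k) := by
  induction k with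
  | zero =>
    rw [pow_zero]
    have := eigen2_pow_p hζ (1 : K)
    rwa [one_pow] at this
  | succ k ih => rw [pow_succ]; exact eigen2_mul hζ ih hx

/-- common final step: `ε = a θ^p ξ`, `ξ` torsion. -/
theorem u1_final (hp5 : 5 ≤ p) (ho : orderOf g = p - 1) (ε a θ : (𝓞 K)ˣ)
    (hε : Eigen2 hζ ((ε : 𝓞 K) : K)) (ha : Eigen2 hζ ((a : 𝓞 K) : K))
    (h : cls ε = cls a + p • cls θ) :
    ∃ θ' : K, ((ε : 𝓞 K) : K) = ((a : 𝓞 K) : K) * θ' ^ p := by
  set ξ : (𝓞 K)ˣ := ε * (a * θ ^ p)⁻¹ with hξdef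
  have hξ : ξ ∈ torsion K := by
    rw [← cls_eq_zero_iff, hξdef, cls_mul, cls_inv, cls_mul, cls_pow, h]
    abel
  have hcoe : ((ξ : 𝓞 K) : K) = ((ε : 𝓞 K) : K) * (((a : 𝓞 K) : K) * ((θ : 𝓞 K) : K) ^ p)⁻¹ := by
    have h1 : ξ * (a * θ ^ p) = ε := by rw [hξdef]; group
    have h2 := congrArg (fun u : (𝓞 K)ˣ => ((u : 𝓞 K) : K)) h1
    simp only [Units.val_mul, Units.val_pow_eq_pow_val, map_mul, map_pow] at h2
    rw [← h2, mul_inv_cancel_right₀]
    simp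
  have hE : Eigen2 hζ ((ξ : 𝓞 K) : K) := by
    rw [hcoe]
    exact eigen2_mul hζ hε (eigen2_inv hζ (eigen2_mul hζ ha (eigen2_pow_p hζ _)))
  obtain ⟨θ', hθ'⟩ := u1_torsion_case (p := p) hζ hp5 ho ξ hξ hE
  refine ⟨θ' * ((θ : 𝓞 K) : K), ?_⟩
  rw [mul_pow, ← hθ', hcoe]
  have h1 : ((a : 𝓞 K) : K) ≠ 0 := by simp
  have h2 : ((θ : 𝓞 K) : K) ^ p ≠ 0 := by simp
  field_simp

end cyc

end
end Fermat.Agent.S14.U1


namespace Fermat.Agent.S14

open NumberField U1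

theorem eigen2_units_dim_le_one {p : ℕ} [Fact p.Prime] (hp5 : 5 ≤ p) {K : Type*} [Field K]
    [NumberField K] [IsCyclotomicExtension {p} ℚ K] {ζ : K} (hζ : IsPrimitiveRoot ζ p)
    (ε₁ ε₂ : (𝓞 K)ˣ) (h₁ : Eigen2 hζ ((ε₁ : 𝓞 K) : K)) (h₂ : Eigen2 hζ ((ε₂ : 𝓞 K) : K))
    (hn : ¬ ∃ θ : K, ((ε₁ : 𝓞 K) : K) = θ ^ p) :
    ∃ (k : ℕ) (θ : K), ((ε₂ : 𝓞 K) : K) = ((ε₁ : 𝓞 K) : K) ^ k * θ ^ p := by
  obtain ⟨g, hg, ho⟩ := u1_exists_gen (p := p) (K := K)
  obtain ⟨y₁, hy₁⟩ := u1_TT_of_eigen2 hζ g ε₁ h₁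
  obtain ⟨y₂, hy₂⟩ := u1_TT_of_eigen2 hζ g ε₂ h₂
  have hone : Eigen2 hζ (((1 : (𝓞 K)ˣ) : 𝓞 K) : K) := by
    have := eigen2_pow_p hζ (1 : K)
    rw [one_pow] at this
    simpa using this
  have hx₁ : ¬ ∃ y, cls ε₁ = p • y := by
    rintro ⟨y, hy⟩
    obtain ⟨θ, rfl⟩ := cls_surjective y
    obtain ⟨θ', hθ'⟩ := u1_final (p := p) hζ hp5 ho ε₁ 1 θ h₁ hone (by rw [cls_one, zero_add, hy])
    apply hn
    refine ⟨θ', ?_⟩
    rw [hθ']
    simp
  obtain ⟨k, y, hky⟩ := u1_exists_smul (p := p) hp5 hg ho _ _ _ _ _ hy₁ hy₂ hx₁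
  obtain ⟨θ, rfl⟩ := cls_surjective y
  obtain ⟨θ', hθ'⟩ := u1_final (p := p) hζ hp5 ho ε₂ (ε₁ ^ k) θ h₂
    (by
      have := u1_eigen2_pow hζ h₁ k
      simpa using this)
    (by rw [cls_pow, hky])
  refine ⟨k, θ', ?_⟩
  rw [hθ']
  simp

end Fermat.Agent.S14
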