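import Mathlib

/-!
# S14 piece U1-B: a Minkowski unit for `ℚ(ζ_p)`

`exists_minkowski_unit`: there is a unit `u` whose conjugates `g₀^i u`, `i < (p-1)/2 - 1`, are multiplicatively
independent modulo torsion (`g₀` a generator of the Galois group).  Proof: `u` from Mathlib's
`dirichletUnitTheorem.exists_unit`, `∑_σ log w₁(σ u) = 0` (norm `±1`), strict diagonal dominance by hand
(`U1B.abstract_indep`).
-/

set_option autoImplicit false

namespace Fermat.Agent.S14

namespace U1B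

open Finset

/-- abstract strict diagonal dominance for a cyclic group of order `2 m`. -/
theorem abstract_indep {G : Type*} [Group G] [Fintype G] (g₀ : G) (hg₀ : ∀ σ : G, σ ∈ Subgroup.zpowers g₀)
    (m : ℕ) (hm : orderOf g₀ = 2 * m) (lam : G → ℝ) (hneg : ∀ σ : G, σ ^ 2 ≠ 1 → lam σ < 0)
    (hsum : ∑ σ : G, lam σ = 0) (n : ℕ → ℤ)
    (h : ∀ τ : G, ∑ i ∈ range (m - 1), (n i : ℝ) * lam (τ * g₀ ^ i) = 0) :
    ∀ i < m - 1, n i = 0 := by
  classical
  by_contra hcon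
  push Not at hcon
  obtain ⟨i1, hi1, hni1⟩ := hcon
  obtain ⟨i0, hi0, hmax⟩ := Finset.exists_max_image (range (m - 1)) (fun i => |n i|)
    ⟨i1, mem_range.mpr hi1⟩
  rw [mem_range] at hi0
  have hN : 0 < |n i0| := lt_of_lt_of_le (abs_pos.mpr hni1) (hmax i1 (mem_range.mpr hi1))
  set τ₀ : G := (g₀ ^ i0)⁻¹ with hτ₀
  set a : ℕ → ℝ := fun i => lam (τ₀ * g₀ ^ i) + lam (τ₀ * g₀ ^ (i + m)) with ha
  -- (1)
  have h1 : ∑ i ∈ range (m - 1), (n i : ℝ) * a i = 0 := by
    have e1 := h τ₀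
    have e2 := h (τ₀ * g₀ ^ m)
    simp only [ha, mul_add, sum_add_distrib]
    rw [e1, zero_add, ← e2]
    refine sum_congr rfl fun i _ => ?_
    rw [mul_assoc, ← pow_add, add_comm m i]
  -- (2)
  have h2 : ∑ i ∈ range m, a i = 0 := by
    have e : ∑ i ∈ range (2 * m), lam (τ₀ * g₀ ^ i) = 0 := by
      rw [← hsum, ← Equiv.sum_comp (Equiv.mulLeft τ₀) lam, ← IsCyclic.image_range_orderOf hg₀,
        sum_image, hm]
      · rfl
      · intro x hx y hy hxy
        exact pow_injOn_Iio_orderOf (by simpa using hx) (by simpa using hy) hxy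
    rw [two_mul, sum_range_add] at e
    simp only [ha, sum_add_distrib]
    rw [← e]
    congr 1
    refine sum_congr rfl fun i _ => ?_
    rw [add_comm]
  -- (3)
  have h3 : ∀ i < m, i ≠ i0 → a i < 0 := by
    intro i hi hne
    have key : ∀ j : ℕ, (τ₀ * g₀ ^ (i + j * m)) ^ 2 ≠ 1 := by
      intro j hj
      apply hne
      have hc : Commute τ₀ (g₀ ^ (i + j * m)) :=
        ((Commute.refl g₀).pow_pow i0 (i + j * m)).inv_left
      rw [hc.mul_pow, hτ₀, inv_pow, inv_mul_eq_one, ← pow_mul, ← pow_mul] at hj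
      have : g₀ ^ (i0 * 2) = g₀ ^ (i * 2) := by
        rw [hj, add_mul, pow_add]
        have : j * m * 2 = orderOf g₀ * j := by rw [hm]; ring
        rw [this, pow_mul g₀ (orderOf g₀) j, pow_orderOf_eq_one, one_pow, mul_one]
      have := pow_injOn_Iio_orderOf (x := g₀) (show i0 * 2 ∈ Set.Iio (orderOf g₀) by
        rw [hm, Set.mem_Iio]; omega) (show i * 2 ∈ Set.Iio (orderOf g₀) by
        rw [hm, Set.mem_Iio]; omega) this
      omega
    have k0 := hneg _ (key 0)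
    have k1 := hneg _ (key 1)
    simp only [zero_mul, add_zero, one_mul] at k0 k1
    simp only [ha]
    linarith
  -- conclusion
  obtain ⟨ε, hε, hεn⟩ : ∃ ε : ℝ, (ε = 1 ∨ ε = -1) ∧ ε * (n i0 : ℝ) = |(n i0 : ℝ)| := by
    rcases abs_choice (n i0 : ℝ) with h | h
    · exact ⟨1, Or.inl rfl, by rw [h, one_mul]⟩
    · exact ⟨-1, Or.inr rfl, by rw [h]; ring⟩
  have hm1 : m - 1 + 1 = m := by omega
  rw [← hm1, sum_range_succ] at h2
  have hlast : a (m - 1) < 0 := h3 (m - 1) (by omega) (by omega)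
  have hNR : (0 : ℝ) < |(n i0 : ℝ)| := by exact_mod_cast hN
  have hpos : 0 ≤ ∑ i ∈ range (m - 1), (ε * (n i : ℝ) - |(n i0 : ℝ)|) * a i := by
    refine sum_nonneg fun i hi => ?_
    by_cases hii : i = i0
    · rw [hii, hεn, sub_self, zero_mul]
    · have hai : a i < 0 := h3 i (by rw [mem_range] at hi; omega) hii
      have hle : ε * (n i : ℝ) ≤ |(n i0 : ℝ)| := by
        have h1 : |(n i : ℝ)| ≤ |(n i0 : ℝ)| := by exact_mod_cast hmax i hi
        rcases hε with rfl | rfl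
        · rw [one_mul]; exact (le_abs_self _).trans h1
        · rw [neg_one_mul]; exact (neg_le_abs _).trans h1
      exact mul_nonneg_of_nonpos_of_nonpos (by linarith) hai.le
  have hexp : ∑ i ∈ range (m - 1), (ε * (n i : ℝ) - |(n i0 : ℝ)|) * a i
      = ε * ∑ i ∈ range (m - 1), (n i : ℝ) * a i - |(n i0 : ℝ)| * ∑ i ∈ range (m - 1), a i := by
    rw [mul_sum, mul_sum, ← sum_sub_distrib]
    refine sum_congr rfl fun i _ => by ring
  rw [hexp, h1, mul_zero, zero_sub] at hpos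
  have : ∑ i ∈ range (m - 1), a i = - a (m - 1) := by linarith
  rw [this] at hpos
  nlinarith

end U1B

open NumberField Finset in
/-- **U1-B** (Minkowski unit for `ℚ(ζ_p)`), analytic form. -/
theorem exists_minkowski_unit {p : ℕ} [Fact p.Prime] (hp5 : 5 ≤ p) {K : Type*} [Field K]
    [NumberField K] [IsCyclotomicExtension {p} ℚ K] (g₀ : K ≃ₐ[ℚ] K)
    (hg₀ : ∀ σ : K ≃ₐ[ℚ] K, σ ∈ Subgroup.zpowers g₀) :
    ∃ u : (𝓞 K)ˣ, ∀ n : ℕ → ℤ,
      (∀ w : InfinitePlace K, ∑ i ∈ Finset.range ((p - 1) / 2 - 1),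
        (n i : ℝ) * Real.log (w ((g₀ ^ i) ((u : 𝓞 K) : K))) = 0) →
      ∀ i < (p - 1) / 2 - 1, n i = 0 := by
  classical
  have hp : p.Prime := Fact.out
  have : IsGalois ℚ K := IsCyclotomicExtension.isGalois {p} ℚ K
  obtain ⟨w₁⟩ : Nonempty (InfinitePlace K) := inferInstance
  obtain ⟨u, hu⟩ := NumberField.Units.dirichletUnitTheorem.exists_unit K w₁
  refine ⟨u, fun n hn => ?_⟩
  have hodd : p % 2 = 1 := by
    rcases hp.eq_two_or_odd with h | h
    · omega
    · exact h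
  have hord : orderOf g₀ = 2 * ((p - 1) / 2) := by
    rw [orderOf_eq_card_of_forall_mem_zpowers hg₀, IsGalois.card_aut_eq_finrank,
      IsCyclotomicExtension.finrank K (Polynomial.cyclotomic.irreducible_rat hp.pos),
      Nat.totient_prime hp]
    omega
  have happ : ∀ (σ : K ≃ₐ[ℚ] K) (x : K), w₁ (σ x) = (σ⁻¹ • w₁) x := by
    intro σ x
    rw [InfinitePlace.smul_apply]
    rfl
  refine U1B.abstract_indep g₀ hg₀ ((p - 1) / 2) hord
    (fun σ => Real.log (w₁ (σ ((u : 𝓞 K) : K)))) ?_ ?_ n ?_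
  · intro σ hσ
    rw [happ]
    apply hu
    intro hst
    apply hσ
    have hmem : σ⁻¹ ∈ MulAction.stabilizer (K ≃ₐ[ℚ] K) w₁ := hst
    have h1 : (⟨σ⁻¹, hmem⟩ : MulAction.stabilizer (K ≃ₐ[ℚ] K) w₁) ^
        Nat.card (MulAction.stabilizer (K ≃ₐ[ℚ] K) w₁) = 1 := pow_card_eq_one'
    have h2 : (σ⁻¹) ^ Nat.card (MulAction.stabilizer (K ≃ₐ[ℚ] K) w₁) = 1 :=
      congrArg Subtype.val h1
    rcases InfinitePlace.nat_card_stabilizer_eq_one_or_two ℚ w₁ with e | e
    · rw [e, pow_one, inv_eq_one] at h2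
      rw [h2, one_pow]
    · rw [e, inv_pow, inv_eq_one] at h2
      exact h2
  · rw [← Real.log_prod (fun σ _ => ?_), ← map_prod, ← Algebra.norm_eq_prod_automorphisms]
    · have h1 := NumberField.Units.norm K u
      have h2 : w₁ (algebraMap ℚ K (Algebra.norm ℚ ((u : 𝓞 K) : K)))
          = |(Algebra.norm ℚ ((u : 𝓞 K) : K) : ℝ)| := by
        rw [← InfinitePlace.norm_embedding_eq, eq_ratCast, map_ratCast, Complex.norm_ratCast]
      rw [h2]
      have : |(Algebra.norm ℚ ((u : 𝓞 K) : K) : ℝ)| = 1 := by exact_mod_cast h1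
      rw [this, Real.log_one]
    · rw [ne_eq, map_eq_zero, map_eq_zero]
      exact_mod_cast u.ne_zero
  · intro τ
    have := hn (τ⁻¹ • w₁)
    simp only [← happ] at this
    exact this

open NumberField Finset in
/-- **U1-B**, multiplicative form. -/
theorem exists_minkowski_unit' {p : ℕ} [Fact p.Prime] (hp5 : 5 ≤ p) {K : Type*} [Field K]
    [NumberField K] [IsCyclotomicExtension {p} ℚ K] (g₀ : K ≃ₐ[ℚ] K)
    (hg₀ : ∀ σ : K ≃ₐ[ℚ] K, σ ∈ Subgroup.zpowers g₀) :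
    ∃ u : (𝓞 K)ˣ, ∀ n : ℕ → ℤ,
      (∃ N : ℕ, 0 < N ∧ (∏ i ∈ Finset.range ((p - 1) / 2 - 1),
        ((g₀ ^ i) ((u : 𝓞 K) : K)) ^ (n i)) ^ N = 1) →
      ∀ i < (p - 1) / 2 - 1, n i = 0 := by
  obtain ⟨u, hu⟩ := exists_minkowski_unit hp5 g₀ hg₀
  refine ⟨u, fun n ⟨N, hN, h⟩ => hu n fun w => ?_⟩
  have hne : ∀ i : ℕ, w ((g₀ ^ i) ((u : 𝓞 K) : K)) ≠ 0 := by
    intro i
    rw [ne_eq, map_eq_zero, map_eq_zero]
    exact_mod_cast u.ne_zero
  have h1 := congrArg (fun x => Real.log (w x)) h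
  simp only [map_pow, map_prod, map_zpow₀, map_one, Real.log_one, Real.log_pow] at h1
  rw [Real.log_prod (fun i _ => zpow_ne_zero _ (hne i))] at h1
  simp only [Real.log_zpow] at h1
  have hN' : (N : ℝ) ≠ 0 := by exact_mod_cast hN.ne'
  exact (mul_eq_zero.mp h1).resolve_left hN'

end Fermat.Agent.S14
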