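import Fermat.Agent.S14.E2

/-!
# S14 piece U1, step (c)/(v): the torsion part

`ε = ξ θ^p` with `ξ` a root of unity and `Eigen2 ε` implies that `ε` is a `p`-th power.
Also: surjectivity of `σ ↦ m_σ`.
-/

set_option autoImplicit false

namespace Fermat.Agent.S14

open NumberField

variable {p : ℕ} [Fact p.Prime] {K : Type*} [Field K] [NumberField K]
  [IsCyclotomicExtension {p} ℚ K] {ζ : K} (hζ : IsPrimitiveRoot ζ p)

theorem card_gal_eq : Fintype.card (K ≃ₐ[ℚ] K) = p - 1 := by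
  have hp : p.Prime := Fact.out
  have : IsGalois ℚ K := IsCyclotomicExtension.isGalois {p} ℚ K
  rw [← Nat.card_eq_fintype_card, IsGalois.card_aut_eq_finrank,
    IsCyclotomicExtension.finrank K (Polynomial.cyclotomic.irreducible_rat hp.pos),
    Nat.totient_prime hp]

theorem autToPow_bijective : Function.Bijective (hζ.autToPow ℚ) :=
  (Fintype.bijective_iff_injective_and_card _).mpr
    ⟨hζ.autToPow_injective ℚ, (card_gal_eq (p := p) (K := K)).trans (ZMod.card_units p).symm⟩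

/-- every unit of `ZMod p` is `m_σ` for some `σ`. -/
theorem exists_mE_eq (a : (ZMod p)ˣ) : ∃ σ : K ≃ₐ[ℚ] K, (mE hζ σ : ZMod p) = (a : ZMod p) := by
  obtain ⟨σ, hσ⟩ := (autToPow_bijective hζ).2 a
  exact ⟨σ, by rw [mE_cast, hσ]⟩

/-- `Eigen2 (ζ^r)` forces `ζ^r = 1`. -/
theorem zeta_pow_eq_one_of_eigen2 (hp5 : 5 ≤ p) {r : ℕ} (h : Eigen2 hζ (ζ ^ r)) : ζ ^ r = 1 := by
  have hp : p.Prime := Fact.out
  have hodd : Odd p := hp.odd_of_ne_two (by omega)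
  have h2 : (2 : ZMod p) ≠ 0 := by
    intro h0
    have h1 : ((2 : ℕ) : ZMod p) = 0 := by exact_mod_cast h0
    rw [ZMod.natCast_eq_zero_iff] at h1
    have := Nat.le_of_dvd (by norm_num) h1
    omega
  obtain ⟨σ, hσ⟩ := exists_mE_eq hζ (Units.mk0 (2 : ZMod p) h2)
  rw [Units.val_mk0] at hσ
  obtain ⟨γ, hγ⟩ := h σ
  rw [map_pow, mE_spec hζ σ, ← pow_mul, ← pow_mul] at hγ
  have hζ0 : ζ ≠ 0 := hζ.ne_zero hp.ne_zero
  -- `γ` has finite order
  have hγfin : IsOfFinOrder γ := by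
    rw [isOfFinOrder_iff_pow_eq_one]
    refine ⟨p * p, Nat.mul_pos hp.pos hp.pos, ?_⟩
    have h3 := congrArg (· ^ p) hγ
    simp only [mul_pow] at h3
    rw [← pow_mul, ← pow_mul, mul_comm _ p, mul_comm _ p, pow_mul, pow_mul ζ p, hζ.pow_eq_one,
      one_pow, one_pow, one_mul, ← pow_mul] at h3
    exact h3.symm
  obtain ⟨s, hs⟩ := hζ.exists_neg_pow_of_isOfFinOrder hodd hγfin
  have hγ2 : (γ ^ p) ^ 2 = 1 := by
    rw [hs, ← pow_mul, ← pow_mul, neg_pow]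
    have e1 : (-1 : K) ^ (s * (p * 2)) = 1 := by
      rw [show s * (p * 2) = 2 * (s * p) by ring, pow_mul, neg_one_sq, one_pow]
    have e2 : ζ ^ (s * (p * 2)) = 1 := by
      rw [show s * (p * 2) = p * (s * 2) by ring, pow_mul, hζ.pow_eq_one, one_pow]
    rw [e1, e2, one_mul]
  have h4 := congrArg (· ^ 2) hγ
  simp only [mul_pow] at h4
  have hfin : IsOfFinOrder ζ := isOfFinOrder_iff_pow_eq_one.mpr ⟨p, hp.pos, hζ.pow_eq_one⟩
  rw [hγ2, mul_one, ← pow_mul, ← pow_mul, hfin.pow_eq_pow_iff_modEq, ← hζ.eq_orderOf,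
    ← ZMod.natCast_eq_natCast_iff] at h4
  push_cast at h4
  rw [hσ] at h4
  have h5 : (r : ZMod p) * 4 = 0 := by linear_combination -h4
  have h6 : (4 : ZMod p) ≠ 0 := by
    have : (4 : ZMod p) = 2 * 2 := by norm_num
    rw [this]
    exact mul_ne_zero h2 h2
  have h7 : (r : ZMod p) = 0 := (mul_eq_zero.mp h5).resolve_right h6
  rw [ZMod.natCast_eq_zero_iff] at h7
  exact (hζ.pow_eq_one_iff_dvd r).mpr h7

/-- step (c)/(v) of U1. -/
theorem isPow_of_eigen2_of_torsion (hp5 : 5 ≤ p) {ε ξ θ : K} (h : Eigen2 hζ ε)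
    (hξ : IsOfFinOrder ξ) (hε : ε = ξ * θ ^ p) : ∃ θ' : K, ε = θ' ^ p := by
  have hp : p.Prime := Fact.out
  have hodd : Odd p := hp.odd_of_ne_two (by omega)
  by_cases hθ : θ = 0
  · exact ⟨0, by rw [hε, hθ, zero_pow hp.ne_zero, mul_zero]⟩
  obtain ⟨r, hr⟩ := hζ.exists_neg_pow_of_isOfFinOrder hodd hξ
  have h1 : ((-1 : K) ^ r) ^ p = (-1) ^ r := by
    rw [← pow_mul, mul_comm, pow_mul, hodd.neg_one_pow]
  have h2 : ε = ζ ^ r * ((-1) ^ r * θ) ^ p := by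
    rw [hε, hr, neg_pow, mul_pow, h1]
    ring
  have h0 : ((-1 : K) ^ r * θ) ^ p ≠ 0 :=
    pow_ne_zero _ (mul_ne_zero (pow_ne_zero _ (by norm_num)) hθ)
  have h3 : ζ ^ r = ε * (((-1) ^ r * θ) ^ p)⁻¹ := by
    rw [h2, mul_assoc, mul_inv_cancel₀ h0, mul_one]
  have h4 : Eigen2 hζ (ζ ^ r) := by
    rw [h3]
    exact eigen2_mul hζ h (eigen2_inv hζ (eigen2_pow_p hζ _))
  refine ⟨(-1) ^ r * θ, ?_⟩
  rw [h2, zeta_pow_eq_one_of_eigen2 hζ hp5 h4, one_mul]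

end Fermat.Agent.S14
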